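import Mathlib
import Fermat.Agent.H27.Igusa.Defs

/-!
# P-IGUSA subtask IG-D2a (helper16): the Puiseux embedding `ρ_M`

`exists_rho`: there is a ring hom `ρ : k((t)) → AlgebraicClosure k((t))` with
`ρ (f(t^M)) = f(t)`, i.e. "`t ↦ t^{1/M}`".
-/

set_option autoImplicit false

noncomputable section

open HahnSeries ModularCurve

namespace Fermat.Agent.H16

variable (k : Type) [Field k] (M : ℕ) [NeZero M]

/-- the `r`-th section of a Laurent series: `n ↦ f.coeff (M * n + r)` -/
def sectionSeries (r : ℕ) (f : LaurentSeries k) : LaurentSeries k :=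
  HahnSeries.ofSuppBddBelow (fun n : ℤ => f.coeff ((M : ℤ) * n + r))
    ⟨min 0 (f.order - r), fun m hm => by
      by_contra hlt
      rw [not_le] at hlt
      apply hm
      apply HahnSeries.coeff_eq_zero_of_lt_order
      have hM : (1 : ℤ) ≤ M := by exact_mod_cast Nat.one_le_iff_ne_zero.mpr (NeZero.ne M)
      have h0 : m < 0 := lt_of_lt_of_le hlt (min_le_left _ _)
      have h1 : m < f.order - r := lt_of_lt_of_le hlt (min_le_right _ _)
      have : (M : ℤ) * m ≤ m := by nlinarith
      linarith⟩

@[simp] theorem sectionSeries_coeff (r : ℕ) (f : LaurentSeries k) (n : ℤ) :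
    (sectionSeries k M r f).coeff n = f.coeff ((M : ℤ) * n + r) := by
  rfl

theorem qExpand_coeff_eq (g : LaurentSeries k) (m : ℤ) :
    (qExpand k M g).coeff m = if (M : ℤ) ∣ m then g.coeff (m / M) else 0 := by
  split_ifs with h
  · obtain ⟨c, rfl⟩ := h
    have hM : (M : ℤ) ≠ 0 := by exact_mod_cast NeZero.ne M
    rw [qExpand_coeff_mul, Int.mul_ediv_cancel_left _ hM]
  · exact qExpand_coeff_of_not_dvd M g h

/-- decomposition `f = ∑_{r<M} t^r * (f_r)(t^M)` -/
theorem decomp (f : LaurentSeries k) :
    f = ∑ r ∈ Finset.range M,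
      HahnSeries.single (r : ℤ) (1 : k) * qExpand k M (sectionSeries k M r f) := by
  ext n
  rw [HahnSeries.coeff_sum]
  simp only [HahnSeries.coeff_single_mul, one_mul, qExpand_coeff_eq, sectionSeries_coeff]
  have hM : (0 : ℤ) < M := by exact_mod_cast Nat.pos_of_ne_zero (NeZero.ne M)
  have hr0 : (n % (M : ℤ)).toNat ∈ Finset.range M := by
    rw [Finset.mem_range]
    have h1 := Int.emod_lt_of_pos n hM
    have h2 := Int.emod_nonneg n hM.ne'
    omega
  rw [Finset.sum_eq_single_of_mem _ hr0]
  · have h2 := Int.emod_nonneg n hM.ne'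
    have hcast : (((n % (M : ℤ)).toNat : ℕ) : ℤ) = n % M := Int.toNat_of_nonneg h2
    rw [hcast]
    have hdvd : (M : ℤ) ∣ n - n % M := Int.dvd_self_sub_emod
    rw [if_pos hdvd]
    congr 1
    have := Int.ediv_mul_cancel hdvd
    linarith [Int.mul_ediv_cancel' hdvd]
  · intro r hr hne
    rw [Finset.mem_range] at hr
    rw [if_neg]
    intro hdvd
    apply hne
    have h3 : n % (M : ℤ) = r := by
      have hr' : (r : ℤ) < M := by exact_mod_cast hr
      have hr0' : (0 : ℤ) ≤ r := Int.natCast_nonneg r
      obtain ⟨c, hc⟩ := hdvd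
      have hn : n = r + M * c := by linarith
      rw [hn, Int.add_mul_emod_self_left]
      exact Int.emod_eq_of_lt hr0' hr'
    rw [h3]
    simp

/-- `k((t))` regarded as an algebra over itself through `f(t) ↦ f(t^M)` (type synonym to avoid
clashing with `Algebra.id`). -/
def LTwist (k : Type) [Field k] (_M : ℕ) : Type := LaurentSeries k

instance : Field (LTwist k M) := inferInstanceAs (Field (LaurentSeries k))

instance : Algebra (LaurentSeries k) (LTwist k M) :=
  RingHom.toAlgebra (show LaurentSeries k →+* LTwist k M from qExpand k M)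

theorem algebraMap_LTwist (g : LaurentSeries k) :
    algebraMap (LaurentSeries k) (LTwist k M) g = (qExpand k M g : LaurentSeries k) := rfl

/-- the identity ring isomorphism `k((t)) ≃ LTwist` -/
def toLTwist : LaurentSeries k ≃+* LTwist k M := RingEquiv.refl _

theorem isIntegral_t : IsIntegral (LaurentSeries k) (toLTwist k M (HahnSeries.single (1 : ℤ) (1 : k))) := by
  refine ⟨Polynomial.X ^ M - Polynomial.C (HahnSeries.single (1 : ℤ) (1 : k)),
    Polynomial.monic_X_pow_sub_C _ (NeZero.ne M), ?_⟩
  rw [Polynomial.eval₂_sub, Polynomial.eval₂_pow, Polynomial.eval₂_X, Polynomial.eval₂_C]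
  show (HahnSeries.single (1 : ℤ) (1 : k)) ^ M - qExpand k M (HahnSeries.single (1 : ℤ) (1 : k)) = 0
  rw [qExpand_single, HahnSeries.single_pow, one_pow, sub_eq_zero]
  simp

instance : Algebra.IsIntegral (LaurentSeries k) (LTwist k M) := by
  refine ⟨fun f => ?_⟩
  have hf : f = ∑ r ∈ Finset.range M,
      (toLTwist k M (HahnSeries.single (1 : ℤ) (1 : k))) ^ r *
        algebraMap (LaurentSeries k) (LTwist k M) (sectionSeries k M r f) := by
    have h := decomp k M f
    refine h.trans (Finset.sum_congr rfl fun r _ => ?_)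
    show _ = (HahnSeries.single (1 : ℤ) (1 : k)) ^ r * qExpand k M (sectionSeries k M r f)
    rw [HahnSeries.single_pow, one_pow]
    simp
  rw [hf]
  exact IsIntegral.sum _ fun r _ =>
    ((isIntegral_t k M).pow r).mul isIntegral_algebraMap

theorem exists_rho (k : Type) [Field k] (M : ℕ) [NeZero M] :
    ∃ ρ : LaurentSeries k →+* AlgebraicClosure (LaurentSeries k),
      ρ.comp (qExpand k M) = algebraMap (LaurentSeries k) (AlgebraicClosure (LaurentSeries k)) := by
  let φ : LTwist k M →ₐ[LaurentSeries k] AlgebraicClosure (LaurentSeries k) :=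
    IsAlgClosed.lift
  refine ⟨(φ : LTwist k M →+* AlgebraicClosure (LaurentSeries k)).comp
    (toLTwist k M : LaurentSeries k →+* LTwist k M), ?_⟩
  ext1 g
  exact φ.commutes g

end Fermat.Agent.H16
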