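/-
helper16 (P-ES foundations): characteristic-free basics for a function field `F/K` of one variable
over an algebraically closed field: the fundamental identity for separating elements and the
degree of principal divisors of separating elements.
Everything lives in namespace `Fermat.Agent.H16`.
-/
import Fermat.Agent.H29.ResidueConst
import Fermat.Agent.H29.PlaceDedekind

set_option autoImplicit false

noncomputable section

open AlgebraicCurve IntermediateField Polynomial IsDedekindDomain
open scoped IntermediateField.algebraAdjoinAdjoin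

namespace Fermat.Agent.H16

section exchange

variable {K F : Type*} [Field K] [Field F] [Algebra K F]

/-- Exchange, finite-dimensional form: if `F` is finite over `K(x)` it is finite over `K(z)` for
every transcendental `z`. -/
theorem ffb_finiteDimensional_of_transcendental (x : F) [FiniteDimensional K⟮x⟯ F]
    (z : F) (hz : Transcendental K z) : FiniteDimensional K⟮z⟯ F := by
  have : Algebra.IsAlgebraic K⟮z⟯ F :=
    Fermat.Agent.H29.isAlgebraic_adjoin_simple_of_transcendental (y := x) hz
  have e1 : Algebra.EssFiniteType K K⟮x⟯ :=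
    IntermediateField.essFiniteType_iff.2 ⟨{x}, by simp⟩
  have e3 : Algebra.EssFiniteType K F := Algebra.EssFiniteType.comp K K⟮x⟯ F
  have e4 : Algebra.EssFiniteType K⟮z⟯ F := Algebra.EssFiniteType.of_comp K K⟮z⟯ F
  exact Algebra.finite_of_essFiniteType_of_isAlgebraic

/-- Over an algebraically closed field, an algebraic element of an extension field is a
constant. -/
theorem ffb_exists_algebraMap_eq_of_isAlgebraic [IsAlgClosed K] {f : F} (hf : IsAlgebraic K f) :
    ∃ c : K, algebraMap K F c = f := by
  have : Algebra.IsAlgebraic K K⟮f⟯ := IntermediateField.isAlgebraic_adjoin_simple hf.isIntegral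
  have h := IntermediateField.eq_bot_of_isAlgClosed_of_isAlgebraic K⟮f⟯
  have hf' : f ∈ K⟮f⟯ := IntermediateField.mem_adjoin_simple_self K f
  rw [h] at hf'
  exact IntermediateField.mem_bot.1 hf'

theorem ffb_adjoin_simple_inv (f : F) : K⟮f⁻¹⟯ = K⟮f⟯ := by
  apply le_antisymm
  · rw [IntermediateField.adjoin_simple_le_iff]
    exact inv_mem (IntermediateField.mem_adjoin_simple_self K f)
  · rw [IntermediateField.adjoin_simple_le_iff]
    have := inv_mem (IntermediateField.mem_adjoin_simple_self K f⁻¹)
    rwa [inv_inv] at this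

end exchange

section count

variable {K F : Type*} [Field K] [Field F] [Algebra K F]

set_option maxHeartbeats 1600000 in
set_option synthInstance.maxHeartbeats 400000 in
/-- The fundamental identity `∑ e_v = [F : K(y)]` over the zeros of a separating element `y`,
in any characteristic. -/
theorem ffb_fundamentalIdentity_zeros [IsAlgClosed K] (y : F) (hy : Transcendental K y)
    [FiniteDimensional K⟮y⟯ F] [Algebra.IsSeparable K⟮y⟯ F] :
    {v : Place K F | 0 < v.ord y}.Finite ∧
    ∑ᶠ v ∈ {v : Place K F | 0 < v.ord y}, v.ord y = (Module.finrank K⟮y⟯ F : ℤ) := by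
  classical
  let A := Algebra.adjoin K {y}
  let yA : A := ⟨y, Algebra.self_mem_adjoin_singleton K y⟩
  let e : K[X] ≃ₐ[K] A := Polynomial.algEquivOfTranscendental K y hy
  have heX : e X = yA := Polynomial.algEquivOfTranscendental_apply_X K y hy
  have hPIR : IsPrincipalIdealRing A :=
    IsPrincipalIdealRing.of_surjective e.toRingEquiv.toRingHom e.surjective
  have hDA : IsDedekindDomain A := inferInstance
  have hy0 : y ≠ 0 := by
    intro h0
    apply hy
    rw [h0]
    exact isAlgebraic_zero
  have hyA0 : yA ≠ 0 := by
    intro h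
    exact hy0 (congrArg Subtype.val h)
  have hyAprime : Prime yA := by
    rw [← heX]
    exact (MulEquiv.prime_iff e.toMulEquiv).mpr Polynomial.prime_X
  let p : Ideal A := Ideal.span {yA}
  have hpprime : p.IsPrime := (Ideal.span_singleton_prime hyA0).mpr hyAprime
  have hp0 : p ≠ ⊥ := by
    simpa [p, Ideal.span_singleton_eq_bot] using hyA0
  have hpmax : p.IsMaximal := hpprime.isMaximal hp0
  let B := integralClosure A F
  have hDB : IsDedekindDomain B := integralClosure.isDedekindDomain A K⟮y⟯ F
  have hFB : IsFractionRing B F := integralClosure.isFractionRing_of_finite_extension K⟮y⟯ F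
  have hfin : Module.Finite A B := IsIntegralClosure.finite A K⟮y⟯ F B
  have htf : Module.IsTorsionFree A B := inferInstance
  have hKBF : IsScalarTower K B F := IsScalarTower.of_algebraMap_eq (fun c => rfl)
  have H := Ideal.sum_ramification_inertia B K⟮y⟯ F hp0
  let yB : B := algebraMap A B yA
  have hyB : algebraMap B F yB = y := rfl
  have hyB0 : yB ≠ 0 := by
    intro h
    apply hy0
    rw [← hyB, h, map_zero]
  have hmap : Ideal.map (algebraMap A B) p = Ideal.span {yB} := by
    simp only [p, Ideal.map_span, Set.image_singleton, yB]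
  have hmap0 : Ideal.map (algebraMap A B) p ≠ ⊥ := by
    rw [hmap]
    simpa [Ideal.span_singleton_eq_bot] using hyB0
  set T := IsDedekindDomain.primesOverFinset p B with hT
  have hTmem : ∀ P : Ideal B, P ∈ T ↔ P.IsPrime ∧ P.LiesOver p := fun P =>
    IsDedekindDomain.mem_primesOverFinset_iff hp0 B
  have hTne : ∀ P : Ideal B, P ∈ T → P ≠ ⊥ := by
    intro P hP
    have := ((hTmem P).mp hP).2
    exact Ideal.ne_bot_of_liesOver_of_ne_bot hp0 P
  have halg : Algebra.IsAlgebraic K⟮y⟯ F := inferInstance
  let φ : {P // P ∈ T} → Place K F := fun x =>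
    Place.ofHeightOneSpectrum (K := K) (F := F) (R := B)
      ⟨x.1, ((hTmem x.1).mp x.2).1, hTne x.1 x.2⟩
  have hφinj : Function.Injective φ := by
    intro x x' h
    have h1 := Fermat.Agent.H29.ofHeightOneSpectrum_injective (K := K) (F := F) (R := B) h
    apply Subtype.ext
    exact congrArg HeightOneSpectrum.asIdeal h1
  -- ramification index
  have hord : ∀ x : {P // P ∈ T}, (φ x).ord y = (Ideal.ramificationIdx' p x.1 : ℤ) := by
    intro x
    have hxprime := ((hTmem x.1).mp x.2).1
    rw [Ideal.IsDedekindDomain.ramificationIdx'_eq_multiplicity hmap0 hxprime, hmap]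
    show (Place.ofHeightOneSpectrum (K := K) (F := F) (R := B) _).ord y = _
    have hval : (HeightOneSpectrum.valuation F
        (⟨x.1, hxprime, hTne x.1 x.2⟩ : HeightOneSpectrum B)) y
          = (⟨x.1, hxprime, hTne x.1 x.2⟩ : HeightOneSpectrum B).intValuation yB :=
      HeightOneSpectrum.valuation_of_algebraMap _ yB
    rw [Fermat.Agent.H29.ord_ofHeightOneSpectrum, hval,
      HeightOneSpectrum.intValuation_eq_exp_neg_multiplicity _ hyB0]
    simp
  -- inertia degree
  have hinert : ∀ x : {P // P ∈ T}, Ideal.inertiaDeg' p x.1 = 1 := by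
    intro x
    have hxprime := ((hTmem x.1).mp x.2).1
    have hxover := ((hTmem x.1).mp x.2).2
    have hxmax : x.1.IsMaximal := hxprime.isMaximal (hTne x.1 x.2)
    rw [Ideal.inertiaDeg'_algebraMap]
    let _ := Ideal.Quotient.field p
    have hnt : (1 : B ⧸ x.1) ≠ 0 := by
      have := Ideal.Quotient.nontrivial_iff.mpr hxprime.ne_top
      exact one_ne_zero
    rw [finrank_eq_one_iff_of_nonzero' (1 : B ⧸ x.1) hnt]
    intro z
    obtain ⟨b, rfl⟩ := Ideal.Quotient.mk_surjective z
    have hbmem : algebraMap B F b ∈ (φ x).toValuationSubring := by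
      show (HeightOneSpectrum.valuation F _) _ ≤ 1
      exact HeightOneSpectrum.valuation_le_one _ b
    obtain ⟨c, hc⟩ := Fermat.Agent.H29.place_exists_const_sub (y := y) (φ x) hbmem
    have hsub : b - algebraMap K B c ∈ x.1 := by
      have := (Fermat.Agent.H29.ord_ofHeightOneSpectrum_pos_iff (K := K) (F := F) (R := B)
        ⟨x.1, hxprime, hTne x.1 x.2⟩ (b - algebraMap K B c)).mp
      apply this
      rcases hc with hc | hc
      · left
        apply IsFractionRing.injective B F
        rw [map_sub, map_zero, sub_eq_zero, hc]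
        rfl
      · right
        rw [map_sub]
        exact hc
    refine ⟨Ideal.Quotient.mk p (algebraMap K A c), ?_⟩
    rw [Algebra.smul_def, mul_one]
    have h1 : algebraMap (A ⧸ p) (B ⧸ x.1) (Ideal.Quotient.mk p (algebraMap K A c))
        = Ideal.Quotient.mk x.1 (algebraMap A B (algebraMap K A c)) := rfl
    rw [h1]
    symm
    rw [Ideal.Quotient.eq]
    exact hsub
  -- the range of φ
  have hrange : Set.range φ = {v : Place K F | 0 < v.ord y} := by
    ext v
    simp only [Set.mem_range, Set.mem_ofPred_eq]
    constructor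
    · rintro ⟨x, rfl⟩
      have hxprime := ((hTmem x.1).mp x.2).1
      have hxover := ((hTmem x.1).mp x.2).2
      have hmem : yB ∈ x.1 := by
        have h1 : yA ∈ p := Ideal.mem_span_singleton_self yA
        rw [hxover.over] at h1
        exact h1
      have := (Fermat.Agent.H29.ord_ofHeightOneSpectrum_pos_iff (K := K) (F := F) (R := B)
        ⟨x.1, hxprime, hTne x.1 x.2⟩ yB).mpr hmem
      rcases this with h | h
      · exact absurd h hyB0
      · exact h
    · intro hv
      have hyv : y ∈ v.toValuationSubring := Fermat.Agent.H29.place_mem_of_ord_nonneg v hv.le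
      have hAv : ∀ a : A, (a : F) ∈ v.toValuationSubring := by
        intro a
        have ha : (a : F) ∈ Algebra.adjoin K {y} := a.2
        rw [Algebra.adjoin_singleton_eq_range_aeval] at ha
        obtain ⟨q, hq⟩ := ha
        rw [← hq]
        show aeval y q ∈ _
        rw [Polynomial.aeval_eq_sum_range]
        refine sum_mem (fun i _ => ?_)
        rw [Algebra.smul_def]
        exact mul_mem (v.algebraMap_mem' _) (pow_mem hyv _)
      have hBv : ∀ b : B, algebraMap B F b ∈ v.toValuationSubring := by
        intro b
        let ψ : A →+* v.toValuationSubring :=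
          (algebraMap A F).codRestrict v.toValuationSubring.toSubring hAv
        let _ : Algebra A v.toValuationSubring := ψ.toAlgebra
        have : IsScalarTower A v.toValuationSubring F :=
          IsScalarTower.of_algebraMap_eq (fun a => rfl)
        have hb : IsIntegral A (algebraMap B F b) := b.2
        have hb' : IsIntegral v.toValuationSubring (algebraMap B F b) := hb.tower_top
        obtain ⟨a, ha⟩ := IsIntegrallyClosed.isIntegral_iff.mp hb'
        rw [← ha]
        exact a.2
      obtain ⟨w, hw⟩ := Fermat.Agent.H29.exists_heightOneSpectrum_of_le (K := K) (F := F)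
        (R := B) v hBv ⟨yB, hyB0, hv⟩
      have hyw : yB ∈ w.asIdeal := by
        apply (Fermat.Agent.H29.ord_ofHeightOneSpectrum_pos_iff (K := K) (F := F) (R := B)
          w yB).mp
        right
        rw [hw]
        exact hv
      have hwT : w.asIdeal ∈ T := by
        rw [hTmem]
        refine ⟨w.isPrime, ⟨?_⟩⟩
        apply hpmax.eq_of_le
        · intro htop
          have h1 : (1 : A) ∈ Ideal.under A w.asIdeal := by rw [htop]; trivial
          have h2 : (1 : B) ∈ w.asIdeal := by simpa [Ideal.under] using h1
          exact w.isPrime.ne_top ((Ideal.eq_top_iff_one _).mpr h2)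
        · rw [Ideal.span_le]
          intro a ha
          rw [Set.mem_singleton_iff] at ha
          subst ha
          exact hyw
      refine ⟨⟨w.asIdeal, hwT⟩, ?_⟩
      rw [← hw]
  refine ⟨hrange ▸ Set.finite_range φ, ?_⟩
  rw [← hrange, finsum_mem_range hφinj, finsum_eq_sum_of_fintype]
  simp_rw [hord]
  rw [← H, Finset.sum_coe_sort T (fun P => (Ideal.ramificationIdx' p P : ℤ))]
  push_cast
  refine Finset.sum_congr rfl (fun P hP => ?_)
  rw [hinert ⟨P, hP⟩]
  simp

end count

section principal

variable {K F : Type*} [Field K] [Field F] [Algebra K F]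

/-- Degree of a divisor when all places have degree one. -/
theorem ffb_degree_eq_sum (hdeg : ∀ v : Place K F, v.deg = 1) (D : Divisor K F) :
    Divisor.degree D = ∑ v ∈ D.support, D v := by
  simp only [Divisor.degree, Finsupp.liftAddHom_apply, Finsupp.sum, AddMonoidHom.mulRight_apply,
    hdeg, Nat.cast_one, mul_one]

/-- A function on places with finite support and total sum zero gives a divisor of degree
zero (all places of degree one). -/
theorem ffb_exists_divisor_of_sums (hdeg : ∀ v : Place K F, v.deg = 1) (o : Place K F → ℤ)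
    (hP : {v : Place K F | 0 < o v}.Finite) (hN : {v : Place K F | 0 < -o v}.Finite)
    (hsum : ∑ᶠ v ∈ {v : Place K F | 0 < o v}, o v = ∑ᶠ v ∈ {v : Place K F | 0 < -o v}, -o v) :
    ∃ D : Divisor K F, (∀ v : Place K F, D v = o v) ∧ Divisor.degree D = 0 := by
  classical
  have hsupp : (Function.support o).Finite := by
    refine (hP.union hN).subset ?_
    intro v hv
    simp only [Function.mem_support] at hv
    simp only [Set.mem_union, Set.mem_ofPred_eq]
    omega
  refine ⟨Finsupp.ofSupportFinite o hsupp, fun v => rfl, ?_⟩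
  set D : Divisor K F := Finsupp.ofSupportFinite o hsupp with hD
  have hDv : ∀ v, D v = o v := fun v => rfl
  rw [ffb_degree_eq_sum hdeg]
  have hpos : {v : Place K F | 0 < o v} = ↑(D.support.filter fun v => 0 < D v) := by
    ext v
    simp only [Set.mem_ofPred_eq, Finset.coe_filter, Finsupp.mem_support_iff, hDv v]
    constructor
    · intro h; exact ⟨by omega, h⟩
    · intro h; exact h.2
  have hneg : {v : Place K F | 0 < -o v} = ↑(D.support.filter fun v => D v < 0) := by
    ext v
    simp only [Set.mem_ofPred_eq, Finset.coe_filter, Finsupp.mem_support_iff, hDv v]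
    constructor
    · intro h; exact ⟨by omega, by omega⟩
    · intro h; omega
  rw [hpos, finsum_mem_coe_finset, hneg, finsum_mem_coe_finset] at hsum
  have hsplit : ∑ v ∈ D.support, D v =
      ∑ v ∈ D.support.filter (fun v => 0 < D v), D v +
        ∑ v ∈ D.support.filter (fun v => D v < 0), D v := by
    rw [← Finset.sum_filter_add_sum_filter_not D.support (fun v => 0 < D v)]
    congr 1
    refine Finset.sum_congr ?_ fun _ _ => rfl
    ext v
    simp only [Finset.mem_filter, Finsupp.mem_support_iff, not_lt]
    constructor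
    · rintro ⟨h1, h2⟩; exact ⟨h1, by omega⟩
    · rintro ⟨h1, h2⟩; exact ⟨h1, by omega⟩
  rw [hsplit]
  have e1 : ∑ v ∈ D.support.filter (fun v => 0 < D v), D v =
      ∑ v ∈ D.support.filter (fun v => 0 < D v), o v :=
    Finset.sum_congr rfl fun v _ => hDv v
  have e2 : ∑ v ∈ D.support.filter (fun v => D v < 0), D v =
      -∑ v ∈ D.support.filter (fun v => D v < 0), -o v := by
    rw [← Finset.sum_neg_distrib]
    refine Finset.sum_congr rfl fun v _ => ?_
    rw [neg_neg, hDv v]
  rw [e1, e2, hsum]
  ring

/-- The divisor of a separating element has degree zero. -/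
theorem ffb_exists_divisor_sep [IsAlgClosed K] (f : F) (hf : Transcendental K f)
    [FiniteDimensional K⟮f⟯ F] [Algebra.IsSeparable K⟮f⟯ F] :
    ∃ D : Divisor K F, (∀ v : Place K F, D v = v.ord f) ∧ Divisor.degree D = 0 := by
  have halg : Algebra.IsAlgebraic K⟮f⟯ F := inferInstance
  have hdeg : ∀ v : Place K F, v.deg = 1 := fun v =>
    Fermat.Agent.H29.place_deg_eq_one (y := f) v
  have hft' : Transcendental K f⁻¹ := by
    intro h
    apply hf
    have := h.inv
    rwa [inv_inv] at this
  have hinv : K⟮f⁻¹⟯ = K⟮f⟯ := ffb_adjoin_simple_inv f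
  obtain ⟨hfinP, hsumP⟩ := ffb_fundamentalIdentity_zeros f hf
  have key : {v : Place K F | 0 < v.ord f⁻¹}.Finite ∧
      ∑ᶠ v ∈ {v : Place K F | 0 < v.ord f⁻¹}, v.ord f⁻¹ = (Module.finrank K⟮f⟯ F : ℤ) := by
    have h1 : ∀ (E : IntermediateField K F), E = K⟮f⟯ → K⟮f⁻¹⟯ = E →
        {v : Place K F | 0 < v.ord f⁻¹}.Finite ∧
        ∑ᶠ v ∈ {v : Place K F | 0 < v.ord f⁻¹}, v.ord f⁻¹ = (Module.finrank E F : ℤ) := by
      intro E hE hE'
      subst hE'
      have : FiniteDimensional K⟮f⁻¹⟯ F := hE ▸ (inferInstance : FiniteDimensional K⟮f⟯ F)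
      have : Algebra.IsSeparable K⟮f⁻¹⟯ F := hE ▸ (inferInstance : Algebra.IsSeparable K⟮f⟯ F)
      exact ffb_fundamentalIdentity_zeros f⁻¹ hft'
    exact h1 K⟮f⟯ rfl hinv
  obtain ⟨hfinN, hsumN⟩ := key
  refine ffb_exists_divisor_of_sums hdeg (fun v => v.ord f) hfinP ?_ ?_
  · simpa only [Place.ord_inv] using hfinN
  · simp only [Place.ord_inv] at hsumN
    rw [hsumP, hsumN]

end principal

end Fermat.Agent.H16
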