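/-
helper16 (P-ES foundations): field theory of inseparability for function fields of one variable
(Mathlib only).  In characteristic `p`, over a perfect constant field and in the presence of a
separating element, an element which is not a `p`-th power is separating.
Everything lives in namespace `Fermat.Agent.H16`.
-/
import Mathlib

set_option autoImplicit false

open IntermediateField Polynomial

namespace Fermat.Agent.H16

section criterion

variable {E F : Type*} [Field E] [Field F] [Algebra E F]

/-- Separability criterion: a finite extension `F/E` of exponential characteristic `q` with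
`F = E · F^q` is separable. -/
theorem ffb_isSeparable_of_span_pow [FiniteDimensional E F] (q : ℕ) [ExpChar E q]
    (h : Submodule.span E (Set.range (fun a : F => a ^ q)) = ⊤) : Algebra.IsSeparable E F := by
  have hF : ExpChar F q := expChar_of_injective_algebraMap (algebraMap E F).injective q
  let Es := separableClosure E F
  have hEs : ExpChar Es q := expChar_of_injective_algebraMap (algebraMap E Es).injective q
  have hpi : IsPurelyInseparable Es F := separableClosure.isPurelyInseparable E F
  have hexp : IsPurelyInseparable.HasExponent Es F := inferInstance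
  set n := IsPurelyInseparable.exponent Es F with hn
  have hmem : ∀ a : F, a ^ q ^ n ∈ (algebraMap Es F).range :=
    fun a => IsPurelyInseparable.exponent_def' Es q a
  -- the key claim
  have claim : ∀ k : ℕ, Submodule.span Es (Set.range (fun a : F => a ^ q ^ k)) = ⊤ := by
    intro k
    induction k with
    | zero =>
      rw [eq_top_iff]
      intro a _
      exact Submodule.subset_span ⟨a, by simp⟩
    | succ k ih =>
      rw [eq_top_iff, ← ih, Submodule.span_le]
      rintro _ ⟨b, rfl⟩
      have hb : b ∈ Submodule.span E (Set.range (fun a : F => a ^ q)) := by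
        rw [h]; trivial
      show b ^ q ^ k ∈ Submodule.span Es (Set.range (fun a : F => a ^ q ^ (k + 1)))
      induction hb using Submodule.span_induction with
      | mem x hx =>
        obtain ⟨c, rfl⟩ := hx
        apply Submodule.subset_span
        refine ⟨c, ?_⟩
        show c ^ q ^ (k + 1) = (c ^ q) ^ q ^ k
        rw [← pow_mul, pow_succ, mul_comm]
      | zero =>
        rw [zero_pow (pow_ne_zero _ (expChar_ne_zero F q))]
        exact Submodule.zero_mem _
      | add x y _ _ hx hy =>
        rw [add_pow_expChar_pow]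
        exact Submodule.add_mem _ hx hy
      | smul e x _ hx =>
        rw [Algebra.smul_def, mul_pow]
        have : (algebraMap E F e) ^ q ^ k * x ^ q ^ k =
            (algebraMap E Es (e ^ q ^ k)) • (x ^ q ^ k) := by
          rw [Algebra.smul_def, map_pow]
          rfl
        rw [this]
        exact Submodule.smul_mem _ _ hx
  have htop : (separableClosure E F) = ⊤ := by
    rw [eq_top_iff]
    intro a _
    have ha : a ∈ Submodule.span Es (Set.range (fun a : F => a ^ q ^ n)) := by
      rw [claim n]; trivial
    have hle : Submodule.span Es (Set.range (fun a : F => a ^ q ^ n)) ≤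
        LinearMap.range (Algebra.linearMap Es F) := by
      rw [Submodule.span_le]
      rintro _ ⟨b, rfl⟩
      obtain ⟨c, hc⟩ := hmem b
      exact ⟨c, hc⟩
    obtain ⟨c, hc⟩ := hle ha
    rw [← hc]
    exact c.2
  exact (separableClosure.eq_top_iff E F).mp htop

end criterion

section pthPower

variable {K F : Type*} [Field K] [Field F] [Algebra K F]

/-- In a function field of one variable over a perfect field of characteristic `p` with a
separating element `x`, the field `F` is generated over `F^p` by `x`, and every element which is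
not a `p`-th power generates `F` over `F^p`; consequently `F = K(f) · F^p`. -/
theorem ffb_span_pow_of_not_pow [PerfectField K] (p : ℕ) [hp : Fact p.Prime] [CharP K p]
    (x : F) [FiniteDimensional K⟮x⟯ F] [Algebra.IsSeparable K⟮x⟯ F]
    (f : F) (hf : ∀ g : F, g ^ p ≠ f) :
    Submodule.span K⟮f⟯ (Set.range (fun a : F => a ^ p)) = ⊤ := by
  have hFp : CharP F p := charP_of_injective_algebraMap (algebraMap K F).injective p
  have hKx : ExpChar K⟮x⟯ p :=
    expChar_of_injective_algebraMap (algebraMap K K⟮x⟯).injective p
  let S : Subfield F := (frobenius F p).fieldRange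
  have hS : ∀ b : F, b ^ p ∈ S := fun b => ⟨b, rfl⟩
  have hSK : ∀ c : K, algebraMap K F c ∈ S := by
    intro c
    obtain ⟨c', hc'⟩ := surjective_frobenius K p c
    refine ⟨algebraMap K F c', ?_⟩
    rw [← hc']
    simp [frobenius_def]
  -- Step 1
  have h1 : Submodule.span K⟮x⟯ (Set.range (fun a : F => a ^ p)) = ⊤ := by
    have := Field.span_map_pow_expChar_pow_eq_top_of_isSeparable (F := K⟮x⟯) (E := F) p 1
      (v := (id : F → F)) (by simp)
    simpa using this
  -- Step 2
  let T : Subalgebra S F := Algebra.adjoin S {x}
  have hxT : x ∈ T := Algebra.self_mem_adjoin_singleton S x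
  have hST : ∀ s : F, s ∈ S → s ∈ T := fun s hs => by
    have : s = algebraMap S F ⟨s, hs⟩ := rfl
    rw [this]
    exact Subalgebra.algebraMap_mem T _
  have hpolyT : ∀ P : K[X], aeval x P ∈ T := by
    intro P
    rw [Polynomial.aeval_eq_sum_range]
    refine Subalgebra.sum_mem _ fun i _ => ?_
    rw [Algebra.smul_def]
    exact Subalgebra.mul_mem _ (hST _ (hSK _)) (Subalgebra.pow_mem _ hxT _)
  have hinvT : ∀ a : F, a ∈ T → a⁻¹ ∈ T := by
    intro a ha
    by_cases ha0 : a = 0
    · rw [ha0, inv_zero]; exact Subalgebra.zero_mem _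
    have : a⁻¹ = a ^ (p - 1) * (a⁻¹) ^ p := by
      have hp1 : p = (p - 1) + 1 := (Nat.succ_pred_eq_of_pos hp.out.pos).symm
      conv_rhs => rw [inv_pow]
      conv_rhs => enter [2, 1]; rw [hp1, pow_succ]
      field_simp
    rw [this]
    exact Subalgebra.mul_mem _ (Subalgebra.pow_mem _ ha _) (hST _ (hS _))
  have hKxT : ∀ r : F, r ∈ K⟮x⟯ → r ∈ T := by
    intro r hr
    obtain ⟨P, Q, rfl⟩ := (IntermediateField.mem_adjoin_simple_iff K r).mp hr
    rw [div_eq_mul_inv]
    exact Subalgebra.mul_mem _ (hpolyT P) (hinvT _ (hpolyT Q))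
  have hT : ∀ a : F, a ∈ T := by
    intro a
    have ha : a ∈ Submodule.span K⟮x⟯ (Set.range (fun a : F => a ^ p)) := by
      rw [h1]; trivial
    induction ha using Submodule.span_induction with
    | mem y hy =>
      obtain ⟨b, rfl⟩ := hy
      exact hST _ (hS b)
    | zero => exact Subalgebra.zero_mem _
    | add y z _ _ hy hz => exact Subalgebra.add_mem _ hy hz
    | smul r y _ hy =>
      rw [Algebra.smul_def]
      exact Subalgebra.mul_mem _ (hKxT _ r.2) hy
  -- `F = S(x)` has degree at most `p` over `S`
  have hxint : IsIntegral S x := by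
    refine ⟨X ^ p - C (⟨x ^ p, hS x⟩ : S), monic_X_pow_sub_C _ hp.out.ne_zero, ?_⟩
    rw [← Polynomial.aeval_def]
    simp only [map_sub, map_pow, aeval_X, aeval_C]
    exact sub_self _
  have hSx : S⟮x⟯ = ⊤ := by
    rw [eq_top_iff]
    intro a _
    have : a ∈ S⟮x⟯.toSubalgebra := by
      rw [IntermediateField.adjoin_simple_toSubalgebra_of_isAlgebraic hxint.isAlgebraic]
      exact hT a
    exact this
  have hfinSx : FiniteDimensional S S⟮x⟯ := IntermediateField.adjoin.finiteDimensional hxint
  have hfin : FiniteDimensional S F := by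
    have e : (S⟮x⟯) ≃ₗ[S] F := by
      rw [hSx]
      exact (IntermediateField.topEquiv (F := S) (E := F)).toLinearEquiv
    exact Module.Finite.equiv e
  have hrank : Module.finrank S F ≤ p := by
    have h2 : Module.finrank S S⟮x⟯ = Module.finrank S F := by
      rw [hSx, IntermediateField.finrank_top']
    rw [← h2, IntermediateField.adjoin.finrank hxint]
    have hdvd : minpoly S x ∣ X ^ p - C (⟨x ^ p, hS x⟩ : S) := by
      apply minpoly.dvd
      simp only [map_sub, map_pow, aeval_X, aeval_C]
      exact sub_self _
    have := Polynomial.natDegree_le_of_dvd hdvd (X_pow_sub_C_ne_zero hp.out.pos _)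
    rwa [natDegree_X_pow_sub_C] at this
  -- `f` has degree `p` over `S`
  have hirr : Irreducible (X ^ p - C (⟨f ^ p, hS f⟩ : S)) := by
    apply X_pow_sub_C_irreducible_of_prime hp.out
    intro b hb
    have hb' : (b : F) ^ p = f ^ p := congrArg Subtype.val hb
    have hbf : (b : F) = f := frobenius_inj F p hb'
    obtain ⟨g, hg⟩ := b.2
    apply hf g
    rw [← hbf, ← hg]
    rfl
  have hfint : IsIntegral S f := by
    refine ⟨X ^ p - C (⟨f ^ p, hS f⟩ : S), monic_X_pow_sub_C _ hp.out.ne_zero, ?_⟩
    rw [← Polynomial.aeval_def]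
    simp only [map_sub, map_pow, aeval_X, aeval_C]
    exact sub_self _
  have hmin : minpoly S f = X ^ p - C (⟨f ^ p, hS f⟩ : S) := by
    symm
    apply minpoly.eq_of_irreducible_of_monic hirr
    · simp only [map_sub, map_pow, aeval_X, aeval_C]
      exact sub_self _
    · exact monic_X_pow_sub_C _ hp.out.ne_zero
  have hSf : S⟮f⟯ = ⊤ := by
    apply IntermediateField.eq_of_le_of_finrank_le le_top
    rw [IntermediateField.finrank_top', IntermediateField.adjoin.finrank hfint, hmin,
      natDegree_X_pow_sub_C]
    exact hrank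
  -- conclusion
  rw [eq_top_iff]
  intro a _
  have ha : a ∈ S⟮f⟯.toSubalgebra := by
    show a ∈ S⟮f⟯
    rw [hSf]; trivial
  rw [IntermediateField.adjoin_simple_toSubalgebra_of_isAlgebraic hfint.isAlgebraic,
    Algebra.adjoin_singleton_eq_range_aeval] at ha
  obtain ⟨P, rfl⟩ := ha
  show aeval f P ∈ _
  rw [Polynomial.aeval_eq_sum_range]
  refine Submodule.sum_mem _ fun i _ => ?_
  obtain ⟨b, hb⟩ := (P.coeff i).2
  have : (P.coeff i) • f ^ i =
      (⟨f ^ i, pow_mem (IntermediateField.mem_adjoin_simple_self K f) i⟩ : K⟮f⟯) • (b ^ p) := by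
    rw [Algebra.smul_def, Algebra.smul_def, mul_comm]
    congr 1
    exact hb.symm
  rw [this]
  exact Submodule.smul_mem _ _ (Submodule.subset_span ⟨b, rfl⟩)

end pthPower

section separating

variable {K F : Type*} [Field K] [Field F] [Algebra K F]

/-- In characteristic `p`, over a perfect constant field and in the presence of a separating
element `x`, every element `f` such that `F/K(f)` is finite and which is not a `p`-th power is
separating. -/
theorem ffb_isSeparable_of_not_pow [PerfectField K] (p : ℕ) [hp : Fact p.Prime] [CharP K p]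
    (x : F) [FiniteDimensional K⟮x⟯ F] [Algebra.IsSeparable K⟮x⟯ F]
    (f : F) [FiniteDimensional K⟮f⟯ F] (hf : ∀ g : F, g ^ p ≠ f) :
    Algebra.IsSeparable K⟮f⟯ F := by
  have hKf : ExpChar K⟮f⟯ p :=
    expChar_of_injective_algebraMap (algebraMap K K⟮f⟯).injective p
  exact ffb_isSeparable_of_span_pow p (ffb_span_pow_of_not_pow p x f hf)

/-- A transcendental element is not a rational function of its `p`-th power. -/
theorem ffb_not_mem_adjoin_pow {g : F} (hg : Transcendental K g) {p : ℕ} (hp : 2 ≤ p) :
    g ∉ K⟮g ^ p⟯ := by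
  intro hmem
  obtain ⟨P, Q, hPQ⟩ := (IntermediateField.mem_adjoin_simple_iff K g).mp hmem
  have hg0 : g ≠ 0 := by
    rintro rfl
    exact hg isAlgebraic_zero
  have hQ0 : aeval (g ^ p) Q ≠ 0 := by
    intro h
    rw [h, div_zero] at hPQ
    exact hg0 hPQ
  have hQ : Q ≠ 0 := by
    rintro rfl
    simp at hQ0
  have h1 : g * aeval (g ^ p) Q = aeval (g ^ p) P := (eq_div_iff hQ0).mp hPQ
  have h2 : aeval g (X * expand K p Q - expand K p P) = 0 := by
    simp only [map_sub, map_mul, aeval_X, expand_aeval]
    rw [h1, sub_self]
  have h3 : X * expand K p Q - expand K p P = 0 := by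
    by_contra hne
    exact hg ⟨_, hne, h2⟩
  have h4 : X * expand K p Q = expand K p P := sub_eq_zero.mp h3
  have hp0 : 0 < p := by omega
  have hQe : expand K p Q ≠ 0 := by
    rwa [Ne, Polynomial.expand_eq_zero hp0]
  have h5 := congrArg Polynomial.natDegree h4
  rw [Polynomial.natDegree_X_mul hQe, Polynomial.natDegree_expand,
    Polynomial.natDegree_expand] at h5
  have h6 : p ∣ 1 := by
    have : (1 : ℕ) = P.natDegree * p - Q.natDegree * p := by omega
    rw [this]
    exact Nat.dvd_sub (Dvd.intro_left _ rfl) (Dvd.intro_left _ rfl)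
  have := Nat.le_of_dvd one_pos h6
  omega

/-- The degree of `F` over `K(g)` is smaller than over `K(g^p)`. -/
theorem ffb_finrank_adjoin_lt {g : F} (hg : Transcendental K g) {p : ℕ} (hp : 2 ≤ p)
    [FiniteDimensional K⟮g ^ p⟯ F] :
    Module.finrank K⟮g⟯ F < Module.finrank K⟮g ^ p⟯ F := by
  have hle : K⟮g ^ p⟯ ≤ K⟮g⟯ := by
    rw [IntermediateField.adjoin_simple_le_iff]
    exact pow_mem (IntermediateField.mem_adjoin_simple_self K g) p
  by_contra hcon
  rw [not_lt] at hcon
  have heq := IntermediateField.eq_of_le_of_finrank_le' hle hcon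
  apply ffb_not_mem_adjoin_pow hg hp
  rw [heq]
  exact IntermediateField.mem_adjoin_simple_self K g

end separating

end Fermat.Agent.H16
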