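/-
helper16 (P-ES foundations): principal divisors of a function field of one variable over an
algebraically closed field of ARBITRARY characteristic have degree zero.
Everything lives in namespace `Fermat.Agent.H16`.
-/
import Fermat.Agent.H16.FFBasic
import Fermat.Agent.H16.FFInsep

set_option autoImplicit false

noncomputable section

open AlgebraicCurve IntermediateField Polynomial

namespace Fermat.Agent.H16

section principal

variable {K F : Type*} [Field K] [Field F] [Algebra K F]

/-- All places have degree one (any characteristic). -/
theorem ffb_deg_eq_one [IsAlgClosed K] (x : F) [FiniteDimensional K⟮x⟯ F]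
    (v : Place K F) : v.deg = 1 :=
  Fermat.Agent.H29.place_deg_eq_one (y := x) v

/-- In characteristic `p`, the divisor of a transcendental element exists and has degree zero. -/
theorem ffb_exists_divisor_charP [IsAlgClosed K] (p : ℕ) [hp : Fact p.Prime] [CharP K p]
    (x : F) [FiniteDimensional K⟮x⟯ F] [Algebra.IsSeparable K⟮x⟯ F] :
    ∀ (n : ℕ) (g : F), Transcendental K g → Module.finrank K⟮g⟯ F = n →
      ∃ D : Divisor K F, (∀ v : Place K F, D v = v.ord g) ∧ Divisor.degree D = 0 := by
  intro n
  induction n using Nat.strong_induction_on with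
  | _ n ih =>
    intro g hg hn
    have hfin : FiniteDimensional K⟮g⟯ F := ffb_finiteDimensional_of_transcendental x g hg
    by_cases hpow : ∃ h : F, h ^ p = g
    · obtain ⟨h, rfl⟩ := hpow
      have hh : Transcendental K h := by
        intro hh
        exact hg (hh.pow p)
      have hlt : Module.finrank K⟮h⟯ F < n := by
        rw [← hn]
        exact ffb_finrank_adjoin_lt hh hp.out.two_le
      obtain ⟨D, hD, hdeg⟩ := ih _ hlt h hh rfl
      refine ⟨p • D, fun v => ?_, ?_⟩
      · rw [Finsupp.smul_apply, hD v, ← zpow_natCast, Place.ord_zpow]
        simp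
      · rw [map_nsmul, hdeg, smul_zero]
    · have hsep : Algebra.IsSeparable K⟮g⟯ F :=
        ffb_isSeparable_of_not_pow p x g (fun h hh => hpow ⟨h, hh⟩)
      exact ffb_exists_divisor_sep g hg

/-- The divisor of a nonzero element exists and has degree zero (any characteristic). -/
theorem ffb_exists_divisor [IsAlgClosed K] (x : F) [FiniteDimensional K⟮x⟯ F]
    [Algebra.IsSeparable K⟮x⟯ F] (f : F) (hf : f ≠ 0) :
    ∃ D : Divisor K F, (∀ v : Place K F, D v = v.ord f) ∧ Divisor.degree D = 0 := by
  by_cases hfa : IsAlgebraic K f
  · obtain ⟨c, rfl⟩ := ffb_exists_algebraMap_eq_of_isAlgebraic hfa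
    refine ⟨0, fun v => ?_, map_zero _⟩
    rw [Fermat.Agent.H29.place_ord_algebraMap]
    rfl
  · have hft : Transcendental K f := hfa
    obtain ⟨q, hq⟩ := ExpChar.exists K
    rcases hq with _ | ⟨hprime⟩
    · have hfin : FiniteDimensional K⟮f⟯ F := ffb_finiteDimensional_of_transcendental x f hft
      have hchar : CharZero K⟮f⟯ :=
        charZero_of_injective_algebraMap (algebraMap K K⟮f⟯).injective
      have hsep : Algebra.IsSeparable K⟮f⟯ F := inferInstance
      exact ffb_exists_divisor_sep f hft
    · have : Fact q.Prime := ⟨hprime⟩
      exact ffb_exists_divisor_charP q x _ f hft rfl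

/-- **Principal divisors exist and have degree zero**, for a function field of one variable
over an algebraically closed field of any characteristic admitting a separating element. -/
theorem ffb_hasPrincipalDivisors [IsAlgClosed K] (x : F) [FiniteDimensional K⟮x⟯ F]
    [Algebra.IsSeparable K⟮x⟯ F] : HasPrincipalDivisors K F :=
  ⟨fun f hf => ffb_exists_divisor x f hf⟩

end principal

end Fermat.Agent.H16
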