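import Mathlib
import Fermat.Agent.H1.S16L2.Interfaces
import Fermat.Prelude.Thm_CongruenceSubgroup_one_mem_strictPeriods_Gamma0



open UpperHalfPlane CongruenceSubgroup Matrix.SpecialLinearGroup
open scoped MatrixGroups ModularForm Real Pointwise

namespace Fermat.Agent.H16

/-- The Fricke matrix `[[0, -1], [p, 0]]` of level `p`. -/
noncomputable def conjFricke (p : ℕ) [NeZero p] : GL (Fin 2) ℝ :=
  Matrix.GeneralLinearGroup.mkOfDetNeZero !![0, -1; (p : ℝ), 0]
    (by simp [Matrix.det_fin_two_of, NeZero.ne p])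

lemma conjFricke_coe (p : ℕ) [NeZero p] :
    (conjFricke p : Matrix (Fin 2) (Fin 2) ℝ) = !![0, -1; (p : ℝ), 0] := rfl

lemma conj_mapGL_apply (γ : SL(2, ℤ)) (i j : Fin 2) :
    ((mapGL ℝ γ : GL (Fin 2) ℝ) : Matrix (Fin 2) (Fin 2) ℝ) i j = ((γ.1 i j : ℤ) : ℝ) := by
  simp

lemma conj_mul_apply (g h : GL (Fin 2) ℝ) (i j : Fin 2) :
    ((g * h : GL (Fin 2) ℝ) : Matrix (Fin 2) (Fin 2) ℝ) i j =
      (g : Matrix (Fin 2) (Fin 2) ℝ) i 0 * (h : Matrix (Fin 2) (Fin 2) ℝ) 0 j +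
      (g : Matrix (Fin 2) (Fin 2) ℝ) i 1 * (h : Matrix (Fin 2) (Fin 2) ℝ) 1 j := by
  simp [Matrix.mul_apply, Fin.sum_univ_two]

/-- The Atkin–Lehner conjugate of an element of `Γ₀(p)`. -/
lemma conjFricke_exists (p : ℕ) [NeZero p] (γ : SL(2, ℤ)) (hγ : γ ∈ Gamma0 p) :
    ∃ γ' ∈ Gamma0 p, conjFricke p * mapGL ℝ γ = mapGL ℝ γ' * conjFricke p ∧
      mapGL ℝ γ * conjFricke p = conjFricke p * mapGL ℝ γ' := by
  rw [Gamma0_mem, ZMod.intCast_zmod_eq_zero_iff_dvd] at hγ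
  obtain ⟨c', hc'⟩ := hγ
  have hdet : γ.1 0 0 * γ.1 1 1 - γ.1 0 1 * γ.1 1 0 = 1 := by
    have := γ.2
    rwa [Matrix.det_fin_two] at this
  have hdet' : (!![γ.1 1 1, -c'; -(p : ℤ) * γ.1 0 1, γ.1 0 0] : Matrix (Fin 2) (Fin 2) ℤ).det = 1 := by
    rw [Matrix.det_fin_two_of]
    rw [hc'] at hdet
    linear_combination hdet
  let γ' : SL(2, ℤ) := ⟨!![γ.1 1 1, -c'; -(p : ℤ) * γ.1 0 1, γ.1 0 0], hdet'⟩
  have e00 : γ'.1 0 0 = γ.1 1 1 := rfl
  have e01 : γ'.1 0 1 = -c' := rfl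
  have e10 : γ'.1 1 0 = -(p : ℤ) * γ.1 0 1 := rfl
  have e11 : γ'.1 1 1 = γ.1 0 0 := rfl
  have h10 : ((γ.1 1 0 : ℤ) : ℝ) = p * c' := by rw [hc']; push_cast; ring
  refine ⟨γ', ?_, ?_, ?_⟩
  · rw [Gamma0_mem, e10]
    simp
  · apply Matrix.GeneralLinearGroup.ext
    intro i j
    fin_cases i <;> fin_cases j <;>
      simp [conj_mul_apply, conj_mapGL_apply, conjFricke_coe, e00, e01, e10, e11, h10, mul_comm]
  · apply Matrix.GeneralLinearGroup.ext
    intro i j
    fin_cases i <;> fin_cases j <;>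
      simp [conj_mul_apply, conj_mapGL_apply, conjFricke_coe, e00, e01, e10, e11, h10, mul_comm]

lemma conjFricke_conj (p : ℕ) [NeZero p] :
    ConjAct.toConjAct (conjFricke p)⁻¹ • ((Gamma0 p : Subgroup SL(2, ℤ)) : Subgroup (GL (Fin 2) ℝ))
      = ((Gamma0 p : Subgroup SL(2, ℤ)) : Subgroup (GL (Fin 2) ℝ)) := by
  ext x
  rw [Subgroup.mem_pointwise_smul_iff_inv_smul_mem, ← map_inv, inv_inv, ConjAct.toConjAct_smul]
  constructor
  · rintro ⟨γ, hγ, hx⟩
    obtain ⟨γ', hγ', -, h2⟩ := conjFricke_exists p γ hγ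
    refine ⟨γ', hγ', ?_⟩
    have : x = (conjFricke p)⁻¹ * mapGL ℝ γ * conjFricke p := by
      rw [hx]; group
    rw [this, mul_assoc, h2]; group
  · rintro ⟨γ, hγ, rfl⟩
    obtain ⟨γ', hγ', h1, -⟩ := conjFricke_exists p γ hγ
    refine ⟨γ', hγ', ?_⟩
    rw [h1]; group

/-- Transport of a modular form along an equality of levels. -/
def conjCast {Γ Γ' : Subgroup (GL (Fin 2) ℝ)} {k : ℤ} (h : Γ = Γ') (f : ModularForm Γ k) :
    ModularForm Γ' k := h ▸ f

lemma conjCast_coe {Γ Γ' : Subgroup (GL (Fin 2) ℝ)} {k : ℤ} (h : Γ = Γ') (f : ModularForm Γ k) :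
    ⇑(conjCast h f) = ⇑f := by
  subst h; rfl

/-- The Fricke transform `H ∣ w` as a modular form on `Γ₀(p)`. -/
noncomputable def conjFrickeForm (p : ℕ) [NeZero p] (H : ModularForm (Gamma0 p) 2) :
    ModularForm (Gamma0 p) 2 :=
  conjCast (conjFricke_conj p) (ModularForm.translate H (conjFricke p))

lemma conjFrickeForm_coe (p : ℕ) [NeZero p] (H : ModularForm (Gamma0 p) 2) :
    ⇑(conjFrickeForm p H) = ⇑H ∣[(2 : ℤ)] conjFricke p := by
  rw [conjFrickeForm, conjCast_coe, ModularForm.coe_translate]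


section trace

variable (p : ℕ)

/-- An element of `SL(2, ℤ)` as an element of the subgroup `𝒮ℒ` of `GL(2, ℝ)`. -/
noncomputable def conjToSL (γ : SL(2, ℤ)) : 𝒮ℒ := ⟨mapGL ℝ γ, γ, rfl⟩

lemma conjToSL_surjective : Function.Surjective conjToSL := by
  rintro ⟨_, γ, rfl⟩
  exact ⟨γ, rfl⟩

local notation "Γp" => ((Gamma0 p : Subgroup SL(2, ℤ)) : Subgroup (GL (Fin 2) ℝ))

lemma conj_mk_eq_iff (γ γ' : SL(2, ℤ)) :
    (QuotientGroup.mk (conjToSL γ) : 𝒮ℒ ⧸ (Γp).subgroupOf 𝒮ℒ) = QuotientGroup.mk (conjToSL γ') ↔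
      γ⁻¹ * γ' ∈ Gamma0 p := by
  rw [QuotientGroup.eq, Subgroup.mem_subgroupOf]
  have : (((conjToSL γ)⁻¹ * conjToSL γ' : 𝒮ℒ) : GL (Fin 2) ℝ) = mapGL ℝ (γ⁻¹ * γ') := by
    simp [conjToSL]
  rw [this]
  constructor
  · rintro ⟨δ, hδ, h⟩
    rwa [← mapGL_injective h]
  · intro h
    exact ⟨_, h, rfl⟩

/-- Coset representatives of `Γ₀(p)` in `SL(2, ℤ)`. -/
noncomputable def conjRep : Option (Fin p) → SL(2, ℤ)
  | none => 1
  | some j => (ModularGroup.S * ModularGroup.T ^ ((j : ℕ) : ℤ))⁻¹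

lemma conj_ST_apply (n : ℤ) :
    ((ModularGroup.S * ModularGroup.T ^ n : SL(2, ℤ)) : Matrix (Fin 2) (Fin 2) ℤ) = !![0, -1; 1, n] := by
  rw [Matrix.SpecialLinearGroup.coe_mul, ModularGroup.coe_T_zpow, ModularGroup.coe_S]
  ext i j
  fin_cases i <;> fin_cases j <;> simp [Matrix.mul_apply, Fin.sum_univ_two]

lemma conj_ST_mul_apply (n : ℤ) (γ : SL(2, ℤ)) :
    ((ModularGroup.S * ModularGroup.T ^ n * γ : SL(2, ℤ)) : Matrix (Fin 2) (Fin 2) ℤ) 1 0 =
      γ.1 0 0 + n * γ.1 1 0 := by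
  rw [Matrix.SpecialLinearGroup.coe_mul, conj_ST_apply]
  simp [Matrix.mul_apply, Fin.sum_univ_two]

lemma conj_ST_inv_apply (n : ℤ) :
    (((ModularGroup.S * ModularGroup.T ^ n)⁻¹ : SL(2, ℤ)) : Matrix (Fin 2) (Fin 2) ℤ) = !![n, 1; -1, 0] := by
  rw [Matrix.SpecialLinearGroup.coe_inv, conj_ST_apply, Matrix.adjugate_fin_two_of]
  simp

lemma conjRep_bijective (hp : p.Prime) :
    Function.Bijective (fun o : Option (Fin p) =>
      (QuotientGroup.mk (conjToSL (conjRep p o)) : 𝒮ℒ ⧸ (Γp).subgroupOf 𝒮ℒ)) := by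
  have : Fact p.Prime := ⟨hp⟩
  constructor
  · intro o o' h
    simp only [conj_mk_eq_iff, Gamma0_mem] at h
    rcases o with _ | j <;> rcases o' with _ | j'
    · rfl
    · exfalso
      simp only [conjRep, inv_one, one_mul] at h
      rw [conj_ST_inv_apply] at h
      simp at h
    · exfalso
      simp only [conjRep, inv_inv, mul_one] at h
      rw [conj_ST_apply] at h
      simp at h
    · simp only [conjRep, inv_inv] at h
      rw [conj_ST_mul_apply, conj_ST_inv_apply] at h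
      simp only [Matrix.of_apply, Matrix.cons_val', Matrix.cons_val_zero, Matrix.cons_val_one,
        Matrix.cons_val_fin_one] at h
      push_cast at h
      have h2 : ((j' : ℕ) : ZMod p) = ((j : ℕ) : ZMod p) := by
        linear_combination h
      rw [ZMod.natCast_eq_natCast_iff', Nat.mod_eq_of_lt j'.2, Nat.mod_eq_of_lt j.2] at h2
      congr 1
      exact (Fin.ext h2).symm
  · intro q
    obtain ⟨g, rfl⟩ := QuotientGroup.mk_surjective q
    obtain ⟨γ, rfl⟩ := conjToSL_surjective g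
    by_cases h : ((γ.1 1 0 : ℤ) : ZMod p) = 0
    · refine ⟨none, ?_⟩
      simp only [conj_mk_eq_iff, conjRep, inv_one, one_mul, Gamma0_mem]
      exact h
    · set c : ZMod p := ((γ.1 1 0 : ℤ) : ZMod p) with hc
      set a : ZMod p := ((γ.1 0 0 : ℤ) : ZMod p) with ha
      let j : Fin p := ⟨(-(a / c)).val, ZMod.val_lt _⟩
      refine ⟨some j, ?_⟩
      simp only [conj_mk_eq_iff, conjRep, inv_inv, Gamma0_mem]
      rw [conj_ST_mul_apply]
      push_cast
      rw [← hc, ← ha]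
      have : ((j : ℕ) : ZMod p) = -(a / c) := by
        simp [j]
      rw [this]
      field_simp
      ring

lemma conj_trace_identity (hp : p.Prime) (F : ModularForm (Gamma0 p) 2) (z : ℍ) :
    F z + ∑ j ∈ Finset.range p,
      (⇑F ∣[(2 : ℤ)] (ModularGroup.S * ModularGroup.T ^ ((j : ℕ) : ℤ))) z = 0 := by
  have : NeZero p := ⟨hp.ne_zero⟩
  have h0 : ModularForm.trace 𝒮ℒ F = 0 :=
    rank_zero_iff_forall_zero.mp ModularForm.levelOne_weight_two_rank_zero _
  have h1 := congrFun (ModularForm.coe_trace 𝒮ℒ F) z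
  rw [h0] at h1
  let _ : Fintype (𝒮ℒ ⧸ (Γp).subgroupOf 𝒮ℒ) := Fintype.ofFinite _
  simp only [FunLike.coe_zero, Pi.zero_apply, Finset.sum_apply] at h1
  rw [← (conjRep_bijective p hp).sum_comp, Fintype.sum_option] at h1
  rw [h1, Finset.sum_range]
  congr 1
  · show F z = (⇑F ∣[(2 : ℤ)] ((conjToSL (conjRep p none)).val)⁻¹) z
    simp [conjRep, conjToSL]
  · refine Finset.sum_congr rfl fun j _ => ?_
    show _ = (⇑F ∣[(2 : ℤ)] ((conjToSL (conjRep p (some j))).val)⁻¹) z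
    simp only [conjRep, conjToSL, ← map_inv, inv_inv]
    rw [ModularForm.SL_slash]
    rfl

end trace

section slash

/-- Weight-2 slash by an upper triangular matrix of positive determinant. -/
lemma conj_slash_upper (g : GL (Fin 2) ℝ) (hdet : 0 < g.det.val) (h10 : g 1 0 = 0)
    (F : ℍ → ℂ) (z : ℍ) :
    (F ∣[(2 : ℤ)] g) z = F (g • z) * (g.det.val : ℂ) * ((g 1 1 : ℝ) : ℂ) ^ (-2 : ℤ) := by
  rw [ModularForm.slash_apply]
  have hσ : σ g = ContinuousAlgEquiv.refl ℝ ℂ := by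
    rw [σ, if_pos hdet]
  rw [hσ, abs_of_pos hdet]
  simp [denom, h10]

lemma conj_smul_upper_coe (g : GL (Fin 2) ℝ) (hdet : 0 < g.det.val) (h10 : g 1 0 = 0) (z : ℍ) :
    ((g • z : ℍ) : ℂ) = ((g 0 0 : ℝ) * (z : ℂ) + (g 0 1 : ℝ)) / (g 1 1 : ℝ) := by
  rw [UpperHalfPlane.coe_smul_of_det_pos hdet]
  simp [num, denom, h10]

variable (p : ℕ) [NeZero p]

/-- The matrix `w * S * T ^ j = -[[1, j], [0, p]]`. -/
noncomputable def conjUpper (j : ℤ) : GL (Fin 2) ℝ :=
  conjFricke p * mapGL ℝ (ModularGroup.S * ModularGroup.T ^ j)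

lemma conjUpper_apply (j : ℤ) :
    conjUpper p j 0 0 = -1 ∧ conjUpper p j 0 1 = -(j : ℝ) ∧ conjUpper p j 1 0 = 0 ∧
      conjUpper p j 1 1 = -(p : ℝ) := by
  simp only [conjUpper, conj_mul_apply, conj_mapGL_apply, conj_ST_apply, conjFricke_coe]
  simp

lemma conjUpper_det (j : ℤ) : (conjUpper p j).det.val = (p : ℝ) := by
  obtain ⟨h00, h01, h10, h11⟩ := conjUpper_apply p j
  rw [Matrix.GeneralLinearGroup.val_det_apply, Matrix.det_fin_two, h00, h01, h10, h11]
  ring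

lemma conjUpper_det_pos (j : ℤ) : 0 < (conjUpper p j).det.val := by
  rw [conjUpper_det]
  exact_mod_cast Nat.pos_of_ne_zero (NeZero.ne p)

lemma conjUpper_smul_coe (j : ℤ) (z : ℍ) :
    ((conjUpper p j • z : ℍ) : ℂ) = ((z : ℂ) + j) / p := by
  obtain ⟨h00, h01, h10, h11⟩ := conjUpper_apply p j
  rw [conj_smul_upper_coe _ (conjUpper_det_pos p j) h10, h00, h01, h11]
  have hp : (p : ℂ) ≠ 0 := Nat.cast_ne_zero.mpr (NeZero.ne p)
  push_cast
  field_simp
  ring

lemma conjUpper_slash (j : ℤ) (F : ℍ → ℂ) (z : ℍ) :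
    (F ∣[(2 : ℤ)] conjUpper p j) z = (p : ℂ)⁻¹ * F (conjUpper p j • z) := by
  obtain ⟨h00, h01, h10, h11⟩ := conjUpper_apply p j
  rw [conj_slash_upper _ (conjUpper_det_pos p j) h10, conjUpper_det, h11]
  have hp : (p : ℂ) ≠ 0 := Nat.cast_ne_zero.mpr (NeZero.ne p)
  push_cast
  rw [zpow_neg, show ((2 : ℤ)) = ((2 : ℕ) : ℤ) by rfl, zpow_natCast]
  field_simp

lemma conjFricke_sq_slash (F : ℍ → ℂ) :
    F ∣[(2 : ℤ)] (conjFricke p * conjFricke p) = F := by
  have hp : (p : ℂ) ≠ 0 := Nat.cast_ne_zero.mpr (NeZero.ne p)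
  have hpr : (0 : ℝ) < p := by exact_mod_cast Nat.pos_of_ne_zero (NeZero.ne p)
  have h00 : (conjFricke p * conjFricke p) 0 0 = -(p : ℝ) := by
    simp [conj_mul_apply, conjFricke_coe]
  have h01 : (conjFricke p * conjFricke p) 0 1 = 0 := by
    simp [conj_mul_apply, conjFricke_coe]
  have h10 : (conjFricke p * conjFricke p) 1 0 = 0 := by
    simp [conj_mul_apply, conjFricke_coe]
  have h11 : (conjFricke p * conjFricke p) 1 1 = -(p : ℝ) := by
    simp [conj_mul_apply, conjFricke_coe]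
  have hdet : (conjFricke p * conjFricke p).det.val = (p : ℝ) ^ 2 := by
    rw [Matrix.GeneralLinearGroup.val_det_apply, Matrix.det_fin_two, h00, h01, h10, h11]
    ring
  have hdet_pos : 0 < (conjFricke p * conjFricke p).det.val := by
    rw [hdet]; positivity
  ext z
  rw [conj_slash_upper _ hdet_pos h10, hdet, h11]
  have hz : (conjFricke p * conjFricke p) • z = z := by
    apply UpperHalfPlane.ext
    rw [conj_smul_upper_coe _ hdet_pos h10, h00, h01, h11]
    push_cast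
    field_simp
    ring
  rw [hz]
  push_cast
  rw [zpow_neg, show ((2 : ℤ)) = ((2 : ℕ) : ℤ) by rfl, zpow_natCast]
  field_simp

/-- `H ∣ S T^j` in terms of the Fricke transform of `H`. -/
lemma conj_slash_ST (H : ModularForm (Gamma0 p) 2) (j : ℤ) (z : ℍ) :
    (⇑H ∣[(2 : ℤ)] (ModularGroup.S * ModularGroup.T ^ j)) z =
      (p : ℂ)⁻¹ * conjFrickeForm p H (conjUpper p j • z) := by
  rw [conjFrickeForm_coe, ← conjUpper_slash]
  have key : ⇑H ∣[(2 : ℤ)] (ModularGroup.S * ModularGroup.T ^ j) =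
      (⇑H ∣[(2 : ℤ)] conjFricke p) ∣[(2 : ℤ)] conjUpper p j := by
    rw [ModularForm.SL_slash]
    show ⇑H ∣[(2 : ℤ)] (mapGL ℝ (ModularGroup.S * ModularGroup.T ^ j)) = _
    conv_lhs => rw [← conjFricke_sq_slash p ⇑H]
    rw [← SlashAction.slash_mul, ← SlashAction.slash_mul, conjUpper, mul_assoc]
  rw [key]

/-- `(H ∣ w) ∣ S T^j` in terms of `H`. -/
lemma conjFrickeForm_slash_ST (H : ModularForm (Gamma0 p) 2) (j : ℤ) (z : ℍ) :
    (⇑(conjFrickeForm p H) ∣[(2 : ℤ)] (ModularGroup.S * ModularGroup.T ^ j)) z =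
      (p : ℂ)⁻¹ * H (conjUpper p j • z) := by
  rw [conjFrickeForm_coe, ← conjUpper_slash]
  have key : (⇑H ∣[(2 : ℤ)] conjFricke p) ∣[(2 : ℤ)] (ModularGroup.S * ModularGroup.T ^ j) =
      ⇑H ∣[(2 : ℤ)] conjUpper p j := by
    rw [ModularForm.SL_slash]
    show (⇑H ∣[(2 : ℤ)] conjFricke p) ∣[(2 : ℤ)]
      (mapGL ℝ (ModularGroup.S * ModularGroup.T ^ j)) = _
    rw [← SlashAction.slash_mul, conjUpper]
  rw [key]

end slash

section qexp

/-- Orthogonality of the `p`-th roots of unity. -/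
lemma conj_sum_exp (p : ℕ) [NeZero p] (m : ℕ) :
    ∑ j ∈ Finset.range p, Complex.exp (2 * π * Complex.I * m * j / p) =
      if p ∣ m then (p : ℂ) else 0 := by
  have hp : (p : ℂ) ≠ 0 := Nat.cast_ne_zero.mpr (NeZero.ne p)
  have hpow : ∀ j : ℕ, Complex.exp (2 * π * Complex.I * m * j / p) =
      Complex.exp (2 * π * Complex.I * m / p) ^ j := by
    intro j
    rw [← Complex.exp_nat_mul]
    congr 1
    ring
  simp_rw [hpow]
  split_ifs with h
  · obtain ⟨n, rfl⟩ := h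
    have : Complex.exp (2 * π * Complex.I * ((p * n : ℕ) : ℂ) / p) = 1 := by
      rw [Complex.exp_eq_one_iff]
      refine ⟨(n : ℤ), ?_⟩
      push_cast
      field_simp
    rw [this]
    simp
  · have hne : Complex.exp (2 * π * Complex.I * m / p) ≠ 1 := by
      rw [Ne, Complex.exp_eq_one_iff]
      rintro ⟨n, hn⟩
      apply h
      have h2 : (m : ℂ) = n * p := by
        have hpi : (2 * π * Complex.I : ℂ) ≠ 0 := Complex.two_pi_I_ne_zero
        field_simp at hn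
        linear_combination hn
      have h3 : (m : ℤ) = n * p := by exact_mod_cast h2
      have h4 : (p : ℤ) ∣ (m : ℤ) := ⟨n, by rw [h3]; ring⟩
      exact_mod_cast h4
    rw [geom_sum_eq hne]
    have : Complex.exp (2 * π * Complex.I * m / p) ^ p = 1 := by
      rw [← Complex.exp_nat_mul, Complex.exp_eq_one_iff]
      refine ⟨(m : ℤ), ?_⟩
      push_cast
      field_simp
    rw [this]
    simp

variable (p : ℕ) [NeZero p]

/-- The q-expansion of a form on `Γ₀(p)` converges to the form. -/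
lemma conj_hasSum (H : ModularForm (Gamma0 p) 2) (τ : ℍ) :
    HasSum (fun m : ℕ => PowerSeries.coeff m (qExpansion 1 (⇑H)) *
      Complex.exp (2 * π * Complex.I * m * (τ : ℂ))) (H τ) := by
  have h := ModularForm.hasSum_qExpansion H (h := 1) one_pos
    (CongruenceSubgroup.one_mem_strictPeriods_Gamma0 p) τ
  have hfun : (fun m : ℕ => PowerSeries.coeff m (qExpansion 1 (⇑H)) *
      Complex.exp (2 * π * Complex.I * m * (τ : ℂ))) =
      fun m : ℕ => PowerSeries.coeff m (qExpansion 1 (⇑H)) *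
        Function.Periodic.qParam 1 (τ : ℂ) ^ m := by
    funext m
    rw [Function.Periodic.qParam, ← Complex.exp_nat_mul]
    congr 2
    push_cast
    ring
  rw [hfun]
  exact h

/-- The `U_p`-operator on q-expansions. -/
lemma conj_hasSum_U (hp : p.Prime) (H : ModularForm (Gamma0 p) 2) (z : ℍ) :
    HasSum (fun n : ℕ => PowerSeries.coeff (p * n) (qExpansion 1 (⇑H)) *
      Complex.exp (2 * π * Complex.I * n * (z : ℂ)))
      (∑ j ∈ Finset.range p, (p : ℂ)⁻¹ * H (conjUpper p ((j : ℕ) : ℤ) • z)) := by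
  have hpc : (p : ℂ) ≠ 0 := Nat.cast_ne_zero.mpr (NeZero.ne p)
  have h1 : HasSum (fun m : ℕ => ∑ j ∈ Finset.range p, (p : ℂ)⁻¹ *
      (PowerSeries.coeff m (qExpansion 1 (⇑H)) *
        Complex.exp (2 * π * Complex.I * m * ((conjUpper p ((j : ℕ) : ℤ) • z : ℍ) : ℂ))))
      (∑ j ∈ Finset.range p, (p : ℂ)⁻¹ * H (conjUpper p ((j : ℕ) : ℤ) • z)) :=
    hasSum_sum fun j _ => (conj_hasSum p H _).mul_left _
  have h2 : ∀ m : ℕ, ∑ j ∈ Finset.range p, (p : ℂ)⁻¹ *
      (PowerSeries.coeff m (qExpansion 1 (⇑H)) *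
        Complex.exp (2 * π * Complex.I * m * ((conjUpper p ((j : ℕ) : ℤ) • z : ℍ) : ℂ))) =
      (p : ℂ)⁻¹ * PowerSeries.coeff m (qExpansion 1 (⇑H)) *
        Complex.exp (2 * π * Complex.I * m * (z : ℂ) / p) *
        (if p ∣ m then (p : ℂ) else 0) := by
    intro m
    rw [← conj_sum_exp p m, Finset.mul_sum]
    refine Finset.sum_congr rfl fun j _ => ?_
    have he : Complex.exp (2 * π * Complex.I * m * ((conjUpper p ((j : ℕ) : ℤ) • z : ℍ) : ℂ)) =
        Complex.exp (2 * π * Complex.I * m * (z : ℂ) / p) *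
          Complex.exp (2 * π * Complex.I * m * j / p) := by
      rw [conjUpper_smul_coe, ← Complex.exp_add]
      congr 1
      push_cast
      field_simp
    rw [he]
    ring
  simp_rw [h2] at h1
  have hinj : Function.Injective (fun n : ℕ => p * n) :=
    fun a b h => Nat.eq_of_mul_eq_mul_left hp.pos h
  rw [← hinj.hasSum_iff] at h1
  · have hfun : (fun n : ℕ => PowerSeries.coeff (p * n) (qExpansion 1 (⇑H)) *
        Complex.exp (2 * π * Complex.I * n * (z : ℂ))) =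
        (fun m : ℕ => (p : ℂ)⁻¹ * PowerSeries.coeff m (qExpansion 1 (⇑H)) *
          Complex.exp (2 * π * Complex.I * m * (z : ℂ) / p) *
          (if p ∣ m then (p : ℂ) else 0)) ∘ (fun n : ℕ => p * n) := by
      funext n
      simp only [Function.comp_apply, dvd_mul_right, if_true]
      have : (2 * π * Complex.I * ((p * n : ℕ) : ℂ) * (z : ℂ) / p) =
          2 * π * Complex.I * n * (z : ℂ) := by
        push_cast
        field_simp
      rw [this]
      field_simp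
    rw [hfun]
    exact h1
  · intro m hm
    have : ¬ p ∣ m := by
      rintro ⟨n, rfl⟩
      exact hm ⟨n, rfl⟩
    simp [this]

/-- The Fricke transform is `-U_p`. -/
lemma conj_hasSum_fricke (hp : p.Prime) (H : ModularForm (Gamma0 p) 2) (z : ℍ) :
    HasSum (fun n : ℕ => -(PowerSeries.coeff (p * n) (qExpansion 1 (⇑H)) *
      Complex.exp (2 * π * Complex.I * n * (z : ℂ))))
      (conjFrickeForm p H z) := by
  have h1 := conj_trace_identity p hp (conjFrickeForm p H) z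
  simp_rw [conjFrickeForm_slash_ST] at h1
  have h2 : conjFrickeForm p H z =
      -∑ j ∈ Finset.range p, (p : ℂ)⁻¹ * H (conjUpper p ((j : ℕ) : ℤ) • z) := by
    linear_combination h1
  rw [h2]
  exact (conj_hasSum_U p hp H z).neg

end qexp

/-- The `SL₂(ℤ)`-conjugates of a weight-2 form on `Γ₀(p)`. -/
theorem conjStatement : Fermat.Agent.H1.S16L2.ConjStatement := by
  intro p hp H j z
  have : NeZero p := ⟨hp.ne_zero⟩
  have hpc : (p : ℂ) ≠ 0 := Nat.cast_ne_zero.mpr (NeZero.ne p)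
  rw [conj_slash_ST p H j z]
  have h := (conj_hasSum_fricke p hp H (conjUpper p j • z)).mul_left ((p : ℂ)⁻¹)
  have hfun : (fun n : ℕ => -(p : ℂ)⁻¹ * PowerSeries.coeff (p * n) (qExpansion 1 (⇑H)) *
      Complex.exp (2 * π * Complex.I * n * ((z : ℂ) + j) / p)) =
      fun n : ℕ => (p : ℂ)⁻¹ * -(PowerSeries.coeff (p * n) (qExpansion 1 (⇑H)) *
        Complex.exp (2 * π * Complex.I * n * ((conjUpper p j • z : ℍ) : ℂ))) := by
    funext n
    rw [conjUpper_smul_coe]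
    have : 2 * π * Complex.I * n * ((z : ℂ) + j) / p =
        2 * π * Complex.I * n * (((z : ℂ) + j) / p) := by
      ring
    rw [this]
    ring
  rw [hfun]
  exact h

end Fermat.Agent.H16
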