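import Fermat.Agent.H16.SS2ThetaUnit
import Fermat.Agent.H93.SS2.RegSSGen

/-!
# P-SS2 rows 1046/1047, glue (helper16): the local unit `w = - Θ / D(H_q)^m`

`D(x) = x (x + 16)`, `H_q = H(t^q)`.  In the norm identity `N_α(Z) = q · w · u` of row 1046
(helper38) the factor `w` is characterised by `w · D(H_q)^m = - Θ` on `q`-expansions.

* `thetaW_isLocUnit` : `w` is a unit of `B(j)_𝔪` at every maximal ideal `𝔪 ∋ ϖ` of `B(j)`
  (level `M q`) through which `V₀₁ = vZero W` does not pass.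
* `thetaMul_isLocUnit` : more generally `c · Θ ^ a · D(H_q)^(-m)`-type products: any `w` with
  `w · D(H_q)^m = c · Θ`, `c` a unit of `A₀`, is a local unit.
-/

set_option autoImplicit false
set_option linter.unusedSectionVars false
set_option linter.style.haveILetI false
set_option linter.unusedVariables false

noncomputable section

namespace Fermat.Agent.H16.SS2

open ModularCurve Polynomial
open Fermat.Agent.H22.KL
open Fermat.Agent.H82.SS
open Fermat.Agent.H8.SS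
open Fermat.Agent.H7.SS
open Fermat.Agent.H7.SS2
open Fermat.Agent.H11.SS2
open Fermat.Agent.H93.SS2

section

variable {A : Type} [CommRing A] {E : Type} [Field E] [Algebra A E]

/-- A unit of `B(y)` is a unit of `B(y)_𝔪`. -/
theorem tw_isLocUnit_of_mul_eq_one {y : E} {𝔪 : Ideal (chartClosure A E y)} (h𝔪 : 𝔪 ≠ ⊤)
    {u v : E} (hu : u ∈ chartClosure A E y) (hv : v ∈ chartClosure A E y) (huv : u * v = 1) :
    IsLocUnit A E y 𝔪 u := by
  have h1 : (1 : chartClosure A E y) ∉ 𝔪 := fun h => h𝔪 ((Ideal.eq_top_iff_one 𝔪).2 h)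
  have hu0 : u ≠ 0 := left_ne_zero_of_mul_eq_one huv
  refine ⟨hu0, ⟨1, h1, ?_⟩, ⟨1, h1, ?_⟩⟩
  · rw [OneMemClass.coe_one, one_mul]
    exact hu
  · rw [OneMemClass.coe_one, one_mul, inv_eq_of_mul_eq_one_right huv]
    exact hv

end

variable (M q : ℕ) [NeZero M] [NeZero q]

/-- **The factor `w` of the norm identity is a local unit**: if `w · D(H_q)^m = c · Θ` on
`q`-expansions with `c` a unit of `A₀`, then `w` is a unit of `B(j)_𝔪` at every maximal ideal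
`𝔪 ∋ ϖ` through which `V₀₁` does not pass. -/
theorem thetaMul_isLocUnit (h4 : 4 ∣ M) (hq : q.Prime) (hq2 : q ≠ 2) (hqM : ¬ q ∣ M)
    (K₁ : Type) [Field K₁] [Algebra ℚ K₁] [FiniteDimensional ℚ K₁]
    (A₀ : Type) [CommRing A₀] [IsDomain A₀] [IsDiscreteValuationRing A₀]
    [Algebra A₀ K₁] [IsFractionRing A₀ K₁]
    [Algebra A₀ (ModelField K₁ (M * q))] [IsScalarTower A₀ K₁ (ModelField K₁ (M * q))]
    (hqA : ¬ IsUnit ((q : ℕ) : A₀)) (ϖ : A₀) (hϖ : Irreducible ϖ)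
    (x : ModelField K₁ (M * q)) (hx : (x : LaurentSeries K₁) = coeffEmb K₁ jq)
    (W : ModelField K₁ (M * q) ≃ₐ[K₁] ModelField K₁ (M * q)) (hW : IsAtkinLehnerModel K₁ M q W)
    (Θ w : ModelField K₁ (M * q))
    (hΘ : (Θ : LaurentSeries K₁) * theta (h4S K₁) = qExpand K₁ q (theta (h4S K₁)))
    (m : ℕ) (c : A₀) (hc : IsUnit c)
    (hw : (w : LaurentSeries K₁) *
      (qExpand K₁ q (h4S K₁) * (qExpand K₁ q (h4S K₁) + 16)) ^ m =
        algebraMap K₁ (LaurentSeries K₁) (algebraMap A₀ K₁ c) * (Θ : LaurentSeries K₁))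
    (𝔪 : Ideal (chartClosure A₀ (ModelField K₁ (M * q)) x)) (h𝔪 : 𝔪.IsMaximal)
    (hϖ𝔪 : algebraMap A₀ (chartClosure A₀ (ModelField K₁ (M * q)) x) ϖ ∈ 𝔪)
    (haway : ∃ s : chartClosure A₀ (ModelField K₁ (M * q)) x,
      (s : ModelField K₁ (M * q)) ∈ (vZero K₁ A₀ (M * q) W).nonunits ∧ s ∉ 𝔪) :
    IsLocUnit A₀ (ModelField K₁ (M * q)) x 𝔪 w := by
  haveI := h𝔪.isPrime
  have hΘu := thetaUnit M q h4 hq hq2 hqM K₁ A₀ hqA ϖ hϖ x hx W hW Θ hΘ 𝔪 h𝔪 hϖ𝔪 haway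
  obtain ⟨-, H, Hq, u, uq, -, hHq, -, hHqB, -, huqB, -, huq, -, -⟩ :=
    Fermat.Agent.H48.SSHaupt.modelHauptBasics M q h4 hq hq2 hqM K₁ A₀ hqA x hx W hW
  have hne : 𝔪 ≠ ⊤ := h𝔪.ne_top
  -- the identity in the model field
  have hwE : w * (Hq * (Hq + 16)) ^ m =
      algebraMap A₀ (ModelField K₁ (M * q)) c * Θ := by
    apply Subtype.ext
    show algebraMap (ModelField K₁ (M * q)) (LaurentSeries K₁) (w * (Hq * (Hq + 16)) ^ m) =
      algebraMap (ModelField K₁ (M * q)) (LaurentSeries K₁)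
        (algebraMap A₀ (ModelField K₁ (M * q)) c * Θ)
    rw [map_mul, map_pow, map_mul, map_add, map_ofNat, map_mul,
      IsScalarTower.algebraMap_apply A₀ K₁ (ModelField K₁ (M * q)),
      ← IsScalarTower.algebraMap_apply K₁ (ModelField K₁ (M * q)) (LaurentSeries K₁)]
    have e1 : algebraMap (ModelField K₁ (M * q)) (LaurentSeries K₁) Hq =
        qExpand K₁ q (h4S K₁) := hHq
    rw [e1]
    exact hw
  have hD : IsLocUnit A₀ (ModelField K₁ (M * q)) x 𝔪 uq :=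
    tw_isLocUnit_of_mul_eq_one hne huqB
      (Subalgebra.mul_mem _ hHqB (Subalgebra.add_mem _ hHqB
        (by
          have : (16 : ModelField K₁ (M * q)) = ((16 : ℕ) : ModelField K₁ (M * q)) := by
            norm_num
          rw [this]
          exact natCast_mem _ 16))) huq
  have hcU : IsLocUnit A₀ (ModelField K₁ (M * q)) x 𝔪
      (algebraMap A₀ (ModelField K₁ (M * q)) c) := by
    obtain ⟨c', hc'⟩ := hc.exists_right_inv
    refine tw_isLocUnit_of_mul_eq_one hne (Subalgebra.algebraMap_mem _ c)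
      (Subalgebra.algebraMap_mem _ c') ?_
    rw [← map_mul, hc', map_one]
  have hweq : w = algebraMap A₀ (ModelField K₁ (M * q)) c * Θ * uq ^ m := by
    have h0 : Hq * (Hq + 16) * uq = 1 := (mul_comm _ _).trans huq
    have h1 : (Hq * (Hq + 16)) ^ m * uq ^ m = 1 := by
      rw [← mul_pow, h0, one_pow]
    calc w = w * ((Hq * (Hq + 16)) ^ m * uq ^ m) := by rw [h1, mul_one]
      _ = w * (Hq * (Hq + 16)) ^ m * uq ^ m := by ring
      _ = _ := by rw [hwE]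
  rw [hweq]
  exact rs_isLocUnit_mul (rs_isLocUnit_mul hcU hΘu) (rg_isLocUnit_pow hD m)

/-- **`w = - Θ / D(H_q)^m` is a local unit** (the shape of row 1046). -/
theorem thetaW_isLocUnit (h4 : 4 ∣ M) (hq : q.Prime) (hq2 : q ≠ 2) (hqM : ¬ q ∣ M)
    (K₁ : Type) [Field K₁] [Algebra ℚ K₁] [FiniteDimensional ℚ K₁]
    (A₀ : Type) [CommRing A₀] [IsDomain A₀] [IsDiscreteValuationRing A₀]
    [Algebra A₀ K₁] [IsFractionRing A₀ K₁]
    [Algebra A₀ (ModelField K₁ (M * q))] [IsScalarTower A₀ K₁ (ModelField K₁ (M * q))]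
    (hqA : ¬ IsUnit ((q : ℕ) : A₀)) (ϖ : A₀) (hϖ : Irreducible ϖ)
    (x : ModelField K₁ (M * q)) (hx : (x : LaurentSeries K₁) = coeffEmb K₁ jq)
    (W : ModelField K₁ (M * q) ≃ₐ[K₁] ModelField K₁ (M * q)) (hW : IsAtkinLehnerModel K₁ M q W)
    (Θ w : ModelField K₁ (M * q))
    (hΘ : (Θ : LaurentSeries K₁) * theta (h4S K₁) = qExpand K₁ q (theta (h4S K₁)))
    (m : ℕ)
    (hw : (w : LaurentSeries K₁) *
      (qExpand K₁ q (h4S K₁) * (qExpand K₁ q (h4S K₁) + 16)) ^ m = - (Θ : LaurentSeries K₁))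
    (𝔪 : Ideal (chartClosure A₀ (ModelField K₁ (M * q)) x)) (h𝔪 : 𝔪.IsMaximal)
    (hϖ𝔪 : algebraMap A₀ (chartClosure A₀ (ModelField K₁ (M * q)) x) ϖ ∈ 𝔪)
    (haway : ∃ s : chartClosure A₀ (ModelField K₁ (M * q)) x,
      (s : ModelField K₁ (M * q)) ∈ (vZero K₁ A₀ (M * q) W).nonunits ∧ s ∉ 𝔪) :
    IsLocUnit A₀ (ModelField K₁ (M * q)) x 𝔪 w := by
  refine thetaMul_isLocUnit M q h4 hq hq2 hqM K₁ A₀ hqA ϖ hϖ x hx W hW Θ w hΘ m (-1)
    isUnit_one.neg ?_ 𝔪 h𝔪 hϖ𝔪 haway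
  rw [hw, map_neg, map_neg, map_one, map_one, neg_one_mul]

end Fermat.Agent.H16.SS2
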