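import Fermat.Agent.H67.SS.CuspInterfaces2
import Fermat.Agent.H87.KL.KumGauss

/-!
# P-SS row 1030 (SSH-8c, INT-LOC): two integrality lemmas at the cuspidal points

* `intLocLeading : Fermat.Agent.H67.SS.IntLocLeadingStatement` — if `x` is integral over
  `A[x_q]`, then `(1 + x⁻¹ p(x⁻¹)) x_q⁻¹` is integral over `A[x⁻¹]` for some `p ∈ A[X]`.
* `intLocScale : Fermat.Agent.H67.SS.IntLocScaleStatement` — if `h`, `h w` are integral over
  `A[y]` and `s` is integral over `A[w]`, then `h ^ d * s` is integral over `A[y]` for some `d`.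
-/

set_option autoImplicit false
set_option linter.unusedSectionVars false
set_option linter.unusedVariables false
set_option linter.style.haveILetI false

noncomputable section

namespace Fermat.Agent.H16

open Polynomial
open Fermat.Agent.H22.KL Fermat.Agent.H87.KL Fermat.Agent.H67.SS

section Aux

variable {A : Type} [CommRing A] {E : Type} [Field E] [Algebra A E]

/-- A common bound for the degrees of the coefficients of a bivariate polynomial. -/
theorem intloc_coeff_natDegree_le (P : (A[X])[X]) (i : ℕ) :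
    (P.coeff i).natDegree ≤ P.support.sup (fun i => (P.coeff i).natDegree) := by
  by_cases hi : i ∈ P.support
  · exact Finset.le_sup (f := fun i => (P.coeff i).natDegree) hi
  · rw [Polynomial.notMem_support_iff.1 hi, natDegree_zero]
    exact Nat.zero_le _

/-- `h ^ d * p(w) ∈ B(y)` if `h, h w ∈ B(y)` and `deg p ≤ d`. -/
theorem intloc_pow_mul_aeval_mem {y w h : E} (hh : h ∈ chartClosure A E y)
    (hhw : h * w ∈ chartClosure A E y) (d : ℕ) (p : A[X]) (hp : p.natDegree ≤ d) :
    h ^ d * aeval w p ∈ chartClosure A E y := by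
  rw [aeval_eq_sum_range' (Nat.lt_succ_of_le hp) w, Finset.mul_sum]
  refine Subalgebra.sum_mem _ fun k hk => ?_
  have hk' : k ≤ d := Nat.lt_succ_iff.1 (Finset.mem_range.1 hk)
  have e : h ^ d * (p.coeff k • w ^ k) = p.coeff k • (h ^ (d - k) * (h * w) ^ k) := by
    rw [mul_smul_comm, mul_pow, ← mul_assoc, ← pow_add, Nat.sub_add_cancel hk']
  rw [e]
  exact Subalgebra.smul_mem _ (mul_mem (pow_mem hh _) (pow_mem hhw _)) _

end Aux

/-- **INT-LOC (b)**. -/
theorem intLocScale : IntLocScaleStatement := by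
  intro A _ E _ _ y w h s hh hhw hs
  obtain ⟨P, hP, hPs⟩ := (mem_chartClosure_iff w s).1 hs
  set d : ℕ := P.support.sup (fun i => (P.coeff i).natDegree) with hd
  refine ⟨d, ?_⟩
  set P' : E[X] := P.map (evX (A := A) w) with hP'def
  have hP' : P'.Monic := hP.map _
  have hP's : P'.eval s = 0 := by
    rw [hP'def, eval_map]
    exact hPs
  set Q : E[X] := scaleRoots P' (h ^ d) with hQdef
  have hQm : Q.Monic := (monic_scaleRoots_iff _).2 hP'
  have hQs : Q.eval (h ^ d * s) = 0 := by
    rw [hQdef, scaleRoots_eval_mul, hP's, mul_zero]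
  have hQdeg : Q.natDegree = P'.natDegree := natDegree_scaleRoots _ _
  have hQc : ∀ i, Q.coeff i ∈ chartClosure A E y := by
    intro i
    rcases lt_trichotomy i Q.natDegree with hlt | heq | hgt
    · rw [hQdef, coeff_scaleRoots, hP'def, coeff_map]
      have hpos : 0 < (P.map (evX (A := A) w)).natDegree - i := by
        rw [← hP'def, ← hQdeg]
        omega
      obtain ⟨e, he⟩ : ∃ e, (P.map (evX (A := A) w)).natDegree - i = e + 1 :=
        ⟨_, (Nat.succ_pred_eq_of_pos hpos).symm⟩
      rw [he]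
      have e1 : evX (A := A) w (P.coeff i) * (h ^ d) ^ (e + 1) =
          (h ^ d * aeval w (P.coeff i)) * (h ^ d) ^ e := by
        rw [evX_apply, pow_succ]
        ring
      rw [e1]
      exact mul_mem (intloc_pow_mul_aeval_mem hh hhw d _ (intloc_coeff_natDegree_le P i))
        (pow_mem (pow_mem hh _) _)
    · rw [heq, hQm.coeff_natDegree]
      exact Subalgebra.one_mem _
    · rw [coeff_eq_zero_of_natDegree_lt hgt]
      exact Subalgebra.zero_mem _
  -- `h ^ d * s` is integral over the integral closure of `A[y]`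
  let Rc : Subalgebra (chartRing A E y) E := integralClosure (chartRing A E y) E
  have hmemRc : ∀ z : E, z ∈ chartClosure A E y → z ∈ Rc := fun z hz => hz
  have hlift : Q ∈ Polynomial.lifts (algebraMap Rc E) := by
    rw [Polynomial.lifts_iff_coeff_lifts]
    intro i
    exact ⟨⟨Q.coeff i, hmemRc _ (hQc i)⟩, rfl⟩
  obtain ⟨q, hqQ, -, hqm⟩ := Polynomial.lifts_and_natDegree_eq_and_monic hlift hQm
  have hint : IsIntegral Rc (h ^ d * s) := by
    refine ⟨q, hqm, ?_⟩
    rw [← eval_map, hqQ]
    exact hQs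
  have hint' : IsIntegral (chartRing A E y) (h ^ d * s) := isIntegral_trans _ hint
  exact hint'

/-- **INT-LOC (a)**. -/
theorem intLocLeading : IntLocLeadingStatement := by
  intro A _ E _ _ x xq hx hxq hmem
  haveI : Nontrivial A := (algebraMap A E).domain_nontrivial
  obtain ⟨P, hP, hPx⟩ := (mem_chartClosure_iff xq x).1 hmem
  set m : ℕ := P.natDegree with hm
  set D : ℕ := P.support.sup (fun i => (P.coeff i).natDegree) with hD
  have hDle : ∀ i, (P.coeff i).natDegree ≤ D := intloc_coeff_natDegree_le P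
  -- the reflected polynomial
  set F : (A[X])[X] := ∑ i ∈ Finset.range (m + 1), ∑ k ∈ Finset.range (D + 1),
    C (C ((P.coeff i).coeff k) * X ^ (m - i)) * X ^ (D - k) with hF
  -- its value at `(x⁻¹, xq⁻¹)`
  have hval : F.eval₂ (evX (A := A) x⁻¹) xq⁻¹ = 0 := by
    have h0 : P.eval₂ (evX (A := A) xq) x = 0 := hPx
    rw [eval₂_eq_sum_range] at h0
    have h1 : ∀ i, evX (A := A) xq (P.coeff i) =
        ∑ k ∈ Finset.range (D + 1), algebraMap A E ((P.coeff i).coeff k) * xq ^ k := by
      intro i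
      rw [evX_apply, aeval_eq_sum_range' (Nat.lt_succ_of_le (hDle i)) xq]
      exact Finset.sum_congr rfl fun k _ => Algebra.smul_def _ _
    have h2 : F.eval₂ (evX (A := A) x⁻¹) xq⁻¹ =
        x⁻¹ ^ m * xq⁻¹ ^ D * ∑ i ∈ Finset.range (P.natDegree + 1),
          evX (A := A) xq (P.coeff i) * x ^ i := by
      rw [hF, eval₂_finset_sum, Finset.mul_sum]
      refine Finset.sum_congr rfl fun i hi => ?_
      have hi' : i ≤ m := Nat.lt_succ_iff.1 (Finset.mem_range.1 hi)
      rw [eval₂_finset_sum, h1 i, Finset.sum_mul, Finset.mul_sum]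
      refine Finset.sum_congr rfl fun k hk => ?_
      have hk' : k ≤ D := Nat.lt_succ_iff.1 (Finset.mem_range.1 hk)
      rw [eval₂_mul, eval₂_C, eval₂_X_pow, evX_apply, map_mul, aeval_C, map_pow, aeval_X]
      have e1 : x⁻¹ ^ m = x⁻¹ ^ (m - i) * x⁻¹ ^ i := by
        rw [← pow_add, Nat.sub_add_cancel hi']
      have e2 : xq⁻¹ ^ D = xq⁻¹ ^ (D - k) * xq⁻¹ ^ k := by
        rw [← pow_add, Nat.sub_add_cancel hk']
      have e3 : x⁻¹ ^ i * x ^ i = 1 := by
        rw [← mul_pow, inv_mul_cancel₀ hx, one_pow]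
      have e4 : xq⁻¹ ^ k * xq ^ k = 1 := by
        rw [← mul_pow, inv_mul_cancel₀ hxq, one_pow]
      calc algebraMap A E ((P.coeff i).coeff k) * x⁻¹ ^ (m - i) * xq⁻¹ ^ (D - k)
          = algebraMap A E ((P.coeff i).coeff k) * x⁻¹ ^ (m - i) * xq⁻¹ ^ (D - k) *
              ((x⁻¹ ^ i * x ^ i) * (xq⁻¹ ^ k * xq ^ k)) := by rw [e3, e4, mul_one, mul_one]
        _ = x⁻¹ ^ m * xq⁻¹ ^ D * (algebraMap A E ((P.coeff i).coeff k) * xq ^ k * x ^ i) := by
            rw [e1, e2]
            ring
    rw [h2, h0, mul_zero]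
  -- the degree and the top coefficient
  have hdeg : F.natDegree ≤ D := by
    rw [hF]
    refine natDegree_sum_le_of_forall_le _ _ fun i _ => ?_
    refine natDegree_sum_le_of_forall_le _ _ fun k _ => ?_
    exact (natDegree_C_mul_X_pow_le _ _).trans (Nat.sub_le _ _)
  set p : A[X] := ∑ i ∈ Finset.range m, C ((P.coeff i).coeff 0) * X ^ (m - 1 - i) with hp
  have hcoeff : F.coeff D = 1 + X * p := by
    rw [hF, finset_sum_coeff]
    have h3 : ∀ i ∈ Finset.range (m + 1),
        (∑ k ∈ Finset.range (D + 1),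
          C (C ((P.coeff i).coeff k) * X ^ (m - i)) * X ^ (D - k) : (A[X])[X]).coeff D =
        C ((P.coeff i).coeff 0) * X ^ (m - i) := by
      intro i _
      rw [finset_sum_coeff, Finset.sum_eq_single 0]
      · rw [Nat.sub_zero, coeff_C_mul, coeff_X_pow, if_pos rfl, mul_one]
      · intro k hk hk0
        have hk' : k ≤ D := Nat.lt_succ_iff.1 (Finset.mem_range.1 hk)
        rw [coeff_C_mul, coeff_X_pow, if_neg, mul_zero]
        omega
      · intro h
        exact absurd (Finset.mem_range.2 (Nat.succ_pos D)) h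
    rw [Finset.sum_congr rfl h3, Finset.sum_range_succ, Nat.sub_self, pow_zero, mul_one]
    have h4 : (P.coeff m).coeff 0 = 1 := by
      rw [hm, hP.coeff_natDegree, coeff_one_zero]
    rw [h4, map_one, add_comm, hp, Finset.mul_sum]
    congr 1
    refine Finset.sum_congr rfl fun i hi => ?_
    have hi' : i < m := Finset.mem_range.1 hi
    have e : m - i = (m - 1 - i) + 1 := by omega
    rw [e, pow_succ]
    ring
  have hne : F.coeff D ≠ 0 := by
    rw [hcoeff]
    intro h0
    have := congrArg (fun g : A[X] => g.coeff 0) h0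
    simp only [coeff_add, coeff_one_zero, coeff_X_mul_zero, add_zero, coeff_zero] at this
    exact one_ne_zero this
  have hnat : F.natDegree = D := natDegree_eq_of_le_of_coeff_ne_zero hdeg hne
  have hlead : F.leadingCoeff = 1 + X * p := by
    rw [leadingCoeff, hnat, hcoeff]
  have key := RingHom.isIntegralElem_leadingCoeff_mul (f := evX (A := A) x⁻¹) F xq⁻¹ hval
  rw [hlead, evX_apply, map_add, map_one, map_mul, aeval_X] at key
  exact ⟨p, (mem_chartClosure_iff x⁻¹ _).2 key⟩

end Fermat.Agent.H16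

end
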