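import Fermat.Agent.H54.Cft.KummerInterfaces
import Fermat.Agent.H8.InertiaBasic

/-!
# P-CFT / KD-2b (row 504): `KummerUnramStatement` (helper16)

If `p ∣ ord_v a` and the residue characteristic of `A` is not `p`, the inertia group of `A`
inside `G_L` fixes every `p`-th root of `a`.
-/

set_option autoImplicit false

noncomputable section

namespace Fermat.Agent.H16

open IsDedekindDomain NumberField Fermat.Agent.H54.Cft

section Val

variable {K : Type*} [Field K] (A : ValuationSubring K)

/-- A root of unity has valuation `1`. -/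
theorem ku_valuation_eq_one_of_pow_eq_one {p : ℕ} (hp : p ≠ 0) {ω : K} (hω : ω ^ p = 1) :
    A.valuation ω = 1 := by
  have h : A.valuation ω ^ p = 1 := by rw [← map_pow, hω, map_one]
  exact (pow_eq_one_iff_of_nonneg zero_le hp).mp h

/-- If `β ^ p` is a unit of `A`, then so is `β`. -/
theorem ku_valuation_eq_one_of_pow {p : ℕ} (hp : p ≠ 0) {β : K}
    (h : A.valuation (β ^ p) = 1) : A.valuation β = 1 := by
  rw [map_pow] at h
  exact (pow_eq_one_iff_of_nonneg zero_le hp).mp h

/-- A nontrivial `p`-th root of unity congruent to `1` modulo the maximal ideal forces `p` into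
the maximal ideal. -/
theorem ku_natCast_mem_nonunits {p : ℕ} (hp : p ≠ 0) {ω : K} (hω : ω ^ p = 1) (hω1 : ω ≠ 1)
    (h : ω - 1 ∈ A.nonunits) : (p : K) ∈ A.nonunits := by
  have hsum : ∑ i ∈ Finset.range p, ω ^ i = 0 := by
    have := mul_geom_sum ω p
    rw [hω, sub_self] at this
    exact (mul_eq_zero.mp this).resolve_left (sub_ne_zero.mpr hω1)
  have hpK : (p : K) = ∑ i ∈ Finset.range p, (1 - ω ^ i) := by
    rw [Finset.sum_sub_distrib, hsum, sub_zero, Finset.sum_const, Finset.card_range,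
      nsmul_one]
  rw [ValuationSubring.mem_nonunits_iff] at h ⊢
  rw [hpK]
  refine Valuation.map_sum_lt _ one_ne_zero fun i _ => ?_
  have h1 : 1 - ω ^ i = -((ω - 1) * ∑ j ∈ Finset.range i, ω ^ j) := by
    rw [mul_geom_sum]; ring
  rw [h1, Valuation.map_neg, map_mul]
  have h2 : A.valuation (∑ j ∈ Finset.range i, ω ^ j) ≤ 1 := by
    refine Valuation.map_sum_le _ fun j _ => ?_
    rw [map_pow, ku_valuation_eq_one_of_pow_eq_one A hp hω, one_pow]
  calc A.valuation (ω - 1) * A.valuation (∑ j ∈ Finset.range i, ω ^ j)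
      ≤ A.valuation (ω - 1) * 1 := by gcongr
    _ = A.valuation (ω - 1) := mul_one _
    _ < 1 := h

end Val

section Key

variable (L : IntermediateField ℚ Qbar) [NumberField L] (A : ValuationSubring Qbar)
  (v : HeightOneSpectrum (𝓞 L))

omit [NumberField ↥L] in
/-- Algebraic integers lie in every valuation subring. -/
theorem ku_integer_mem (x : 𝓞 L) : (((x : L) : Qbar)) ∈ A := by
  have h1 : IsIntegral ℤ (x : L) := NumberField.RingOfIntegers.isIntegral_coe x
  have h2 : IsIntegral ℤ (((x : L) : Qbar)) := map_isIntegral_int (algebraMap L Qbar) h1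
  have h3 : IsIntegral A (((x : L) : Qbar)) := h2.tower_top
  obtain ⟨y, hy⟩ := IsIntegrallyClosed.isIntegral_iff.mp h3
  rw [← hy]
  exact y.2

variable {L A v}

/-- **Key lemma**: integers of `L` outside `v` are units of `A`. -/
theorem ku_valuation_eq_one_of_notMem (h : LiesOverHeightOne L A v) (d : 𝓞 L)
    (hd : d ∉ v.asIdeal) : A.valuation (((d : L) : Qbar)) = 1 := by
  have hle : A.valuation (((d : L) : Qbar)) ≤ 1 :=
    (A.valuation_le_one_iff _).mpr (ku_integer_mem L A d)
  refine le_antisymm hle (not_lt.mp fun hlt => ?_)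
  obtain ⟨y, i, hi, hyi⟩ := v.isMaximal.exists_inv hd
  have hi' : A.valuation (((i : L) : Qbar)) < 1 :=
    A.mem_nonunits_iff.mp (h i hi)
  have hy' : A.valuation (((y : L) : Qbar)) ≤ 1 :=
    (A.valuation_le_one_iff _).mpr (ku_integer_mem L A y)
  have h1 : (((y : L) : Qbar)) * (((d : L) : Qbar)) + (((i : L) : Qbar)) = 1 := by
    have := congrArg (fun z : 𝓞 L => (((z : L)) : Qbar)) hyi
    simpa using this
  have h2 : A.valuation ((((y : L) : Qbar)) * (((d : L) : Qbar)) + (((i : L) : Qbar))) < 1 := by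
    refine Valuation.map_add_lt _ ?_ hi'
    rw [map_mul]
    calc A.valuation (((y : L) : Qbar)) * A.valuation (((d : L) : Qbar))
        ≤ 1 * A.valuation (((d : L) : Qbar)) := by gcongr
      _ = A.valuation (((d : L) : Qbar)) := one_mul _
      _ < 1 := hlt
  rw [h1, map_one] at h2
  exact lt_irrefl _ h2

theorem ku_valuation_le_one (h : LiesOverHeightOne L A v) (u : L)
    (hu : v.valuation L u ≤ 1) : A.valuation ((u : Qbar)) ≤ 1 := by
  obtain ⟨n, d, hnd⟩ := v.exists_primeCompl_mul_eq_of_integer u hu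
  have hd := ku_valuation_eq_one_of_notMem h (d : 𝓞 L) d.2
  have hn : A.valuation (((n : L) : Qbar)) ≤ 1 :=
    (A.valuation_le_one_iff _).mpr (ku_integer_mem L A n)
  have h1 : (u : Qbar) * ((((d : 𝓞 L) : L) : Qbar)) = (((n : L) : Qbar)) := by
    have := congrArg (fun z : L => (z : Qbar)) hnd
    simpa using this
  have h2 := congrArg A.valuation h1
  rw [map_mul, hd, mul_one] at h2
  rw [h2]
  exact hn

/-- A `v`-unit of `L` is a unit of `A`. -/
theorem ku_valuation_eq_one (h : LiesOverHeightOne L A v) (u : L)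
    (hu : v.valuation L u = 1) : A.valuation ((u : Qbar)) = 1 := by
  have h1 := ku_valuation_le_one h u hu.le
  have hu' : v.valuation L u⁻¹ ≤ 1 := by rw [map_inv₀, hu, inv_one]
  have h2 := ku_valuation_le_one h u⁻¹ hu'
  have h3 : A.valuation ((u : Qbar))⁻¹ ≤ 1 := by
    have : ((u⁻¹ : L) : Qbar) = ((u : Qbar))⁻¹ := rfl
    rwa [this] at h2
  rw [map_inv₀] at h3
  have hne : A.valuation ((u : Qbar)) ≠ 0 := by
    intro h0
    rw [h0, inv_zero] at h3
    have hu0 : u = 0 := by
      have := (Valuation.zero_iff _).mp h0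
      exact_mod_cast this
    rw [hu0, map_zero] at hu
    exact zero_ne_one hu
  exact le_antisymm h1 ((inv_le_one₀ (zero_lt_iff.mpr hne)).mp h3)

end Key

section Main

/-- **KD-2' (row 504).** -/
theorem kummerUnramStatement : KummerUnramStatement := by
  intro p hp L _ _ α a hα A v hAv hAp hord σ hσ hσL
  have hp0 : p ≠ 0 := hp.out.ne_zero
  obtain ⟨m, hm⟩ := hord
  obtain ⟨π, hπ⟩ := v.valuation_exists_uniformizer L
  have hπ0 : π ≠ 0 := by
    intro h0
    rw [h0, map_zero] at hπ
    exact WithZero.exp_ne_zero hπ.symm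
  have hπ0' : ((π : L) : Qbar) ≠ 0 := by
    intro h0
    exact hπ0 (by exact_mod_cast h0)
  have hva : v.valuation L (a : L) = WithZero.exp ((p : ℤ) * m) := by
    rw [← v.valuationOfNeZero_eq a, ← hm]
    rfl
  have hvu : v.valuation L ((a : L) * π ^ ((p : ℤ) * m)) = 1 := by
    rw [map_mul, map_zpow₀, hπ, hva, ← WithZero.exp_zsmul, ← WithZero.exp_add]
    simp
  have hAu : A.valuation ((((a : L) * π ^ ((p : ℤ) * m) : L)) : Qbar) = 1 :=
    ku_valuation_eq_one hAv _ hvu
  set β : Qbar := α * ((π : L) : Qbar) ^ m with hβ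
  have hβp : β ^ p = ((((a : L) * π ^ ((p : ℤ) * m) : L)) : Qbar) := by
    rw [hβ, mul_pow, hα, ← zpow_natCast, ← zpow_mul, mul_comm m]
    push_cast
    rfl
  have hAβ : A.valuation β = 1 := ku_valuation_eq_one_of_pow A hp0 (by rw [hβp]; exact hAu)
  have hβA : β ∈ A := (A.valuation_le_one_iff β).mp hAβ.le
  have hβ0 : β ≠ 0 := by
    intro h0
    rw [h0, map_zero] at hAβ
    exact zero_ne_one hAβ
  have hσfix : ∀ x : L, σ ((x : L) : Qbar) = x := fun x =>
    (IntermediateField.mem_fixingSubgroup_iff L σ).mp hσL x x.2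
  have hσβp : (σ β) ^ p = β ^ p := by rw [← map_pow, hβp, hσfix]
  have hωp : (σ β / β) ^ p = 1 := by
    rw [div_pow, hσβp, div_self (pow_ne_zero _ hβ0)]
  have hσβ : σ β = (σ β / β) * β := by rw [div_mul_cancel₀ _ hβ0]
  have hin := Fermat.Agent.H8.apply_sub_mem_nonunits_of_mem_inertia A hσ hβA
  have hω1 : σ β / β - 1 ∈ A.nonunits := by
    rw [A.mem_nonunits_iff] at hin ⊢
    have h1 : σ β - β = (σ β / β - 1) * β := by
      rw [sub_mul, one_mul, div_mul_cancel₀ _ hβ0]
    rw [h1, map_mul, hAβ, mul_one] at hin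
    exact hin
  have hω_eq : σ β / β = 1 := by
    by_contra hne
    exact hAp (ku_natCast_mem_nonunits A hp0 hωp hne hω1)
  have hσβ' : σ β = β := by rw [hσβ, hω_eq, one_mul]
  have h2 : σ α * ((π : L) : Qbar) ^ m = α * ((π : L) : Qbar) ^ m := by
    have h3 := hσβ'
    rw [hβ, map_mul, map_zpow₀, hσfix] at h3
    exact h3
  exact mul_right_cancel₀ (zpow_ne_zero _ hπ0') h2

end Main

end Fermat.Agent.H16

end
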