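import Fermat.Agent.H68.FFD.Interfaces
import Fermat.Agent.H8.InertiaBasic

/-!
# P-FF / FF-D-TR (row 559): the trace trick (helper16)

`traceTrickStatement : Fermat.Agent.H68.FFD.TraceTrickStatement`: every element of an unramified
Hopf order is an `A`-linear combination of elements of the order which are equivariant for the
decomposition group.
-/

set_option autoImplicit false

noncomputable section

namespace Fermat.Agent.H16

open Fermat.Agent.H10.FF Fermat.Agent.H72.FF Fermat.Agent.H68.FFD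

section Conj

variable {Z : Type} [MulAction GQ Z]

/-- Conjugation of a function by a Galois automorphism: `(σ * h) z = σ (h (σ⁻¹ z))`. -/
def ttConj (σ : GQ) (h : Z → Qb) : Z → Qb := fun z => σ (h (σ⁻¹ • z))

theorem ttConj_apply (σ : GQ) (h : Z → Qb) (z : Z) : ttConj σ h z = σ (h (σ⁻¹ • z)) := rfl

theorem ttConj_one (h : Z → Qb) : ttConj (1 : GQ) h = h := by
  funext z
  simp [ttConj]

theorem ttConj_mul (σ τ : GQ) (h : Z → Qb) : ttConj (σ * τ) h = ttConj σ (ttConj τ h) := by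
  funext z
  simp only [ttConj, mul_inv_rev, mul_smul]
  rfl

theorem ttConj_inv_ttConj (σ : GQ) (h : Z → Qb) : ttConj σ⁻¹ (ttConj σ h) = h := by
  rw [← ttConj_mul, inv_mul_cancel, ttConj_one]

theorem ttConj_ttConj_inv (σ : GQ) (h : Z → Qb) : ttConj σ (ttConj σ⁻¹ h) = h := by
  rw [← ttConj_mul, mul_inv_cancel, ttConj_one]

theorem ttConj_injective (σ : GQ) : Function.Injective (ttConj (Z := Z) σ) := by
  intro h h' e
  rw [← ttConj_inv_ttConj σ h, e, ttConj_inv_ttConj]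

theorem ttConj_apply_smul (σ : GQ) (h : Z → Qb) (z : Z) : ttConj σ h (σ • z) = σ (h z) := by
  rw [ttConj_apply, inv_smul_smul]

theorem ttConj_eq_self_iff (σ : GQ) (h : Z → Qb) :
    ttConj σ h = h ↔ ∀ z, h (σ • z) = σ (h z) := by
  constructor
  · intro e z
    rw [← ttConj_apply_smul, e]
  · intro e
    funext z
    rw [ttConj_apply, ← e, smul_inv_smul]

end Conj

section Aux

/-- Conjugates of unramified integers by the decomposition group are unramified integers. -/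
theorem tt_apply_mem_unrInt (A : ValuationSubring Qb) {σ : GQ}
    (hσ : σ ∈ A.decompositionSubgroup ℚ) {a : Qb} (haA : a ∈ A)
    (ha : ∀ ι ∈ A.inertiaSubgroupIn ℚ, ι a = a) : σ a ∈ unrInt A := by
  refine ⟨Fermat.Agent.H8.apply_mem_of_mem_decomposition A hσ haA, ?_⟩
  intro ι hι
  -- `σ⁻¹ ι σ` lies in the inertia group
  obtain ⟨τ, hτ, rfl⟩ := hι
  have hn : (A.inertiaSubgroup ℚ).Normal := by
    unfold ValuationSubring.inertiaSubgroup
    infer_instance
  have hconj : (⟨σ, hσ⟩ : A.decompositionSubgroup ℚ)⁻¹ * τ * ⟨σ, hσ⟩ ∈ A.inertiaSubgroup ℚ := by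
    have := hn.conj_mem τ hτ (⟨σ, hσ⟩ : A.decompositionSubgroup ℚ)⁻¹
    simpa using this
  have hmem : σ⁻¹ * (τ : GQ) * σ ∈ A.inertiaSubgroupIn ℚ :=
    ⟨_, hconj, rfl⟩
  have h1 := ha _ hmem
  have h2 : (σ⁻¹ * (τ : GQ) * σ) a = σ⁻¹ ((τ : GQ) (σ a)) := rfl
  rw [h2] at h1
  have h3 := congrArg σ h1
  rw [show σ (σ⁻¹ ((τ : GQ) (σ a))) = (τ : GQ) (σ a) from by
    change (σ * σ⁻¹) ((τ : GQ) (σ a)) = _
    rw [mul_inv_cancel]; rfl] at h3
  exact h3

/-- The orbit of a function under conjugation is finite. -/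
theorem tt_orbit_finite {Z : Type} [Finite Z] [MulAction GQ Z] (x : Z → Qb) :
    (Set.range fun σ : GQ => ttConj σ x).Finite := by
  have hfin : ∀ _ : Z, (⋃ w : Z, (minpoly ℚ (x w)).rootSet Qb).Finite := fun _ =>
    Set.finite_iUnion fun w => Polynomial.rootSet_finite _ _
  refine (Set.Finite.pi' hfin).subset ?_
  rintro _ ⟨σ, rfl⟩ z
  show ttConj σ x z ∈ ⋃ w : Z, (minpoly ℚ (x w)).rootSet Qb
  rw [Set.mem_iUnion]
  refine ⟨σ⁻¹ • z, ?_⟩
  have hint : IsIntegral ℚ (x (σ⁻¹ • z)) :=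
    ((AlgebraicClosure.isAlgebraic ℚ).isAlgebraic (x (σ⁻¹ • z))).isIntegral
  rw [Polynomial.mem_rootSet]
  refine ⟨minpoly.ne_zero hint, ?_⟩
  rw [ttConj_apply, Polynomial.aeval_algHom_apply, minpoly.aeval, map_zero]

end Aux

section Main

/-- **FF-D-TR (row 559).** The trace trick. -/
theorem traceTrickStatement : TraceTrickStatement := by
  intro A hPUB Z _ _ _ hsm Hu hHu x hx
  classical
  -- the stabiliser of `x` in the decomposition group
  let S : Subgroup GQ :=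
    { carrier := {σ | σ ∈ A.decompositionSubgroup ℚ ∧ ttConj σ x = x}
      one_mem' := ⟨one_mem _, ttConj_one x⟩
      mul_mem' := fun {a b} ha hb => ⟨mul_mem ha.1 hb.1, by rw [ttConj_mul, hb.2, ha.2]⟩
      inv_mem' := fun {a} ha => ⟨inv_mem ha.1, by
        have h := ttConj_inv_ttConj a x
        rwa [ha.2] at h⟩ }
  have hS : ∀ σ, σ ∈ S ↔ σ ∈ A.decompositionSubgroup ℚ ∧ ttConj σ x = x := fun σ => Iff.rfl
  have hIS : A.inertiaSubgroupIn ℚ ≤ S := by
    intro σ hσ
    refine ⟨Fermat.Agent.H8.mem_decomposition_of_mem_inertiaSubgroupIn A hσ, ?_⟩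
    rw [ttConj_eq_self_iff]
    exact fun z => hHu.inertia_equiv x hx σ hσ z
  have hSD : S ≤ A.decompositionSubgroup ℚ := fun σ hσ => hσ.1
  have hE : ∃ E : IntermediateField ℚ Qb, FiniteDimensional ℚ E ∧
      ∀ σ ∈ A.decompositionSubgroup ℚ, (∀ e ∈ E, σ e = e) → σ ∈ S := by
    obtain ⟨E₀, hE₀fin, hE₀⟩ := hsm
    refine ⟨E₀ ⊔ IntermediateField.adjoin ℚ (Set.range x), ?_, ?_⟩
    · have := hE₀fin
      have : FiniteDimensional ℚ (IntermediateField.adjoin ℚ (Set.range x)) :=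
        IntermediateField.finiteDimensional_adjoin
          (fun a _ => ((AlgebraicClosure.isAlgebraic ℚ).isAlgebraic a).isIntegral)
      exact IntermediateField.finiteDimensional_sup _ _
    · intro σ hσD hσ
      refine ⟨hσD, ?_⟩
      rw [ttConj_eq_self_iff]
      intro z
      have h1 : σ • z = z :=
        hE₀ σ (fun e he => hσ e ((le_sup_left : E₀ ≤ _) he)) z (Set.mem_univ z)
      have h2 : σ (x z) = x z :=
        hσ _ ((le_sup_right : _ ≤ E₀ ⊔ IntermediateField.adjoin ℚ (Set.range x))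
          (IntermediateField.subset_adjoin ℚ _ ⟨z, rfl⟩))
      rw [h1, h2]
  obtain ⟨n, θ, θ', hθA, hθS, hsum⟩ := hPUB S hIS hSD hE
  -- the orbit of `x` under the decomposition group
  set O : Set (Z → Qb) := {x' | ∃ σ ∈ A.decompositionSubgroup ℚ, ttConj σ x = x'} with hO
  have hOfin : O.Finite := by
    refine (tt_orbit_finite x).subset ?_
    rintro x' ⟨σ, -, rfl⟩
    exact ⟨σ, rfl⟩
  -- the coefficient functions on the orbit
  let φ : Fin n → (Z → Qb) → Qb := fun j x' =>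
    if h : ∃ σ ∈ A.decompositionSubgroup ℚ, ttConj σ x = x' then h.choose (θ j) else 0
  have hφ : ∀ j σ, σ ∈ A.decompositionSubgroup ℚ → φ j (ttConj σ x) = σ (θ j) := by
    intro j σ hσ
    have h : ∃ σ' ∈ A.decompositionSubgroup ℚ, ttConj σ' x = ttConj σ x := ⟨σ, hσ, rfl⟩
    show (if h : ∃ σ' ∈ A.decompositionSubgroup ℚ, ttConj σ' x = ttConj σ x
      then h.choose (θ j) else 0) = σ (θ j)
    rw [dif_pos h]
    obtain ⟨h1, h2⟩ := h.choose_spec
    set σ' := h.choose with hσ'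
    have hmem : σ'⁻¹ * σ ∈ S := by
      refine ⟨mul_mem (inv_mem h1) hσ, ?_⟩
      rw [ttConj_mul, ← h2, ttConj_inv_ttConj]
    have h3 := (hθS j _ hmem).1
    have h4 : (σ'⁻¹ * σ) (θ j) = σ'⁻¹ (σ (θ j)) := rfl
    rw [h4] at h3
    have h5 := congrArg σ' h3
    rw [show σ' (σ'⁻¹ (σ (θ j))) = σ (θ j) from by
      change (σ' * σ'⁻¹) (σ (θ j)) = _
      rw [mul_inv_cancel]; rfl] at h5
    exact h5.symm
  -- the equivariant elements
  let y : Fin n → Z → Qb := fun j => ∑ x' ∈ hOfin.toFinset, (fun _ : Z => φ j x') * x'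
  have hy : ∀ j z, y j z = ∑ x' ∈ hOfin.toFinset, φ j x' * x' z := by
    intro j z
    show (∑ x' ∈ hOfin.toFinset, (fun _ : Z => φ j x') * x') z = _
    rw [Finset.sum_apply]
    rfl
  refine ⟨n, θ', y, fun j => (hθA j).2, ?_, ?_, ?_⟩
  · -- membership
    intro j
    refine Subring.sum_mem _ fun x' hx' => ?_
    rw [Set.Finite.mem_toFinset] at hx'
    obtain ⟨σ, hσ, rfl⟩ := hx'
    refine Subring.mul_mem _ (hHu.const_mem _ ?_) (hHu.dec_stable x hx σ hσ)
    rw [hφ j σ hσ]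
    exact tt_apply_mem_unrInt A hσ (hθA j).1 fun ι hι => (hθS j ι (hIS hι)).1
  · -- equivariance
    intro j τ hτ z
    rw [hy, hy, map_sum]
    symm
    refine Finset.sum_bij (fun x' _ => ttConj τ x') ?_ ?_ ?_ ?_
    · intro x' hx'
      rw [Set.Finite.mem_toFinset] at hx' ⊢
      obtain ⟨σ, hσ, rfl⟩ := hx'
      exact ⟨τ * σ, mul_mem hτ hσ, ttConj_mul τ σ x⟩
    · intro a _ b _ hab
      exact ttConj_injective τ hab
    · intro x'' hx''
      rw [Set.Finite.mem_toFinset] at hx''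
      obtain ⟨σ, hσ, rfl⟩ := hx''
      refine ⟨ttConj (τ⁻¹ * σ) x, ?_, ?_⟩
      · rw [Set.Finite.mem_toFinset]
        exact ⟨τ⁻¹ * σ, mul_mem (inv_mem hτ) hσ, rfl⟩
      · rw [ttConj_mul, ttConj_ttConj_inv]
    · intro x' hx'
      rw [Set.Finite.mem_toFinset] at hx'
      obtain ⟨σ, hσ, rfl⟩ := hx'
      rw [map_mul, ttConj_apply_smul, ← ttConj_mul, hφ j σ hσ, hφ j (τ * σ) (mul_mem hτ hσ)]
      rfl
  · -- the sum formula
    intro z
    have h1 : ∀ j, θ' j * y j z = ∑ x' ∈ hOfin.toFinset, θ' j * φ j x' * x' z := by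
      intro j
      rw [hy, Finset.mul_sum]
      exact Finset.sum_congr rfl fun x' _ => (mul_assoc _ _ _).symm
    rw [Finset.sum_congr rfl fun j _ => h1 j, Finset.sum_comm]
    have h2 : ∀ x' ∈ hOfin.toFinset,
        ∑ j, θ' j * φ j x' * x' z = if x' = x then x z else 0 := by
      intro x' hx'
      rw [Set.Finite.mem_toFinset] at hx'
      obtain ⟨σ, hσ, rfl⟩ := hx'
      rw [← Finset.sum_mul]
      have h3 : ∑ j, θ' j * φ j (ttConj σ x) = ∑ j, θ' j * σ (θ j) :=
        Finset.sum_congr rfl fun j _ => by rw [hφ j σ hσ]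
      rw [h3, hsum σ hσ]
      by_cases hσS : σ ∈ S
      · rw [if_pos hσS, if_pos hσS.2, one_mul, hσS.2]
      · have hne : ttConj σ x ≠ x := fun h => hσS ⟨hσ, h⟩
        rw [if_neg hσS, if_neg hne, zero_mul]
    rw [Finset.sum_congr rfl h2, Finset.sum_ite_eq' hOfin.toFinset x, if_pos]
    rw [Set.Finite.mem_toFinset]
    exact ⟨1, one_mem _, ttConj_one x⟩

end Main

end Fermat.Agent.H16

end
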