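import Mathlib
import Fermat.Agent.H53.S14T.Interfaces

/-!
# P-S14 subtask T-E1 (helper16): `SumValuationStatement`

Valuation of a sum `∑_{i<p} ι(c_i) z^i` when `v(z)^p ∈ v(Kˣ)` but `v(z) ∉ v(Kˣ)`: the nonzero
terms have pairwise distinct valuations, so the sum is integral iff every term is.
-/

set_option autoImplicit false

namespace Fermat.Agent.H16

section SumVal

variable {F : Type*} [Field F] (A : ValuationSubring F)

/-- If the nonzero terms of a finite sum have pairwise distinct valuations, the sum lies in the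
valuation ring iff every term does. -/
theorem sum_mem_iff_of_distinct_valuation {J : Type*} (s : Finset J) (f : J → F)
    (hdist : ∀ i ∈ s, ∀ j ∈ s, i ≠ j → f i ≠ 0 → f j ≠ 0 →
      A.valuation (f i) ≠ A.valuation (f j)) :
    (∑ i ∈ s, f i) ∈ A ↔ ∀ i ∈ s, f i ∈ A := by
  classical
  constructor
  · intro hsum
    by_contra hne
    push Not at hne
    obtain ⟨i₀, hi₀, hi₀A⟩ := hne
    obtain ⟨j, hj, hjmax⟩ := s.exists_max_image (fun i => A.valuation (f i)) ⟨i₀, hi₀⟩
    have hi₀1 : 1 < A.valuation (f i₀) := by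
      rw [← not_le, A.valuation_le_one_iff]
      exact hi₀A
    have hj1 : 1 < A.valuation (f j) := lt_of_lt_of_le hi₀1 (hjmax i₀ hi₀)
    have hfj : f j ≠ 0 := by
      intro h0
      rw [h0, map_zero] at hj1
      exact absurd hj1 (not_lt.mpr zero_le)
    have hlt : ∀ i ∈ s \ {j}, A.valuation (f i) < A.valuation (f j) := by
      intro i hi
      rw [Finset.mem_sdiff, Finset.mem_singleton] at hi
      by_cases hfi : f i = 0
      · rw [hfi, map_zero]; exact lt_trans zero_lt_one hj1
      · exact lt_of_le_of_ne (hjmax i hi.1) (hdist i hi.1 j hj hi.2 hfi hfj)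
    have hv := Valuation.map_sum_eq_of_lt A.valuation hj hlt
    have h1 : A.valuation (∑ i ∈ s, f i) ≤ 1 := (A.valuation_le_one_iff _).mpr hsum
    rw [hv] at h1
    exact absurd hj1 (not_lt.mpr h1)
  · intro h
    exact sum_mem h

/-- Bezout: if `v(z)^p` and `v(z)^m` (with `0 < m < p`, `p` prime) are valuations of nonzero
elements of `K`, so is `v(z)`. -/
theorem exists_valuation_eq_of_pow_coprime {K : Type*} [Field K] {G : Type*} [FunLike G K F]
    [RingHomClass G K F] (φ : G) {p m : ℕ} (hp : p.Prime) (hm0 : 0 < m) (hmp : m < p)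
    {z : F} {d e : K} (hd : d ≠ 0) (he : e ≠ 0)
    (hzp : A.valuation (z ^ p) = A.valuation (φ d))
    (hzm : A.valuation (z ^ m) = A.valuation (φ e)) :
    ∃ c : K, c ≠ 0 ∧ A.valuation z = A.valuation (φ c) := by
  have hcop : Nat.Coprime m p :=
    ((Nat.Prime.coprime_iff_not_dvd hp).mpr (Nat.not_dvd_of_pos_of_lt hm0 hmp)).symm
  have hz0 : A.valuation z ≠ 0 := by
    intro h0
    rw [map_pow, h0, zero_pow hp.ne_zero] at hzp
    have h1 : φ d = 0 := (Valuation.zero_iff _).mp hzp.symm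
    exact hd ((map_eq_zero φ).mp h1)
  have hbez : (1 : ℤ) = (m : ℤ) * Nat.gcdA m p + (p : ℤ) * Nat.gcdB m p := by
    have := Nat.gcd_eq_gcd_ab m p
    rw [hcop.gcd_eq_one] at this
    exact_mod_cast this
  refine ⟨e ^ (Nat.gcdA m p) * d ^ (Nat.gcdB m p),
    mul_ne_zero (zpow_ne_zero _ he) (zpow_ne_zero _ hd), ?_⟩
  rw [map_mul, map_zpow₀, map_zpow₀, map_mul, map_zpow₀, map_zpow₀, ← hzm, ← hzp, map_pow,
    map_pow, ← zpow_natCast, ← zpow_natCast, ← zpow_mul, ← zpow_mul, ← zpow_add₀ hz0, ← hbez,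
    zpow_one]

end SumVal

theorem sumValuation : Fermat.Agent.H53.SumValuationStatement := by
  intro p hp K _ _ ι z d hd A hzp hnot c
  have hvz0 : A.valuation z ≠ 0 := by
    intro h0
    rw [map_pow, h0, zero_pow hp.ne_zero] at hzp
    have h1 : ι d = 0 := (Valuation.zero_iff _).mp hzp.symm
    exact hd ((map_eq_zero ι).mp h1)
  have hz0 : z ≠ 0 := fun h => hvz0 (by rw [h, map_zero])
  -- a relation `v(z)^m ∈ v(Kˣ)` with `0 < m < p` is impossible
  have hkey : ∀ m : ℕ, 0 < m → m < p → ∀ e : K, e ≠ 0 →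
      A.valuation (z ^ m) ≠ A.valuation (ι e) := by
    intro m hm0 hmp e he hzm
    obtain ⟨c', hc', hc'v⟩ := exists_valuation_eq_of_pow_coprime A ι hp hm0 hmp hd he hzp hzm
    exact hnot c' hc' hc'v
  -- distinctness for `i < j`
  have hlt : ∀ i j : ℕ, i < j → j < p → ι (c i) * z ^ i ≠ 0 → ι (c j) * z ^ j ≠ 0 →
      A.valuation (ι (c i) * z ^ i) ≠ A.valuation (ι (c j) * z ^ j) := by
    intro i j hij hjp hi0 hj0 heq
    have hci : c i ≠ 0 := by
      intro h; apply hi0; rw [h, map_zero, zero_mul]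
    have hcj : c j ≠ 0 := by
      intro h; apply hj0; rw [h, map_zero, zero_mul]
    have hιcj : A.valuation (ι (c j)) ≠ 0 := by
      rw [Ne, Valuation.zero_iff, map_eq_zero]; exact hcj
    refine hkey (j - i) (Nat.sub_pos_of_lt hij) (lt_of_le_of_lt (Nat.sub_le j i) hjp)
      (c i / c j) (div_ne_zero hci hcj) ?_
    have hji : j = (j - i) + i := (Nat.sub_add_cancel hij.le).symm
    rw [map_mul, map_mul, map_pow, map_pow] at heq
    rw [map_div₀, map_div₀, map_pow, eq_div_iff hιcj]
    have hzi : A.valuation z ^ i ≠ 0 := pow_ne_zero i hvz0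
    apply mul_right_cancel₀ hzi
    rw [mul_assoc, mul_comm (A.valuation (ι (c j))), ← mul_assoc, ← pow_add, ← hji, heq,
      mul_comm]
  have hdist : ∀ i ∈ Finset.range p, ∀ j ∈ Finset.range p, i ≠ j → ι (c i) * z ^ i ≠ 0 →
      ι (c j) * z ^ j ≠ 0 →
      A.valuation (ι (c i) * z ^ i) ≠ A.valuation (ι (c j) * z ^ j) := by
    intro i hi j hj hij hi0 hj0
    rw [Finset.mem_range] at hi hj
    rcases lt_or_gt_of_ne hij with h | h
    · exact hlt i j h hj hi0 hj0
    · exact (hlt j i h hi hj0 hi0).symm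
  have hmem := sum_mem_iff_of_distinct_valuation A (Finset.range p)
    (fun i => ι (c i) * z ^ i) hdist
  have hterm : ∀ i : ℕ, ι (c i) * z ^ i ∈ A ↔ ι (c i ^ p * d ^ i) ∈ A := by
    intro i
    rw [← A.valuation_le_one_iff, ← A.valuation_le_one_iff]
    have hzp' : A.valuation (ι d) = A.valuation z ^ p := by rw [← hzp, map_pow]
    have h1 : A.valuation (ι (c i ^ p * d ^ i)) = A.valuation (ι (c i) * z ^ i) ^ p := by
      simp only [map_mul, map_pow, mul_pow, hzp']
      rw [← pow_mul, ← pow_mul, mul_comm p i]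
    rw [h1, pow_le_one_iff hp.ne_zero]
  refine ⟨?_, ?_⟩
  · rw [hmem]
    exact forall₂_congr (fun i _ => hterm i)
  · intro hsum i hi hi0
    have hiA : ι (c i) * z ^ i ∈ A := hmem.mp hsum i hi
    rw [Finset.mem_range] at hi
    rw [ValuationSubring.mem_nonunits_iff]
    have hle : A.valuation (ι (c i) * z ^ i) ≤ 1 := (A.valuation_le_one_iff _).mpr hiA
    refine lt_of_le_of_ne hle ?_
    intro h1
    have hci : c i ≠ 0 := by
      intro h
      rw [h, map_zero, zero_mul, map_zero] at h1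
      exact zero_ne_one h1
    have hιci : A.valuation (ι (c i)) ≠ 0 := by
      rw [Ne, Valuation.zero_iff, map_eq_zero]; exact hci
    refine hkey i (Nat.pos_of_ne_zero hi0) hi (c i)⁻¹ (inv_ne_zero hci) ?_
    rw [map_mul] at h1
    rw [map_inv₀, map_inv₀]
    exact eq_inv_of_mul_eq_one_right h1

end Fermat.Agent.H16
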