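import Mathlib
import Fermat.Agent.H13.S14Interfaces

/-!
# P-S14 subtask S14-C1 (helper16): `SingularIdealStatement`

A singular element `α` (every `P`-adic valuation divisible by `p`) generates the `p`-th power
of a fractional ideal.
-/

set_option autoImplicit false

open scoped NumberField nonZeroDivisors
open IsDedekindDomain FractionalIdeal

namespace Fermat.Agent.H16

variable {R : Type*} [CommRing R] [IsDedekindDomain R] {K : Type*} [Field K] [Algebra R K]
  [IsFractionRing R K]

/-- the count of `v` in the principal fractional ideal of an integer `x ∉ v` vanishes -/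
theorem count_spanSingleton_algebraMap_of_notMem (v : HeightOneSpectrum R) {x : R}
    (hx : x ∉ v.asIdeal) :
    FractionalIdeal.count K v (FractionalIdeal.spanSingleton R⁰ (algebraMap R K x)) = 0 := by
  have hx0 : x ≠ 0 := fun h => hx (h ▸ v.asIdeal.zero_mem)
  have hspan : (Ideal.span {x} : Ideal R) ≠ 0 := by
    rw [Ne, Ideal.zero_eq_bot, Ideal.span_singleton_eq_bot]
    exact hx0
  rw [← FractionalIdeal.coeIdeal_span_singleton, FractionalIdeal.count_coe K v hspan]
  rw [Nat.cast_eq_zero]
  by_contra hne
  have hdvd : v.asIdeal ∣ Ideal.span {x} :=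
    (Associates.count_ne_zero_iff_dvd hspan v.irreducible).mp hne
  exact hx ((Ideal.dvd_iff_le.mp hdvd) (Ideal.mem_span_singleton_self x))

/-- key divisibility: for a singular `α`, `p` divides every count of `(α)`. -/
theorem dvd_count_of_relation (p : ℕ) (v : HeightOneSpectrum R) {α β : K} (hα : α ≠ 0)
    (hβ : β ≠ 0) {x y : R} (hx : x ∉ v.asIdeal) (hy : y ∉ v.asIdeal)
    (h : α * β ^ p * algebraMap R K y = algebraMap R K x) :
    (p : ℤ) ∣ FractionalIdeal.count K v (FractionalIdeal.spanSingleton R⁰ α) := by
  have hy0 : algebraMap R K y ≠ 0 := by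
    intro h0
    apply hy
    have : y = 0 := (IsFractionRing.injective R K) (by rw [h0, map_zero])
    rw [this]; exact v.asIdeal.zero_mem
  have hA : FractionalIdeal.spanSingleton R⁰ α ≠ 0 :=
    FractionalIdeal.spanSingleton_ne_zero_iff.mpr hα
  have hB : FractionalIdeal.spanSingleton R⁰ β ≠ 0 :=
    FractionalIdeal.spanSingleton_ne_zero_iff.mpr hβ
  have hY : FractionalIdeal.spanSingleton R⁰ (algebraMap R K y) ≠ 0 :=
    FractionalIdeal.spanSingleton_ne_zero_iff.mpr hy0
  have hrel : FractionalIdeal.spanSingleton R⁰ α * FractionalIdeal.spanSingleton R⁰ β ^ p *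
      FractionalIdeal.spanSingleton R⁰ (algebraMap R K y) =
      FractionalIdeal.spanSingleton R⁰ (algebraMap R K x) := by
    rw [FractionalIdeal.spanSingleton_pow, FractionalIdeal.spanSingleton_mul_spanSingleton,
      FractionalIdeal.spanSingleton_mul_spanSingleton, h]
  have hc := congrArg (FractionalIdeal.count K v) hrel
  rw [FractionalIdeal.count_mul K v (mul_ne_zero hA (pow_ne_zero p hB)) hY,
    FractionalIdeal.count_mul K v hA (pow_ne_zero p hB), FractionalIdeal.count_pow,
    count_spanSingleton_algebraMap_of_notMem v hx,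
    count_spanSingleton_algebraMap_of_notMem v hy, add_zero] at hc
  have : FractionalIdeal.count K v (FractionalIdeal.spanSingleton R⁰ α) =
      (p : ℤ) * (-(FractionalIdeal.count K v (FractionalIdeal.spanSingleton R⁰ β))) := by
    linarith
  exact ⟨_, this⟩

/-- a nonzero fractional ideal all of whose counts are divisible by `p > 0` is a `p`-th power. -/
theorem exists_pow_eq_of_dvd_count (p : ℕ) (hp : 0 < p) (A : FractionalIdeal R⁰ K) (hA : A ≠ 0)
    (hdvd : ∀ v : HeightOneSpectrum R, (p : ℤ) ∣ FractionalIdeal.count K v A) :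
    ∃ I : (FractionalIdeal R⁰ K)ˣ, A = ((I ^ p : (FractionalIdeal R⁰ K)ˣ) : FractionalIdeal R⁰ K) := by
  classical
  set e : HeightOneSpectrum R → ℤ := fun v => FractionalIdeal.count K v A / p with he
  set f : HeightOneSpectrum R → FractionalIdeal R⁰ K :=
    fun v => (v.asIdeal : FractionalIdeal R⁰ K) ^ e v with hf
  have hfin : (Function.mulSupport f).Finite := by
    have h0 : {v : HeightOneSpectrum R | FractionalIdeal.count K v A ≠ 0}.Finite := by
      have := FractionalIdeal.finite_factors (K := K) A
      rwa [Filter.eventually_cofinite] at this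
    refine h0.subset fun v hv => ?_
    rw [Function.mem_mulSupport] at hv
    intro hc
    apply hv
    simp [hf, he, hc]
  set J : FractionalIdeal R⁰ K := ∏ᶠ v, f v with hJ
  have hJp : J ^ p = A := by
    rw [hJ, finprod_pow hfin]
    rw [← FractionalIdeal.finprod_heightOneSpectrum_factorization' K hA]
    refine finprod_congr fun v => ?_
    rw [hf]
    simp only
    rw [← zpow_natCast, ← zpow_mul, he]
    simp only
    rw [Int.ediv_mul_cancel (hdvd v)]
  have hJ0 : J ≠ 0 := by
    intro h0
    rw [h0, zero_pow hp.ne'] at hJp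
    exact hA hJp.symm
  refine ⟨Units.mk0 J hJ0, ?_⟩
  rw [Units.val_pow_eq_pow_val, Units.val_mk0, hJp]

theorem singularIdeal : Fermat.Agent.H13.SingularIdealStatement := by
  intro p _ K _ _ α hα hsing
  have hp : 0 < p := (Fact.out : p.Prime).pos
  refine exists_pow_eq_of_dvd_count p hp _ (FractionalIdeal.spanSingleton_ne_zero_iff.mpr hα) ?_
  intro v
  obtain ⟨β, hβ, x, y, hx, hy, h⟩ := hsing v.asIdeal v.isPrime v.ne_bot
  exact dvd_count_of_relation p v hα hβ hx hy h

end Fermat.Agent.H16
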