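import Mathlib
import Fermat.Agent.H76.ThaineInterfaces

/-!
# P-S14 subtask C3-b1 (helper16): `UnramifiedStatement`

`F = K(ζ_ℓ)` over `K = ℚ(ζ_p)` is unramified at every prime not above `ℓ`.
Also: `F` is the `pℓ`-th cyclotomic field over `ℚ` (`isCyclotomicExtension_mul`).
-/
set_option autoImplicit false

open scoped NumberField nonZeroDivisors

namespace Fermat.Agent.H16

/-- `F = K(ζ_ℓ)` with `K = ℚ(ζ_p)` is the `pℓ`-th cyclotomic field. -/
theorem isCyclotomicExtension_mul (p ℓ : ℕ) [Fact p.Prime] [Fact ℓ.Prime] (hℓp : ℓ ≠ p)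
    (K : Type) [Field K] [NumberField K]
    [IsCyclotomicExtension {p} ℚ K] (F : Type) [Field F] [NumberField F] [Algebra K F]
    [IsCyclotomicExtension {ℓ} K F] : IsCyclotomicExtension {p * ℓ} ℚ F := by
  have hp : p.Prime := Fact.out
  have hℓ : ℓ.Prime := Fact.out
  have : NeZero p := ⟨hp.ne_zero⟩
  have : NeZero ℓ := ⟨hℓ.ne_zero⟩
  have h1 : IsCyclotomicExtension ({p} ∪ {ℓ}) ℚ F :=
    IsCyclotomicExtension.trans {p} {ℓ} ℚ K F (FaithfulSMul.algebraMap_injective K F)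
  have hζp : IsPrimitiveRoot (algebraMap K F (IsCyclotomicExtension.zeta p ℚ K)) p :=
    (IsCyclotomicExtension.zeta_spec p ℚ K).map_of_injective
      (FaithfulSMul.algebraMap_injective K F)
  have hζℓ : IsPrimitiveRoot (IsCyclotomicExtension.zeta ℓ K F) ℓ :=
    IsCyclotomicExtension.zeta_spec ℓ K F
  have hcop : Nat.Coprime p ℓ := (Nat.coprime_primes hp hℓ).mpr (Ne.symm hℓp)
  have hlcm : Nat.lcm p ℓ = p * ℓ := hcop.lcm_eq_mul
  have hr := hζp.pow_mul_pow_lcm hζℓ hp.ne_zero hℓ.ne_zero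
  rw [hlcm] at hr
  have h2 : IsCyclotomicExtension (({p} ∪ {ℓ}) ∪ {p * ℓ}) ℚ F :=
    IsCyclotomicExtension.union_of_isPrimitiveRoot _ ℚ F hr
  have h3 : IsCyclotomicExtension {p * ℓ} ℚ F ↔ IsCyclotomicExtension ({p * ℓ} ∪ {p}) ℚ F :=
    IsCyclotomicExtension.iff_union_of_dvd ℚ F
      ⟨p * ℓ, Set.mem_singleton _, mul_ne_zero hp.ne_zero hℓ.ne_zero, dvd_mul_right p ℓ⟩
  have h4 : IsCyclotomicExtension ({p * ℓ} ∪ {p}) ℚ F ↔
      IsCyclotomicExtension (({p * ℓ} ∪ {p}) ∪ {ℓ}) ℚ F :=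
    IsCyclotomicExtension.iff_union_of_dvd ℚ F
      ⟨p * ℓ, Or.inl (Set.mem_singleton _), mul_ne_zero hp.ne_zero hℓ.ne_zero, dvd_mul_left ℓ p⟩
  have hset : (({p * ℓ} ∪ {p}) ∪ {ℓ} : Set ℕ) = ({p} ∪ {ℓ}) ∪ {p * ℓ} := by
    ext x; simp only [Set.mem_union, Set.mem_singleton_iff]; tauto
  rw [h3, h4, hset]
  exact h2

theorem unramified : Fermat.Agent.H76.UnramifiedStatement := by
  intro p ℓ _ _ hp5 K _ _ _ F _ _ _ _ hℓp Q hQ hQ0 hℓQ
  have hp : p.Prime := Fact.out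
  have hℓ : ℓ.Prime := Fact.out
  have : NeZero p := ⟨hp.ne_zero⟩
  have : NeZero ℓ := ⟨hℓ.ne_zero⟩
  have : NeZero (p * ℓ) := ⟨mul_ne_zero hp.ne_zero hℓ.ne_zero⟩
  have : IsCyclotomicExtension {p * ℓ} ℚ F := isCyclotomicExtension_mul p ℓ hℓp K F
  have : NeZero Q := ⟨hQ0⟩
  -- the rational prime under `Q`
  set q : ℕ := Ideal.absNorm (Ideal.under ℤ Q) with hq_def
  have hq : q.Prime := Nat.absNorm_under_prime Q
  have : Fact q.Prime := ⟨hq⟩
  have hQq : Q.LiesOver (Ideal.span {(q : ℤ)}) := Int.liesOver_span_absNorm Q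
  have hqQ : ((q : ℕ) : 𝓞 F) ∈ Q := Int.absNorm_under_mem Q
  have hqℓ : q ≠ ℓ := fun h => hℓQ (h ▸ hqQ)
  -- the prime of `K` under `Q`
  set Qk : Ideal (𝓞 K) := Q.under (𝓞 K) with hQk
  have hQQk : Q.LiesOver Qk := ⟨rfl⟩
  have hQkprime : Qk.IsPrime := Ideal.IsPrime.under (𝓞 K) Q
  have hQkq : Qk.LiesOver (Ideal.span {(q : ℤ)}) := Ideal.LiesOver.tower_bot Q Qk _
  have htower : Q.ramificationIdx ℤ = Qk.ramificationIdx ℤ * Q.ramificationIdx (𝓞 K) :=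
    Ideal.ramificationIdx_tower (R := ℤ) Qk Q
  by_cases hqp : q = p
  · have hndvd : ¬ q ∣ ℓ := by
      rw [Nat.prime_dvd_prime_iff_eq hq hℓ]; exact hqℓ
    have h1 : Q.ramificationIdx ℤ = q ^ 0 * (q - 1) :=
      IsCyclotomicExtension.Rat.ramificationIdx_eq (p * ℓ) F Q (k := 0) (m := ℓ)
        (by rw [zero_add, pow_one, hqp]) hndvd
    have hK : IsCyclotomicExtension {q} ℚ K := hqp ▸ (inferInstance : IsCyclotomicExtension {p} ℚ K)
    have h2 : Qk.ramificationIdx ℤ = q - 1 :=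
      IsCyclotomicExtension.Rat.ramificationIdx_eq_of_prime q K Qk
    rw [h1, h2, pow_zero, one_mul] at htower
    have hpos : 0 < q - 1 := Nat.sub_pos_of_lt hq.one_lt
    exact (Nat.eq_of_mul_eq_mul_left hpos (by rw [mul_one]; exact htower)).symm
  · have hndvd : ¬ q ∣ p * ℓ := by
      rw [hq.dvd_mul, Nat.prime_dvd_prime_iff_eq hq hp, Nat.prime_dvd_prime_iff_eq hq hℓ]
      tauto
    have h1 : Q.ramificationIdx ℤ = 1 :=
      IsCyclotomicExtension.Rat.ramificationIdx_eq_of_not_dvd q F Q hndvd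
    rw [h1] at htower
    exact Nat.eq_one_of_mul_eq_one_left htower.symm

end Fermat.Agent.H16
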