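/-
helper16 (P-ES, ES-D-A1 / T1): `Fermat.Agent.H58.PrincipalInputStatement` — principal divisors and
the pole divisor of a separating element, in any characteristic.
Everything lives in namespace `Fermat.Agent.H16`.
-/
import Fermat.Agent.H16.FFPrincipal
import Fermat.Agent.H58.RR.ESD

set_option autoImplicit false

noncomputable section

open AlgebraicCurve IntermediateField Polynomial

namespace Fermat.Agent.H16

section poles

variable {K F : Type*} [Field K] [Field F] [Algebra K F]

/-- The pole divisor of a separating element `x`: effective, bounding the poles of `x`, of degree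
`[F : K(x)] > 0`. -/
theorem ffb_exists_poleDivisor [IsAlgClosed K] (x : F) (hx : Transcendental K x)
    [FiniteDimensional K⟮x⟯ F] [Algebra.IsSeparable K⟮x⟯ F] :
    ∃ B : Divisor K F, 0 ≤ B ∧ (∀ v : Place K F, -B v ≤ v.ord x) ∧
      Divisor.degree B = (Module.finrank K⟮x⟯ F : ℤ) ∧ 0 < Divisor.degree B := by
  classical
  have hdeg : ∀ v : Place K F, v.deg = 1 := fun v => ffb_deg_eq_one x v
  have hft' : Transcendental K x⁻¹ := by
    intro h
    apply hx
    have := h.inv
    rwa [inv_inv] at this
  have hinv : K⟮x⁻¹⟯ = K⟮x⟯ := ffb_adjoin_simple_inv x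
  have key : {v : Place K F | 0 < v.ord x⁻¹}.Finite ∧
      ∑ᶠ v ∈ {v : Place K F | 0 < v.ord x⁻¹}, v.ord x⁻¹ = (Module.finrank K⟮x⟯ F : ℤ) := by
    have h1 : ∀ (E : IntermediateField K F), E = K⟮x⟯ → K⟮x⁻¹⟯ = E →
        {v : Place K F | 0 < v.ord x⁻¹}.Finite ∧
        ∑ᶠ v ∈ {v : Place K F | 0 < v.ord x⁻¹}, v.ord x⁻¹ = (Module.finrank E F : ℤ) := by
      intro E hE hE'
      subst hE'
      have : FiniteDimensional K⟮x⁻¹⟯ F := hE ▸ (inferInstance : FiniteDimensional K⟮x⟯ F)
      have : Algebra.IsSeparable K⟮x⁻¹⟯ F := hE ▸ (inferInstance : Algebra.IsSeparable K⟮x⟯ F)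
      exact ffb_fundamentalIdentity_zeros x⁻¹ hft'
    exact h1 K⟮x⟯ rfl hinv
  obtain ⟨hfin, hsum⟩ := key
  have hsupp : (Function.support fun v : Place K F => max 0 (v.ord x⁻¹)).Finite := by
    refine hfin.subset ?_
    intro v hv
    simp only [Function.mem_support, ne_eq] at hv
    simp only [Set.mem_ofPred_eq]
    by_contra hcon
    exact hv (max_eq_left (not_lt.mp hcon))
  set B : Divisor K F := Finsupp.ofSupportFinite _ hsupp with hB
  have hBv : ∀ v, B v = max 0 (v.ord x⁻¹) := fun v => rfl
  have hBdeg : Divisor.degree B = (Module.finrank K⟮x⟯ F : ℤ) := by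
    rw [ffb_degree_eq_sum hdeg, ← hsum]
    have hsuppeq : (B.support : Set (Place K F)) = {v : Place K F | 0 < v.ord x⁻¹} := by
      ext v
      simp only [Finset.mem_coe, Finsupp.mem_support_iff, hBv, Set.mem_ofPred_eq]
      constructor
      · intro h
        by_contra hcon
        exact h (max_eq_left (not_lt.mp hcon))
      · intro h
        rw [max_eq_right h.le]
        exact h.ne'
    rw [← hsuppeq, finsum_mem_coe_finset]
    refine Finset.sum_congr rfl fun v hv => ?_
    have : 0 < v.ord x⁻¹ := by
      have : v ∈ (B.support : Set (Place K F)) := hv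
      rwa [hsuppeq] at this
    rw [hBv, max_eq_right this.le]
  refine ⟨B, ?_, ?_, hBdeg, ?_⟩
  · intro v
    rw [hBv]
    exact le_max_left _ _
  · intro v
    rw [hBv, Place.ord_inv]
    have := le_max_right 0 (-v.ord x)
    omega
  · rw [hBdeg]
    have : 0 < Module.finrank K⟮x⟯ F := Module.finrank_pos
    exact_mod_cast this

end poles

/-- **ES-D-A1 (reduced form)**: the principal input of Riemann's theorem, in any
characteristic. -/
theorem principalInputStatement : Fermat.Agent.H58.PrincipalInputStatement := by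
  intro K F _ _ _ _ x hx hfin hsep
  have := hfin
  have := hsep
  refine ⟨ffb_hasPrincipalDivisors x, ?_⟩
  obtain ⟨B, h0, h1, h2, h3⟩ := ffb_exists_poleDivisor x hx
  exact ⟨B, h0, h1, h2.le, h3⟩

/-- Riemann's theorem in any characteristic (`ES-D-A1`). -/
theorem riemannTheoremStatement : Fermat.Agent.H27.ESD.RiemannTheoremStatement :=
  Fermat.Agent.H58.riemannTheorem_of_principalInput principalInputStatement

end Fermat.Agent.H16
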