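/-
helper16 (P-ES, ES-D target T1): `Fermat.Agent.H27.ESD.RRModLStatement` — the reduction fields
`F_k` of `X₀(N)` in characteristic `ℓ ∤ N` satisfy the hypotheses of Riemann's theorem.
Glue of `H89.ffModLStatement` (finite separable over `k(j̄)`), `H16.FFPrincipal` (principal divisors
in any characteristic) and `H58.rrHyp_of_finite` (growth).
-/
import Fermat.Agent.H16.FFPrincipalInput
import Fermat.Agent.H89.ESDA3
import Fermat.Agent.H27.ESD.Interfaces1c

set_option autoImplicit false
set_option synthInstance.maxHeartbeats 400000

noncomputable section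

open AlgebraicCurve IntermediateField

namespace Fermat.Agent.H16

/-- `RRHyp` for any function field over an algebraically closed field (any characteristic)
admitting a separating transcendental element. -/
theorem ffb_rrHyp {K F : Type*} [Field K] [Field F] [Algebra K F] [IsAlgClosed K] (x : F)
    (hx : Transcendental K x) [FiniteDimensional K⟮x⟯ F] [Algebra.IsSeparable K⟮x⟯ F] :
    Fermat.Agent.H58.RRHyp K F := by
  have hP : HasPrincipalDivisors K F := ffb_hasPrincipalDivisors x
  obtain ⟨B, h0, h1, h2, h3⟩ := ffb_exists_poleDivisor x hx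
  exact Fermat.Agent.H58.rrHyp_of_finite (fun v => ffb_deg_eq_one x v) x hx B h0 h1 h2.le h3

/-- **ES-D target T1**: the reduction fields satisfy the hypotheses of Riemann's theorem. -/
theorem rrModLStatement : Fermat.Agent.H27.ESD.RRModLStatement := by
  intro N _ ℓ _ hℓN A hA
  obtain ⟨hk, x, hx, hfin, hsep⟩ := Fermat.Agent.H89.ffModLStatement N ℓ hℓN A hA
  exact ⟨hk, ffb_rrHyp x hx⟩

end Fermat.Agent.H16
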