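import Fermat.Agent.H16.ES1ESInterfaces

/-!
# P-DS / ES1-ES (row 580): the diamond automorphisms commute with the arithmetic Galois action

* `es1_ringHom_ext` : ring homomorphisms out of `L · ℚ(S)` into a field are determined by their
  values on the constants and on the generators `S`.
* `diamondAut_full`, `diamondAut_v` : the defining properties of `diamondAut`, from
  `DiamondExistsStatement`.
* `diamondAut_galois` : `σ (aut d f) = aut d (σ f)` on `F1Bar M`.
-/

set_option autoImplicit false
set_option linter.style.haveILetI false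
set_option linter.unusedSectionVars false

noncomputable section

namespace Fermat.Agent.H16

open ModularCurve AlgebraicCurve HahnSeries IntermediateField Fermat.Agent.H29.ES1

section Ext

variable {L : Type*} [Field L] [Algebra ℚ L]

theorem es1_coeffEmb_algebraMap (c : ℚ) :
    coeffEmb L (algebraMap ℚ (LaurentSeries ℚ) c) =
      algebraMap L (LaurentSeries L) (algebraMap ℚ L c) := by
  rw [algebraMap_laurentSeries_eq_single, algebraMap_laurentSeries_eq_single, coeffEmb,
    coeffMap_single]

/-- Ring homomorphisms out of `L · ℚ(S)` into a field which agree on the constants and on the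
generators `S` are equal. -/
theorem es1_ringHom_ext_adjoin {E : Type*} [Field E] (S : Set (LaurentSeries ℚ))
    (φ ψ : laurentBaseChange L (IntermediateField.adjoin ℚ S) →+* E)
    (hconst : ∀ c : L, φ (algebraMap L _ c) = ψ (algebraMap L _ c))
    (hgen : ∀ z (hz : z ∈ S),
      φ ⟨coeffEmb L z, coeffEmb_mem_laurentBaseChange L (IntermediateField.subset_adjoin ℚ S hz)⟩
        = ψ ⟨coeffEmb L z,
            coeffEmb_mem_laurentBaseChange L (IntermediateField.subset_adjoin ℚ S hz)⟩)
    (x : laurentBaseChange L (IntermediateField.adjoin ℚ S)) : φ x = ψ x := by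
  -- inner induction: the images of the elements of `ℚ(S)`
  have inner : ∀ z (_ : z ∈ IntermediateField.adjoin ℚ S)
      (h : coeffEmb L z ∈ laurentBaseChange L (IntermediateField.adjoin ℚ S)),
      φ ⟨coeffEmb L z, h⟩ = ψ ⟨coeffEmb L z, h⟩ := by
    intro z hz
    induction hz using IntermediateField.adjoin_induction with
    | mem z hz => exact fun _ => hgen z hz
    | algebraMap c =>
        intro h
        have e : (⟨coeffEmb L (algebraMap ℚ (LaurentSeries ℚ) c), h⟩ :
            laurentBaseChange L (IntermediateField.adjoin ℚ S)) =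
            algebraMap L _ (algebraMap ℚ L c) := Subtype.ext (es1_coeffEmb_algebraMap c)
        rw [e]
        exact hconst _
    | add x y hx hy ihx ihy =>
        intro h
        have hx' := coeffEmb_mem_laurentBaseChange L hx
        have hy' := coeffEmb_mem_laurentBaseChange L hy
        have e : (⟨coeffEmb L (x + y), h⟩ : laurentBaseChange L (IntermediateField.adjoin ℚ S)) =
            ⟨coeffEmb L x, hx'⟩ + ⟨coeffEmb L y, hy'⟩ := Subtype.ext (map_add _ _ _)
        rw [e, map_add, map_add, ihx hx', ihy hy']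
    | inv x hx ihx =>
        intro h
        have hx' := coeffEmb_mem_laurentBaseChange L hx
        have e : (⟨coeffEmb L x⁻¹, h⟩ : laurentBaseChange L (IntermediateField.adjoin ℚ S)) =
            (⟨coeffEmb L x, hx'⟩ : laurentBaseChange L (IntermediateField.adjoin ℚ S))⁻¹ :=
          Subtype.ext (map_inv₀ _ _)
        rw [e, map_inv₀, map_inv₀, ihx hx']
    | mul x y hx hy ihx ihy =>
        intro h
        have hx' := coeffEmb_mem_laurentBaseChange L hx
        have hy' := coeffEmb_mem_laurentBaseChange L hy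
        have e : (⟨coeffEmb L (x * y), h⟩ : laurentBaseChange L (IntermediateField.adjoin ℚ S)) =
            ⟨coeffEmb L x, hx'⟩ * ⟨coeffEmb L y, hy'⟩ := Subtype.ext (map_mul _ _ _)
        rw [e, map_mul, map_mul, ihx hx', ihy hy']
  -- outer induction
  obtain ⟨x, hx⟩ := x
  have hx' := mem_laurentBaseChange_iff.mp hx
  refine Subfield.closure_induction
    (p := fun x _ => ∀ hx : x ∈ laurentBaseChange L (IntermediateField.adjoin ℚ S),
      φ ⟨x, hx⟩ = ψ ⟨x, hx⟩) ?_ ?_ ?_ ?_ ?_ ?_ hx' hx
  · rintro y (⟨c, rfl⟩ | ⟨z, hz, rfl⟩) h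
    · exact hconst c
    · exact inner z hz h
  · intro h
    have e : (⟨1, h⟩ : laurentBaseChange L (IntermediateField.adjoin ℚ S)) = 1 := rfl
    rw [e, map_one, map_one]
  · intro x y hx hy ihx ihy h
    have e : (⟨x + y, h⟩ : laurentBaseChange L (IntermediateField.adjoin ℚ S)) =
        ⟨x, hx⟩ + ⟨y, hy⟩ := rfl
    rw [e, map_add, map_add, ihx hx, ihy hy]
  · intro x hx ihx h
    have e : (⟨-x, h⟩ : laurentBaseChange L (IntermediateField.adjoin ℚ S)) = -⟨x, hx⟩ := rfl
    rw [e, map_neg, map_neg, ihx hx]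
  · intro x hx ihx h
    have e : (⟨x⁻¹, h⟩ : laurentBaseChange L (IntermediateField.adjoin ℚ S)) =
        (⟨x, hx⟩ : laurentBaseChange L (IntermediateField.adjoin ℚ S))⁻¹ := rfl
    rw [e, map_inv₀, map_inv₀, ihx hx]
  · intro x y hx hy ihx ihy h
    have e : (⟨x * y, h⟩ : laurentBaseChange L (IntermediateField.adjoin ℚ S)) =
        ⟨x, hx⟩ * ⟨y, hy⟩ := rfl
    rw [e, map_mul, map_mul, ihx hx, ihy hy]

/-- Ring homomorphisms out of `L · F₀`, `F₀ = ℚ(S)`, into a field which agree on the constants
and on the generators `S` are equal. -/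
theorem es1_ringHom_ext {E : Type*} [Field E] (F₀ : IntermediateField ℚ (LaurentSeries ℚ))
    (S : Set (LaurentSeries ℚ)) (hF : F₀ = IntermediateField.adjoin ℚ S)
    (φ ψ : laurentBaseChange L F₀ →+* E)
    (hconst : ∀ c : L, φ (algebraMap L _ c) = ψ (algebraMap L _ c))
    (hgen : ∀ z (_ : z ∈ S) (h : coeffEmb L z ∈ laurentBaseChange L F₀),
      φ ⟨coeffEmb L z, h⟩ = ψ ⟨coeffEmb L z, h⟩)
    (x : laurentBaseChange L F₀) : φ x = ψ x := by
  subst hF
  exact es1_ringHom_ext_adjoin S φ ψ hconst (fun z hz => hgen z hz _) x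

end Ext

section Diamond

variable (L : Type) [Field L] [Algebra ℚ L] (M : ℕ) [NeZero M]

theorem diamondAut_full (hD : DiamondExistsStatement) (hM : 3 ≤ M) (d : (ZMod M)ˣ)
    (x : laurentBaseChange L (F1 M))
    (hx : (x : LaurentSeries L) ∈ laurentBaseChange L (modularFunctionFieldFull M)) :
    diamondAut L M d x = x := by
  have h : Nonempty (DiamondData L M) := hD L M hM
  rw [diamondAut, dif_pos h]
  exact h.some.aut_full d x hx

theorem diamondAut_v (hD : DiamondExistsStatement) (hM : 3 ≤ M) (d a : (ZMod M)ˣ) :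
    diamondAut L M d (vBar L M a) = vBar L M (d * a) := by
  have h : Nonempty (DiamondData L M) := hD L M hM
  rw [diamondAut, dif_pos h]
  exact h.some.aut_v d a

/-- The diamond automorphisms permute the generators of `L · F1 M`. -/
theorem diamondAut_gen (hD : DiamondExistsStatement) (hM : 3 ≤ M) (d : (ZMod M)ˣ)
    (z : LaurentSeries ℚ) (hz : z ∈ divisorExpansions M ∪ vGenSet M) :
    ∃ z' ∈ divisorExpansions M ∪ vGenSet M,
      ((diamondAut L M d ⟨coeffEmb L z, coeffEmb_mem_laurentBaseChange L
        (IntermediateField.subset_adjoin ℚ _ hz)⟩ : laurentBaseChange L (F1 M)) :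
          LaurentSeries L) = coeffEmb L z' := by
  rcases hz with hz | ⟨a, rfl⟩
  · refine ⟨z, Or.inl hz, ?_⟩
    rw [diamondAut_full L M hD hM d _ (coeffEmb_mem_laurentBaseChange L
      (F₀ := modularFunctionFieldFull M) (IntermediateField.subset_adjoin ℚ _ hz))]
  · refine ⟨vGen M ((d * a : (ZMod M)ˣ) : ZMod M), Or.inr ⟨d * a, rfl⟩, ?_⟩
    have := diamondAut_v L M hD hM d a
    exact congrArg Subtype.val this

end Diamond

section Galois

variable (M : ℕ) [NeZero M]

/-- **The diamond automorphisms commute with the arithmetic Galois action** on functions. -/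
theorem diamondAut_galois (hD : DiamondExistsStatement) (hM : 3 ≤ M) (d : (ZMod M)ˣ)
    (σ : GalQ) (f : F1Bar M) :
    arithmeticGalois (F1 M) σ • (diamondAut (AlgebraicClosure ℚ) M d f)
      = diamondAut (AlgebraicClosure ℚ) M d (arithmeticGalois (F1 M) σ • f) := by
  let D : F1Bar M →+* F1Bar M := (diamondAut (AlgebraicClosure ℚ) M d : F1Bar M →+* F1Bar M)
  let G : F1Bar M →+* F1Bar M := (arithmeticRingAut (F1 M) σ : F1Bar M →+* F1Bar M)
  have key := es1_ringHom_ext (L := AlgebraicClosure ℚ) (F1 M) (divisorExpansions M ∪ vGenSet M)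
    rfl (G.comp D) (D.comp G) ?_ ?_ f
  · exact key
  · intro c
    show G (D _) = D (G _)
    have h1 : ∀ c', D (algebraMap (AlgebraicClosure ℚ) (F1Bar M) c') = algebraMap _ _ c' :=
      fun c' => (diamondAut (AlgebraicClosure ℚ) M d).commutes c'
    have h2 : ∀ c', G (algebraMap (AlgebraicClosure ℚ) (F1Bar M) c') = algebraMap _ _ (σ c') :=
      fun c' => arithmeticRingAut_algebraMap (F1 M) σ c'
    rw [h1, h2, h1]
  · intro z hz h
    show G (D _) = D (G _)
    obtain ⟨z', hz', e⟩ := diamondAut_gen (AlgebraicClosure ℚ) M hD hM d z hz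
    have hG : ∀ (w : LaurentSeries ℚ) (hw : coeffEmb (AlgebraicClosure ℚ) w ∈ F1Bar M),
        G ⟨coeffEmb (AlgebraicClosure ℚ) w, hw⟩ = ⟨coeffEmb (AlgebraicClosure ℚ) w, hw⟩ :=
      fun w hw => Subtype.ext (coeffMap_coeffEmb σ w)
    rw [hG]
    have e' : D ⟨coeffEmb (AlgebraicClosure ℚ) z, h⟩ = ⟨coeffEmb (AlgebraicClosure ℚ) z',
          coeffEmb_mem_laurentBaseChange _ (IntermediateField.subset_adjoin ℚ _ hz')⟩ :=
      Subtype.ext e
    rw [e', hG]

end Galois

end Fermat.Agent.H16

end
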