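import Fermat.Agent.H36.ESE.TorsionAbstract

/-!
# P-DS / ES1-ES (row 580): abstract shell of the Eichler–Shimura relation with a diamond

Generalisation of `Fermat.Agent.H36.quadratic_relation_of_roots`: `g`, `h` semilinear
automorphisms, `T` an endomorphism of `Pic⁰` induced by `Tdiv` on divisors mapping `div f` to
`div (Tm f)`.  If for every `f` whose divisor is divisible by `n` the function
`g²(f) · h(f)^ℓ / Tm (h g f)` is an `n`-th power up to a function with trivial divisor, then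
`g² - T h g + ℓ h` kills the `n`-torsion.
-/

set_option autoImplicit false
set_option linter.style.haveILetI false
set_option linter.unusedSectionVars false

noncomputable section

namespace Fermat.Agent.H16

open AlgebraicCurve Fermat.Agent.H36

variable {K F : Type*} [Field K] [Field F] [Algebra K F]

theorem es1_smul_ne_zero (g : SemilinearAut K F) {y : F} (hy : y ≠ 0) : g • y ≠ 0 := by
  rw [SemilinearAut.smul_def]
  exact (map_ne_zero _).mpr hy

/-- **Abstract shell of the Eichler–Shimura relation with a diamond operator.** -/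
theorem es1_quadratic_relation_of_roots {n : ℕ} (hn : 0 < n) (ℓ : ℕ) (g h : SemilinearAut K F)
    (T : Pic0 K F →+ Pic0 K F) (Tdiv : Divisor K F →+ Divisor K F) (Tm : F → F)
    (hT : ∀ D : Divisor.degZero (K := K) (F := F), ∃ D' : Divisor.degZero (K := K) (F := F),
      T (Pic0.mk D) = Pic0.mk D' ∧ (D' : Divisor K F) = Tdiv (D : Divisor K F))
    (hTm : ∀ f : F, f ≠ 0 → ∀ D : Divisor K F, (∀ P : Place K F, D P = P.ord f) →
      ∀ P : Place K F, Tdiv D P = P.ord (Tm f))
    (hroot : ∀ f : F, f ≠ 0 →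
      (∀ P : Place K F,
        (n : ℤ) ∣ P.ord (g • g • f) - P.ord (Tm (h • g • f)) + ℓ * P.ord (h • f)) →
      ∃ w : F, w ≠ 0 ∧ ∀ P : Place K F,
        P.ord (g • g • f) - P.ord (Tm (h • g • f)) + ℓ * P.ord (h • f) = n * P.ord w)
    (x : Pic0 K F) (hx : n • x = 0) :
    g • g • x - T (h • g • x) + ℓ • (h • x) = 0 := by
  obtain ⟨D, rfl, f, hf, hD⟩ := exists_function_of_nsmul_eq_zero hx
  have hgf : g • f ≠ 0 := es1_smul_ne_zero g hf
  have hhgf : h • g • f ≠ 0 := es1_smul_ne_zero h hgf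
  -- the three terms on divisors
  obtain ⟨D', hD'1, hD'2⟩ := hT (SemilinearAut.degZeroSMulHom h (SemilinearAut.degZeroSMulHom g D))
  have e1 : ∀ (k : SemilinearAut K F) (E : Divisor.degZero (K := K) (F := F)),
      k • Pic0.mk E = Pic0.mk (SemilinearAut.degZeroSMulHom k E) :=
    fun k E => SemilinearAut.pic0_smul_mk k E
  have e3 : ℓ • Pic0.mk (SemilinearAut.degZeroSMulHom h D) =
      Pic0.mk (ℓ • SemilinearAut.degZeroSMulHom h D) := rfl
  have hgD : ∀ P : Place K F, (n : ℤ) * (g • (D : Divisor K F)) P = P.ord (g • f) :=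
    fun P => ord_smul_of_divisor g hD P
  have hhD : ∀ P : Place K F, (n : ℤ) * (h • (D : Divisor K F)) P = P.ord (h • f) :=
    fun P => ord_smul_of_divisor h hD P
  have hgg : ∀ P : Place K F, (n : ℤ) * (g • g • (D : Divisor K F)) P = P.ord (g • g • f) :=
    fun P => ord_smul_of_divisor g hgD P
  have hhg : ∀ P : Place K F, (n : ℤ) * (h • g • (D : Divisor K F)) P = P.ord (h • g • f) :=
    fun P => ord_smul_of_divisor h hgD P
  have hTg : ∀ P : Place K F,
      (n : ℤ) * Tdiv (h • g • (D : Divisor K F)) P = P.ord (Tm (h • g • f)) := by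
    intro P
    have h1 : ∀ Q : Place K F, ((n : ℤ) • (h • g • (D : Divisor K F))) Q = Q.ord (h • g • f) := by
      intro Q
      rw [Finsupp.smul_apply, smul_eq_mul]
      exact hhg Q
    have h2 := hTm (h • g • f) hhgf _ h1 P
    rw [map_zsmul, Finsupp.smul_apply, smul_eq_mul] at h2
    exact h2
  -- the total divisor
  set E : Divisor.degZero (K := K) (F := F) :=
    SemilinearAut.degZeroSMulHom g (SemilinearAut.degZeroSMulHom g D) - D'
      + ℓ • SemilinearAut.degZeroSMulHom h D with hE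
  have hEval : ∀ P : Place K F, (n : ℤ) * (E : Divisor K F) P =
      P.ord (g • g • f) - P.ord (Tm (h • g • f)) + ℓ * P.ord (h • f) := by
    intro P
    rw [hE, AddSubgroup.coe_add, AddSubgroup.coe_sub, AddSubgroup.coe_nsmul, hD'2,
      SemilinearAut.coe_degZeroSMulHom, SemilinearAut.coe_degZeroSMulHom,
      SemilinearAut.coe_degZeroSMulHom, SemilinearAut.coe_degZeroSMulHom,
      SemilinearAut.coe_degZeroSMulHom,
      Finsupp.add_apply, Finsupp.sub_apply,
      Finsupp.smul_apply, nsmul_eq_mul, mul_add, mul_sub, hgg P, hTg P, ← hhD P]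
    ring
  obtain ⟨w, hw, hwE⟩ := hroot f hf (fun P => ⟨(E : Divisor K F) P, (hEval P).symm⟩)
  have hmk : Pic0.mk E = 0 := mk_eq_zero_of_ord hn E hw (fun P => by rw [hEval P, hwE P])
  rw [e1 g D, e1 g, e1 h, hD'1, e1 h D, e3, ← hmk, hE]
  rfl

/-- Bookkeeping of orders: with `E y = g²(y) h(y)^ℓ / Tm (h g y)` (multiplicative), if
`f b = c a` then `div E(f) = div (a') - div (b')` for
`a' = g²(a) h(a)^ℓ Tm (h g b)` and `b' = g²(b) h(b)^ℓ Tm (h g a)`. -/
theorem es1_ord_quadratic_eq (ℓ : ℕ) (g h : SemilinearAut K F) (Tm : F → F)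
    (hmul : ∀ x y : F, Tm (x * y) = Tm x * Tm y)
    (hconst : ∀ c : K, c ≠ 0 → ∃ c' : K, c' ≠ 0 ∧ Tm (algebraMap K F c) = algebraMap K F c')
    (hne : ∀ x : F, x ≠ 0 → Tm x ≠ 0)
    {f a b : F} {c : K} (hc : c ≠ 0) (ha : a ≠ 0) (hb : b ≠ 0)
    (hfab : f * b = algebraMap K F c * a) (P : Place K F) :
    P.ord (g • g • f) - P.ord (Tm (h • g • f)) + ℓ * P.ord (h • f) =
      P.ord ((g • g • a) * (h • a) ^ ℓ * Tm (h • g • b))
        - P.ord ((g • g • b) * (h • b) ^ ℓ * Tm (h • g • a)) := by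
  have hg : ∀ (k : SemilinearAut K F) {y : F}, y ≠ 0 → k • y ≠ 0 := fun k {y} hy =>
    es1_smul_ne_zero k hy
  have hbase : ∀ (k : SemilinearAut K F) {d : K}, d ≠ 0 → SemilinearAut.baseAut k d ≠ 0 :=
    fun k {d} hd => (map_ne_zero _).mpr hd
  have hrel : ∀ (k : SemilinearAut K F) {f' a' b' : F} {c' : K},
      f' * b' = algebraMap K F c' * a' →
      (k • f') * (k • b') = algebraMap K F (SemilinearAut.baseAut k c') * (k • a') := by
    intro k f' a' b' c' h'
    rw [← smul_mul', h', smul_mul', SemilinearAut.smul_algebraMap]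
  have h1 := hrel g hfab
  have h2 := hrel g h1
  have h3 := hrel h h1
  have h4 := hrel h hfab
  obtain ⟨c', hc', hTc⟩ := hconst _ (hbase h (hbase g hc))
  have h5 : Tm (h • g • f) * Tm (h • g • b) = algebraMap K F c' * Tm (h • g • a) := by
    rw [← hmul, h3, hmul, hTc]
  have e0 := ord_eq_sub_of_mul_eq P (hbase h hc) (hg h ha) (hg h hb) h4
  have e2 := ord_eq_sub_of_mul_eq P (hbase g (hbase g hc)) (hg g (hg g ha)) (hg g (hg g hb)) h2
  have e3 := ord_eq_sub_of_mul_eq P hc' (hne _ (hg h (hg g ha))) (hne _ (hg h (hg g hb))) h5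
  have pa : P.ord ((h • a) ^ ℓ) = ℓ * P.ord (h • a) := by
    rw [← zpow_natCast, P.ord_zpow]
  have pb : P.ord ((h • b) ^ ℓ) = ℓ * P.ord (h • b) := by
    rw [← zpow_natCast, P.ord_zpow]
  rw [P.ord_mul (mul_ne_zero (hg g (hg g ha)) (pow_ne_zero _ (hg h ha))) (hne _ (hg h (hg g hb))),
    P.ord_mul (hg g (hg g ha)) (pow_ne_zero _ (hg h ha)),
    P.ord_mul (mul_ne_zero (hg g (hg g hb)) (pow_ne_zero _ (hg h hb))) (hne _ (hg h (hg g ha))),
    P.ord_mul (hg g (hg g hb)) (pow_ne_zero _ (hg h hb)), pa, pb, e0, e2, e3]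
  ring

end Fermat.Agent.H16

end
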