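import Fermat.Agent.H16.ES1ESNormRed
import Fermat.Agent.H16.ES1ESShell
import Fermat.Agent.H16.ES1ESDiamond
import Fermat.Agent.H28.ES1.Space1

/-!
# P-DS / ES1-ES (row 580): the Eichler–Shimura relation on torsion of `J₁(M)`

`j1EichlerShimura_of_parts` : `KeyLemma1Statement`, `GaussNormalForm1Statement`,
`DiamondExistsStatement`, `HeckeInputs1Statement`, `DiamondGaussStatement` and
`NormRed1Statement` (which follows from `NormSeries1Statement`) imply
`Fermat.Agent.H29.ES1.J1EichlerShimuraStatement`: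

  `Frob² - T_p Frob + p ⟨p⟩ = 0`  on `J₁(M)(ℚ̄)[n]`, `p ∤ M n`.

Proof.  With `g = Frob`, `δ = aut p`, `h = δ⁻¹ = ⟨p⟩` and `Tm = Norm_α ∘ β`, for `x = [D]`,
`n D = div f`, the function `E(f) = g²(f) h(f)^p / Tm (h g f)` has divisor
`n (g² D - U_p (h g D) + p h D)`.  Write `f = c a / b` (Gauss normal form).  On Gauss
reductions `Tm y ≡ (g⁻¹ y)^p · g (δ y)`, hence `E(a) ≡ 1 ≡ E(b)`, and the key lemma makes
`E(a) / E(b)` an `n`-th power.
-/

set_option autoImplicit false
set_option linter.style.haveILetI false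
set_option linter.unusedSectionVars false
set_option synthInstance.maxHeartbeats 400000

noncomputable section

namespace Fermat.Agent.H16

open ModularCurve AlgebraicCurve HahnSeries IntermediateField Fermat.Agent.H29.ES1
  Fermat.Agent.H36

section Pieces

variable (M : ℕ) [NeZero M] (p : ℕ) [NeZero p]

/-- `aut u (aut u⁻¹ z) = z`. -/
theorem diamondAut_inv_cancel (u : (ZMod M)ˣ) (z : F1Bar M) :
    diamondAut (AlgebraicClosure ℚ) M u (diamondAut (AlgebraicClosure ℚ) M u⁻¹ z) = z := by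
  have h : diamondAut (AlgebraicClosure ℚ) M u * diamondAut (AlgebraicClosure ℚ) M u⁻¹ = 1 := by
    rw [← map_mul, mul_inv_cancel, map_one]
  have := congrArg (fun φ : F1Bar M ≃ₐ[AlgebraicClosure ℚ] F1Bar M => φ z) h
  exact this

/-- The diamond automorphisms preserve the Gauss valuation ring, with nonzero reductions going
to nonzero reductions. -/
theorem exists_gaussRed_diamond (hM : 5 ≤ M) (hp : p.Prime) (hpM : ¬ p ∣ M)
    (hDG : DiamondGaussStatement)
    (A : ValuationSubring (AlgebraicClosure ℚ)) (hA : A.LiesOverPrime p) (d : (ZMod M)ˣ)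
    (z : LaurentSeries A) (hz : coeffMap A.subtype z ∈ F1Bar M)
    (hzred : coeffMap (IsLocalRing.residue A) z ≠ 0) :
    ∃ r : LaurentSeries (IsLocalRing.ResidueField A), r ≠ 0 ∧
      IsGaussRed A ((diamondAut (AlgebraicClosure ℚ) M d (⟨coeffMap A.subtype z, hz⟩ : F1Bar M) :
        F1Bar M) : LaurentSeries (AlgebraicClosure ℚ)) r := by
  have h1mem : coeffMap A.subtype (1 : LaurentSeries A) ∈ F1Bar M := by
    rw [map_one]
    exact one_mem _
  have h1red : coeffMap (IsLocalRing.residue A) (1 : LaurentSeries A) ≠ 0 := by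
    rw [map_one]
    exact one_ne_zero
  have e1 : (⟨coeffMap A.subtype (1 : LaurentSeries A), h1mem⟩ : F1Bar M) = 1 :=
    Subtype.ext (map_one _)
  obtain ⟨r, hr⟩ := hDG M hM p hp hpM A hA d z 1 hz h1mem h1red
  obtain ⟨s, hs⟩ := hDG M hM p hp hpM A hA d 1 z h1mem hz hzred
  rw [e1, div_one] at hr
  rw [e1] at hs
  refine ⟨r, ?_, hr⟩
  have hz0 : (⟨coeffMap A.subtype z, hz⟩ : F1Bar M) ≠ 0 := fun h0 =>
    gr_ne_zero_of_residue A hzred (congrArg Subtype.val h0)
  refine hr.ne_zero_of_mul_eq_one hs ?_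
  have h2 : diamondAut (AlgebraicClosure ℚ) M d (⟨coeffMap A.subtype z, hz⟩ : F1Bar M) *
      diamondAut (AlgebraicClosure ℚ) M d (1 / (⟨coeffMap A.subtype z, hz⟩ : F1Bar M)) = 1 := by
    rw [← map_mul, mul_one_div_cancel hz0, map_one]
  exact congrArg Subtype.val h2

set_option maxHeartbeats 1600000 in
/-- The Gauss reductions of the three factors of `E(z) = g²(z) h(z)^p / Tm (h g z)` for an
integral series `z` of nonzero reduction: `g² z ≡ s`, `h z ≡ r`, `Tm (h g z) ≡ r^p s`. -/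
theorem es1_red_pieces (hM : 5 ≤ M) (hp : p.Prime) (hpM : ¬ p ∣ M)
    (hD : DiamondExistsStatement) (hDG : DiamondGaussStatement) (hNR : NormRed1Statement)
    (A : ValuationSubring (AlgebraicClosure ℚ)) (hA : A.LiesOverPrime p)
    (σ : GalQ) (hσ : A.IsFrobeniusAt σ p)
    (z : LaurentSeries A) (hz : coeffMap A.subtype z ∈ F1Bar M)
    (hzred : coeffMap (IsLocalRing.residue A) z ≠ 0) :
    ∃ r s : LaurentSeries (IsLocalRing.ResidueField A), r ≠ 0 ∧ s ≠ 0 ∧
      IsGaussRed A ((arithmeticGalois (F1 M) σ • arithmeticGalois (F1 M) σ •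
        (⟨coeffMap A.subtype z, hz⟩ : F1Bar M) : F1Bar M) : LaurentSeries (AlgebraicClosure ℚ)) s ∧
      IsGaussRed A ((SemilinearAut.ofAlgAut
          (diamondAut (AlgebraicClosure ℚ) M (es1Unit M hp hpM)⁻¹) •
        (⟨coeffMap A.subtype z, hz⟩ : F1Bar M) : F1Bar M) : LaurentSeries (AlgebraicClosure ℚ)) r ∧
      IsGaussRed A ((heckeTm1 (AlgebraicClosure ℚ) M p
        (SemilinearAut.ofAlgAut (diamondAut (AlgebraicClosure ℚ) M (es1Unit M hp hpM)⁻¹) •
          arithmeticGalois (F1 M) σ • (⟨coeffMap A.subtype z, hz⟩ : F1Bar M)) : F1Bar M) :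
            LaurentSeries (AlgebraicClosure ℚ)) (r ^ p * s) := by
  haveI : Fact p.Prime := ⟨hp⟩
  haveI : CharP (IsLocalRing.ResidueField A) p := charP_residueField_of_liesOver A hp hA
  have hM3 : 3 ≤ M := by omega
  generalize hzF : (⟨coeffMap A.subtype z, hz⟩ : F1Bar M) = zF
  have hzF' : (zF : LaurentSeries (AlgebraicClosure ℚ)) = coeffMap A.subtype z := by
    rw [← hzF]
  generalize hu : es1Unit M hp hpM = u
  -- the reductions of `z`, `g z`, `g² z`
  have hz1 : IsGaussRed A (zF : LaurentSeries (AlgebraicClosure ℚ))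
      (coeffMap (IsLocalRing.residue A) z) := by
    rw [hzF']
    exact IsGaussRed.of_integral z
  have hgz : IsGaussRed A ((arithmeticGalois (F1 M) σ • zF : F1Bar M) :
      LaurentSeries (AlgebraicClosure ℚ))
      (coeffMap (frobenius (IsLocalRing.ResidueField A) p) (coeffMap (IsLocalRing.residue A) z)) :=
    hz1.map_frob hσ
  have hggz : IsGaussRed A ((arithmeticGalois (F1 M) σ • arithmeticGalois (F1 M) σ • zF :
      F1Bar M) : LaurentSeries (AlgebraicClosure ℚ))
      (coeffMap (frobenius (IsLocalRing.ResidueField A) p)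
        (coeffMap (frobenius (IsLocalRing.ResidueField A) p)
          (coeffMap (IsLocalRing.residue A) z))) :=
    hgz.map_frob hσ
  -- the reduction of `h z`
  obtain ⟨r, hr0, hr⟩ := exists_gaussRed_diamond M p hM hp hpM hDG A hA u⁻¹ z hz hzred
  rw [hzF] at hr
  -- the reduction of `h g z = g h z`
  have hcomm : SemilinearAut.ofAlgAut (diamondAut (AlgebraicClosure ℚ) M u⁻¹) •
      arithmeticGalois (F1 M) σ • zF =
      arithmeticGalois (F1 M) σ • (diamondAut (AlgebraicClosure ℚ) M u⁻¹ zF) :=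
    (diamondAut_galois M hD hM3 u⁻¹ σ zF).symm
  have hhgz : IsGaussRed A ((SemilinearAut.ofAlgAut (diamondAut (AlgebraicClosure ℚ) M u⁻¹) •
      arithmeticGalois (F1 M) σ • zF : F1Bar M) : LaurentSeries (AlgebraicClosure ℚ))
      (coeffMap (frobenius (IsLocalRing.ResidueField A) p) r) := by
    rw [hcomm]
    exact hr.map_frob hσ
  -- the reduction of `δ (h g z) = g z`
  have hδ : diamondAut (AlgebraicClosure ℚ) M u
      (SemilinearAut.ofAlgAut (diamondAut (AlgebraicClosure ℚ) M u⁻¹) •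
        arithmeticGalois (F1 M) σ • zF) = arithmeticGalois (F1 M) σ • zF :=
    diamondAut_inv_cancel M u _
  have hδred : IsGaussRed A ((diamondAut (AlgebraicClosure ℚ) M u
      (SemilinearAut.ofAlgAut (diamondAut (AlgebraicClosure ℚ) M u⁻¹) •
        arithmeticGalois (F1 M) σ • zF) : F1Bar M) : LaurentSeries (AlgebraicClosure ℚ))
      (coeffMap (frobenius (IsLocalRing.ResidueField A) p)
        (coeffMap (IsLocalRing.residue A) z)) := by
    rw [hδ]
    exact hgz
  -- the norm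
  have hNR' := hNR M hM p hp hpM A hA
  rw [hu] at hNR'
  obtain ⟨t, ht, hVt⟩ := hNR' _ _ _ hhgz hδred
  have hFr0 : ∀ y : LaurentSeries (IsLocalRing.ResidueField A), y ≠ 0 →
      coeffMap (frobenius (IsLocalRing.ResidueField A) p) y ≠ 0 := fun y hy h =>
    hy (coeffMap_frobenius_injective p (by rw [h, map_zero]))
  have e1 : ∀ x : LaurentSeries (IsLocalRing.ResidueField A), x ^ p =
      qExpand (IsLocalRing.ResidueField A) p
        (coeffMap (frobenius (IsLocalRing.ResidueField A) p) x) :=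
    fun x => Fermat.Agent.H42.laurent_pow_char p x
  have htval : t = r ^ p * coeffMap (frobenius (IsLocalRing.ResidueField A) p)
      (coeffMap (frobenius (IsLocalRing.ResidueField A) p)
        (coeffMap (IsLocalRing.residue A) z)) := by
    apply qExpand_injective (R := IsLocalRing.ResidueField A) p
    rw [hVt, map_mul, e1 r, e1 (coeffMap (frobenius (IsLocalRing.ResidueField A) p)
      (coeffMap (IsLocalRing.residue A) z))]
  refine ⟨r, _, hr0, hFr0 _ (hFr0 _ hzred), hggz, hr, ?_⟩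
  rw [← htval]
  exact ht

end Pieces

section Root

theorem es1_coe_algebraMap {L : Type*} [Field L] (S : IntermediateField L (LaurentSeries L))
    (c : L) : ((algebraMap L S c : S) : LaurentSeries L) = HahnSeries.C c := by
  rw [HahnSeries.C_apply, ← algebraMap_laurentSeries_eq_single]
  rfl

variable (M : ℕ) [NeZero M] (p : ℕ) [NeZero p]

theorem heckeTm1_mul (x y : F1Bar M) :
    heckeTm1 (AlgebraicClosure ℚ) M p (x * y) =
      heckeTm1 (AlgebraicClosure ℚ) M p x * heckeTm1 (AlgebraicClosure ℚ) M p y :=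
  corrNorm_mul _ _ x y

theorem heckeTm1_ne_zero
    (hfin : FiniteAlong (AlgebraicClosure ℚ) (alphaGen (AlgebraicClosure ℚ) (F1 M) p))
    {x : F1Bar M} (hx : x ≠ 0) : heckeTm1 (AlgebraicClosure ℚ) M p x ≠ 0 :=
  corrNorm_ne_zero _ _ hfin hx

theorem heckeTm1_const (c : AlgebraicClosure ℚ) (hc : c ≠ 0) :
    ∃ c' : AlgebraicClosure ℚ, c' ≠ 0 ∧
      heckeTm1 (AlgebraicClosure ℚ) M p (algebraMap (AlgebraicClosure ℚ) (F1Bar M) c) =
        algebraMap (AlgebraicClosure ℚ) (F1Bar M) c' :=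
  ⟨_, pow_ne_zero _ hc, corrNorm_algebraMap _ _ c⟩

set_option maxHeartbeats 1600000 in
/-- **The key lemma for Gauss units.**  A function of `L · F₀` with Gauss reduction `1` whose
divisor is divisible by `n` (`p ∤ n`) is an `n`-th power. -/
theorem es1_root_of_unit (F₀ : IntermediateField ℚ (LaurentSeries ℚ)) (hp : p.Prime)
    (hKL : KeyLemmaGenStatement F₀ p) (hG : GaussNormalFormGenStatement F₀)
    (n : ℕ) (hn : 0 < n) (hpn : ¬ p ∣ n)
    (A : ValuationSubring (AlgebraicClosure ℚ)) (hA : A.LiesOverPrime p)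
    (y : laurentBaseChange (AlgebraicClosure ℚ) F₀) (hy0 : y ≠ 0)
    (hyred : IsGaussRed A (y : LaurentSeries (AlgebraicClosure ℚ)) 1)
    (hdiv : ∀ P : Place (AlgebraicClosure ℚ) (laurentBaseChange (AlgebraicClosure ℚ) F₀),
      (n : ℤ) ∣ P.ord y) :
    ∃ w : laurentBaseChange (AlgebraicClosure ℚ) F₀, w ≠ 0 ∧ w ^ n = y := by
  obtain ⟨c₃, a₃, b₃, ha₃, hb₃, hc₃0, ha₃red, hb₃red, hy3⟩ := hG A p hp hA y hy0
  have hy3' : (y : LaurentSeries (AlgebraicClosure ℚ)) * coeffMap A.subtype b₃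
      = HahnSeries.C c₃ * coeffMap A.subtype a₃ := by
    have := congrArg (fun z : laurentBaseChange (AlgebraicClosure ℚ) F₀ =>
      (z : LaurentSeries (AlgebraicClosure ℚ))) hy3
    rw [IntermediateField.coe_mul, IntermediateField.coe_mul, es1_coe_algebraMap] at this
    exact this
  obtain ⟨a₄, ha₄, ha₄red⟩ := gr_normalize hyred ha₃red hy3'
  have ha₄mem : coeffMap A.subtype a₄ ∈ laurentBaseChange (AlgebraicClosure ℚ) F₀ := by
    rw [ha₄, ← hy3']
    exact mul_mem y.2 hb₃
  have ha₄F : (⟨coeffMap A.subtype a₄, ha₄mem⟩ : laurentBaseChange (AlgebraicClosure ℚ) F₀) =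
      y * ⟨coeffMap A.subtype b₃, hb₃⟩ := by
    apply Subtype.ext
    rw [IntermediateField.coe_mul]
    show coeffMap A.subtype a₄ = (y : LaurentSeries (AlgebraicClosure ℚ)) * coeffMap A.subtype b₃
    rw [ha₄, ← hy3']
  have hb₃F0 : (⟨coeffMap A.subtype b₃, hb₃⟩ : laurentBaseChange (AlgebraicClosure ℚ) F₀) ≠ 0 :=
    fun h => gr_ne_zero_of_residue A hb₃red (congrArg Subtype.val h)
  obtain ⟨w, hw⟩ := hKL A hA n hn hpn a₄ b₃ ha₄mem hb₃ ha₄red
    (by rw [ha₄red]; exact hb₃red) (fun P => by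
      rw [ha₄F, P.ord_mul hy0 hb₃F0, add_sub_cancel_right]
      exact hdiv P)
  rw [ha₄F] at hw
  have hwy : w ^ n = y := mul_right_cancel₀ hb₃F0 hw
  have hw0 : w ≠ 0 := by
    intro h0
    rw [h0, zero_pow hn.ne'] at hwy
    exact hy0 hwy.symm
  exact ⟨w, hw0, hwy⟩

set_option maxHeartbeats 1600000 in
/-- The function `E(f) = g²(f) h(f)^p / Tm (h g f)` has the divisor of a Gauss unit with
reduction `1`. -/
theorem es1_exists_unit (hM : 5 ≤ M) (hp : p.Prime) (hpM : ¬ p ∣ M)
    (hG : GaussNormalFormGenStatement (F1 M))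
    (hD : DiamondExistsStatement) (hDG : DiamondGaussStatement) (hNR : NormRed1Statement)
    (hfin : FiniteAlong (AlgebraicClosure ℚ) (alphaGen (AlgebraicClosure ℚ) (F1 M) p))
    (A : ValuationSubring (AlgebraicClosure ℚ)) (hA : A.LiesOverPrime p)
    (σ : GalQ) (hσ : A.IsFrobeniusAt σ p)
    (f : F1Bar M) (hf : f ≠ 0) :
    ∃ y : F1Bar M, y ≠ 0 ∧ IsGaussRed A (y : LaurentSeries (AlgebraicClosure ℚ)) 1 ∧
      ∀ P : Place (AlgebraicClosure ℚ) (F1Bar M),
        P.ord (arithmeticGalois (F1 M) σ • arithmeticGalois (F1 M) σ • f)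
        - P.ord (heckeTm1 (AlgebraicClosure ℚ) M p
            (SemilinearAut.ofAlgAut (diamondAut (AlgebraicClosure ℚ) M (es1Unit M hp hpM)⁻¹) •
              arithmeticGalois (F1 M) σ • f))
        + p * P.ord (SemilinearAut.ofAlgAut
            (diamondAut (AlgebraicClosure ℚ) M (es1Unit M hp hpM)⁻¹) • f) = P.ord y := by
  obtain ⟨c, a, b, ha, hb, hc0, hared, hbred, hfab⟩ := hG A p hp hA f hf
  obtain ⟨ra, sa, hra0, hsa0, hgga, hha, hTa⟩ :=
    es1_red_pieces M p hM hp hpM hD hDG hNR A hA σ hσ a ha hared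
  obtain ⟨rb, sb, hrb0, hsb0, hggb, hhb, hTb⟩ :=
    es1_red_pieces M p hM hp hpM hD hDG hNR A hA σ hσ b hb hbred
  have haF0 : (⟨coeffMap A.subtype a, ha⟩ : F1Bar M) ≠ 0 := fun h =>
    gr_ne_zero_of_residue A hared (congrArg Subtype.val h)
  have hbF0 : (⟨coeffMap A.subtype b, hb⟩ : F1Bar M) ≠ 0 := fun h =>
    gr_ne_zero_of_residue A hbred (congrArg Subtype.val h)
  generalize hg : arithmeticGalois (F1 M) σ = g at *
  generalize hh : SemilinearAut.ofAlgAut
    (diamondAut (AlgebraicClosure ℚ) M (es1Unit M hp hpM)⁻¹) = h at *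
  generalize haF : (⟨coeffMap A.subtype a, ha⟩ : F1Bar M) = aF at *
  generalize hbF : (⟨coeffMap A.subtype b, hb⟩ : F1Bar M) = bF at *
  -- the order bookkeeping
  have hord := fun P => es1_ord_quadratic_eq (K := AlgebraicClosure ℚ) (F := F1Bar M) p g h
    (heckeTm1 (AlgebraicClosure ℚ) M p) (heckeTm1_mul M p) (heckeTm1_const M p)
    (fun x hx => heckeTm1_ne_zero M p hfin hx) hc0 haF0 hbF0 hfab P
  -- the two new functions
  generalize ha' : (g • g • aF) * (h • aF) ^ p *
    heckeTm1 (AlgebraicClosure ℚ) M p (h • g • bF) = a' at hord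
  generalize hb' : (g • g • bF) * (h • bF) ^ p *
    heckeTm1 (AlgebraicClosure ℚ) M p (h • g • aF) = b' at hord
  have ha'0 : a' ≠ 0 := by
    rw [← ha']
    exact mul_ne_zero (mul_ne_zero (es1_smul_ne_zero g (es1_smul_ne_zero g haF0))
      (pow_ne_zero _ (es1_smul_ne_zero h haF0)))
      (heckeTm1_ne_zero M p hfin (es1_smul_ne_zero h (es1_smul_ne_zero g hbF0)))
  have hb'0 : b' ≠ 0 := by
    rw [← hb']
    exact mul_ne_zero (mul_ne_zero (es1_smul_ne_zero g (es1_smul_ne_zero g hbF0))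
      (pow_ne_zero _ (es1_smul_ne_zero h hbF0)))
      (heckeTm1_ne_zero M p hfin (es1_smul_ne_zero h (es1_smul_ne_zero g haF0)))
  have hRa : IsGaussRed A ((a' : F1Bar M) : LaurentSeries (AlgebraicClosure ℚ))
      (sa * ra ^ p * (rb ^ p * sb)) := by
    rw [← ha', IntermediateField.coe_mul, IntermediateField.coe_mul, IntermediateField.coe_pow]
    exact (hgga.mul (hha.pow p)).mul hTb
  have hRb : IsGaussRed A ((b' : F1Bar M) : LaurentSeries (AlgebraicClosure ℚ))
      (sa * ra ^ p * (rb ^ p * sb)) := by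
    have h1 : sa * ra ^ p * (rb ^ p * sb) = sb * rb ^ p * (ra ^ p * sa) := by ring
    rw [h1, ← hb', IntermediateField.coe_mul, IntermediateField.coe_mul,
      IntermediateField.coe_pow]
    exact (hggb.mul (hhb.pow p)).mul hTa
  have hρ0 : sa * ra ^ p * (rb ^ p * sb) ≠ 0 :=
    mul_ne_zero (mul_ne_zero hsa0 (pow_ne_zero _ hra0)) (mul_ne_zero (pow_ne_zero _ hrb0) hsb0)
  have hy0 : a' / b' ≠ 0 := div_ne_zero ha'0 hb'0
  have hyred : IsGaussRed A ((a' / b' : F1Bar M) : LaurentSeries (AlgebraicClosure ℚ)) 1 := by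
    have := hRa.div hRb hρ0
    rw [div_self hρ0] at this
    rw [IntermediateField.coe_div]
    exact this
  refine ⟨a' / b', hy0, hyred, fun P => ?_⟩
  have h1 : a' = (a' / b') * b' := (div_mul_cancel₀ a' hb'0).symm
  have h2 := congrArg P.ord h1
  rw [P.ord_mul hy0 hb'0] at h2
  rw [hord P]
  omega

set_option maxHeartbeats 1600000 in
/-- **The root lemma.**  For `f` whose "Eichler–Shimura divisor" is divisible by `n`, the
function `g²(f) h(f)^p / Tm (h g f)` has the divisor of an `n`-th power. -/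
theorem es1_exists_root (hM : 5 ≤ M) (hp : p.Prime) (hpM : ¬ p ∣ M)
    (hKL : KeyLemmaGenStatement (F1 M) p) (hG : GaussNormalFormGenStatement (F1 M))
    (hD : DiamondExistsStatement) (hDG : DiamondGaussStatement) (hNR : NormRed1Statement)
    (hfin : FiniteAlong (AlgebraicClosure ℚ) (alphaGen (AlgebraicClosure ℚ) (F1 M) p))
    (n : ℕ) (hn : 0 < n) (hpn : ¬ p ∣ n)
    (A : ValuationSubring (AlgebraicClosure ℚ)) (hA : A.LiesOverPrime p)
    (σ : GalQ) (hσ : A.IsFrobeniusAt σ p)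
    (f : F1Bar M) (hf : f ≠ 0)
    (hdiv : ∀ P : Place (AlgebraicClosure ℚ) (F1Bar M),
      (n : ℤ) ∣ P.ord (arithmeticGalois (F1 M) σ • arithmeticGalois (F1 M) σ • f)
        - P.ord (heckeTm1 (AlgebraicClosure ℚ) M p
            (SemilinearAut.ofAlgAut (diamondAut (AlgebraicClosure ℚ) M (es1Unit M hp hpM)⁻¹) •
              arithmeticGalois (F1 M) σ • f))
        + p * P.ord (SemilinearAut.ofAlgAut
            (diamondAut (AlgebraicClosure ℚ) M (es1Unit M hp hpM)⁻¹) • f)) :
    ∃ w : F1Bar M, w ≠ 0 ∧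
      ∀ P : Place (AlgebraicClosure ℚ) (F1Bar M),
        P.ord (arithmeticGalois (F1 M) σ • arithmeticGalois (F1 M) σ • f)
        - P.ord (heckeTm1 (AlgebraicClosure ℚ) M p
            (SemilinearAut.ofAlgAut (diamondAut (AlgebraicClosure ℚ) M (es1Unit M hp hpM)⁻¹) •
              arithmeticGalois (F1 M) σ • f))
        + p * P.ord (SemilinearAut.ofAlgAut
            (diamondAut (AlgebraicClosure ℚ) M (es1Unit M hp hpM)⁻¹) • f) = n * P.ord w := by
  obtain ⟨y, hy0, hyred, hord⟩ :=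
    es1_exists_unit M p hM hp hpM hG hD hDG hNR hfin A hA σ hσ f hf
  obtain ⟨w, hw0, hwy⟩ := es1_root_of_unit p (F1 M) hp hKL hG n hn hpn A hA y hy0 hyred
    (fun P => by rw [← hord P]; exact hdiv P)
  refine ⟨w, hw0, fun P => ?_⟩
  rw [hord P, ← hwy, ← zpow_natCast, P.ord_zpow]

end Root

section Final

variable (M : ℕ) [NeZero M] (p : ℕ) [NeZero p]

set_option maxHeartbeats 1600000 in
/-- **The Eichler–Shimura relation on `J₁(M)(ℚ̄)[n]` at one Frobenius element**, in terms of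
points: `σ² x - U_p (⟨p⟩ σ x) + p ⟨p⟩ x = 0`. -/
theorem es1_relation_point (hM : 5 ≤ M) (hp : p.Prime) (hpM : ¬ p ∣ M)
    (hKL : KeyLemmaGenStatement (F1 M) p) (hG : GaussNormalFormGenStatement (F1 M))
    (hD : DiamondExistsStatement) (hH : HeckeInputsGen (AlgebraicClosure ℚ) (F1 M) p)
    (hDG : DiamondGaussStatement) (hNR : NormRed1Statement)
    (n : ℕ) (hn : 0 < n) (hpn : ¬ p ∣ n)
    (A : ValuationSubring (AlgebraicClosure ℚ)) (hA : A.LiesOverPrime p)
    (σ : GalQ) (hσ : A.IsFrobeniusAt σ p) (x : J1 M) (hx : n • x = 0) :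
    arithmeticGalois (F1 M) σ • arithmeticGalois (F1 M) σ • x
      - heckeOperatorGen (AlgebraicClosure ℚ) (F1 M) p
          (SemilinearAut.ofAlgAut (diamondAut (AlgebraicClosure ℚ) M (es1Unit M hp hpM)⁻¹) •
            arithmeticGalois (F1 M) σ • x)
      + p • (SemilinearAut.ofAlgAut
          (diamondAut (AlgebraicClosure ℚ) M (es1Unit M hp hpM)⁻¹) • x) = 0 := by
  obtain ⟨hα, hβ, hP, hfin, hFI, hNF⟩ := hH
  rw [heckeOperatorGen_eq hα hβ hFI hfin hNF]
  refine es1_quadratic_relation_of_roots hn p (arithmeticGalois (F1 M) σ)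
    (SemilinearAut.ofAlgAut (diamondAut (AlgebraicClosure ℚ) M (es1Unit M hp hpM)⁻¹))
    (Pic0.correspondence (betaGen (AlgebraicClosure ℚ) (F1 M) p)
      (alphaGen (AlgebraicClosure ℚ) (F1 M) p) hβ hα hFI hfin hNF)
    (Divisor.correspondence (betaGen (AlgebraicClosure ℚ) (F1 M) p)
      (alphaGen (AlgebraicClosure ℚ) (F1 M) p) hβ hα)
    (heckeTm1 (AlgebraicClosure ℚ) M p) ?_ ?_ ?_ x hx
  · intro D
    exact ⟨Pic0.degZeroCorrespondence (betaGen (AlgebraicClosure ℚ) (F1 M) p)
      (alphaGen (AlgebraicClosure ℚ) (F1 M) p) hβ hα hFI D, rfl, rfl⟩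
  · intro f hf D hD' P
    exact correspondence_apply_eq_ord_norm (betaGen (AlgebraicClosure ℚ) (F1 M) p)
      (alphaGen (AlgebraicClosure ℚ) (F1 M) p) hβ hα hfin hNF hf hD' P
  · intro f hf hdiv
    exact es1_exists_root M p hM hp hpM hKL hG hD hDG hNR hfin n hn hpn A hA σ hσ f hf hdiv

end Final

set_option maxHeartbeats 1600000 in
/-- **ES1-ES (row 580).**  The Eichler–Shimura relation `Frob² - T_p Frob + p ⟨p⟩ = 0` on
`J₁(M)(ℚ̄)[n]`, from the key lemma, the Gauss normal form, the diamond automorphisms, the Hecke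
inputs, the invariance of the Gauss valuation ring under the diamonds and the reduction of the
multiplicative Hecke operator. -/
theorem j1EichlerShimura_of_parts (hKL : KeyLemma1Statement) (hG : GaussNormalForm1Statement)
    (hD : DiamondExistsStatement) (hH : HeckeInputs1Statement) (hDG : DiamondGaussStatement)
    (hNR : NormRed1Statement) : J1EichlerShimuraStatement := by
  intro M _ hM n hn p hp hpMn A hA σ hσ
  have hpM : ¬ p ∣ M := fun h => hpMn (Dvd.dvd.mul_right h n)
  have hpn : ¬ p ∣ n := fun h => hpMn (Dvd.dvd.mul_left h M)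
  haveI : NeZero p := ⟨hp.ne_zero⟩
  rw [Fermat.Agent.H28.TTors_eq_of_prime M n hp hpM,
    Fermat.Agent.H28.diamNat_eq_of_prime M n hp hpM]
  apply LinearMap.ext
  intro x
  apply Subtype.ext
  have hx : n • (x : J1 M) = 0 := by
    have := Pic0.mem_torsion.mp x.2
    rwa [natCast_zsmul] at this
  have key := es1_relation_point M p hM hp hpM (hKL M hM p hp hpM) (hG M) hD (hH M hM p hp hpM)
    hDG hNR n hn hpn A hA σ hσ (x : J1 M) hx
  have e3 : ((p : ZMod n) • diamTors M n (ZMod.unitOfCoprime p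
      ((Nat.Prime.coprime_iff_not_dvd hp).mpr hpM))) x
      = p • (diamTors M n (ZMod.unitOfCoprime p
        ((Nat.Prime.coprime_iff_not_dvd hp).mpr hpM)) x) := by
    rw [LinearMap.smul_apply, Nat.cast_smul_eq_nsmul]
  rw [LinearMap.add_apply, LinearMap.sub_apply, e3]
  exact key

/-- **ES1-ES (row 580)**, with the norm series as input. -/
theorem j1EichlerShimura_of_normSeries (hKL : KeyLemma1Statement)
    (hG : GaussNormalForm1Statement) (hD : DiamondExistsStatement) (hH : HeckeInputs1Statement)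
    (hDG : DiamondGaussStatement) (hNS : NormSeries1Statement) : J1EichlerShimuraStatement :=
  j1EichlerShimura_of_parts hKL hG hD hH hDG (normRed1_of_normSeries hNS)

end Fermat.Agent.H16

end
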