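import Fermat.Agent.H16.ES1ESInterfaces
import Fermat.Agent.H65.QES.NormEmb

/-!
# P-DS / ES1-ES-1 (row 580): the `q`-expansion of the multiplicative Hecke operator of `X₁(M)`

`normSeries1_of_parts : AtkinLehner1Statement → HeckeDegree1Statement → HeckeInputs1Statement →
NormSeries1Statement`:

  `(Tm f)(q^p) = f(q^{p²}) ∏_{b < p} (aut p f)(ζ^b q)`.

Port of `Fermat.Agent.H65.normSeriesStatement` (row 378).  The `p + 1` ring homomorphisms
`t_∞ = (q ↦ q^p)`, `t_b = (q ↦ ζ^b q) ∘ W` of the Hecke field into `ℚ̄((q))` all restrict to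
`g ↦ g(q^p)` on `α (F1Bar M)` and are pairwise distinct (coefficient of `q⁻¹` of the image of
`j(q^p)`); as the degree is at most `p + 1`, the norm is the product of their values.
-/

set_option autoImplicit false
set_option linter.style.haveILetI false
set_option linter.unusedSectionVars false
set_option synthInstance.maxHeartbeats 400000

noncomputable section

namespace Fermat.Agent.H16

open ModularCurve AlgebraicCurve HahnSeries IntermediateField Fermat.Agent.H29.ES1

section Abstract

/-- An injective family of embeddings over a base embedding has at most `[L : K]` members. -/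
theorem es1_card_le_finrank {K L Ω ι : Type*} [Field K] [Field L] [Field Ω] [CharZero K]
    (a : K →+* L) (ι₀ : K →+* Ω) [Fintype ι] (t : ι → (L →+* Ω))
    (hcomm : ∀ i, (t i).comp a = ι₀) (hinj : Function.Injective t)
    (hfin : letI := a.toAlgebra; Module.Finite K L) :
    Fintype.card ι ≤ (letI := a.toAlgebra; Module.finrank K L) := by
  letI := a.toAlgebra
  letI := ι₀.toAlgebra
  haveI : FiniteDimensional K L := hfin
  haveI : Algebra.IsSeparable K L := inferInstance
  let Ωb := AlgebraicClosure Ω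
  let T : ι → (L →ₐ[K] Ωb) := fun i =>
    { ((algebraMap Ω Ωb).comp (t i)) with
      commutes' := fun r => by
        have := congrArg (fun f : K →+* Ω => f r) (hcomm i)
        show algebraMap Ω Ωb (t i (a r)) = algebraMap Ω Ωb (ι₀ r)
        exact congrArg _ this }
  have hT : Function.Injective T := by
    intro i j hij
    apply hinj
    ext y
    apply (algebraMap Ω Ωb).injective
    exact congrArg (fun f : L →ₐ[K] Ωb => f y) hij
  have h1 := Fintype.card_le_of_injective T hT
  rwa [AlgHom.card K L Ωb] at h1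

theorem es1_twist_qExpand {k : Type*} [Field k] (ℓ : ℕ) [NeZero ℓ] (ξ : kˣ) (hξ : ξ ^ ℓ = 1)
    (g : LaurentSeries k) :
    Fermat.Agent.H27.twist ξ (qExpand k ℓ g) = qExpand k ℓ g := by
  ext n
  rw [Fermat.Agent.H27.twist_coeff]
  by_cases hn : (ℓ : ℤ) ∣ n
  · obtain ⟨m, rfl⟩ := hn
    have h1 : (ξ ^ ((ℓ : ℤ) * m) : kˣ) = 1 := by
      rw [zpow_mul, zpow_natCast, hξ, one_zpow]
    rw [h1, Units.val_one, one_mul]
  · rw [qExpand_coeff_of_not_dvd ℓ g hn, mul_zero]

end Abstract

section Diamond

variable (L : Type*) [Field L] [Algebra ℚ L] (M : ℕ) [NeZero M]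

/-- The diamond automorphisms fix the functions of level `Γ₀(M)` (unconditionally: if the
diamond data do not exist, `diamondAut = 1`). -/
theorem diamondAut_full' (d : (ZMod M)ˣ) (x : laurentBaseChange L (F1 M))
    (hx : (x : LaurentSeries L) ∈ laurentBaseChange L (modularFunctionFieldFull M)) :
    diamondAut L M d x = x := by
  by_cases h : Nonempty (DiamondData L M)
  · rw [diamondAut, dif_pos h]
    exact h.some.aut_full d x hx
  · rw [diamondAut, dif_neg h]
    rfl

/-- `j` as an element of `L · F1 M`. -/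
def jBar1 : laurentBaseChange L (F1 M) :=
  ⟨coeffEmb L jq, coeffEmb_mem_laurentBaseChange L (jq_mem_F1 M)⟩

theorem diamondAut_jBar1 (d : (ZMod M)ˣ) : diamondAut L M d (jBar1 L M) = jBar1 L M :=
  diamondAut_full' L M d _
    (coeffEmb_mem_laurentBaseChange L (modularFunctionField_le_full M (jq_mem M)))

theorem coeff_jBar1 : ((jBar1 L M : laurentBaseChange L (F1 M)) : LaurentSeries L).coeff (-1 : ℤ)
    = 1 := by
  show (coeffEmb L jq).coeff (-1 : ℤ) = 1
  rw [coeffEmb_coeff, coeff_jq_neg_one, map_one]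

end Diamond

set_option maxHeartbeats 1600000 in
/-- **ES1-ES-1.**  The `q`-expansion of the multiplicative Hecke operator of `X₁(M)`. -/
theorem normSeries1_of_parts (hAL : AtkinLehner1Statement) (hDEG : HeckeDegree1Statement)
    (hH : HeckeInputs1Statement) : NormSeries1Statement := by
  intro M _ hM p _ hp hpM ζ hζ f
  obtain ⟨W, hWα, hWβ⟩ := hAL M hM p hp hpM
  obtain ⟨-, -, -, hfin, -, -⟩ := hH M hM p hp hpM
  have hdeg := hDEG M hM p hp hpM
  have hζu : IsPrimitiveRoot ζ p := IsPrimitiveRoot.coe_units_iff.mp hζ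
  generalize hu : es1Unit M hp hpM = u at hWβ ⊢
  -- the base embedding `g ↦ g(q^p)` and the `p + 1` embeddings of the top field
  let a : F1Bar M →+* laurentBaseChange (AlgebraicClosure ℚ) (heckeField (F1 M) p) :=
    (alphaGen (AlgebraicClosure ℚ) (F1 M) p).toRingHom
  let ι₀ : F1Bar M →+* LaurentSeries (AlgebraicClosure ℚ) :=
    (qExpand (AlgebraicClosure ℚ) p).comp (F1Bar M).val.toRingHom
  let t : Option (Fin p) → (laurentBaseChange (AlgebraicClosure ℚ) (heckeField (F1 M) p) →+*
      LaurentSeries (AlgebraicClosure ℚ)) := fun x =>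
    match x with
    | none => (qExpand (AlgebraicClosure ℚ) p).comp
        (laurentBaseChange (AlgebraicClosure ℚ) (heckeField (F1 M) p)).val.toRingHom
    | some b => ((Fermat.Agent.H27.twist (ζ ^ (b : ℕ))).comp
        (laurentBaseChange (AlgebraicClosure ℚ) (heckeField (F1 M) p)).val.toRingHom).comp
        (W : laurentBaseChange (AlgebraicClosure ℚ) (heckeField (F1 M) p) →+*
          laurentBaseChange (AlgebraicClosure ℚ) (heckeField (F1 M) p))
  have htnone : ∀ y : laurentBaseChange (AlgebraicClosure ℚ) (heckeField (F1 M) p),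
      t none y = qExpand (AlgebraicClosure ℚ) p (y : LaurentSeries (AlgebraicClosure ℚ)) :=
    fun _ => rfl
  have htsome : ∀ (b : Fin p) (y : laurentBaseChange (AlgebraicClosure ℚ) (heckeField (F1 M) p)),
      t (some b) y = Fermat.Agent.H27.twist (ζ ^ (b : ℕ))
        ((W y : laurentBaseChange (AlgebraicClosure ℚ) (heckeField (F1 M) p)) :
          LaurentSeries (AlgebraicClosure ℚ)) :=
    fun _ _ => rfl
  have hcomm : ∀ x, (t x).comp a = ι₀ := by
    intro x
    ext1 g
    rcases x with _ | b
    · show t none (alphaGen (AlgebraicClosure ℚ) (F1 M) p g) = _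
      rw [htnone, coe_alphaGen]
      rfl
    · show t (some b) (alphaGen (AlgebraicClosure ℚ) (F1 M) p g) = _
      rw [htsome, hWα, coe_betaGen, es1_twist_qExpand]
      · rfl
      · rw [← pow_mul, mul_comm, pow_mul, hζu.pow_eq_one, one_pow]
  -- values on the test element `β j = j(q^p)`
  have hp2 : ¬ ((p : ℤ) ∣ (-1 : ℤ)) := by
    intro h
    have h1 : (p : ℤ) ∣ 1 := (dvd_neg.mp h)
    have h2 : p ∣ 1 := by exact_mod_cast h1
    exact hp.one_lt.ne' (Nat.dvd_one.mp h2)
  have hvnone : (t none (betaGen (AlgebraicClosure ℚ) (F1 M) p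
      (jBar1 (AlgebraicClosure ℚ) M))).coeff (-1 : ℤ) = 0 := by
    rw [htnone]
    exact qExpand_coeff_of_not_dvd p _ hp2
  have hvsome : ∀ b : Fin p,
      (t (some b) (betaGen (AlgebraicClosure ℚ) (F1 M) p (jBar1 (AlgebraicClosure ℚ) M))).coeff
        (-1 : ℤ) = (((ζ ^ (b : ℕ)) ^ (-1 : ℤ) : (AlgebraicClosure ℚ)ˣ) : AlgebraicClosure ℚ) := by
    intro b
    rw [htsome, hWβ, diamondAut_jBar1, coe_alphaGen, Fermat.Agent.H27.twist_coeff, coeff_jBar1,
      mul_one]
  have hinj : Function.Injective t := by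
    intro x y hxy
    have hval := congrArg (fun s : laurentBaseChange (AlgebraicClosure ℚ) (heckeField (F1 M) p)
      →+* LaurentSeries (AlgebraicClosure ℚ) =>
      (s (betaGen (AlgebraicClosure ℚ) (F1 M) p (jBar1 (AlgebraicClosure ℚ) M))).coeff
        (-1 : ℤ)) hxy
    beta_reduce at hval
    rcases x with _ | b <;> rcases y with _ | b'
    · rfl
    · exfalso
      rw [hvnone, hvsome] at hval
      exact Units.ne_zero _ hval.symm
    · exfalso
      rw [hvnone, hvsome] at hval
      exact Units.ne_zero _ hval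
    · rw [hvsome, hvsome] at hval
      have h1 : (ζ ^ (b : ℕ)) ^ (-1 : ℤ) = (ζ ^ (b' : ℕ)) ^ (-1 : ℤ) := Units.ext hval
      have h2 : ζ ^ (b : ℕ) = ζ ^ (b' : ℕ) := by
        have := congrArg (fun u : (AlgebraicClosure ℚ)ˣ => u⁻¹) h1
        simpa using this
      have h3 : (b : ℕ) = (b' : ℕ) := hζu.pow_inj b.2 b'.2 h2
      exact congrArg some (Fin.ext h3)
  have hcard : Fintype.card (Option (Fin p)) = p + 1 := by
    rw [Fintype.card_option, Fintype.card_fin]
  have hge := es1_card_le_finrank a ι₀ t hcomm hinj hfin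
  have hdeg' : (letI := a.toAlgebra; Module.finrank (F1Bar M)
      (laurentBaseChange (AlgebraicClosure ℚ) (heckeField (F1 M) p)))
      = Fintype.card (Option (Fin p)) := by
    rw [hcard] at hge ⊢
    exact le_antisymm hdeg hge
  have hpos : 0 < Fintype.card (Option (Fin p)) := by
    rw [hcard]
    exact Nat.succ_pos _
  have key := Fermat.Agent.H65.qes_norm_eq_prod_ringHom a ι₀ t hcomm hinj hdeg' hpos
    (betaGen (AlgebraicClosure ℚ) (F1 M) p f)
  rw [Fintype.prod_option] at key
  rw [htnone, coe_betaGen] at key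
  have hprod : ∏ b : Fin p, t (some b) (betaGen (AlgebraicClosure ℚ) (F1 M) p f)
      = ∏ b ∈ Finset.range p, Fermat.Agent.H27.twist (ζ ^ b)
          ((diamondAut (AlgebraicClosure ℚ) M u f : F1Bar M) :
            LaurentSeries (AlgebraicClosure ℚ)) := by
    rw [← Fin.prod_univ_eq_prod_range (fun b => Fermat.Agent.H27.twist (ζ ^ b)
          ((diamondAut (AlgebraicClosure ℚ) M u f : F1Bar M) :
            LaurentSeries (AlgebraicClosure ℚ))) p]
    refine Finset.prod_congr rfl fun b _ => ?_
    rw [htsome, hWβ, coe_alphaGen]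
  rw [hprod] at key
  exact key

end Fermat.Agent.H16

end
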