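import Fermat.Agent.H16.ES1ES
import Fermat.Agent.H16.ES1ESNormSeries
import Fermat.Agent.H57.ES1.GaussNormalForm1

/-!
# P-DS / ES1-ES (row 580): `J1EichlerShimuraStatement` from its open inputs

`j1EichlerShimura_of_inputs`: the Eichler–Shimura relation on `J₁(M)(ℚ̄)[n]` from

* `KeyLemma1Statement` (row 581),
* `DiamondExistsStatement` (row 574),
* `HeckeInputs1Statement` (rows 614 + 576),
* `DiamondGaussStatement` (row 668),
* `AtkinLehner1Statement` (row 666),
* `HeckeDegree1Statement` (row 667).

The Gauss normal form is landed (`Fermat.Agent.H57.ES1.gaussNormalForm1`).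
-/

set_option autoImplicit false

namespace Fermat.Agent.H16

open Fermat.Agent.H29.ES1

/-- **ES1-ES (row 580).** -/
theorem j1EichlerShimura_of_inputs (hKL : KeyLemma1Statement) (hD : DiamondExistsStatement)
    (hH : HeckeInputs1Statement) (hDG : DiamondGaussStatement) (hAL : AtkinLehner1Statement)
    (hDEG : HeckeDegree1Statement) : J1EichlerShimuraStatement :=
  j1EichlerShimura_of_normSeries hKL Fermat.Agent.H57.ES1.gaussNormalForm1 hD hH hDG
    (normSeries1_of_parts hAL hDEG hH)

end Fermat.Agent.H16
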