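import Fermat.Agent.H29.ES1.Interfaces
import Fermat.Agent.H36.ESE.TorsionAbstract
import Fermat.Agent.H27.Igusa.Defs

/-!
# P-DS / P-ES1, block ES1-ES (row 580, sub-lead helper16): interfaces

Target: `Fermat.Agent.H29.ES1.J1EichlerShimuraStatement`, the Eichler–Shimura relation
`Frob² - T_p Frob + p ⟨p⟩ = 0` on `J₁(M)(ℚ̄)[n]`.

**Warning** (why this file differs from the `Γ₀` twin `H36.ESE.TorsionInterfaces`): the diamond
automorphisms do NOT preserve `A`-integrality of `q`-expansions (they move the cusp `∞`):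
`f = v₁ / (p - (p - 1) v₁)` has an integral `q`-expansion and `aut d f` has not (`d ≠ ± 1`).
What is preserved is the *Gauss valuation ring*
`O_v = {a / b : a, b integral series, b ≢ 0 mod 𝔪_A}` (irreducibility of the special fibre of
`X₁(M)`), and all congruences are formulated through the relation `IsGaussRed A f r`
("`f ∈ O_v` and the reduction of `f` is `r`").

Statement `Prop`s (one row each):

* `AtkinLehner1Statement`  (**ES1-ES-AL**): the Atkin–Lehner homomorphism `W` of the Hecke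
  field `F1 M · V_p (F1 M)` with `W ∘ α = β`, `W ∘ β = α ∘ aut p`.
* `HeckeDegree1Statement`  (**ES1-ES-DEG**): `[F1 M · V_p (F1 M) : F1 M] ≤ p + 1` over `ℚ̄`.
* `DiamondGaussStatement`  (**ES1-ES-DG**): the diamond automorphisms preserve `O_v`.
* `NormSeries1Statement`   (**ES1-ES-1**): `(Tm f)(q^p) = f(q^{p²}) ∏_b (aut p f)(ζ^b q)`.
* `NormRed1Statement`      (**ES1-ES-2**): reduction of `Tm`.
-/

set_option autoImplicit false

noncomputable section

namespace Fermat.Agent.H16

open ModularCurve AlgebraicCurve HahnSeries IntermediateField Fermat.Agent.H29.ES1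

/-- The class of a prime `p ∤ M` in `(ℤ/M)ˣ`. -/
def es1Unit (M : ℕ) {p : ℕ} (hp : p.Prime) (hpM : ¬ p ∣ M) : (ZMod M)ˣ :=
  ZMod.unitOfCoprime p ((Nat.Prime.coprime_iff_not_dvd hp).mpr hpM)

/-- The multiplicative Hecke operator `Tm f = Norm_α (β f)` on the function field of `X₁(M)`
over `L` (`α` the inclusion, `β : q ↦ q^p`). -/
def heckeTm1 (L : Type*) [Field L] [Algebra ℚ L] (M p : ℕ) [NeZero M] [NeZero p]
    (f : laurentBaseChange L (F1 M)) : laurentBaseChange L (F1 M) :=
  Fermat.Agent.H36.corrNorm (betaGen L (F1 M) p) (alphaGen L (F1 M) p) f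

/-- **The Gauss reduction relation.**  `IsGaussRed A f r`: the Laurent series `f` over `L` is a
quotient `a / b` of `A`-integral series, `b` with nonzero reduction, and `r = ā / b̄` in
`k((q))`, `k` the residue field of `A`. -/
def IsGaussRed {L : Type*} [Field L] (A : ValuationSubring L) (f : LaurentSeries L)
    (r : LaurentSeries (IsLocalRing.ResidueField A)) : Prop :=
  ∃ a b : LaurentSeries A, f * coeffMap A.subtype b = coeffMap A.subtype a ∧
    coeffMap (IsLocalRing.residue A) b ≠ 0 ∧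
    coeffMap (IsLocalRing.residue A) a = r * coeffMap (IsLocalRing.residue A) b

/-- **ES1-ES-HI.**  The Hecke inputs for `X₁(M)` over `ℚ̄` at the primes `p ∤ M`
(row 614 ES1-C1 + row 576 ES1-FINITE). -/
def HeckeInputs1Statement : Prop :=
  ∀ (M : ℕ) [NeZero M], 5 ≤ M → ∀ (p : ℕ) [NeZero p], p.Prime → ¬ p ∣ M →
    HeckeInputsGen (AlgebraicClosure ℚ) (F1 M) p

/-- **ES1-ES-AL.**  The Atkin–Lehner homomorphism of the Hecke field of `X₁(M)` at `p ∤ M`:
`W ∘ α = β` and `W ∘ β = α ∘ aut p`.  (Analytically `W h = h ∘ w`,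
`w = [[p x, y], [M p z, p w']]` of determinant `p` with `x ≡ 1 mod M`:
`g (w τ) = g (γ' (p τ))`, `γ' = [[x, y], [M z, p w']] ∈ Γ₁(M)`, and
`f (p · w τ) = f (γ'' τ)`, `γ'' = [[p x, y], [M z, w']] ∈ Γ₀(M)` with upper left entry `≡ p`.) -/
def AtkinLehner1Statement : Prop :=
  ∀ (M : ℕ) [NeZero M], 5 ≤ M → ∀ (p : ℕ) [NeZero p] (hp : p.Prime) (hpM : ¬ p ∣ M),
    ∃ W : laurentBaseChange (AlgebraicClosure ℚ) (heckeField (F1 M) p)
        →ₐ[AlgebraicClosure ℚ] laurentBaseChange (AlgebraicClosure ℚ) (heckeField (F1 M) p),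
      (∀ x, W (alphaGen (AlgebraicClosure ℚ) (F1 M) p x)
        = betaGen (AlgebraicClosure ℚ) (F1 M) p x) ∧
      (∀ x, W (betaGen (AlgebraicClosure ℚ) (F1 M) p x)
        = alphaGen (AlgebraicClosure ℚ) (F1 M) p
            (diamondAut (AlgebraicClosure ℚ) M (es1Unit M hp hpM) x))

/-- **ES1-ES-DEG.**  The degree of the degeneracy map `α` of `X₁(M)` at `p ∤ M` is at most
`p + 1` (it is `[Γ₁(M) : Γ₁(M) ∩ Γ₀(p)] = p + 1`). -/
def HeckeDegree1Statement : Prop :=
  ∀ (M : ℕ) [NeZero M], 5 ≤ M → ∀ (p : ℕ) [NeZero p], p.Prime → ¬ p ∣ M →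
    finrankAlong (AlgebraicClosure ℚ) (alphaGen (AlgebraicClosure ℚ) (F1 M) p) ≤ p + 1

/-- **ES1-ES-DG.**  The diamond automorphisms preserve the Gauss valuation ring at `p ∤ M`:
if `a, b ∈ F1Bar M` are `A`-integral series and `b` has nonzero reduction, then
`aut d (a / b)` is again a quotient of integral series with denominator of nonzero reduction.
(Uniqueness of the extension of the Gauss valuation of `ℚ̄(j)` to `F1Bar M`, i.e. irreducibility
of the special fibre of `X₁(M)`: `q`-expansion principle `ModelQExp` for `F1 M`.) -/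
def DiamondGaussStatement : Prop :=
  ∀ (M : ℕ) [NeZero M], 5 ≤ M → ∀ (p : ℕ), p.Prime → ¬ p ∣ M →
    ∀ A : ValuationSubring (AlgebraicClosure ℚ), A.LiesOverPrime p →
      ∀ (d : (ZMod M)ˣ) (a b : LaurentSeries A)
        (ha : coeffMap A.subtype a ∈ F1Bar M) (hb : coeffMap A.subtype b ∈ F1Bar M),
        coeffMap (IsLocalRing.residue A) b ≠ 0 →
        ∃ r : LaurentSeries (IsLocalRing.ResidueField A),
          IsGaussRed A
            ((diamondAut (AlgebraicClosure ℚ) M d
              ((⟨coeffMap A.subtype a, ha⟩ : F1Bar M) / (⟨coeffMap A.subtype b, hb⟩ : F1Bar M)) :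
                F1Bar M) : LaurentSeries (AlgebraicClosure ℚ)) r

/-- **ES1-ES-1.**  `q`-expansion of the multiplicative Hecke operator of `X₁(M)`:
`(Tm f)(q^p) = f(q^{p²}) ∏_{b < p} (aut p f)(ζ^b q)` for a primitive `p`-th root of unity `ζ`. -/
def NormSeries1Statement : Prop :=
  ∀ (M : ℕ) [NeZero M], 5 ≤ M → ∀ (p : ℕ) [NeZero p] (hp : p.Prime) (hpM : ¬ p ∣ M),
    ∀ ζ : (AlgebraicClosure ℚ)ˣ, IsPrimitiveRoot (ζ : AlgebraicClosure ℚ) p →
      ∀ f : F1Bar M,
        qExpand (AlgebraicClosure ℚ) p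
            ((heckeTm1 (AlgebraicClosure ℚ) M p f : F1Bar M) :
              LaurentSeries (AlgebraicClosure ℚ)) =
          qExpand (AlgebraicClosure ℚ) p
              (qExpand (AlgebraicClosure ℚ) p (f : LaurentSeries (AlgebraicClosure ℚ))) *
            ∏ b ∈ Finset.range p,
              Fermat.Agent.H27.twist (ζ ^ b)
                ((diamondAut (AlgebraicClosure ℚ) M (es1Unit M hp hpM) f : F1Bar M) :
                  LaurentSeries (AlgebraicClosure ℚ))

/-- **ES1-ES-2.**  Reduction of the multiplicative Hecke operator: if `y` reduces to `r` and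
`aut p y` reduces to `r₂`, then `Tm y` reduces to the series `t` with
`t(q^p) = r(q^{p²}) · r₂(q)^p`. -/
def NormRed1Statement : Prop :=
  ∀ (M : ℕ) [NeZero M], 5 ≤ M → ∀ (p : ℕ) [NeZero p] (hp : p.Prime) (hpM : ¬ p ∣ M),
    ∀ A : ValuationSubring (AlgebraicClosure ℚ), A.LiesOverPrime p →
      ∀ (y : F1Bar M) (r r₂ : LaurentSeries (IsLocalRing.ResidueField A)),
        IsGaussRed A (y : LaurentSeries (AlgebraicClosure ℚ)) r →
        IsGaussRed A ((diamondAut (AlgebraicClosure ℚ) M (es1Unit M hp hpM) y : F1Bar M) :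
          LaurentSeries (AlgebraicClosure ℚ)) r₂ →
        ∃ t : LaurentSeries (IsLocalRing.ResidueField A),
          IsGaussRed A ((heckeTm1 (AlgebraicClosure ℚ) M p y : F1Bar M) :
            LaurentSeries (AlgebraicClosure ℚ)) t ∧
          qExpand (IsLocalRing.ResidueField A) p t =
            qExpand (IsLocalRing.ResidueField A) p (qExpand (IsLocalRing.ResidueField A) p r) *
              r₂ ^ p

end Fermat.Agent.H16

end
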