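import Fermat.Agent.H16.ES1ESRed
import Fermat.Agent.H89.QES2

/-!
# P-DS / ES1-ES-2 (row 580): reduction of the multiplicative Hecke operator

`normRed1_of_normSeries : NormSeries1Statement → NormRed1Statement`.

Pure series algebra (`gr_norm_red`): if `T(q^p) = y(q^{p²}) ∏_b y₂(ζ^b q)` and `y`, `y₂` have
Gauss reductions `r`, `r₂`, then `T` has the Gauss reduction `t` with
`t(q^p) = r(q^{p²}) r₂(q)^p`.
-/

set_option autoImplicit false
set_option linter.style.haveILetI false
set_option linter.unusedSectionVars false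

noncomputable section

namespace Fermat.Agent.H16

open ModularCurve HahnSeries Fermat.Agent.H27

section TwistProd

variable {R : Type*} [CommRing R]

/-- The product over the `p` twists. -/
def twistProd (p : ℕ) (ζ : Rˣ) (x : LaurentSeries R) : LaurentSeries R :=
  ∏ b ∈ Finset.range p, twist (ζ ^ b) x

theorem twistProd_mul (p : ℕ) (ζ : Rˣ) (x y : LaurentSeries R) :
    twistProd p ζ (x * y) = twistProd p ζ x * twistProd p ζ y := by
  simp only [twistProd, map_mul, Finset.prod_mul_distrib]

theorem coeffMap_twistProd {S : Type*} [CommRing S] (f : R →+* S) (p : ℕ) (ζ : Rˣ)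
    (x : LaurentSeries R) :
    coeffMap f (twistProd p ζ x) = twistProd p (Units.map (f : R →* S) ζ) (coeffMap f x) := by
  simp only [twistProd, map_prod]
  refine Finset.prod_congr rfl fun b _ => ?_
  rw [Fermat.Agent.H67.coeffMap_twist, map_pow]

theorem twistProd_one_unit (p : ℕ) (x : LaurentSeries R) :
    twistProd p (1 : Rˣ) x = x ^ p := by
  simp only [twistProd, one_pow, Fermat.Agent.H42.twist_one', Finset.prod_const,
    Finset.card_range]

theorem twist_twist_pow (ζ : Rˣ) (b : ℕ) (x : LaurentSeries R) :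
    twist ζ (twist (ζ ^ b) x) = twist (ζ ^ (b + 1)) x := by
  ext n
  simp only [twist_coeff]
  rw [← mul_assoc, ← Units.val_mul, ← mul_zpow, pow_succ']

/-- The twist by `ζ` permutes the factors of the twist product. -/
theorem twist_twistProd (p : ℕ) (hp : 0 < p) (ζ : Rˣ) (hζ : ζ ^ p = 1) (x : LaurentSeries R) :
    twist ζ (twistProd p ζ x) = twistProd p ζ x := by
  simp only [twistProd, map_prod, twist_twist_pow]
  obtain ⟨m, rfl⟩ : ∃ m, p = m + 1 := ⟨p - 1, by omega⟩
  rw [Finset.prod_range_succ, hζ, Finset.prod_range_succ' (fun b => twist (ζ ^ b) x), pow_zero]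

/-- The twist product is a series in `q^p`. -/
theorem qExpand_qContract_twistProd [IsDomain R] (p : ℕ) [hp : Fact p.Prime]
    (ζ : Rˣ) (hζ : IsPrimitiveRoot (ζ : R) p) (x : LaurentSeries R) :
    haveI : NeZero p := ⟨hp.out.ne_zero⟩
    qExpand R p (Fermat.Agent.H42.qContract p (twistProd p ζ x)) = twistProd p ζ x := by
  haveI : NeZero p := ⟨hp.out.ne_zero⟩
  apply Fermat.Agent.H42.qExpand_qContract
  intro n hn
  refine Fermat.Agent.H42.coeff_eq_zero_of_twist_eq p ζ hζ _ ?_ n hn
  refine twist_twistProd p hp.out.pos ζ ?_ x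
  exact Units.ext (by rw [Units.val_pow_eq_pow_val, hζ.pow_eq_one, Units.val_one])

end TwistProd

section NormRed

variable {L : Type*} [Field L] {A : ValuationSubring L}

set_option maxHeartbeats 800000 in
/-- **Reduction of a norm series** (pure series algebra). -/
theorem gr_norm_red (p : ℕ) [hp : Fact p.Prime] [CharP (IsLocalRing.ResidueField A) p]
    (ζ : Lˣ) (hζ : IsPrimitiveRoot (ζ : L) p) {y y₂ T : LaurentSeries L}
    {r r₂ : LaurentSeries (IsLocalRing.ResidueField A)}
    (hT : haveI : NeZero p := ⟨hp.out.ne_zero⟩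
      qExpand L p T = qExpand L p (qExpand L p y) * twistProd p ζ y₂)
    (hy : IsGaussRed A y r) (hy₂ : IsGaussRed A y₂ r₂) :
    haveI : NeZero p := ⟨hp.out.ne_zero⟩
    ∃ t : LaurentSeries (IsLocalRing.ResidueField A), IsGaussRed A T t ∧
      qExpand (IsLocalRing.ResidueField A) p t =
        qExpand (IsLocalRing.ResidueField A) p (qExpand (IsLocalRing.ResidueField A) p r) *
          r₂ ^ p := by
  haveI : NeZero p := ⟨hp.out.ne_zero⟩
  obtain ⟨a, b, hab, hb, har⟩ := hy
  obtain ⟨a₂, b₂, hab₂, hb₂, har₂⟩ := hy₂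
  -- the root of unity in `A`
  have hζpow : ζ ^ p = 1 := Units.ext (by
    rw [Units.val_pow_eq_pow_val, hζ.pow_eq_one, Units.val_one])
  obtain ⟨ζA, hζA⟩ := Fermat.Agent.H89.exists_unit_of_pow_eq_one A ζ p hp.out.pos hζpow
  have hζA' : Units.map ((A.subtype : A →+* L) : A →* L) ζA = ζ := hζA
  have hζAval : ((ζA : A) : L) = (ζ : L) := by
    have := congrArg (fun u : Lˣ => (u : L)) hζA
    simpa using this
  have hζAprim : IsPrimitiveRoot (ζA : A) p := by
    have h1 : IsPrimitiveRoot (A.subtype (ζA : A)) p := by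
      show IsPrimitiveRoot ((ζA : A) : L) p
      rw [hζAval]
      exact hζ
    exact IsPrimitiveRoot.of_map_of_injective (f := A.subtype) h1 (fun _ _ h => Subtype.ext h)
  have hζApow : ζA ^ p = 1 := Units.ext (by
    rw [Units.val_pow_eq_pow_val, hζAprim.pow_eq_one, Units.val_one])
  have hres : Units.map ((IsLocalRing.residue A : A →+* IsLocalRing.ResidueField A) :
      A →* IsLocalRing.ResidueField A) ζA = 1 := by
    apply Units.ext
    rw [Units.coe_map, Units.val_one]
    apply Fermat.Agent.H89.eq_one_of_pow_char_eq_one p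
    have := congrArg (fun u : Aˣ => IsLocalRing.residue A (u : A)) hζApow
    simpa using this
  -- the contracted twist products
  set ca : LaurentSeries A := Fermat.Agent.H42.qContract p (twistProd p ζA a₂) with hca
  set cb : LaurentSeries A := Fermat.Agent.H42.qContract p (twistProd p ζA b₂) with hcb
  have hVca : qExpand A p ca = twistProd p ζA a₂ := qExpand_qContract_twistProd p ζA hζAprim a₂
  have hVcb : qExpand A p cb = twistProd p ζA b₂ := qExpand_qContract_twistProd p ζA hζAprim b₂
  have hιtp : ∀ x : LaurentSeries A, coeffMap A.subtype (twistProd p ζA x) =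
      twistProd p ζ (coeffMap A.subtype x) := by
    intro x
    rw [coeffMap_twistProd, hζA']
  have hρtp : ∀ x : LaurentSeries A, coeffMap (IsLocalRing.residue A) (twistProd p ζA x) =
      coeffMap (IsLocalRing.residue A) x ^ p := by
    intro x
    rw [coeffMap_twistProd, hres, twistProd_one_unit]
  have hVinjL := qExpand_injective (R := L) p
  have hVinjk := qExpand_injective (R := IsLocalRing.ResidueField A) p
  -- the reductions of the contracted products
  have hρca : qExpand (IsLocalRing.ResidueField A) p (coeffMap (IsLocalRing.residue A) ca) =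
      coeffMap (IsLocalRing.residue A) a₂ ^ p := by
    rw [← coeffMap_qExpand, hVca, hρtp]
  have hρcb : qExpand (IsLocalRing.ResidueField A) p (coeffMap (IsLocalRing.residue A) cb) =
      coeffMap (IsLocalRing.residue A) b₂ ^ p := by
    rw [← coeffMap_qExpand, hVcb, hρtp]
  -- the two integral series, after `q ↦ q^p`
  have hιV : ∀ u c x : LaurentSeries A, qExpand A p c = twistProd p ζA x →
      qExpand L p (coeffMap A.subtype (qExpand A p u * c)) =
        qExpand L p (qExpand L p (coeffMap A.subtype u)) *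
          twistProd p ζ (coeffMap A.subtype x) := by
    intro u c x hc
    rw [← coeffMap_qExpand, map_mul, hc, map_mul, hιtp, coeffMap_qExpand, coeffMap_qExpand]
  have hρV : ∀ u c x : LaurentSeries A, qExpand A p c = twistProd p ζA x →
      qExpand (IsLocalRing.ResidueField A) p
          (coeffMap (IsLocalRing.residue A) (qExpand A p u * c)) =
        qExpand (IsLocalRing.ResidueField A) p (qExpand (IsLocalRing.ResidueField A) p
          (coeffMap (IsLocalRing.residue A) u)) * coeffMap (IsLocalRing.residue A) x ^ p := by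
    intro u c x hc
    rw [← coeffMap_qExpand, map_mul, hc, map_mul, hρtp, coeffMap_qExpand, coeffMap_qExpand]
  refine ⟨qExpand (IsLocalRing.ResidueField A) p r *
      coeffMap (frobenius (IsLocalRing.ResidueField A) p) r₂, ⟨qExpand A p a * ca,
      qExpand A p b * cb, ?_, ?_, ?_⟩, ?_⟩
  · -- the identity over `L`
    apply hVinjL
    rw [map_mul, hT, hιV a ca a₂ hVca, hιV b cb b₂ hVcb, ← hab, ← hab₂, twistProd_mul,
      map_mul, map_mul]
    ring
  · -- the denominator has nonzero reduction
    intro h0
    have h1 := congrArg (qExpand (IsLocalRing.ResidueField A) p) h0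
    rw [hρV b cb b₂ hVcb, map_zero] at h1
    rcases mul_eq_zero.mp h1 with h2 | h2
    · apply hb
      apply hVinjk
      apply hVinjk
      rw [h2, map_zero, map_zero]
    · exact hb₂ (pow_eq_zero_iff hp.out.ne_zero |>.mp h2)
  · -- the reduction
    apply hVinjk
    have e : qExpand (IsLocalRing.ResidueField A) p
        (coeffMap (frobenius (IsLocalRing.ResidueField A) p) r₂) = r₂ ^ p :=
      (Fermat.Agent.H42.laurent_pow_char p r₂).symm
    rw [map_mul (qExpand (IsLocalRing.ResidueField A) p), hρV a ca a₂ hVca,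
      hρV b cb b₂ hVcb, har, har₂]
    simp only [map_mul, mul_pow, e]
    ring
  · rw [map_mul, (Fermat.Agent.H42.laurent_pow_char p r₂).symm]

end NormRed

/-- **ES1-ES-2.**  The reduction of the multiplicative Hecke operator of `X₁(M)`, from the norm
series. -/
theorem normRed1_of_normSeries (hNS : NormSeries1Statement) : NormRed1Statement := by
  intro M _ hM p _ hp hpM A hA y r r₂ hy hy₂
  haveI : Fact p.Prime := ⟨hp⟩
  haveI : CharP (IsLocalRing.ResidueField A) p :=
    Fermat.Agent.H36.charP_residueField_of_liesOver A hp hA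
  have hp0 : ((p : ℕ) : AlgebraicClosure ℚ) ≠ 0 := Nat.cast_ne_zero.mpr hp.ne_zero
  haveI : NeZero ((p : ℕ) : AlgebraicClosure ℚ) := ⟨hp0⟩
  obtain ⟨ζ₀, hζ₀⟩ := HasEnoughRootsOfUnity.exists_primitiveRoot (AlgebraicClosure ℚ) p
  obtain ⟨ζ, hζ⟩ : ∃ ζ : (AlgebraicClosure ℚ)ˣ, IsPrimitiveRoot (ζ : AlgebraicClosure ℚ) p :=
    ⟨(hζ₀.isUnit hp.ne_zero).unit, by simpa using hζ₀⟩
  exact gr_norm_red p ζ hζ (hNS M hM p hp hpM ζ hζ y) hy hy₂

end Fermat.Agent.H16

end
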