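import Fermat.Agent.H16.ES1ESInterfaces
import Fermat.Agent.H36.ESE.TorsionSeries
import Fermat.Agent.H67.IgusaTransfer

/-!
# P-DS / ES1-ES (row 580): the calculus of Gauss reductions

`IsGaussRed A f r` (`f ∈ L((q))`, `r ∈ k((q))`): `f = a / b` with `a, b ∈ A((q))`, `b̄ ≠ 0` and
`r = ā / b̄`.  It is functional in `f`, multiplicative, compatible with inverses, with the
coefficientwise action of the decomposition group and with `q ↦ q^p`.
-/

set_option autoImplicit false
set_option linter.style.haveILetI false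
set_option linter.unusedSectionVars false

noncomputable section

namespace Fermat.Agent.H16

open ModularCurve HahnSeries

section Basic

variable {L : Type*} [Field L] (A : ValuationSubring L)

theorem gr_subtype_injective :
    Function.Injective (coeffMap A.subtype : LaurentSeries A → LaurentSeries L) :=
  Fermat.Agent.H67.coeffMap_injective_of_injective _ (fun _ _ h => Subtype.ext h)

theorem gr_ne_zero_of_residue {a : LaurentSeries A}
    (h : coeffMap (IsLocalRing.residue A) a ≠ 0) : coeffMap A.subtype a ≠ 0 := by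
  intro h0
  apply h
  have ha : a = 0 := gr_subtype_injective A (by rw [h0, map_zero])
  rw [ha, map_zero]

variable {A}

theorem IsGaussRed.unique {f : LaurentSeries L} {r r' : LaurentSeries (IsLocalRing.ResidueField A)}
    (h : IsGaussRed A f r) (h' : IsGaussRed A f r') : r = r' := by
  obtain ⟨a, b, hab, hb, har⟩ := h
  obtain ⟨a', b', hab', hb', har'⟩ := h'
  have h1 : a * b' = a' * b := by
    apply gr_subtype_injective A
    rw [map_mul, map_mul, ← hab, ← hab']
    ring
  have h2 := congrArg (coeffMap (IsLocalRing.residue A)) h1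
  rw [map_mul, map_mul, har, har'] at h2
  have h3 : (r - r') * (coeffMap (IsLocalRing.residue A) b *
      coeffMap (IsLocalRing.residue A) b') = 0 := by
    linear_combination h2
  rcases mul_eq_zero.mp h3 with h4 | h4
  · exact sub_eq_zero.mp h4
  · exact absurd h4 (mul_ne_zero hb hb')

theorem IsGaussRed.mul {f g : LaurentSeries L} {r s : LaurentSeries (IsLocalRing.ResidueField A)}
    (h : IsGaussRed A f r) (h' : IsGaussRed A g s) : IsGaussRed A (f * g) (r * s) := by
  obtain ⟨a, b, hab, hb, har⟩ := h
  obtain ⟨a', b', hab', hb', har'⟩ := h'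
  refine ⟨a * a', b * b', ?_, ?_, ?_⟩
  · rw [map_mul, map_mul, ← hab, ← hab']
    ring
  · rw [map_mul]
    exact mul_ne_zero hb hb'
  · rw [map_mul, map_mul, har, har']
    ring

theorem IsGaussRed.of_integral (a : LaurentSeries A) :
    IsGaussRed A (coeffMap A.subtype a) (coeffMap (IsLocalRing.residue A) a) :=
  ⟨a, 1, by rw [map_one, mul_one], by rw [map_one]; exact one_ne_zero, by rw [map_one, mul_one]⟩

theorem IsGaussRed.one : IsGaussRed A (1 : LaurentSeries L) 1 := by
  have := IsGaussRed.of_integral (A := A) 1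
  rwa [map_one, map_one] at this

theorem IsGaussRed.ne_zero {f : LaurentSeries L} {r : LaurentSeries (IsLocalRing.ResidueField A)}
    (h : IsGaussRed A f r) (hr : r ≠ 0) : f ≠ 0 := by
  obtain ⟨a, b, hab, hb, har⟩ := h
  rintro rfl
  rw [zero_mul] at hab
  have ha : coeffMap (IsLocalRing.residue A) a ≠ 0 := by
    rw [har]
    exact mul_ne_zero hr hb
  exact gr_ne_zero_of_residue A ha hab.symm

theorem IsGaussRed.inv {f : LaurentSeries L} {r : LaurentSeries (IsLocalRing.ResidueField A)}
    (h : IsGaussRed A f r) (hr : r ≠ 0) : IsGaussRed A f⁻¹ r⁻¹ := by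
  have hf := h.ne_zero hr
  obtain ⟨a, b, hab, hb, har⟩ := h
  have ha : coeffMap (IsLocalRing.residue A) a ≠ 0 := by
    rw [har]
    exact mul_ne_zero hr hb
  refine ⟨b, a, ?_, ha, ?_⟩
  · rw [← hab, ← mul_assoc, inv_mul_cancel₀ hf, one_mul]
  · rw [har, ← mul_assoc, inv_mul_cancel₀ hr, one_mul]

theorem IsGaussRed.div {f g : LaurentSeries L} {r s : LaurentSeries (IsLocalRing.ResidueField A)}
    (h : IsGaussRed A f r) (h' : IsGaussRed A g s) (hs : s ≠ 0) :
    IsGaussRed A (f / g) (r / s) := by
  rw [div_eq_mul_inv, div_eq_mul_inv]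
  exact h.mul (h'.inv hs)

theorem IsGaussRed.pow {f : LaurentSeries L} {r : LaurentSeries (IsLocalRing.ResidueField A)}
    (h : IsGaussRed A f r) (n : ℕ) : IsGaussRed A (f ^ n) (r ^ n) := by
  induction n with
  | zero => simpa using IsGaussRed.one (A := A)
  | succ n ih =>
      rw [pow_succ, pow_succ]
      exact ih.mul h

/-- Reductions of inverse pairs are inverse: if `f g = 1` and both are in the Gauss ring, the
reductions are nonzero. -/
theorem IsGaussRed.ne_zero_of_mul_eq_one {f g : LaurentSeries L}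
    {r s : LaurentSeries (IsLocalRing.ResidueField A)}
    (h : IsGaussRed A f r) (h' : IsGaussRed A g s) (hfg : f * g = 1) : r ≠ 0 := by
  have h1 := (h.mul h').unique (hfg ▸ IsGaussRed.one)
  intro h0
  rw [h0, zero_mul] at h1
  exact zero_ne_one h1

theorem IsGaussRed.map_qExpand {f : LaurentSeries L}
    {r : LaurentSeries (IsLocalRing.ResidueField A)} (h : IsGaussRed A f r) (p : ℕ) [NeZero p] :
    IsGaussRed A (ModularCurve.qExpand L p f)
      (ModularCurve.qExpand (IsLocalRing.ResidueField A) p r) := by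
  obtain ⟨a, b, hab, hb, har⟩ := h
  refine ⟨ModularCurve.qExpand A p a, ModularCurve.qExpand A p b, ?_, ?_, ?_⟩
  · rw [coeffMap_qExpand, coeffMap_qExpand, ← map_mul, hab]
  · rw [coeffMap_qExpand]
    intro h0
    apply hb
    apply qExpand_injective (R := IsLocalRing.ResidueField A) p
    rw [h0, map_zero]
  · rw [coeffMap_qExpand, coeffMap_qExpand, har, map_mul]

theorem gr_coeffMap_C {R S : Type*} [CommRing R] [CommRing S] (f : R →+* S) (x : R) :
    coeffMap f (HahnSeries.C x : LaurentSeries R) = HahnSeries.C (f x) := by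
  rw [HahnSeries.C_apply, coeffMap_single, HahnSeries.C_apply]

/-- A constant `c` with `c · u = v` for integral series `u, v`, `u` of nonzero reduction, lies
in `A`. -/
theorem gr_const_mem {c : L} {u v : LaurentSeries A}
    (hu : coeffMap (IsLocalRing.residue A) u ≠ 0)
    (h : HahnSeries.C c * coeffMap A.subtype u = coeffMap A.subtype v) : c ∈ A := by
  by_contra hc
  have hc0 : c ≠ 0 := fun h0 => hc (h0 ▸ A.zero_mem)
  have hinv : c⁻¹ ∈ A := (A.mem_or_inv_mem c).resolve_left hc
  have hnu : (⟨c⁻¹, hinv⟩ : A) ∈ IsLocalRing.maximalIdeal A := by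
    rw [IsLocalRing.mem_maximalIdeal, mem_nonunits_iff]
    intro hunit
    obtain ⟨w, hw⟩ := hunit.exists_right_inv
    apply hc
    have h1 : c⁻¹ * (w : L) = 1 := by
      have := congrArg (fun z : A => (z : L)) hw
      simpa using this
    have h2 : (w : L) = c := by
      have := congrArg (fun z => c * z) h1
      simp only [mul_one] at this
      rw [← mul_assoc, mul_inv_cancel₀ hc0, one_mul] at this
      exact this
    rw [← h2]
    exact w.2
  have h3 : u = HahnSeries.C (⟨c⁻¹, hinv⟩ : A) * v := by
    apply gr_subtype_injective A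
    rw [map_mul, gr_coeffMap_C, ← h, ← mul_assoc, ← map_mul]
    have : (A.subtype (⟨c⁻¹, hinv⟩ : A)) * c = 1 := inv_mul_cancel₀ hc0
    rw [this, map_one, one_mul]
  apply hu
  rw [h3, map_mul, gr_coeffMap_C, (IsLocalRing.residue_eq_zero_iff _).mpr hnu, map_zero, zero_mul]

/-- **Normalisation.**  If `y` reduces to `1` and `y b₃ = c a₃` with `a₃, b₃` integral of nonzero
reduction, then `c a₃` is an integral series with the same reduction as `b₃`. -/
theorem gr_normalize {y : LaurentSeries L} (hy : IsGaussRed A y 1) {c : L}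
    {a₃ b₃ : LaurentSeries A} (ha₃ : coeffMap (IsLocalRing.residue A) a₃ ≠ 0)
    (h : y * coeffMap A.subtype b₃ = HahnSeries.C c * coeffMap A.subtype a₃) :
    ∃ a₄ : LaurentSeries A, coeffMap A.subtype a₄ = HahnSeries.C c * coeffMap A.subtype a₃ ∧
      coeffMap (IsLocalRing.residue A) a₄ = coeffMap (IsLocalRing.residue A) b₃ := by
  obtain ⟨a₀, b₀, hab, hb₀, har⟩ := hy
  rw [one_mul] at har
  have h1 : HahnSeries.C c * coeffMap A.subtype (a₃ * b₀) = coeffMap A.subtype (a₀ * b₃) := by
    rw [map_mul, map_mul, ← hab, ← mul_assoc, ← h]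
    ring
  have hcA : c ∈ A := gr_const_mem (mul_ne_zero_iff.mpr ⟨ha₃, hb₀⟩ |> fun hh => by
    rw [map_mul]; exact hh) h1
  refine ⟨HahnSeries.C (⟨c, hcA⟩ : A) * a₃, ?_, ?_⟩
  · rw [map_mul, gr_coeffMap_C]
    rfl
  · have h2 : HahnSeries.C (⟨c, hcA⟩ : A) * a₃ * b₀ = a₀ * b₃ := by
      apply gr_subtype_injective A
      rw [← h1, map_mul, map_mul, map_mul, gr_coeffMap_C]
      have : A.subtype (⟨c, hcA⟩ : A) = c := rfl
      rw [this]
      ring
    have h3 := congrArg (coeffMap (IsLocalRing.residue A)) h2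
    rw [map_mul, map_mul (coeffMap (IsLocalRing.residue A)) a₀ b₃, har] at h3
    have h4 : (coeffMap (IsLocalRing.residue A) (HahnSeries.C (⟨c, hcA⟩ : A) * a₃)
        - coeffMap (IsLocalRing.residue A) b₃) * coeffMap (IsLocalRing.residue A) b₀ = 0 := by
      linear_combination h3
    rcases mul_eq_zero.mp h4 with h5 | h5
    · exact sub_eq_zero.mp h5
    · exact absurd h5 hb₀

end Basic

section Gal

variable {K L : Type*} [Field K] [Field L] [Algebra K L] {A : ValuationSubring L}

open Fermat.Agent.H36

/-- The coefficientwise action of a Frobenius element on Gauss reductions. -/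
theorem IsGaussRed.map_frob {p : ℕ} [Fact p.Prime] [CharP (IsLocalRing.ResidueField A) p]
    {σ : L ≃ₐ[K] L} (hσ : A.IsFrobeniusAt σ p) {f : LaurentSeries L}
    {r : LaurentSeries (IsLocalRing.ResidueField A)} (h : IsGaussRed A f r) :
    IsGaussRed A (coeffMap ((σ : L ≃ₐ[K] L) : L →+* L) f)
      (coeffMap (frobenius (IsLocalRing.ResidueField A) p) r) := by
  obtain ⟨a, b, hab, hb, har⟩ := h
  set τ : A.decompositionSubgroup K := ⟨σ, hσ.mem_decompositionSubgroup⟩ with hτ
  have e1 : ∀ y : LaurentSeries A, coeffMap A.subtype (galSeries A τ y) =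
      coeffMap ((σ : L ≃ₐ[K] L) : L →+* L) (coeffMap A.subtype y) := fun y =>
    coeffMap_subtype_galSeries A τ y
  have e2 : ∀ y : LaurentSeries A, coeffMap (IsLocalRing.residue A) (galSeries A τ y) =
      coeffMap (frobenius (IsLocalRing.ResidueField A) p) (coeffMap (IsLocalRing.residue A) y) :=
    fun y => coeffMap_residue_galSeries_of_isFrobeniusAt A hσ y
  refine ⟨galSeries A τ a, galSeries A τ b, ?_, ?_, ?_⟩
  · rw [e1, e1, ← map_mul, hab]
  · rw [e2]
    intro h0
    apply hb
    apply coeffMap_frobenius_injective (k := IsLocalRing.ResidueField A) p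
    rw [h0, map_zero]
  · rw [e2, e2, har, map_mul]

end Gal

end Fermat.Agent.H16

end
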