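import Fermat.Agent.H29.ES1.GenInterfaces

/-!
# P-DS / ES1-GEN-a (row 538): formal leading terms of the generators `v_a` (helper16)

* `genFormalStatement : GenFormalStatement`
* `genSepStatement : GenSepStatement`
* `gen_repMin_eq_iff : repMin M a = repMin M b ↔ a = b ∨ a = -b`
* `gen_vGen_coeff_int : ∀ k, ∃ z : ℤ, (vGen M a).coeff k = z`
-/

set_option autoImplicit false

noncomputable section

namespace Fermat.Agent.H16

open ModularCurve Fermat.Agent.H29.ES1 HahnSeries

section RepMin

variable (M : ℕ) [NeZero M]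

theorem gen_repMin_cast (a : ZMod M) :
    ((repMin M a : ℕ) : ZMod M) = a ∨ ((repMin M a : ℕ) : ZMod M) = -a := by
  unfold repMin
  rcases le_total a.val (M - a.val) with h | h
  · left
    rw [min_eq_left h, ZMod.natCast_zmod_val]
  · right
    rw [min_eq_right h, Nat.cast_sub (ZMod.val_lt a).le, ZMod.natCast_self,
      ZMod.natCast_zmod_val, zero_sub]

theorem gen_repMin_neg (a : ZMod M) : repMin M (-a) = repMin M a := by
  unfold repMin
  by_cases ha : a = 0
  · subst ha
    simp
  · rw [ZMod.neg_val, if_neg ha, Nat.sub_sub_self (ZMod.val_lt a).le, min_comm]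

theorem gen_repMin_eq_iff (a b : ZMod M) : repMin M a = repMin M b ↔ a = b ∨ a = -b := by
  constructor
  · intro h
    rcases gen_repMin_cast M a with ha | ha <;> rcases gen_repMin_cast M b with hb | hb
    · left
      rw [← ha, ← hb, h]
    · right
      rw [← ha, h, hb]
    · right
      have : -a = b := by rw [← ha, h, hb]
      rw [← this, neg_neg]
    · left
      have : -a = -b := by rw [← ha, h, hb]
      exact neg_injective this
  · rintro (rfl | rfl)
    · rfl
    · exact gen_repMin_neg M b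

theorem gen_repMin_pos {a : ZMod M} (ha : a ≠ 0) : 0 < repMin M a := by
  unfold repMin
  have h1 : 0 < a.val := (ZMod.val_pos).mpr ha
  have h2 := ZMod.val_lt a
  exact lt_min h1 (Nat.sub_pos_of_lt h2)

omit [NeZero M] in
theorem gen_repMin_le_val (a : ZMod M) : repMin M a ≤ a.val := min_le_left _ _

theorem gen_repMin_le_of_cast (c : ℕ) (a : ZMod M)
    (h : (c : ZMod M) = a ∨ (c : ZMod M) = -a) : repMin M a ≤ c := by
  have key : ∀ b : ZMod M, (c : ZMod M) = b → repMin M b ≤ c := by
    intro b hb
    refine (gen_repMin_le_val M b).trans ?_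
    rw [← hb, ZMod.val_natCast]
    exact Nat.mod_le _ _
  rcases h with h | h
  · exact key a h
  · rw [← gen_repMin_neg]
    exact key (-a) h

end RepMin

section GenCoeff

variable (M : ℕ) [NeZero M]

theorem gen_genCoeff_eq_zero (a : ZMod M) {n : ℕ} (hn : n < repMin M a) :
    genCoeff M a n = 0 := by
  unfold genCoeff
  refine Finset.sum_eq_zero fun d hd => ?_
  have hle : n / d ≤ n := Nat.div_le_self n d
  have h1 : ¬ ((n / d : ℕ) : ZMod M) = a := fun h =>
    absurd (gen_repMin_le_of_cast M (n / d) a (Or.inl h)) (by omega)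
  have h2 : ¬ ((n / d : ℕ) : ZMod M) = -a := fun h =>
    absurd (gen_repMin_le_of_cast M (n / d) a (Or.inr h)) (by omega)
  rw [if_neg h1, if_neg h2, add_zero]

theorem gen_genCoeff_repMin (a : ZMod M) (ha : a ≠ 0) (ha2 : a ≠ -a) :
    genCoeff M a (repMin M a) = 1 := by
  have hpos := gen_repMin_pos M ha
  unfold genCoeff
  rw [Finset.sum_eq_single 1]
  · rw [Nat.div_one]
    rcases gen_repMin_cast M a with h | h
    · rw [if_pos h, if_neg (fun h' => ha2 (h.symm.trans h'))]
      simp
    · rw [if_neg (fun h' => ha2 (h'.symm.trans h)), if_pos h]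
      simp
  · intro d hd hd1
    have hdvd : d ∣ repMin M a := Nat.dvd_of_mem_divisors hd
    have hd0 : 0 < d := Nat.pos_of_dvd_of_pos hdvd hpos
    have hlt : repMin M a / d < repMin M a := Nat.div_lt_self hpos (by omega)
    have h1 : ¬ ((repMin M a / d : ℕ) : ZMod M) = a := fun h =>
      absurd (gen_repMin_le_of_cast M _ a (Or.inl h)) (by omega)
    have h2 : ¬ ((repMin M a / d : ℕ) : ZMod M) = -a := fun h =>
      absurd (gen_repMin_le_of_cast M _ a (Or.inr h)) (by omega)
    rw [if_neg h1, if_neg h2, add_zero]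
  · intro h
    exact absurd (Nat.one_mem_divisors.mpr hpos.ne') h

end GenCoeff

section Monic

/-- Coefficient criterion for `IsMonicOfOrder`. -/
theorem gen_isMonicOfOrder_of_coeff {f : LaurentSeries ℚ} {m : ℤ} (h1 : f.coeff m = 1)
    (h0 : ∀ k : ℤ, k < m → f.coeff k = 0) : IsMonicOfOrder f m := by
  have hne0 : f.coeff m ≠ 0 := by rw [h1]; exact one_ne_zero
  have hne : f ≠ 0 := HahnSeries.ne_zero_of_coeff_ne_zero hne0
  have horder : f.order = m := by
    refine le_antisymm (HahnSeries.order_le_of_coeff_ne_zero hne0) ?_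
    by_contra hlt
    rw [not_le] at hlt
    exact hne (HahnSeries.coeff_order_eq_zero.mp (h0 _ hlt))
  exact ⟨horder, by rw [HahnSeries.leadingCoeff_eq, horder, h1]⟩

theorem gen_isMonicOfOrder_sub {f g : LaurentSeries ℚ} {m n : ℤ} (hf : IsMonicOfOrder f m)
    (hg : IsMonicOfOrder g n) (hmn : m < n) : IsMonicOfOrder (f - g) m := by
  refine gen_isMonicOfOrder_of_coeff ?_ ?_
  · rw [HahnSeries.coeff_sub, hf.coeff_self, hg.coeff_of_lt hmn, sub_zero]
  · intro k hk
    rw [HahnSeries.coeff_sub, hf.coeff_of_lt hk, hg.coeff_of_lt (hk.trans hmn), sub_zero]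

end Monic

section VGen

variable (M : ℕ) [NeZero M]

omit [NeZero M] in
/-- The coefficients of `vGen M a` in terms of those of `vNum M a`. -/
theorem gen_vGen_coeff (a : ZMod M) (k : ℤ) :
    (vGen M a).coeff k =
      if 0 ≤ k + 1 then ((PowerSeries.coeff (k + 1).toNat (vNum M a) : ℤ) : ℚ) else 0 := by
  have h1 : k = (k + 1) + (-1) := by ring
  rw [vGen]
  conv_lhs => rw [h1, HahnSeries.coeff_single_mul_add, one_mul]
  split_ifs with h
  · lift k + 1 to ℕ using h with j hj
    rw [HahnSeries.ofPowerSeries_apply_coeff, PowerSeries.coeff_map, Int.toNat_natCast]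
    rfl
  · exact ModularCurve.ofPowerSeries_coeff_of_neg _ (not_le.mp h)

/-- Integrality of the `q`-expansion of `v_a`. -/
theorem gen_vGen_coeff_int (a : ZMod M) (k : ℤ) : ∃ z : ℤ, (vGen M a).coeff k = z := by
  rw [gen_vGen_coeff]
  split_ifs
  · exact ⟨_, rfl⟩
  · exact ⟨0, by simp⟩

/-- Low coefficients of `vNum`: `vNum = q^ã + …`. -/
theorem gen_coeff_vNum (a : ZMod M) (ha : a ≠ 0) (ha2 : a ≠ -a) :
    (∀ n : ℕ, n < repMin M a → PowerSeries.coeff n (vNum M a) = 0) ∧
      PowerSeries.coeff (repMin M a) (vNum M a) = 1 := by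
  set t := repMin M a with ht
  -- `genPS = X ^ t * U`, `constantCoeff U = 1`
  set U : PowerSeries ℤ := PowerSeries.mk fun n => genCoeff M a (n + t) with hU
  have hgen : genPS M a = PowerSeries.X ^ t * U := by
    ext n
    rw [coeff_genPS, PowerSeries.coeff_X_pow_mul']
    split_ifs with h
    · rw [hU, PowerSeries.coeff_mk, Nat.sub_add_cancel h]
    · exact gen_genCoeff_eq_zero M a (not_le.mp h)
  have hU0 : PowerSeries.constantCoeff U = 1 := by
    rw [← PowerSeries.coeff_zero_eq_constantCoeff_apply, hU, PowerSeries.coeff_mk, zero_add]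
    exact gen_genCoeff_repMin M a ha ha2
  set W : PowerSeries ℤ := eisenstein4 ^ 2 * U * dedekindEtaUnitInv with hW
  have hW0 : PowerSeries.constantCoeff W = 1 := by
    rw [hW, map_mul, map_mul, map_pow, constantCoeff_eisenstein4,
      constantCoeff_dedekindEtaUnitInv, hU0]
    norm_num
  have hv : vNum M a = PowerSeries.X ^ t * W := by
    rw [vNum, hgen, hW]
    ring
  constructor
  · intro n hn
    rw [hv, PowerSeries.coeff_X_pow_mul', if_neg (not_le.mpr hn)]
  · rw [hv, PowerSeries.coeff_X_pow_mul', if_pos le_rfl, Nat.sub_self,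
      PowerSeries.coeff_zero_eq_constantCoeff_apply, hW0]

theorem gen_isMonicOfOrder_vGen (a : ZMod M) (ha : a ≠ 0) (ha2 : a ≠ -a) :
    IsMonicOfOrder (vGen M a) ((repMin M a : ℤ) - 1) := by
  obtain ⟨h0, h1⟩ := gen_coeff_vNum M a ha ha2
  refine gen_isMonicOfOrder_of_coeff ?_ ?_
  · rw [gen_vGen_coeff, if_pos (by omega)]
    have : ((repMin M a : ℤ) - 1 + 1).toNat = repMin M a := by omega
    rw [this, h1]
    norm_num
  · intro k hk
    rw [gen_vGen_coeff]
    split_ifs with h
    · have : (k + 1).toNat < repMin M a := by omega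
      rw [h0 _ this]
      norm_num
    · rfl

end VGen

section Main

/-- **ES1-GEN-a (1).** -/
theorem genFormalStatement : GenFormalStatement := by
  intro M _ a ha ha2
  exact ⟨fun n hn => gen_genCoeff_eq_zero M a hn, gen_genCoeff_repMin M a ha ha2,
    gen_isMonicOfOrder_vGen M a ha ha2⟩

/-- **ES1-GEN-a (2).** -/
theorem genSepStatement : GenSepStatement := by
  intro M _ a b ha hb ha2 hb2 hab hab'
  have hne : repMin M a ≠ repMin M b := fun h =>
    ((gen_repMin_eq_iff M a b).mp h).elim hab hab'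
  have hfa := gen_isMonicOfOrder_vGen M a ha ha2
  have hfb := gen_isMonicOfOrder_vGen M b hb hb2
  rcases lt_or_gt_of_ne hne with h | h
  · left
    exact gen_isMonicOfOrder_sub hfa hfb (by omega)
  · right
    exact gen_isMonicOfOrder_sub hfb hfa (by omega)

end Main

end Fermat.Agent.H16

end
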