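import Fermat.Agent.H91.ES1KL.Interfaces1
import Fermat.Agent.H48.KL.QExpCore

/-!
# P-DS / ES1-KL-QABS (row 813): the abstract `q`-expansion principle

`qExpAbs : FibreFieldStatement → QExpAbsStatement`: with a good basis and an irreducible special
fibre, every valuation ring `V` of `E` inducing the Gauss valuation on `K(x)` is contained in
the Gauss closure `C(x)`.

Proof.  (1) `C ⊆ V` (`V` is integrally closed and contains `A[x]` and the inverses of the
primitive polynomials).  (2) For every `y ∈ E` some `ϖ^k y` lies in `C` (good basis + common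
denominator).  (3) For `y ∈ V` take `k` minimal; if `k ≥ 1` then `z = ϖ^k y ∉ ϖ C`, so
`z w = 1 + ϖ c` with `w, c ∈ C` (`C / ϖ C` is a field), whence `ϖ⁻¹ = ϖ^{k-1} y w - c ∈ V`:
contradiction.
-/

set_option autoImplicit false
set_option maxSynthPendingDepth 3
set_option linter.style.haveILetI false
set_option linter.unusedSectionVars false

noncomputable section

namespace Fermat.Agent.H16

open Polynomial
open Fermat.Agent.H22.KL Fermat.Agent.H87.KL Fermat.Agent.H91.ES1KL
open Fermat.Agent.H67.KLConn (PiDvd)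

section Aux

variable {A : Type} [CommRing A] {E : Type} [Field E] [Algebra A E]

/-- Polynomials in `x ∈ V` with coefficients in `A ⊆ V` lie in `V`. -/
theorem qabs_aeval_mem (V : ValuationSubring E) (hA : ∀ a : A, algebraMap A E a ∈ V) {x : E}
    (hx : x ∈ V) (H : A[X]) : aeval x H ∈ V := by
  induction H using Polynomial.induction_on with
  | C a =>
      rw [aeval_C]
      exact hA a
  | add p q hp hq =>
      rw [map_add]
      exact V.add_mem _ _ hp hq
  | monomial n a _ =>
      rw [map_mul, aeval_C, map_pow, aeval_X]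
      exact V.mul_mem _ _ (hA a) (pow_mem hx _)

/-- Elements integral over `A[x]` lie in `V`. -/
theorem qabs_intX_mem (V : ValuationSubring E) (hA : ∀ a : A, algebraMap A E a ∈ V) {x : E}
    (hx : x ∈ V) {z : E} (hz : IntX (A := A) x z) : z ∈ V := by
  obtain ⟨q, hq, hqz⟩ := hz
  let φ : A[X] →+* V :=
    (evX (A := A) x).codRestrict V.toSubring (fun H => qabs_aeval_mem V hA hx H)
  have hcomp : (algebraMap V E).comp φ = evX (A := A) x := by
    ext <;> rfl
  have hint : IsIntegral V z := by
    refine ⟨q.map φ, hq.map φ, ?_⟩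
    rw [Polynomial.eval₂_map, hcomp]
    exact hqz
  obtain ⟨y, hy⟩ := IsIntegrallyClosed.isIntegral_iff.mp hint
  rw [← hy]
  exact y.2

theorem qabs_intX_sum {x : E} {ι : Type*} (s : Finset ι) (f : ι → E)
    (hf : ∀ i ∈ s, IntX (A := A) x (f i)) : IntX (A := A) x (∑ i ∈ s, f i) := by
  classical
  induction s using Finset.induction_on with
  | empty =>
      rw [Finset.sum_empty]
      have := IntX.map (A := A) x (0 : A[X])
      rwa [map_zero] at this
  | insert a s ha ih =>
      rw [Finset.sum_insert ha]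
      exact (hf a (Finset.mem_insert_self a s)).add
        (ih fun i hi => hf i (Finset.mem_insert_of_mem hi))

end Aux

/-- **ES1-KL-QABS.** -/
theorem qExpAbs (hF : FibreFieldStatement) : QExpAbsStatement := by
  intro A _ _ _ E _ _ _ hinj ϖ hϖ x hx hGB hIrr V hAV hxV hϖV hunit y hyV
  have hprime : Prime ϖ := hϖ.prime
  have hϖ0 : algebraMap A E ϖ ≠ 0 := by
    intro h0
    exact hϖ.ne_zero (hinj (by rw [h0, map_zero]))
  have hinjx : Function.Injective (aeval x : A[X] →ₐ[A] E) :=
    transcendental_iff_injective.1 hx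
  -- (1) `C ⊆ V`
  have hCV : ∀ z ∈ gaussClosure A E ϖ x, z ∈ V := by
    intro z hz
    obtain ⟨H, hnd, hint⟩ := (mem_gaussClosure_iff hx ϖ z).1 hz
    have h1 := qabs_intX_mem V hAV hxV hint
    have h2 := hunit H hnd
    have hH0 : aeval x H ≠ 0 := by
      intro h0
      apply hnd
      have : H = 0 := hinjx (by rw [h0, map_zero])
      rw [this]
      exact dvd_zero _
    have e : z = (aeval x H)⁻¹ * (aeval x H * z) := by
      rw [← mul_assoc, inv_mul_cancel₀ hH0, one_mul]
    rw [e]
    exact V.mul_mem _ _ h2 h1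
  -- (2) some `ϖ^k y` lies in `C`
  have hk : ∃ k : ℕ, algebraMap A E ϖ ^ k * y ∈ gaussClosure A E ϖ x := by
    obtain ⟨n, b, hb, -⟩ := hGB
    have hsum := b.sum_repr y
    obtain ⟨h, hh, hp⟩ := Fermat.Agent.H48.QExp.exists_common_denominator (A := A)
      (Finset.univ : Finset (Fin n)) x
      (fun i => ((b.repr y i : chartField A E x) : E)) (fun i _ => (b.repr y i).2)
    have hh0 : h ≠ 0 := by
      rintro rfl
      exact hh (map_zero _)
    have hnu : ¬ IsUnit (C ϖ : A[X]) := by
      rw [Polynomial.isUnit_C]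
      exact hϖ.not_isUnit
    obtain ⟨h', hh', hnd⟩ :=
      (FiniteMultiplicity.of_not_isUnit hnu hh0).exists_eq_pow_mul_and_not_dvd
    refine ⟨multiplicity (C ϖ) h, ?_⟩
    rw [mem_gaussClosure_iff hx ϖ]
    refine ⟨h', hnd, ?_⟩
    have e1 : aeval x h' * (algebraMap A E ϖ ^ multiplicity (C ϖ) h * y) = y * aeval x h := by
      conv_rhs => rw [hh', map_mul, map_pow, aeval_C]
      ring
    rw [e1, ← hsum, Finset.sum_mul]
    refine qabs_intX_sum _ _ fun i _ => ?_
    obtain ⟨p, hpi⟩ := hp i (Finset.mem_univ i)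
    have e2 : (b.repr y i • b i) * aeval x h = aeval x p * b i := by
      rw [Subfield.smul_def, ← hpi]
      ring
    rw [e2]
    exact (IntX.map x p).mul ((mem_chartClosure_iff x _).1 (hb i))
  -- (3) the minimal exponent is zero
  classical
  have hmin : ∀ m : ℕ, m < Nat.find hk →
      ¬ (algebraMap A E ϖ ^ m * y ∈ gaussClosure A E ϖ x) := fun m hm => Nat.find_min hk hm
  have hspec := Nat.find_spec hk
  rcases Nat.eq_zero_or_pos (Nat.find hk) with h0 | hpos
  · rw [h0, pow_zero, one_mul] at hspec
    exact hspec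
  · exfalso
    obtain ⟨m, hm⟩ : ∃ m, Nat.find hk = m + 1 := ⟨Nat.find hk - 1, by omega⟩
    rw [hm] at hspec
    have hm' : ¬ algebraMap A E ϖ ^ m * y ∈ gaussClosure A E ϖ x :=
      hmin m (by omega)
    rcases hF A E hinj ϖ hϖ x hx hGB hIrr _ hspec with ⟨c, hc, hzc⟩ | ⟨w, hw, c, hc, hzc⟩
    · apply hm'
      have : algebraMap A E ϖ ^ m * y = c := by
        apply mul_left_cancel₀ hϖ0
        rw [← hzc, pow_succ]
        ring
      rw [this]
      exact hc
    · apply hϖV
      have e : (algebraMap A E ϖ)⁻¹ = algebraMap A E ϖ ^ m * y * w - c := by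
        have h1 : algebraMap A E ϖ * (algebraMap A E ϖ ^ m * y * w - c) = 1 := by
          have : algebraMap A E ϖ * (algebraMap A E ϖ ^ m * y * w) =
              algebraMap A E ϖ ^ (m + 1) * y * w := by
            rw [pow_succ]
            ring
          rw [mul_sub, this, ← hzc]
          ring
        exact (eq_inv_of_mul_eq_one_right h1).symm
      rw [e]
      exact sub_mem (V.mul_mem _ _ (V.mul_mem _ _ (pow_mem (hAV ϖ) m) hyV) (hCV w hw))
        (hCV c hc)

end Fermat.Agent.H16

end
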