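import Fermat.Agent.H55.SS.KTContract

/-!
# P-SS / S35, block (KT), row KT-A3 (S2CORE): from the two norm-reduction tables to
`G₁ / Γⁿ ≡ 1` on both components

Abstract (Mathlib only) core of steps T1–T3 of findings #488.

* `KtU V z` : `z` is a unit of the valuation ring `V`; `KtP V x` : `x ≡ 1` modulo `𝔪_V`.
* `KtTable α β V' V₁ V₂ φ' φ Na Nb K Q` : the tables (INV), (T1), (F1), (F2), (Ra), (Rb),
  (CONST), (APPROX).
* `KtTable.exists_gamma` : for `f ≠ 0` with `Na f = γ hⁿ`, `Nb f = γ' h'ⁿ` (`γ, γ' ∈ K`) there is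
  `Γ ≠ 0` with `u := ktQuot Ψ Q (ktQuot Ψ 1 (ktQuot Ψ 1 f)) / Γⁿ ≡ 1` modulo `𝔪_{V₁}` and
  `𝔪_{V₂}` (`Ψ = φ ∘ φ`).
* `ktU_map_div_of_vert` : the strong form of (INV) (`φ z / z` is a unit of `V` for all `z ≠ 0`)
  from `z ∈ V ↔ φ z ∈ V` and `Fermat.Agent.H55.SS.KtVert q V`.
-/

set_option autoImplicit false
set_option linter.unusedSectionVars false
set_option linter.unusedVariables false

noncomputable section

namespace Fermat.Agent.H16

open Fermat.Agent.H55.SS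

/-! ## Units and principal units of a valuation subring -/

section Basic

variable {E : Type*} [Field E] (V : ValuationSubring E)

/-- `z` is a unit of `V`. -/
def KtU (z : E) : Prop := z ∈ V ∧ z ∉ V.nonunits

/-- `x ≡ 1` modulo the maximal ideal of `V`. -/
def KtP (x : E) : Prop := x - 1 ∈ V.nonunits

variable {V}

theorem ktU_iff_val {z : E} : KtU V z ↔ V.valuation z = 1 := by
  unfold KtU
  rw [← ValuationSubring.valuation_le_one_iff, ValuationSubring.mem_nonunits_iff, not_lt]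
  exact ⟨fun h => le_antisymm h.1 h.2, fun h => ⟨h.le, h.ge⟩⟩

theorem ktP_iff_val {x : E} : KtP V x ↔ V.valuation (x - 1) < 1 :=
  ValuationSubring.mem_nonunits_iff V

theorem ktU_ne_zero {z : E} (h : KtU V z) : z ≠ 0 := by
  rintro rfl
  rw [ktU_iff_val, map_zero] at h
  exact zero_ne_one h

theorem ktU_iff_inv {z : E} : KtU V z ↔ z ≠ 0 ∧ z ∈ V ∧ z⁻¹ ∈ V := by
  constructor
  · intro h
    refine ⟨ktU_ne_zero h, h.1, ?_⟩
    rw [← ValuationSubring.valuation_le_one_iff, map_inv₀, ktU_iff_val.1 h, inv_one]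
  · rintro ⟨h0, h1, h2⟩
    rw [ktU_iff_val]
    rw [← ValuationSubring.valuation_le_one_iff] at h1 h2
    rw [map_inv₀] at h2
    have hpos : 0 < V.valuation z := by
      rw [Valuation.pos_iff]
      exact h0
    exact le_antisymm h1 ((inv_le_one₀ hpos).1 h2)

theorem ktU_one : KtU V (1 : E) := by
  rw [ktU_iff_val, map_one]

theorem ktU_mul {a b : E} (ha : KtU V a) (hb : KtU V b) : KtU V (a * b) := by
  rw [ktU_iff_val] at *
  rw [map_mul, ha, hb, one_mul]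

theorem ktU_inv {a : E} (ha : KtU V a) : KtU V a⁻¹ := by
  rw [ktU_iff_val] at *
  rw [map_inv₀, ha, inv_one]

theorem ktU_div {a b : E} (ha : KtU V a) (hb : KtU V b) : KtU V (a / b) := by
  rw [div_eq_mul_inv]
  exact ktU_mul ha (ktU_inv hb)

theorem ktU_pow {a : E} (ha : KtU V a) (n : ℕ) : KtU V (a ^ n) := by
  rw [ktU_iff_val] at *
  rw [map_pow, ha, one_pow]

theorem ktP_unit {x : E} (h : KtP V x) : KtU V x := by
  rw [ktU_iff_val]
  rw [ktP_iff_val] at h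
  have := Valuation.map_one_add_of_lt (v := V.valuation) h
  rwa [add_sub_cancel] at this

theorem ktP_ne_zero {x : E} (h : KtP V x) : x ≠ 0 := ktU_ne_zero (ktP_unit h)

theorem ktP_one : KtP V (1 : E) := by
  rw [ktP_iff_val, sub_self, map_zero]
  exact zero_lt_one

theorem ktP_mul {a b : E} (ha : KtP V a) (hb : KtP V b) : KtP V (a * b) := by
  have hbu := ktU_iff_val.1 (ktP_unit hb)
  rw [ktP_iff_val] at *
  have e : a * b - 1 = (a - 1) * b + (b - 1) := by ring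
  rw [e]
  refine lt_of_le_of_lt (Valuation.map_add _ _ _) (max_lt ?_ hb)
  rw [map_mul, hbu, mul_one]
  exact ha

theorem ktP_inv {a : E} (ha : KtP V a) : KtP V a⁻¹ := by
  have hau := ktU_iff_val.1 (ktP_unit ha)
  have ha0 := ktP_ne_zero ha
  rw [ktP_iff_val] at *
  have e : a⁻¹ - 1 = -(a - 1) * a⁻¹ := by
    field_simp
    ring
  rw [e, map_mul, map_inv₀, hau, inv_one, mul_one, Valuation.map_neg]
  exact ha

theorem ktP_div {a b : E} (ha : KtP V a) (hb : KtP V b) : KtP V (a / b) := by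
  rw [div_eq_mul_inv]
  exact ktP_mul ha (ktP_inv hb)

theorem ktP_pow {a : E} (ha : KtP V a) (n : ℕ) : KtP V (a ^ n) := by
  induction n with
  | zero =>
      rw [pow_zero]
      exact ktP_one
  | succ n ih =>
      rw [pow_succ]
      exact ktP_mul ih ha

/-- Additive congruence to a unit gives the multiplicative congruence. -/
theorem ktP_div_of_sub {a b : E} (hb : KtU V b) (h : a - b ∈ V.nonunits) : KtP V (a / b) := by
  have hb0 := ktU_ne_zero hb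
  have hbu := ktU_iff_val.1 hb
  rw [ktP_iff_val]
  rw [ValuationSubring.mem_nonunits_iff] at h
  have e : a / b - 1 = (a - b) * b⁻¹ := by
    field_simp
  rw [e, map_mul, map_inv₀, hbu, inv_one, mul_one]
  exact h

/-- Multiplicative congruence to a unit gives the additive congruence. -/
theorem sub_mem_of_ktP_div {a b : E} (hb : KtU V b) (h : KtP V (a / b)) :
    a - b ∈ V.nonunits := by
  have hb0 := ktU_ne_zero hb
  have hbu := ktU_iff_val.1 hb
  rw [ktP_iff_val] at h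
  rw [ValuationSubring.mem_nonunits_iff]
  have e : a - b = (a / b - 1) * b := by
    field_simp
  rw [e, map_mul, hbu, mul_one]
  exact h

theorem mem_nonunits_iff_inv {x : E} : x ∈ V.nonunits ↔ x = 0 ∨ x⁻¹ ∉ V := by
  rw [ValuationSubring.mem_nonunits_iff, ← ValuationSubring.valuation_le_one_iff]
  by_cases hx : x = 0
  · subst hx
    simp
  · have hpos : 0 < V.valuation x := by
      rw [Valuation.pos_iff]
      exact hx
    rw [map_inv₀, inv_le_one₀ hpos, not_le]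
    simp [hx]

end Basic

/-! ## Transport -/

section Transport

variable {E' E : Type*} [Field E'] [Field E]

/-- An automorphism with (INV) preserves the valuation. -/
theorem kt_val_map {V : ValuationSubring E} (φ : E ≃+* E)
    (hinv : ∀ z : E, z ≠ 0 → KtU V (φ z / z)) (z : E) :
    V.valuation (φ z) = V.valuation z := by
  by_cases hz : z = 0
  · subst hz
    rw [map_zero]
  · have h := ktU_iff_val.1 (hinv z hz)
    rw [map_div₀] at h
    have hpos : V.valuation z ≠ 0 := by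
      rw [Valuation.ne_zero_iff]
      exact hz
    rwa [div_eq_one_iff_eq hpos] at h

theorem ktU_map {V : ValuationSubring E} (φ : E ≃+* E)
    (hinv : ∀ z : E, z ≠ 0 → KtU V (φ z / z)) {z : E} (h : KtU V z) : KtU V (φ z) := by
  rw [ktU_iff_val] at *
  rw [kt_val_map φ hinv, h]

theorem ktP_map {V : ValuationSubring E} (φ : E ≃+* E)
    (hinv : ∀ z : E, z ≠ 0 → KtU V (φ z / z)) {z : E} (h : KtP V z) : KtP V (φ z) := by
  rw [ktP_iff_val] at *
  have e : φ z - 1 = φ (z - 1) := by rw [map_sub, map_one]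
  rw [e, kt_val_map φ hinv]
  exact h

theorem kt_nonunits_map {V : ValuationSubring E} (φ : E ≃+* E)
    (hinv : ∀ z : E, z ≠ 0 → KtU V (φ z / z)) {z : E} (h : z ∈ V.nonunits) :
    φ z ∈ V.nonunits := by
  rw [ValuationSubring.mem_nonunits_iff] at *
  rw [kt_val_map φ hinv]
  exact h

/-- (T1) gives: `α` reflects and preserves the maximal ideal. -/
theorem kt_nonunits_iff (α : E' →+* E) {V' : ValuationSubring E'} {V : ValuationSubring E}
    (ht1 : ∀ y : E', α y ∈ V ↔ y ∈ V') (y : E') : α y ∈ V.nonunits ↔ y ∈ V'.nonunits := by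
  rw [mem_nonunits_iff_inv, mem_nonunits_iff_inv, ← map_inv₀, ht1, map_eq_zero]

theorem ktU_iff_map (α : E' →+* E) {V' : ValuationSubring E'} {V : ValuationSubring E}
    (ht1 : ∀ y : E', α y ∈ V ↔ y ∈ V') (y : E') : KtU V (α y) ↔ KtU V' y := by
  unfold KtU
  rw [ht1, kt_nonunits_iff α ht1]

theorem ktP_iff_map (α : E' →+* E) {V' : ValuationSubring E'} {V : ValuationSubring E}
    (ht1 : ∀ y : E', α y ∈ V ↔ y ∈ V') (y : E') : KtP V (α y) ↔ KtP V' y := by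
  unfold KtP
  rw [← kt_nonunits_iff α ht1, map_sub, map_one]

/-- A monoid homomorphism between fields preserves quotients by nonzero elements. -/
theorem kt_monoidHom_div (N : E →* E') (a : E) {b : E} (hb : b ≠ 0) :
    N (a / b) = N a / N b := by
  have h1 : N b * N b⁻¹ = 1 := by
    rw [← map_mul, mul_inv_cancel₀ hb, map_one]
  have hNb : N b ≠ 0 := left_ne_zero_of_mul_eq_one h1
  rw [div_eq_mul_inv, map_mul, eq_div_iff hNb, mul_assoc, mul_comm (N b⁻¹), h1, mul_one]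

theorem kt_monoidHom_ne_zero (N : E →* E') {b : E} (hb : b ≠ 0) : N b ≠ 0 := by
  have h1 : N b * N b⁻¹ = 1 := by
    rw [← map_mul, mul_inv_cancel₀ hb, map_one]
  exact left_ne_zero_of_mul_eq_one h1

end Transport

/-! ## The strong form of (INV) from a uniformiser -/

section Vert

variable {E : Type} [Field E]

/-- Every nonzero element of `V` is a unit times a power of the uniformiser `q`. -/
theorem kt_exists_pow_unit {q : ℕ} {V : ValuationSubring E} (hV : KtVert q V)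
    (hq0 : (q : E) ≠ 0) {z : E} (hz : z ≠ 0) (hzV : z ∈ V) :
    ∃ k : ℕ, KtU V (z / (q : E) ^ k) := by
  classical
  have hex : ∃ k : ℕ, (q : E) ^ k * z⁻¹ ∈ V.nonunits := by
    obtain ⟨N₀, hN⟩ := hV.arch (q : E) hV.q_mem z⁻¹
    exact ⟨N₀, hN N₀ le_rfl⟩
  have hspec := Nat.find_spec hex
  have hmin : ∀ m : ℕ, m < Nat.find hex → ¬ ((q : E) ^ m * z⁻¹ ∈ V.nonunits) :=
    fun m hm => Nat.find_min hex hm
  have hvz : V.valuation z ≠ 0 := by
    rw [Valuation.ne_zero_iff]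
    exact hz
  have hvq : V.valuation (q : E) ≠ 0 := by
    rw [Valuation.ne_zero_iff]
    exact hq0
  rcases Nat.eq_zero_or_pos (Nat.find hex) with h0 | hpos
  · exfalso
    rw [h0, pow_zero, one_mul, ValuationSubring.mem_nonunits_iff, map_inv₀] at hspec
    rw [← ValuationSubring.valuation_le_one_iff] at hzV
    have hpos' : 0 < V.valuation z := lt_of_le_of_ne zero_le (Ne.symm hvz)
    have := (inv_lt_one₀ hpos').1 hspec
    exact absurd hzV (not_le.2 this)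
  · obtain ⟨m, hm⟩ : ∃ m, Nat.find hex = m + 1 := ⟨Nat.find hex - 1, by omega⟩
    rw [hm] at hspec
    have hnm := hmin m (by omega)
    refine ⟨m, ?_, ?_⟩
    · -- `z / q ^ m ∈ V`
      rw [ValuationSubring.mem_nonunits_iff, not_lt, map_mul, map_inv₀, map_pow] at hnm
      rw [← ValuationSubring.valuation_le_one_iff, map_div₀, map_pow]
      have hpm : 0 < V.valuation (q : E) ^ m :=
        lt_of_le_of_ne zero_le (Ne.symm (pow_ne_zero m hvq))
      have hpz : 0 < V.valuation z := lt_of_le_of_ne zero_le (Ne.symm hvz)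
      rw [div_le_one₀ hpm]
      have h2 : V.valuation z ≤ V.valuation (q : E) ^ m * (V.valuation z)⁻¹ * V.valuation z :=
        le_mul_of_one_le_left zero_le hnm
      rwa [mul_assoc, inv_mul_cancel₀ hvz, mul_one] at h2
    · -- `z / q ^ m` is not a nonunit
      intro hnon
      have h1 := hV.unif _ hnon
      rw [← ValuationSubring.valuation_le_one_iff] at h1
      rw [ValuationSubring.mem_nonunits_iff] at hspec
      have hprod : z / (q : E) ^ m / (q : E) * ((q : E) ^ (m + 1) * z⁻¹) = 1 := by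
        rw [pow_succ]
        field_simp
      have h3 : V.valuation (z / (q : E) ^ m / (q : E)) *
          V.valuation ((q : E) ^ (m + 1) * z⁻¹) = 1 := by
        rw [← map_mul, hprod, map_one]
      have h4 : V.valuation (z / (q : E) ^ m / (q : E)) *
          V.valuation ((q : E) ^ (m + 1) * z⁻¹) < 1 := by
        calc V.valuation (z / (q : E) ^ m / (q : E)) * V.valuation ((q : E) ^ (m + 1) * z⁻¹)
            ≤ 1 * V.valuation ((q : E) ^ (m + 1) * z⁻¹) := mul_le_mul_left h1 _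
          _ < 1 := by rwa [one_mul]
      rw [h3] at h4
      exact lt_irrefl _ h4

/-- **(INV), strong form**, from the preservation of the valuation ring and a uniformiser `q`
(`Fermat.Agent.H55.SS.KtVert`): `φ z / z` is a unit of `V` for every `z ≠ 0`. -/
theorem ktU_map_div_of_vert {q : ℕ} {V : ValuationSubring E} (hV : KtVert q V)
    (hq0 : (q : E) ≠ 0) (φ : E ≃+* E) (hφ : ∀ z : E, z ∈ V ↔ φ z ∈ V) (z : E) (hz : z ≠ 0) :
    KtU V (φ z / z) := by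
  have hunit : ∀ w : E, KtU V w → KtU V (φ w) := by
    intro w hw
    obtain ⟨h0, h1, h2⟩ := ktU_iff_inv.1 hw
    refine ktU_iff_inv.2 ⟨?_, (hφ w).1 h1, ?_⟩
    · rw [Ne, map_eq_zero_iff φ φ.injective]
      exact h0
    · rw [← map_inv₀]
      exact (hφ _).1 h2
  have key : ∀ z : E, z ≠ 0 → z ∈ V → KtU V (φ z / z) := by
    intro z hz hzV
    obtain ⟨k, hk⟩ := kt_exists_pow_unit hV hq0 hz hzV
    have hqk : (q : E) ^ k ≠ 0 := pow_ne_zero k hq0
    have e : φ z / z = φ (z / (q : E) ^ k) / (z / (q : E) ^ k) := by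
      rw [map_div₀, map_pow, map_natCast]
      field_simp
    rw [e]
    exact ktU_div (hunit _ hk) hk
  rcases V.mem_or_inv_mem z with h | h
  · exact key z hz h
  · have h1 := key z⁻¹ (inv_ne_zero hz) h
    have e : φ z / z = (φ z⁻¹ / z⁻¹)⁻¹ := by
      rw [map_inv₀]
      field_simp
    rw [e]
    exact ktU_inv h1

end Vert

/-! ## The tables -/

/-- **The tables of KT-A3.**  `E'` the field of level `M`, `E` the field of level `M q`;
`α, β : E' → E` the two degeneracy embeddings, `V'` the vertical valuation of `E'`, `V₁, V₂` the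
two vertical valuations of `E` (`V₁` over `V'` along `α` with `e = f = 1`, `V₂` over `V'` along
`β` with `e = f = 1`); `φ', φ` the Frobenius lifts, `Na, Nb` the two norms, `K` the constants. -/
structure KtTable {E' E : Type*} [Field E'] [Field E] (α β : E' →+* E)
    (V' : ValuationSubring E') (V₁ V₂ : ValuationSubring E)
    (φ' : E' ≃+* E') (φ : E ≃+* E) (Na Nb : E →* E') (K : Set E') (Q : ℕ) : Prop where
  /-- `α ∘ φ' = φ ∘ α`. -/
  comm_α : ∀ y : E', α (φ' y) = φ (α y)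
  /-- `β ∘ φ' = φ ∘ β`. -/
  comm_β : ∀ y : E', β (φ' y) = φ (β y)
  /-- `Na ∘ φ = φ' ∘ Na`. -/
  comm_Na : ∀ z : E, Na (φ z) = φ' (Na z)
  /-- `Nb ∘ φ = φ' ∘ Nb`. -/
  comm_Nb : ∀ z : E, Nb (φ z) = φ' (Nb z)
  /-- (INV) for `V₁`. -/
  inv₁ : ∀ z : E, z ≠ 0 → KtU V₁ (φ z / z)
  /-- (INV) for `V₂`. -/
  inv₂ : ∀ z : E, z ≠ 0 → KtU V₂ (φ z / z)
  /-- (INV) for `V'`. -/
  inv' : ∀ y : E', y ≠ 0 → KtU V' (φ' y / y)
  /-- (T1) for `α`. -/
  t1α : ∀ y : E', α y ∈ V₁ ↔ y ∈ V'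
  /-- (T1) for `β`. -/
  t1β : ∀ y : E', β y ∈ V₂ ↔ y ∈ V'
  /-- (F1): residue degree one of `V₁` over `V'` along `α`. -/
  f1 : ∀ z : E, KtU V₁ z → ∃ y : E', KtU V' y ∧ z - α y ∈ V₁.nonunits
  /-- (F2): residue degree one of `V₂` over `V'` along `β`. -/
  f2 : ∀ z : E, KtU V₂ z → ∃ y : E', KtU V' y ∧ z - β y ∈ V₂.nonunits
  /-- (Ra): reduction of the norm along `α`. -/
  ra : ∀ (z : E) (y : E'), KtU V₁ z → KtU V₂ z → KtU V' y → z - β y ∈ V₂.nonunits →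
    α (Na z) - z * α (φ' y) ∈ V₁.nonunits
  /-- (Rb): reduction of the norm along `β`. -/
  rb : ∀ (z : E) (y : E'), KtU V₁ z → KtU V₂ z → KtU V' y → z - α y ∈ V₁.nonunits →
    β (Nb z) - z * β (φ' y) ∈ V₂.nonunits
  /-- (CONST): the constants are stable under `φ'`. -/
  const_map : ∀ c ∈ K, φ' c ∈ K
  /-- (CONST): the constants are stable under products. -/
  const_mul : ∀ c ∈ K, ∀ d ∈ K, c * d ∈ K
  /-- (CONST): the constants are stable under inverses. -/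
  const_inv : ∀ c ∈ K, c⁻¹ ∈ K
  /-- (CONST): `ψ' = φ' ∘ φ'` is the `Q`-th power map on the unit constants modulo `𝔪_{V'}`. -/
  const_frob : ∀ c ∈ K, KtU V' c → φ' (φ' c) - c ^ Q ∈ V'.nonunits
  /-- (APPROX): weak approximation for the pair `V₁, V₂`. -/
  approx : ∀ a b : E, ∃ g : E, g - a ∈ V₁.nonunits ∧ g - b ∈ V₂.nonunits

section Core

variable {E' E : Type*} [Field E'] [Field E]

/-- Step (4): from the norm reduction to a congruence in `E'`. -/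
theorem kt_four (α : E' →+* E) {V' : ValuationSubring E'} {V : ValuationSubring E}
    (φ' : E' ≃+* E') (hinv' : ∀ y : E', y ≠ 0 → KtU V' (φ' y / y))
    (ht1 : ∀ y : E', α y ∈ V ↔ y ∈ V')
    {f₁ : E} {N y y' : E'} (hf₁ : KtU V f₁) (hy : KtU V' y) (hy' : KtU V' y')
    (hR : α N - f₁ * α (φ' y) ∈ V.nonunits) (hf : KtP V (f₁ / α y')) :
    KtP V' (N / (y' * φ' y)) := by
  have hφy : KtU V' (φ' y) := ktU_map φ' hinv' hy
  have hαφy : KtU V (α (φ' y)) := (ktU_iff_map α ht1 _).2 hφy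
  have hαy' : KtU V (α y') := (ktU_iff_map α ht1 _).2 hy'
  have h1 : KtP V (α N / (f₁ * α (φ' y))) := ktP_div_of_sub (ktU_mul hf₁ hαφy) hR
  have h2 := ktP_mul h1 hf
  have e : α N / (f₁ * α (φ' y)) * (f₁ / α y') = α (N / (y' * φ' y)) := by
    have a1 := ktU_ne_zero hf₁
    have a2 := ktU_ne_zero hαφy
    have a3 := ktU_ne_zero hαy'
    rw [map_div₀, map_mul]
    field_simp
  rw [e] at h2
  exact (ktP_iff_map α ht1 _).1 h2

/-- Step (7): `ψ'(y') / y' ≡ c ηⁿ`. -/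
theorem kt_seven {V' : ValuationSubring E'} (φ' : E' ≃+* E')
    (hinv' : ∀ y : E', y ≠ 0 → KtU V' (φ' y / y)) (n : ℕ)
    {γ₁ γ₁' h₁ h₁' y y' : E'} (hγ₁ : KtU V' γ₁) (hh₁ : KtU V' h₁)
    (hy : KtU V' y) (hy' : KtU V' y')
    (H4 : KtP V' (γ₁ * h₁ ^ n / (y' * φ' y)))
    (H5 : KtP V' (γ₁' * h₁' ^ n / (y * φ' y'))) :
    KtP V' (φ' γ₁' / γ₁ * (φ' h₁' / h₁) ^ n / (φ' (φ' y') / y')) := by
  have H6 := ktP_map φ' hinv' H5
  have H7 := ktP_div H6 H4
  have e : φ' (γ₁' * h₁' ^ n / (y * φ' y')) / (γ₁ * h₁ ^ n / (y' * φ' y)) =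
      φ' γ₁' / γ₁ * (φ' h₁' / h₁) ^ n / (φ' (φ' y') / y') := by
    have a1 := ktU_ne_zero hγ₁
    have a2 := ktU_ne_zero hh₁
    have a3 := ktU_ne_zero hy
    have a4 := ktU_ne_zero hy'
    have a5 := ktU_ne_zero (ktU_map φ' hinv' hy)
    have a6 := ktU_ne_zero (ktU_map φ' hinv' (ktU_map φ' hinv' hy'))
    rw [map_div₀, map_mul, map_mul, map_pow, div_pow]
    have a7 : h₁ ^ n ≠ 0 := pow_ne_zero n a2
    field_simp
  rw [e] at H7
  exact H7

/-- Steps (8)–(9): `G₁ ≡ α (ψ' η / η ^ Q) ^ n`. -/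
theorem kt_half (α : E' →+* E) {V' : ValuationSubring E'} {V : ValuationSubring E}
    (φ' : E' ≃+* E') (φ : E ≃+* E)
    (hcomm : ∀ y : E', α (φ' y) = φ (α y))
    (hinv : ∀ z : E, z ≠ 0 → KtU V (φ z / z))
    (hinv' : ∀ y : E', y ≠ 0 → KtU V' (φ' y / y))
    (ht1 : ∀ y : E', α y ∈ V ↔ y ∈ V')
    (Q n : ℕ) {f₁ : E} {y' c η : E'}
    (hy' : KtU V' y') (hc : KtU V' c) (hη : KtU V' η)
    (hcQ : φ' (φ' c) - c ^ Q ∈ V'.nonunits)
    (h7 : KtP V' (c * η ^ n / (φ' (φ' y') / y')))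
    (hf : KtP V (f₁ / α y')) :
    KtP V (ktQuot (fun z => φ (φ z)) Q (ktQuot (fun z => φ (φ z)) 1 f₁) /
      α (φ' (φ' η) / η ^ Q) ^ n) := by
  have hcomm2 : ∀ y : E', φ (φ (α y)) = α (φ' (φ' y)) := fun y => by
    rw [hcomm, hcomm]
  have hU : ∀ y : E', KtU V' y → KtU V (α y) := fun y hy => (ktU_iff_map α ht1 y).2 hy
  have hψy' : KtU V' (φ' (φ' y')) := ktU_map φ' hinv' (ktU_map φ' hinv' hy')
  have hψc : KtU V' (φ' (φ' c)) := ktU_map φ' hinv' (ktU_map φ' hinv' hc)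
  have hψη : KtU V' (φ' (φ' η)) := ktU_map φ' hinv' (ktU_map φ' hinv' hη)
  -- nonzero facts
  have n1 := ktU_ne_zero (hU _ hy')
  have n2 := ktU_ne_zero (hU _ hψy')
  have n3 := ktU_ne_zero (hU _ hc)
  have n4 := ktU_ne_zero (hU _ hη)
  have n5 := ktU_ne_zero (hU _ hψc)
  have n6 := ktU_ne_zero (hU _ hψη)
  have nf : f₁ ≠ 0 := by
    intro h0
    rw [h0, zero_div] at hf
    exact ktP_ne_zero hf rfl
  have nΨf : φ (φ f₁) ≠ 0 := by
    rw [Ne, map_eq_zero_iff φ φ.injective, map_eq_zero_iff φ φ.injective]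
    exact nf
  -- (8) `f₂ ≡ α (c ηⁿ)`
  have hΨf : KtP V (φ (φ f₁) / α (φ' (φ' y'))) := by
    have := ktP_map φ hinv (ktP_map φ hinv hf)
    rwa [map_div₀, map_div₀, hcomm2] at this
  set f₂ : E := φ (φ f₁) / f₁ with hf₂
  have h8a : KtP V (f₂ / α (φ' (φ' y') / y')) := by
    have := ktP_div hΨf hf
    have e : φ (φ f₁) / α (φ' (φ' y')) / (f₁ / α y') = f₂ / α (φ' (φ' y') / y') := by
      rw [hf₂, map_div₀]
      field_simp
    rwa [e] at this
  have h7' : KtP V (α (c * η ^ n / (φ' (φ' y') / y'))) := (ktP_iff_map α ht1 _).2 h7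
  have h8 : KtP V (f₂ / α (c * η ^ n)) := by
    have := ktP_div h8a h7'
    have e : f₂ / α (φ' (φ' y') / y') / α (c * η ^ n / (φ' (φ' y') / y')) =
        f₂ / α (c * η ^ n) := by
      simp only [map_div₀, map_mul, map_pow]
      field_simp
    rwa [e] at this
  -- (9)
  have nf₂ : f₂ ≠ 0 := div_ne_zero nΨf nf
  have h9a : KtP V (φ (φ f₂) / α (φ' (φ' (c * η ^ n)))) := by
    have := ktP_map φ hinv (ktP_map φ hinv h8)
    rwa [map_div₀, map_div₀, hcomm2] at this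
  have h9b : KtP V (f₂ ^ Q / α (c * η ^ n) ^ Q) := by
    have := ktP_pow h8 Q
    rwa [div_pow] at this
  have h9c : KtP V (α (φ' (φ' c) / c ^ Q)) := by
    rw [ktP_iff_map α ht1]
    exact ktP_div_of_sub (ktU_pow hc Q) hcQ
  have h9 := ktP_mul (ktP_div h9a h9b) h9c
  have e1 : ktQuot (fun z => φ (φ z)) 1 f₁ = f₂ := by
    unfold ktQuot
    rw [pow_one]
  have e : φ (φ f₂) / α (φ' (φ' (c * η ^ n))) / (f₂ ^ Q / α (c * η ^ n) ^ Q) *
      α (φ' (φ' c) / c ^ Q) =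
      ktQuot (fun z => φ (φ z)) Q (ktQuot (fun z => φ (φ z)) 1 f₁) /
        α (φ' (φ' η) / η ^ Q) ^ n := by
    rw [e1]
    unfold ktQuot
    have nΨf₂ : φ (φ f₂) ≠ 0 := by
      rw [Ne, map_eq_zero_iff φ φ.injective, map_eq_zero_iff φ φ.injective]
      exact nf₂
    simp only [map_div₀, map_mul, map_pow, div_pow, mul_pow]
    have m1 : α η ^ n ≠ 0 := pow_ne_zero n n4
    have m2 : α c ^ Q ≠ 0 := pow_ne_zero Q n3
    have m3 : (α η ^ Q) ^ n ≠ 0 := pow_ne_zero n (pow_ne_zero Q n4)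
    have m4 : (α η ^ n) ^ Q ≠ 0 := pow_ne_zero Q m1
    have m5 : α (φ' (φ' η)) ^ n ≠ 0 := pow_ne_zero n n6
    have m6 : f₂ ^ Q ≠ 0 := pow_ne_zero Q nf₂
    field_simp
    ring
  rw [e] at h9
  exact h9

end Core

/-! ## The main theorem -/

section Main

variable {E' E : Type*} [Field E'] [Field E] {α β : E' →+* E}
  {V' : ValuationSubring E'} {V₁ V₂ : ValuationSubring E}
  {φ' : E' ≃+* E'} {φ : E ≃+* E} {Na Nb : E →* E'} {K : Set E'} {Q : ℕ}

/-- **KT-A3 (S2CORE).**  From the two norm-reduction tables: if `Na f = γ hⁿ` and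
`Nb f = γ' h'ⁿ` with constants `γ, γ'`, then `G₁ := (Ψ - Q)(Ψ - 1)² f` (multiplicatively,
`Ψ = φ ∘ φ`) is congruent to an `n`-th power `Γⁿ` modulo `𝔪_{V₁}` and modulo `𝔪_{V₂}`. -/
theorem KtTable.exists_gamma_unit (T : KtTable α β V' V₁ V₂ φ' φ Na Nb K Q)
    (Ψ : E → E) (hΨ : ∀ z : E, Ψ z = φ (φ z))
    {n : ℕ} (hn : 0 < n) {f : E} (hf : f ≠ 0) {γ γ' h h' : E'}
    (hγ : γ ∈ K) (hγ' : γ' ∈ K)
    (hNa : Na f = γ * h ^ n) (hNb : Nb f = γ' * h' ^ n) :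
    ∃ Γ : E, Γ ≠ 0 ∧ KtU V₁ Γ ∧ KtU V₂ Γ ∧
      KtU V₁ (ktQuot Ψ 1 f) ∧ KtU V₂ (ktQuot Ψ 1 f) ∧
      ktQuot Ψ Q (ktQuot Ψ 1 (ktQuot Ψ 1 f)) / Γ ^ n - 1 ∈ V₁.nonunits ∧
      ktQuot Ψ Q (ktQuot Ψ 1 (ktQuot Ψ 1 f)) / Γ ^ n - 1 ∈ V₂.nonunits := by
  obtain rfl : Ψ = fun z => φ (φ z) := funext hΨ
  -- nonvanishing
  have hNa0 : Na f ≠ 0 := kt_monoidHom_ne_zero Na hf
  have hNb0 : Nb f ≠ 0 := kt_monoidHom_ne_zero Nb hf
  have hγ0 : γ ≠ 0 := by
    rintro rfl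
    rw [zero_mul] at hNa
    exact hNa0 hNa
  have hγ'0 : γ' ≠ 0 := by
    rintro rfl
    rw [zero_mul] at hNb
    exact hNb0 hNb
  have hh0 : h ≠ 0 := by
    rintro rfl
    rw [zero_pow hn.ne', mul_zero] at hNa
    exact hNa0 hNa
  have hh'0 : h' ≠ 0 := by
    rintro rfl
    rw [zero_pow hn.ne', mul_zero] at hNb
    exact hNb0 hNb
  have hφ0 : ∀ z : E, z ≠ 0 → φ z ≠ 0 := fun z hz => by
    rw [Ne, map_eq_zero_iff φ φ.injective]
    exact hz
  have hφ'0 : ∀ y : E', y ≠ 0 → φ' y ≠ 0 := fun y hy => by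
    rw [Ne, map_eq_zero_iff φ' φ'.injective]
    exact hy
  -- `ψ' y / y` is a unit
  have hψU : ∀ y : E', y ≠ 0 → KtU V' (φ' (φ' y) / y) := by
    intro y hy
    have := ktU_mul (T.inv' (φ' y) (hφ'0 y hy)) (T.inv' y hy)
    rwa [div_mul_div_cancel₀ (hφ'0 y hy)] at this
  -- `f₁`
  set f₁ : E := φ (φ f) / f with hf₁
  have hf₁0 : f₁ ≠ 0 := div_ne_zero (hφ0 _ (hφ0 _ hf)) hf
  have hf₁U₁ : KtU V₁ f₁ := by
    have := ktU_mul (T.inv₁ (φ f) (hφ0 f hf)) (T.inv₁ f hf)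
    rwa [div_mul_div_cancel₀ (hφ0 f hf)] at this
  have hf₁U₂ : KtU V₂ f₁ := by
    have := ktU_mul (T.inv₂ (φ f) (hφ0 f hf)) (T.inv₂ f hf)
    rwa [div_mul_div_cancel₀ (hφ0 f hf)] at this
  set γ₁ : E' := φ' (φ' γ) / γ with hγ₁
  set γ₁' : E' := φ' (φ' γ') / γ' with hγ₁'
  set h₁ : E' := φ' (φ' h) / h with hh₁
  set h₁' : E' := φ' (φ' h') / h' with hh₁'
  have hγ₁U : KtU V' γ₁ := hψU γ hγ0
  have hγ₁'U : KtU V' γ₁' := hψU γ' hγ'0
  have hh₁U : KtU V' h₁ := hψU h hh0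
  have hh₁'U : KtU V' h₁' := hψU h' hh'0
  have hNa₁ : Na f₁ = γ₁ * h₁ ^ n := by
    rw [hf₁, kt_monoidHom_div Na _ hf, T.comm_Na, T.comm_Na, hNa, hγ₁, hh₁]
    simp only [map_mul, map_pow, div_pow]
    have m1 : h ^ n ≠ 0 := pow_ne_zero n hh0
    field_simp
  have hNb₁ : Nb f₁ = γ₁' * h₁' ^ n := by
    rw [hf₁, kt_monoidHom_div Nb _ hf, T.comm_Nb, T.comm_Nb, hNb, hγ₁', hh₁']
    simp only [map_mul, map_pow, div_pow]
    have m1 : h' ^ n ≠ 0 := pow_ne_zero n hh'0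
    field_simp
  -- residues of `f₁`
  obtain ⟨y', hy'U, hy'⟩ := T.f1 f₁ hf₁U₁
  obtain ⟨y, hyU, hy⟩ := T.f2 f₁ hf₁U₂
  have hfα : KtP V₁ (f₁ / α y') := ktP_div_of_sub ((ktU_iff_map α T.t1α _).2 hy'U) hy'
  have hfβ : KtP V₂ (f₁ / β y) := ktP_div_of_sub ((ktU_iff_map β T.t1β _).2 hyU) hy
  -- (4), (5)
  have H4 : KtP V' (γ₁ * h₁ ^ n / (y' * φ' y)) := by
    have hR := T.ra f₁ y hf₁U₁ hf₁U₂ hyU hy
    rw [hNa₁] at hR
    exact kt_four α φ' T.inv' T.t1α hf₁U₁ hyU hy'U hR hfα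
  have H5 : KtP V' (γ₁' * h₁' ^ n / (y * φ' y')) := by
    have hR := T.rb f₁ y' hf₁U₁ hf₁U₂ hy'U hy'
    rw [hNb₁] at hR
    exact kt_four β φ' T.inv' T.t1β hf₁U₂ hy'U hyU hR hfβ
  -- (7) on both sides
  have H7 := kt_seven φ' T.inv' n hγ₁U hh₁U hyU hy'U H4 H5
  have H7' := kt_seven φ' T.inv' n hγ₁'U hh₁'U hy'U hyU H5 H4
  -- constants
  have hK : ∀ c ∈ K, φ' (φ' c) / c ∈ K := fun c hc => by
    rw [div_eq_mul_inv]
    exact T.const_mul _ (T.const_map _ (T.const_map _ hc)) _ (T.const_inv _ hc)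
  have hc₁K : φ' γ₁' / γ₁ ∈ K := by
    rw [div_eq_mul_inv]
    exact T.const_mul _ (T.const_map _ (hK γ' hγ')) _ (T.const_inv _ (hK γ hγ))
  have hc₂K : φ' γ₁ / γ₁' ∈ K := by
    rw [div_eq_mul_inv]
    exact T.const_mul _ (T.const_map _ (hK γ hγ)) _ (T.const_inv _ (hK γ' hγ'))
  have hc₁U : KtU V' (φ' γ₁' / γ₁) := ktU_div (ktU_map φ' T.inv' hγ₁'U) hγ₁U
  have hc₂U : KtU V' (φ' γ₁ / γ₁') := ktU_div (ktU_map φ' T.inv' hγ₁U) hγ₁'U
  have hη₁U : KtU V' (φ' h₁' / h₁) := ktU_div (ktU_map φ' T.inv' hh₁'U) hh₁U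
  have hη₂U : KtU V' (φ' h₁ / h₁') := ktU_div (ktU_map φ' T.inv' hh₁U) hh₁'U
  -- (9), (10)
  have H9 := kt_half α φ' φ T.comm_α T.inv₁ T.inv' T.t1α Q n hy'U hc₁U hη₁U
    (T.const_frob _ hc₁K hc₁U) H7 hfα
  have H10 := kt_half β φ' φ T.comm_β T.inv₂ T.inv' T.t1β Q n hyU hc₂U hη₂U
    (T.const_frob _ hc₂K hc₂U) H7' hfβ
  -- weak approximation
  set A₁ : E := α (φ' (φ' (φ' h₁' / h₁)) / (φ' h₁' / h₁) ^ Q) with hA₁
  set A₂ : E := β (φ' (φ' (φ' h₁ / h₁')) / (φ' h₁ / h₁') ^ Q) with hA₂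
  have hA₁U : KtU V₁ A₁ :=
    (ktU_iff_map α T.t1α _).2
      (ktU_div (ktU_map φ' T.inv' (ktU_map φ' T.inv' hη₁U)) (ktU_pow hη₁U Q))
  have hA₂U : KtU V₂ A₂ :=
    (ktU_iff_map β T.t1β _).2
      (ktU_div (ktU_map φ' T.inv' (ktU_map φ' T.inv' hη₂U)) (ktU_pow hη₂U Q))
  obtain ⟨Γ, hΓ₁, hΓ₂⟩ := T.approx A₁ A₂
  have hΓP₁ : KtP V₁ (Γ / A₁) := ktP_div_of_sub hA₁U hΓ₁
  have hΓP₂ : KtP V₂ (Γ / A₂) := ktP_div_of_sub hA₂U hΓ₂
  have hΓ0 : Γ ≠ 0 := by
    intro h0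
    rw [h0, zero_div] at hΓP₁
    exact ktP_ne_zero hΓP₁ rfl
  have hΓU₁ : KtU V₁ Γ := by
    have := ktU_mul (ktP_unit hΓP₁) hA₁U
    rwa [div_mul_cancel₀ _ (ktU_ne_zero hA₁U)] at this
  have hΓU₂ : KtU V₂ Γ := by
    have := ktU_mul (ktP_unit hΓP₂) hA₂U
    rwa [div_mul_cancel₀ _ (ktU_ne_zero hA₂U)] at this
  have e0 : ktQuot (fun z => φ (φ z)) 1 f = f₁ := by
    unfold ktQuot
    rw [pow_one]
  refine ⟨Γ, hΓ0, hΓU₁, hΓU₂, ?_, ?_, ?_, ?_⟩
  · rw [e0]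
    exact hf₁U₁
  · rw [e0]
    exact hf₁U₂
  · have := ktP_div H9 (ktP_pow hΓP₁ n)
    have e : ktQuot (fun z => φ (φ z)) Q (ktQuot (fun z => φ (φ z)) 1 f₁) / A₁ ^ n /
        (Γ / A₁) ^ n =
        ktQuot (fun z => φ (φ z)) Q (ktQuot (fun z => φ (φ z)) 1
          (ktQuot (fun z => φ (φ z)) 1 f)) / Γ ^ n := by
      have e1 : ktQuot (fun z => φ (φ z)) 1 f = f₁ := by
        unfold ktQuot
        rw [pow_one]
      rw [e1, div_pow]
      have a1 := pow_ne_zero n (ktU_ne_zero hA₁U)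
      have a2 := pow_ne_zero n hΓ0
      field_simp
    rw [e] at this
    exact this
  · have := ktP_div H10 (ktP_pow hΓP₂ n)
    have e : ktQuot (fun z => φ (φ z)) Q (ktQuot (fun z => φ (φ z)) 1 f₁) / A₂ ^ n /
        (Γ / A₂) ^ n =
        ktQuot (fun z => φ (φ z)) Q (ktQuot (fun z => φ (φ z)) 1
          (ktQuot (fun z => φ (φ z)) 1 f)) / Γ ^ n := by
      have e1 : ktQuot (fun z => φ (φ z)) 1 f = f₁ := by
        unfold ktQuot
        rw [pow_one]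
      rw [e1, div_pow]
      have a1 := pow_ne_zero n (ktU_ne_zero hA₂U)
      have a2 := pow_ne_zero n hΓ0
      field_simp
    rw [e] at this
    exact this

/-- **KT-A3 (S2CORE)**, short form. -/
theorem KtTable.exists_gamma (T : KtTable α β V' V₁ V₂ φ' φ Na Nb K Q)
    (Ψ : E → E) (hΨ : ∀ z : E, Ψ z = φ (φ z))
    {n : ℕ} (hn : 0 < n) {f : E} (hf : f ≠ 0) {γ γ' h h' : E'}
    (hγ : γ ∈ K) (hγ' : γ' ∈ K)
    (hNa : Na f = γ * h ^ n) (hNb : Nb f = γ' * h' ^ n) :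
    ∃ Γ : E, Γ ≠ 0 ∧
      ktQuot Ψ Q (ktQuot Ψ 1 (ktQuot Ψ 1 f)) / Γ ^ n - 1 ∈ V₁.nonunits ∧
      ktQuot Ψ Q (ktQuot Ψ 1 (ktQuot Ψ 1 f)) / Γ ^ n - 1 ∈ V₂.nonunits := by
  obtain ⟨Γ, h0, -, -, -, -, h1, h2⟩ := T.exists_gamma_unit Ψ hΨ hn hf hγ hγ' hNa hNb
  exact ⟨Γ, h0, h1, h2⟩

end Main

end Fermat.Agent.H16

end
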