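import Fermat.Agent.H16.KTS2Core
import Fermat.Agent.H55.SS.KTModel

/-!
# P-SS / S35, block (KT), row KT-A3 (S2CORE): the statement in the shape of the contract

* `ktS2Core : Fermat.Agent.H55.SS.KtS2CoreStatement` (the contract shape, verbatim).
* `KtS2CoreStatement'`, `ktS2Core'` : the same statement with the hypothesis (CONST) restricted
  to NONZERO constants.  (In the contract shape, (CONST) at `c = 0` reads `-1 ∈ 𝔪_{V'}`, which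
  is false, so the contract shape can never be instantiated; use the primed version or
  `Fermat.Agent.H16.KtTable.exists_gamma` directly.)
* `ktTable_of_contract` : the table `KtTable` from the contract-shaped hypotheses.
-/

set_option autoImplicit false
set_option linter.unusedSectionVars false
set_option linter.unusedVariables false

noncomputable section

namespace Fermat.Agent.H16

open Fermat.Agent.H55.SS

section Adapter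

variable {E' E : Type*} [Field E'] [Field E]

theorem ktU_of_div_mem {V : ValuationSubring E} {a b : E} (ha : a ≠ 0) (hb : b ≠ 0)
    (h1 : a / b ∈ V) (h2 : b / a ∈ V) : KtU V (a / b) := by
  refine ktU_iff_inv.2 ⟨div_ne_zero ha hb, h1, ?_⟩
  rw [inv_div]
  exact h2

/-- A congruence to a unit: the other side is a unit too. -/
theorem ktU_of_sub_mem {V : ValuationSubring E} {z w : E} (hz : KtU V z)
    (h : z - w ∈ V.nonunits) : KtU V w := by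
  rw [ktU_iff_val] at *
  rw [ValuationSubring.mem_nonunits_iff] at h
  have h1 : V.valuation (z - w) < V.valuation z := by
    rw [hz]
    exact h
  have h2 := Valuation.map_sub_eq_of_lt_left (v := V.valuation) (x := z) (y := z - w) h1
  rw [sub_sub_cancel] at h2
  rw [h2, hz]

/-- The table `KtTable` from hypotheses in the shape of the contract
`Fermat.Agent.H55.SS.KtS2CoreStatement` (with (CONST) for nonzero constants). -/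
theorem ktTable_of_contract (α β : E' →+* E)
    (V' : ValuationSubring E') (V₁ V₂ : ValuationSubring E)
    (φ' : E' ≃+* E') (φ : E ≃+* E) (Na Nb : E →* E') (K : Subfield E') (Q : ℕ)
    (hα : ∀ y, φ (α y) = α (φ' y)) (hβ : ∀ y, φ (β y) = β (φ' y))
    (hNa : ∀ z, Na (φ z) = φ' (Na z)) (hNb : ∀ z, Nb (φ z) = φ' (Nb z))
    (hinv₁ : ∀ z : E, z ≠ 0 → φ z / z ∈ V₁ ∧ z / φ z ∈ V₁)
    (hinv₂ : ∀ z : E, z ≠ 0 → φ z / z ∈ V₂ ∧ z / φ z ∈ V₂)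
    (hinv' : ∀ y : E', y ≠ 0 → φ' y / y ∈ V' ∧ y / φ' y ∈ V')
    (ht1α : ∀ y : E', α y ∈ V₁ ↔ y ∈ V') (ht1β : ∀ y : E', β y ∈ V₂ ↔ y ∈ V')
    (hf1 : ∀ z ∈ V₁, ∃ y ∈ V', z - α y ∈ V₁.nonunits)
    (hf2 : ∀ z ∈ V₂, ∃ y ∈ V', z - β y ∈ V₂.nonunits)
    (hRa : ∀ z : E, z ∈ V₁ → z⁻¹ ∈ V₁ → z ∈ V₂ → z⁻¹ ∈ V₂ → ∀ y ∈ V',
      z - β y ∈ V₂.nonunits → α (Na z) - z * α (φ' y) ∈ V₁.nonunits)
    (hRb : ∀ z : E, z ∈ V₁ → z⁻¹ ∈ V₁ → z ∈ V₂ → z⁻¹ ∈ V₂ → ∀ y ∈ V',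
      z - α y ∈ V₁.nonunits → β (Nb z) - z * β (φ' y) ∈ V₂.nonunits)
    (hK : ∀ c ∈ K, φ' c ∈ K)
    (hKQ : ∀ c ∈ K, c ≠ 0 → c ∈ V' → c⁻¹ ∈ V' → φ' (φ' c) / c ^ Q - 1 ∈ V'.nonunits)
    (happ : ∀ a b : E, ∃ g : E, g - a ∈ V₁.nonunits ∧ g - b ∈ V₂.nonunits) :
    KtTable α β V' V₁ V₂ φ' φ Na Nb (K : Set E') Q where
  comm_α := fun y => (hα y).symm
  comm_β := fun y => (hβ y).symm
  comm_Na := hNa
  comm_Nb := hNb
  inv₁ := fun z hz =>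
    ktU_of_div_mem ((map_ne_zero_iff φ φ.injective).2 hz) hz (hinv₁ z hz).1 (hinv₁ z hz).2
  inv₂ := fun z hz =>
    ktU_of_div_mem ((map_ne_zero_iff φ φ.injective).2 hz) hz (hinv₂ z hz).1 (hinv₂ z hz).2
  inv' := fun y hy =>
    ktU_of_div_mem ((map_ne_zero_iff φ' φ'.injective).2 hy) hy (hinv' y hy).1 (hinv' y hy).2
  t1α := ht1α
  t1β := ht1β
  f1 := fun z hz => by
    obtain ⟨y, -, hy⟩ := hf1 z hz.1
    exact ⟨y, (ktU_iff_map α ht1α y).1 (ktU_of_sub_mem hz hy), hy⟩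
  f2 := fun z hz => by
    obtain ⟨y, -, hy⟩ := hf2 z hz.1
    exact ⟨y, (ktU_iff_map β ht1β y).1 (ktU_of_sub_mem hz hy), hy⟩
  ra := fun z y hz₁ hz₂ hy h => by
    obtain ⟨-, a1, a2⟩ := ktU_iff_inv.1 hz₁
    obtain ⟨-, b1, b2⟩ := ktU_iff_inv.1 hz₂
    exact hRa z a1 a2 b1 b2 y hy.1 h
  rb := fun z y hz₁ hz₂ hy h => by
    obtain ⟨-, a1, a2⟩ := ktU_iff_inv.1 hz₁
    obtain ⟨-, b1, b2⟩ := ktU_iff_inv.1 hz₂
    exact hRb z a1 a2 b1 b2 y hy.1 h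
  const_map := hK
  const_mul := fun c hc d hd => K.mul_mem hc hd
  const_inv := fun c hc => K.inv_mem hc
  const_frob := fun c hc hcU => by
    obtain ⟨c0, c1, c2⟩ := ktU_iff_inv.1 hcU
    exact sub_mem_of_ktP_div (ktU_pow hcU Q) (hKQ c hc c0 c1 c2)
  approx := happ

end Adapter

/-- **KT-A3 (S2CORE)** in the shape of the contract, with (CONST) for NONZERO constants. -/
def KtS2CoreStatement' : Prop :=
  ∀ (E' E : Type) [Field E'] [Field E] (α β : E' →+* E)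
    (V' : ValuationSubring E') (V₁ V₂ : ValuationSubring E)
    (φ' : E' ≃+* E') (φ : E ≃+* E) (Na Nb : E →* E') (K : Subfield E') (Q : ℕ),
    (∀ y, φ (α y) = α (φ' y)) → (∀ y, φ (β y) = β (φ' y)) →
    (∀ z, Na (φ z) = φ' (Na z)) → (∀ z, Nb (φ z) = φ' (Nb z)) →
    (∀ z : E, z ≠ 0 → φ z / z ∈ V₁ ∧ z / φ z ∈ V₁) →
    (∀ z : E, z ≠ 0 → φ z / z ∈ V₂ ∧ z / φ z ∈ V₂) →
    (∀ y : E', y ≠ 0 → φ' y / y ∈ V' ∧ y / φ' y ∈ V') →
    (∀ y : E', α y ∈ V₁ ↔ y ∈ V') → (∀ y : E', β y ∈ V₂ ↔ y ∈ V') →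
    (∀ z ∈ V₁, ∃ y ∈ V', z - α y ∈ V₁.nonunits) →
    (∀ z ∈ V₂, ∃ y ∈ V', z - β y ∈ V₂.nonunits) →
    (∀ z : E, z ∈ V₁ → z⁻¹ ∈ V₁ → z ∈ V₂ → z⁻¹ ∈ V₂ → ∀ y ∈ V', z - β y ∈ V₂.nonunits →
      α (Na z) - z * α (φ' y) ∈ V₁.nonunits) →
    (∀ z : E, z ∈ V₁ → z⁻¹ ∈ V₁ → z ∈ V₂ → z⁻¹ ∈ V₂ → ∀ y ∈ V', z - α y ∈ V₁.nonunits →
      β (Nb z) - z * β (φ' y) ∈ V₂.nonunits) →
    (∀ c ∈ K, φ' c ∈ K) →
    (∀ c ∈ K, c ≠ 0 → c ∈ V' → c⁻¹ ∈ V' → φ' (φ' c) / c ^ Q - 1 ∈ V'.nonunits) →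
    (∀ a b : E, ∃ g : E, g - a ∈ V₁.nonunits ∧ g - b ∈ V₂.nonunits) →
    ∀ (n : ℕ), 0 < n → ∀ (f : E), f ≠ 0 → ∀ (γ γ' h h' : E'), γ ∈ K → γ' ∈ K →
      Na f = γ * h ^ n → Nb f = γ' * h' ^ n →
      ∃ Γ : E, Γ ≠ 0 ∧
        ktQuot (fun z => φ (φ z)) Q (ktQuot (fun z => φ (φ z)) 1
          (ktQuot (fun z => φ (φ z)) 1 f)) / Γ ^ n - 1 ∈ V₁.nonunits ∧
        ktQuot (fun z => φ (φ z)) Q (ktQuot (fun z => φ (φ z)) 1
          (ktQuot (fun z => φ (φ z)) 1 f)) / Γ ^ n - 1 ∈ V₂.nonunits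

/-- **KT-A3 (S2CORE)**, contract shape with (CONST) for nonzero constants. -/
theorem ktS2Core' : KtS2CoreStatement' := by
  intro E' E _ _ α β V' V₁ V₂ φ' φ Na Nb K Q hα hβ hNa hNb hinv₁ hinv₂ hinv' ht1α ht1β hf1 hf2
    hRa hRb hK hKQ happ n hn f hf γ γ' h h' hγ hγ' hNaf hNbf
  exact (ktTable_of_contract α β V' V₁ V₂ φ' φ Na Nb K Q hα hβ hNa hNb hinv₁ hinv₂ hinv' ht1α
    ht1β hf1 hf2 hRa hRb hK hKQ happ).exists_gamma (fun z => φ (φ z)) (fun _ => rfl) hn hf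
    hγ hγ' hNaf hNbf

/-- **KT-A3 (S2CORE)**, the contract statement verbatim. -/
theorem ktS2Core : KtS2CoreStatement := by
  intro E' E _ _ α β V' V₁ V₂ φ' φ Na Nb K Q hα hβ hNa hNb hinv₁ hinv₂ hinv' ht1α ht1β hf1 hf2
    hRa hRb hK hKQ happ n hn f hf γ γ' h h' hγ hγ' _ _ _ _ hNaf hNbf
  exact ktS2Core' E' E α β V' V₁ V₂ φ' φ Na Nb K Q hα hβ hNa hNb hinv₁ hinv₂ hinv' ht1α ht1β
    hf1 hf2 hRa hRb hK (fun c hc _ h1 h2 => hKQ c hc h1 h2) happ n hn f hf γ γ' h h' hγ hγ'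
    hNaf hNbf

end Fermat.Agent.H16

end
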