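import Fermat.Agent.H16.S37E7Abs
import Fermat.Agent.H36.ESE.Abstract

/-!
# P-ES / ES-E, row E7: the abstract congruence relation (helper16)

`e7_core`: in an abstract setting (a correspondence `T = α_* β^*` between function fields
`F ⇉ F'` over `K`, a map of places `r` to a function field `Fbar / k` in characteristic `ℓ`, a
function `j` with the centre property, the modular equations for a polynomial `Φ` satisfying
Kronecker's congruence, and a set `PP` of divisors on which the congruence relation holds and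
which isolates points), the congruence relation `r_* ∘ T = (φ + ℓ φ⁻¹) ∘ r_*` holds on all
points.
-/

set_option autoImplicit false

noncomputable section

namespace Fermat.Agent.H16

open AlgebraicCurve Polynomial

section Val

variable {K F : Type*} [Field K] [Field F] [Algebra K F]

/-- `E7Val j Q none`: `Q` is a pole of `j`;  `E7Val j Q (some a)`: `j` takes the value `a` at
`Q`. -/
def E7Val (j : F) (Q : Place K F) : Option K → Prop
  | none => Q.ord j < 0
  | some a => 0 < Q.ord (j - algebraMap K F a)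

theorem e7Val_none {j : F} {Q : Place K F} : E7Val j Q none ↔ Q.ord j < 0 := Iff.rfl

theorem e7Val_some {j : F} {Q : Place K F} {a : K} :
    E7Val j Q (some a) ↔ 0 < Q.ord (j - algebraMap K F a) := Iff.rfl

theorem e7Val_mem_of_some {j : F} {Q : Place K F} {a : K} (h : E7Val j Q (some a)) :
    j ∈ Q.toValuationSubring := by
  have h1 : j - algebraMap K F a ∈ Q.toValuationSubring :=
    Fermat.Agent.H23.mem_of_ord_nonneg Q (le_of_lt h)
  have := add_mem h1 (Q.algebraMap_mem' a)
  simpa using this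

theorem e7Val_not_mem_of_none {j : F} {Q : Place K F} (h : E7Val j Q none) :
    j ∉ Q.toValuationSubring := by
  intro hmem
  have h1 := Fermat.Agent.H23.ord_nonneg_of_mem Q hmem
  have h2 : Q.ord j < 0 := h
  omega

theorem e7Val_unique {j : F} {Q : Place K F} {b b' : Option K} (h : E7Val j Q b)
    (h' : E7Val j Q b') : b = b' := by
  rcases b with _ | a <;> rcases b' with _ | a'
  · rfl
  · exact absurd (e7Val_mem_of_some h') (e7Val_not_mem_of_none h)
  · exact absurd (e7Val_mem_of_some h) (e7Val_not_mem_of_none h')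
  · by_contra hne
    have hne' : a ≠ a' := fun h0 => hne (by rw [h0])
    have h0 : (j - algebraMap K F a') + -(j - algebraMap K F a) = algebraMap K F (a - a') := by
      rw [map_sub]; ring
    have hnz : (j - algebraMap K F a') + -(j - algebraMap K F a) ≠ 0 := by
      rw [h0]
      intro hz
      exact hne' (sub_eq_zero.mp ((map_eq_zero (algebraMap K F)).mp hz))
    have h1 : (1 : ℤ) ≤ Q.ord ((j - algebraMap K F a') + -(j - algebraMap K F a)) := by
      refine Fermat.Agent.H23.ord_add_ge Q hnz 1 (Or.inr ?_) (Or.inr ?_)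
      · exact h'
      · rw [Fermat.Agent.H23.ord_neg]; exact h
    rw [h0, Fermat.Agent.H23.ord_algebraMap] at h1
    omega

theorem e7Val_exists {j : F} (Q : Place K F) (hdeg : Q.deg = 1)
    (hnc : ∀ c : K, j ≠ algebraMap K F c) : ∃ b, E7Val j Q b := by
  by_cases h : Q.ord j < 0
  · exact ⟨none, h⟩
  · obtain ⟨c, hc | hc⟩ := Fermat.Agent.H23.exists_const_ord_sub_pos Q hdeg
      (f := j) (Or.inr (not_lt.mp h))
    · exact absurd hc (hnc c)
    · exact ⟨some c, hc⟩

theorem e7Val_smul {j : F} {Q : Place K F} (g : SemilinearAut K F) (hg : g • j = j)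
    {b : Option K} (h : E7Val j Q b) : E7Val j (g • Q) (b.map (SemilinearAut.baseAut g)) := by
  rcases b with _ | a
  · show (g • Q).ord j < 0
    have := SemilinearAut.ord_smul g Q j
    rw [hg] at this
    rw [this]
    exact h
  · show 0 < (g • Q).ord (j - algebraMap K F (SemilinearAut.baseAut g a))
    have := SemilinearAut.ord_smul g Q (j - algebraMap K F a)
    rw [smul_sub, hg, SemilinearAut.smul_algebraMap] at this
    rw [this]
    exact h

theorem e7Val_finite [HasPrincipalDivisors K F] {j : F} (hnc : ∀ c : K, j ≠ algebraMap K F c)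
    (b : Option K) : ∃ S : Finset (Place K F), ∀ Q, E7Val j Q b → Q ∈ S := by
  rcases b with _ | a
  · have hj : j ≠ 0 := fun h => hnc 0 (by rw [h, map_zero])
    obtain ⟨D, hD, -⟩ := HasPrincipalDivisors.exists_divisor (K := K) j hj
    refine ⟨D.support, fun Q hQ => ?_⟩
    rw [Finsupp.mem_support_iff, hD Q]
    have : Q.ord j < 0 := hQ
    omega
  · have hj : j - algebraMap K F a ≠ 0 := fun h => hnc a (sub_eq_zero.mp h)
    obtain ⟨D, hD, -⟩ := HasPrincipalDivisors.exists_divisor (K := K) _ hj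
    refine ⟨D.support, fun Q hQ => ?_⟩
    rw [Finsupp.mem_support_iff, hD Q]
    have : 0 < Q.ord (j - algebraMap K F a) := hQ
    omega

end Val

section Along

variable {K F F' : Type*} [Field K] [Field F] [Field F'] [Algebra K F] [Algebra K F']

theorem e7Val_restrictAlong (φ : F →ₐ[K] F') (hφ : φ.toRingHom.IsIntegral) (w : Place K F')
    {j : F} {c : Option K} (h : E7Val j (w.restrictAlong φ hφ) c) : E7Val (φ j) w c := by
  rcases c with _ | a
  · exact (e7_ord_restrictAlong_neg_iff φ hφ w j).mp h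
  · show 0 < w.ord (φ j - algebraMap K F' a)
    have := (e7_ord_restrictAlong_pos_iff φ hφ w (j - algebraMap K F a)).mp h
    rwa [map_sub, AlgHom.commutes] at this

/-- The values of `j` at the two images of a place `w` of `F'` satisfy the modular equation. -/
theorem e7_val_hecke (α β : F →ₐ[K] F') (hα : α.toRingHom.IsIntegral)
    (hβ : β.toRingHom.IsIntegral) (Φ : Polynomial (Polynomial ℤ)) (hΦ : Φ.Monic) (j : F)
    (h1 : e7ev (α j) (β j) Φ = 0) (h2 : e7ev (β j) (α j) Φ = 0) (w : Place K F')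
    {c c' : Option K} (hc : E7Val j (w.restrictAlong β hβ) c)
    (hc' : E7Val j (w.restrictAlong α hα) c') :
    (c = none ∧ c' = none) ∨
      ∃ c₀ c₀', c = some c₀ ∧ c' = some c₀' ∧ e7ev c₀' c₀ Φ = 0 ∧ e7ev c₀ c₀' Φ = 0 := by
  have hcw := e7Val_restrictAlong β hβ w hc
  have hcw' := e7Val_restrictAlong α hα w hc'
  rcases c with _ | a <;> rcases c' with _ | a'
  · exact Or.inl ⟨rfl, rfl⟩
  · exfalso
    have hx := e7Val_mem_of_some hcw'
    exact e7Val_not_mem_of_none hcw (e7_mem_valuationSubring w.toValuationSubring Φ hΦ _ _ h1 hx)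
  · exfalso
    have hx := e7Val_mem_of_some hcw
    exact e7Val_not_mem_of_none hcw' (e7_mem_valuationSubring w.toValuationSubring Φ hΦ _ _ h2 hx)
  · refine Or.inr ⟨a, a', rfl, rfl, ?_, ?_⟩
    · exact e7_eval_const_eq_zero w Φ (α j) (β j) h1 a' a hcw' hcw
    · exact e7_eval_const_eq_zero w Φ (β j) (α j) h2 a a' hcw hcw'

end Along

section Red

variable {K k : Type*} [Field K] [Field k]

open Classical in
/-- Reduction of values: `∞ ↦ ∞`, `c ↦ π c` for `c ∈ A`, `c ↦ ∞` for `c ∉ A`. -/
def e7red (A : ValuationSubring K) (π : A →+* k) : Option K → Option k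
  | none => none
  | some c => if h : c ∈ A then some (π ⟨c, h⟩) else none

/-- The relation between the `j`-invariants of `ℓ`-isogenous curves in characteristic `ℓ`. -/
def E7Rel (ℓ : ℕ) : Option k → Option k → Prop
  | none, none => True
  | some a, some a' => a = a' ^ ℓ ∨ a ^ ℓ = a'
  | _, _ => False

theorem e7_rel_red (A : ValuationSubring K) (π : A →+* k) (ℓ : ℕ) [CharP k ℓ]
    (Φ : Polynomial (Polynomial ℤ)) (hΦ : Φ.Monic)
    (hkron : Φ.map (Polynomial.mapRingHom (Int.castRingHom (ZMod ℓ))) =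
      (X - C (X ^ ℓ)) * (X ^ ℓ - C X))
    {c c' : Option K}
    (h : (c = none ∧ c' = none) ∨
      ∃ c₀ c₀', c = some c₀ ∧ c' = some c₀' ∧ e7ev c₀' c₀ Φ = 0 ∧ e7ev c₀ c₀' Φ = 0) :
    E7Rel ℓ (e7red A π c) (e7red A π c') := by
  rcases h with ⟨rfl, rfl⟩ | ⟨c₀, c₀', rfl, rfl, h1, h2⟩
  · exact trivial
  · by_cases hc : c₀ ∈ A
    · have hc' : c₀' ∈ A := e7_mem_valuationSubring A Φ hΦ _ _ h2 hc
      have e1 : e7red A π (some c₀) = some (π ⟨c₀, hc⟩) := by
        simp only [e7red, dif_pos hc]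
      have e2 : e7red A π (some c₀') = some (π ⟨c₀', hc'⟩) := by
        simp only [e7red, dif_pos hc']
      rw [e1, e2]
      show π ⟨c₀, hc⟩ = π ⟨c₀', hc'⟩ ^ ℓ ∨ π ⟨c₀, hc⟩ ^ ℓ = π ⟨c₀', hc'⟩
      have h0 : e7ev (⟨c₀', hc'⟩ : A) ⟨c₀, hc⟩ Φ = 0 := by
        apply Subtype.ext
        have := e7ev_map A.subtype ⟨c₀', hc'⟩ ⟨c₀, hc⟩ Φ
        rw [show ((e7ev (⟨c₀', hc'⟩ : A) ⟨c₀, hc⟩ Φ : A) : K) =
          A.subtype (e7ev (⟨c₀', hc'⟩ : A) ⟨c₀, hc⟩ Φ) from rfl, this]
        exact h1
      have h3 := congrArg π h0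
      rw [e7ev_map, map_zero, e7ev_of_kronecker ℓ _ _ Φ hkron, mul_eq_zero] at h3
      rcases h3 with h3 | h3
      · exact Or.inl (sub_eq_zero.mp h3)
      · exact Or.inr (sub_eq_zero.mp h3)
    · have hc' : c₀' ∉ A := fun hc' => hc (e7_mem_valuationSubring A Φ hΦ _ _ h1 hc')
      have e1 : e7red A π (some c₀) = none := by
        simp only [e7red, dif_neg hc]
      have e2 : e7red A π (some c₀') = none := by
        simp only [e7red, dif_neg hc']
      rw [e1, e2]
      exact trivial

theorem e7Rel_frob (ℓ : ℕ) (φ : k ≃+* k) (hφ : ∀ a, φ a = a ^ ℓ) (b : Option k) :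
    E7Rel ℓ b (b.map φ) := by
  rcases b with _ | a
  · exact trivial
  · exact Or.inr (hφ a).symm

theorem e7Rel_frob_symm (ℓ : ℕ) (φ : k ≃+* k) (hφ : ∀ a, φ a = a ^ ℓ) (b : Option k) :
    E7Rel ℓ b (b.map φ.symm) := by
  rcases b with _ | a
  · exact trivial
  · refine Or.inl ?_
    show a = (φ.symm a) ^ ℓ
    rw [← hφ, RingEquiv.apply_symm_apply]

/-- If two values are related to a common third one, then they are equal or differ by the
square of Frobenius. -/
theorem e7Rel_common (ℓ : ℕ) (φ : k ≃+* k) (hφ : ∀ a, φ a = a ^ ℓ) {b₁ b' c : Option k}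
    (h1 : E7Rel ℓ b₁ c) (h' : E7Rel ℓ b' c) :
    b' = b₁ ∨ b' = b₁.map (fun a => φ (φ a)) ∨ b' = b₁.map (fun a => φ.symm (φ.symm a)) := by
  rcases b₁ with _ | a₁ <;> rcases c with _ | e <;> rcases b' with _ | a'
  · exact Or.inl rfl
  · exact absurd h' id
  · exact absurd h1 id
  · exact absurd h1 id
  · exact absurd h1 id
  · exact absurd h1 id
  · exact absurd h' id
  · rcases h1 with h1 | h1 <;> rcases h' with h' | h'
    · left
      rw [h1, h']
    · right; right
      show some a' = some (φ.symm (φ.symm a₁))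
      congr 1
      rw [h1, ← h', ← hφ, ← hφ, RingEquiv.symm_apply_apply, RingEquiv.symm_apply_apply]
    · right; left
      show some a' = some (φ (φ a₁))
      congr 1
      rw [h', ← h1, hφ, hφ]
    · left
      congr 1
      apply φ.injective
      rw [hφ, hφ, h1, h']

end Red

section FrobVer

variable {k Fbar : Type*} [Field k] [Field Fbar] [Algebra k Fbar]

theorem e7_ord_smul_eq (g : SemilinearAut k Fbar) (Q : Place k Fbar) (f : Fbar) :
    Q.ord (g • f) = (g⁻¹ • Q).ord f := by
  have := SemilinearAut.ord_smul g (g⁻¹ • Q) f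
  rwa [smul_inv_smul] at this

/-- `div (g y * (g⁻¹ y)^ℓ) = g (div y) + ℓ g⁻¹ (div y)`. -/
theorem e7_div_frob_ver (g : SemilinearAut k Fbar) (ℓ : ℕ) (y y' : Fbar) (hy : y ≠ 0)
    (hy' : y' = (g • y) * (g⁻¹ • y) ^ ℓ) (E E' : Divisor k Fbar) (hE : ∀ Q, E Q = Q.ord y)
    (hE' : ∀ Q, E' Q = Q.ord y') : E' = g • E + (ℓ : ℤ) • (g⁻¹ • E) := by
  ext Q
  have hg1 : g • y ≠ 0 := (smul_ne_zero_iff_ne _).mpr hy
  have hg2 : g⁻¹ • y ≠ 0 := (smul_ne_zero_iff_ne _).mpr hy
  rw [hE', Finsupp.add_apply, Finsupp.smul_apply, SemilinearAut.divisor_smul_apply,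
    SemilinearAut.divisor_smul_apply, hE, hE, hy', Place.ord_mul _ hg1 (pow_ne_zero _ hg2),
    ← zpow_natCast, Place.ord_zpow, e7_ord_smul_eq, e7_ord_smul_eq, smul_eq_mul]

end FrobVer

section Core

variable {K F F' k Fbar : Type*} [Field K] [Field F] [Field F'] [Algebra K F] [Algebra K F']
  [Field k] [Field Fbar] [Algebra k Fbar]

/-- **The abstract congruence relation.** -/
theorem e7_core [HasPrincipalDivisors K F'] [HasPrincipalDivisors k Fbar]
    (α β : F →ₐ[K] F') (hα : α.toRingHom.IsIntegral) (hβ : β.toRingHom.IsIntegral)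
    (A : ValuationSubring K) (π : A →+* k) (r : Place K F → Place k Fbar)
    (gbar : SemilinearAut k Fbar) (ℓ : ℕ) [CharP k ℓ] (jF : F) (jk : Fbar)
    (hdeg : ∀ P : Place K F, P.deg = 1)
    (hncF : ∀ c : K, jF ≠ algebraMap K F c) (hnck : ∀ a : k, jk ≠ algebraMap k Fbar a)
    (hcentre : ∀ P : Place K F, (P.ord jF < 0 → (r P).ord jk < 0) ∧
      (∀ c : A, 0 < P.ord (jF - algebraMap K F (c : K)) →
        0 < (r P).ord (jk - algebraMap k Fbar (π c))) ∧
      (∀ c : K, c ∉ A → 0 < P.ord (jF - algebraMap K F c) → (r P).ord jk < 0))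
    (Φ : Polynomial (Polynomial ℤ)) (hΦ : Φ.Monic)
    (hkron : Φ.map (Polynomial.mapRingHom (Int.castRingHom (ZMod ℓ))) =
      (X - C (X ^ ℓ)) * (X ^ ℓ - C X))
    (h1 : e7ev (α jF) (β jF) Φ = 0) (h2 : e7ev (β jF) (α jF) Φ = 0)
    (hgj : gbar • jk = jk) (hgφ : ∀ a : k, SemilinearAut.baseAut gbar a = a ^ ℓ)
    (PP : Set (Divisor K F))
    (hPP : ∀ D ∈ PP, Finsupp.mapDomain r (Divisor.correspondence β α hβ hα D) =
      gbar • Finsupp.mapDomain r D + (ℓ : ℤ) • (gbar⁻¹ • Finsupp.mapDomain r D))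
    (hiso : ∀ (P₁ : Place K F) (S : Finset (Place k Fbar)),
      ∃ D ∈ PP, D P₁ = 1 ∧ ∀ P', P' ≠ P₁ → D P' ≠ 0 → r P' ∉ S)
    (P : Place K F) :
    Finsupp.mapDomain r (Divisor.correspondence β α hβ hα (Finsupp.single P 1)) =
      Finsupp.single (gbar • r P) 1 + Finsupp.single (gbar⁻¹ • r P) (ℓ : ℤ) := by
  classical
  set φ : k ≃+* k := SemilinearAut.baseAut gbar with hφdef
  set T := Divisor.correspondence β α hβ hα with hT
  -- the centre property on values
  have hcv : ∀ (P : Place K F) (c : Option K), E7Val jF P c → E7Val jk (r P) (e7red A π c) := by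
    intro P c hc
    rcases c with _ | c
    · exact (hcentre P).1 hc
    · by_cases hcA : c ∈ A
      · have e1 : e7red A π (some c) = some (π ⟨c, hcA⟩) := by
          simp only [e7red, dif_pos hcA]
        rw [e1]
        exact (hcentre P).2.1 ⟨c, hcA⟩ hc
      · have e1 : e7red A π (some c) = none := by
          simp only [e7red, dif_neg hcA]
        rw [e1]
        exact (hcentre P).2.2 c hcA hc
  have hex : ∀ P : Place K F, ∃ b, E7Val jk (r P) b := by
    intro P
    obtain ⟨c, hc⟩ := e7Val_exists P (hdeg P) hncF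
    exact ⟨_, hcv P c hc⟩
  have hginv : gbar⁻¹ • jk = jk := by
    rw [inv_smul_eq_iff, hgj]
  -- the supports
  set Supp : Place K F → Finset (Place k Fbar) := fun P =>
    (Finsupp.mapDomain r (T (Finsupp.single P 1))).support ∪ {gbar • r P, gbar⁻¹ • r P}
    with hSuppdef
  have hkey : ∀ (P : Place K F) (Q : Place k Fbar), Q ∈ Supp P → ∀ b, E7Val jk (r P) b →
      ∃ b', E7Val jk Q b' ∧ E7Rel ℓ b b' := by
    intro P Q hQ b hb
    rw [hSuppdef, Finset.mem_union, Finset.mem_insert, Finset.mem_singleton] at hQ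
    rcases hQ with hQ | rfl | rfl
    · have hQ' := Finsupp.mapDomain_support hQ
      rw [Finset.mem_image] at hQ'
      obtain ⟨P', hP', rfl⟩ := hQ'
      obtain ⟨w, hwP, hwP'⟩ := e7_mem_support_correspondence β α hβ hα P 1 P' hP'
      obtain ⟨c, hc⟩ := e7Val_exists P (hdeg P) hncF
      obtain ⟨c', hc'⟩ := e7Val_exists P' (hdeg P') hncF
      have hb' : b = e7red A π c := e7Val_unique hb (hcv P c hc)
      refine ⟨e7red A π c', hcv P' c' hc', ?_⟩
      rw [hb']
      refine e7_rel_red A π ℓ Φ hΦ hkron ?_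
      refine e7_val_hecke α β hα hβ Φ hΦ jF h1 h2 w ?_ ?_
      · rw [hwP]; exact hc
      · rw [hwP']; exact hc'
    · exact ⟨b.map φ, e7Val_smul gbar hgj hb, e7Rel_frob ℓ φ hgφ b⟩
    · exact ⟨b.map φ.symm, e7Val_smul gbar⁻¹ hginv hb, e7Rel_frob_symm ℓ φ hgφ b⟩
  -- the difference
  set δ : Divisor K F →+ Divisor k Fbar :=
    (Finsupp.mapDomain.addMonoidHom r).comp T -
      ((DistribSMul.toAddMonoidHom (Divisor k Fbar) gbar +
        (ℓ : ℤ) • DistribSMul.toAddMonoidHom (Divisor k Fbar) gbar⁻¹).comp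
          (Finsupp.mapDomain.addMonoidHom r)) with hδ
  have hδapp : ∀ D, δ D = Finsupp.mapDomain r (T D) -
      (gbar • Finsupp.mapDomain r D + (ℓ : ℤ) • (gbar⁻¹ • Finsupp.mapDomain r D)) := fun D => rfl
  have hzero : ∀ D, δ D = 0 := by
    refine Fermat.Agent.H36.eq_zero_of_isolation r δ PP ?_ Supp ?_ ?_ hiso
    · intro D hD
      rw [hδapp, hPP D hD, sub_self]
    · intro P Q hQ
      rw [Finset.mem_coe, hδapp] at hQ
      rw [Finset.mem_coe, hSuppdef, Finset.mem_union]
      have h3 := Finsupp.support_sub hQ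
      rw [Finset.mem_union] at h3
      rcases h3 with h3 | h3
      · exact Or.inl h3
      · right
        rw [Finsupp.mapDomain_single, SemilinearAut.smul_single, SemilinearAut.smul_single]
          at h3
        have h4 := Finsupp.support_add h3
        rw [Finset.mem_union] at h4
        rw [Finset.mem_insert, Finset.mem_singleton]
        rcases h4 with h4 | h4
        · left
          have := Finsupp.support_single_subset h4
          rwa [Finset.mem_singleton] at this
        · right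
          have h5 := Finsupp.support_smul h4
          have := Finsupp.support_single_subset h5
          rwa [Finset.mem_singleton] at this
    · intro P₁
      obtain ⟨b₁, hb₁⟩ := hex P₁
      obtain ⟨S1, hS1⟩ := e7Val_finite hnck b₁
      obtain ⟨S2, hS2⟩ := e7Val_finite hnck (b₁.map (fun a => φ (φ a)))
      obtain ⟨S3, hS3⟩ := e7Val_finite hnck (b₁.map (fun a => φ.symm (φ.symm a)))
      refine ⟨S1 ∪ S2 ∪ S3, fun P' hP' => ?_⟩
      rw [Finset.disjoint_left]
      intro Q hQ' hQ1
      apply hP'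
      obtain ⟨b', hb'⟩ := hex P'
      obtain ⟨c₁, hc₁, hrel₁⟩ := hkey P₁ Q hQ1 b₁ hb₁
      obtain ⟨c', hc', hrel'⟩ := hkey P' Q hQ' b' hb'
      have hcc : c' = c₁ := e7Val_unique hc' hc₁
      rw [hcc] at hrel'
      rw [Finset.mem_union, Finset.mem_union]
      rcases e7Rel_common ℓ φ hgφ hrel₁ hrel' with h | h | h
      · exact Or.inl (Or.inl (hS1 _ (h ▸ hb')))
      · exact Or.inl (Or.inr (hS2 _ (h ▸ hb')))
      · exact Or.inr (hS3 _ (h ▸ hb'))
  have := hzero (Finsupp.single P 1)
  rw [hδapp, sub_eq_zero, Finsupp.mapDomain_single, SemilinearAut.smul_single,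
    SemilinearAut.smul_single, Finsupp.smul_single, smul_eq_mul, mul_one] at this
  exact this

end Core

end Fermat.Agent.H16

end
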