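import Fermat.Prelude.Def_AlgebraicCurve_Correspondence
import Fermat.Agent.H23.PlaceBasic

/-!
# P-ES / ES-E, row E7: abstract lemmas (helper16)

* `e7ev x y` : the evaluation `ℤ[X][Y] → B`, `X ↦ x`, `Y ↦ y`, and its naturality;
* `e7_mem_valuationSubring` : if `Φ` is monic in `Y`, `Φ(x, y) = 0` and `x` lies in a valuation
  subring, then so does `y`;
* `e7_eval_const_eq_zero` : the relation `Φ(x, y) = 0` specialises to the values at a place;
* `e7_mem_support_correspondence` : the support of a correspondence applied to a point;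
* `e7_ord_restrictAlong_pos_iff`, `e7_ord_restrictAlong_neg_iff`.
-/

set_option autoImplicit false

noncomputable section

namespace Fermat.Agent.H16

open AlgebraicCurve Polynomial

section Eval

/-- Evaluation `ℤ[X][Y] → B`, inner variable `X ↦ x`, outer variable `Y ↦ y`. -/
def e7ev {B : Type*} [CommRing B] (x y : B) : Polynomial (Polynomial ℤ) →+* B :=
  Polynomial.eval₂RingHom (Polynomial.eval₂RingHom (Int.castRingHom B) x) y

theorem e7ev_apply {B : Type*} [CommRing B] (x y : B) (Φ : Polynomial (Polynomial ℤ)) :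
    e7ev x y Φ = Φ.eval₂ (Polynomial.eval₂RingHom (Int.castRingHom B) x) y :=
  rfl

theorem e7ev_comp {B C : Type*} [CommRing B] [CommRing C] (f : B →+* C) (x y : B) :
    f.comp (e7ev x y) = e7ev (f x) (f y) := by
  apply Polynomial.ringHom_ext
  · intro a
    apply congrFun (congrArg DFunLike.coe (?_ : (f.comp (e7ev x y)).comp Polynomial.C =
      (e7ev (f x) (f y)).comp Polynomial.C)) a
    apply Polynomial.ringHom_ext
    · intro n
      simp [e7ev]
    · simp [e7ev]
  · simp [e7ev]

theorem e7ev_map {B C : Type*} [CommRing B] [CommRing C] (f : B →+* C) (x y : B)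
    (Φ : Polynomial (Polynomial ℤ)) : f (e7ev x y Φ) = e7ev (f x) (f y) Φ := by
  rw [← e7ev_comp]
  rfl

/-- In characteristic `p`, the evaluation factors through the reduction modulo `p`. -/
theorem e7ev_eq_of_charP {B : Type*} [CommRing B] (p : ℕ) [CharP B p] (x y : B)
    (Φ : Polynomial (Polynomial ℤ)) :
    e7ev x y Φ = (Φ.map (Polynomial.mapRingHom (Int.castRingHom (ZMod p)))).eval₂
      (Polynomial.eval₂RingHom (ZMod.castHom (dvd_refl p) B) x) y := by
  rw [Polynomial.eval₂_map]
  rw [e7ev_apply]
  congr 1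
  apply Polynomial.ringHom_ext
  · intro n
    simp
  · simp

theorem e7ev_of_kronecker {B : Type*} [CommRing B] (p : ℕ) [CharP B p] (x y : B)
    (Φ : Polynomial (Polynomial ℤ))
    (hΦ : Φ.map (Polynomial.mapRingHom (Int.castRingHom (ZMod p))) =
      (X - C (X ^ p)) * (X ^ p - C X)) :
    e7ev x y Φ = (y - x ^ p) * (y ^ p - x) := by
  rw [e7ev_eq_of_charP p, hΦ]
  rw [Polynomial.eval₂_mul, Polynomial.eval₂_sub, Polynomial.eval₂_sub, Polynomial.eval₂_X,
    Polynomial.eval₂_C, Polynomial.eval₂_pow, Polynomial.eval₂_X, Polynomial.eval₂_C,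
    Polynomial.coe_eval₂RingHom, Polynomial.eval₂_pow, Polynomial.eval₂_X]

end Eval

section Integral

variable {B : Type*} [Field B]

/-- If `Φ` is monic in `Y`, `Φ(x, y) = 0` and `x` lies in the valuation subring `R`, then
`y ∈ R`. -/
theorem e7_mem_valuationSubring (R : ValuationSubring B) (Φ : Polynomial (Polynomial ℤ))
    (hΦ : Φ.Monic) (x y : B) (hxy : e7ev x y Φ = 0) (hx : x ∈ R) : y ∈ R := by
  have hint : IsIntegral R y := by
    refine ⟨Φ.map (Polynomial.eval₂RingHom (Int.castRingHom R) ⟨x, hx⟩), hΦ.map _, ?_⟩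
    rw [Polynomial.eval₂_map]
    have : (algebraMap R B).comp (Polynomial.eval₂RingHom (Int.castRingHom R) ⟨x, hx⟩) =
        Polynomial.eval₂RingHom (Int.castRingHom B) x := by
      apply Polynomial.ringHom_ext
      · intro n
        simp
      · simp
    rw [this]
    exact hxy
  obtain ⟨z, hz⟩ := IsIntegrallyClosed.isIntegral_iff.mp hint
  rw [← hz]
  exact z.2

end Integral

section Places

variable {K F F' : Type*} [Field K] [Field F] [Field F'] [Algebra K F] [Algebra K F']

theorem e7_ramificationIndexAlong_pos (φ : F →ₐ[K] F') (hφ : φ.toRingHom.IsIntegral)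
    (w : Place K F') : 0 < Place.ramificationIndexAlong φ w := by
  let _ := algebraAlong φ
  have := isScalarTower_along φ
  have := isIntegral_along φ hφ
  exact w.ramificationIndex_pos (F := F)

theorem e7_ord_restrictAlong_pos_iff (φ : F →ₐ[K] F') (hφ : φ.toRingHom.IsIntegral)
    (w : Place K F') (f : F) : 0 < (w.restrictAlong φ hφ).ord f ↔ 0 < w.ord (φ f) := by
  rw [Place.ord_restrictAlong φ hφ w f]
  have h := e7_ramificationIndexAlong_pos φ hφ w
  have h' : (0 : ℤ) < (Place.ramificationIndexAlong φ w : ℤ) := by exact_mod_cast h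
  constructor
  · intro hf
    exact mul_pos h' hf
  · intro hf
    by_contra hcon
    have : (Place.ramificationIndexAlong φ w : ℤ) * (w.restrictAlong φ hφ).ord f ≤ 0 :=
      mul_nonpos_of_nonneg_of_nonpos h'.le (not_lt.mp hcon)
    omega

theorem e7_ord_restrictAlong_neg_iff (φ : F →ₐ[K] F') (hφ : φ.toRingHom.IsIntegral)
    (w : Place K F') (f : F) : (w.restrictAlong φ hφ).ord f < 0 ↔ w.ord (φ f) < 0 := by
  rw [Place.ord_restrictAlong φ hφ w f]
  have h := e7_ramificationIndexAlong_pos φ hφ w
  have h' : (0 : ℤ) < (Place.ramificationIndexAlong φ w : ℤ) := by exact_mod_cast h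
  constructor
  · intro hf
    exact mul_neg_of_pos_of_neg h' hf
  · intro hf
    by_contra hcon
    have : 0 ≤ (Place.ramificationIndexAlong φ w : ℤ) * (w.restrictAlong φ hφ).ord f :=
      mul_nonneg h'.le (not_lt.mp hcon)
    omega

/-- The points in the support of a correspondence applied to a point `P`: they are the images
of the places lying over `P`. -/
theorem e7_mem_support_correspondence [HasPrincipalDivisors K F'] (φ ψ : F →ₐ[K] F')
    (hφ : φ.toRingHom.IsIntegral) (hψ : ψ.toRingHom.IsIntegral) (P : Place K F) (n : ℤ)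
    (P' : Place K F)
    (h : P' ∈ (Divisor.correspondence φ ψ hφ hψ (Finsupp.single P n)).support) :
    ∃ w : Place K F', w.restrictAlong φ hφ = P ∧ w.restrictAlong ψ hψ = P' := by
  classical
  rw [Divisor.correspondence_apply, Divisor.pullbackAlong_single, map_sum] at h
  have h' := Finsupp.support_finsetSum h
  rw [Finset.mem_biUnion] at h'
  obtain ⟨w, hw, hP'⟩ := h'
  rw [Divisor.pushforwardAlong_single] at hP'
  have := Finsupp.support_single_subset hP'
  rw [Finset.mem_singleton] at this
  exact ⟨w, Place.mem_fiberAlong.mp hw, this.symm⟩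

/-- The relation `Φ(x, y) = 0` specialises to the values of `x` and `y` at a place. -/
theorem e7_eval_const_eq_zero (w : Place K F') (Φ : Polynomial (Polynomial ℤ)) (x y : F')
    (hxy : e7ev x y Φ = 0) (c' c : K) (hx : 0 < w.ord (x - algebraMap K F' c'))
    (hy : 0 < w.ord (y - algebraMap K F' c)) : e7ev c' c Φ = 0 := by
  have hx1 : x - algebraMap K F' c' ∈ w.toValuationSubring :=
    Fermat.Agent.H23.mem_of_ord_nonneg w hx.le
  have hy1 : y - algebraMap K F' c ∈ w.toValuationSubring :=
    Fermat.Agent.H23.mem_of_ord_nonneg w hy.le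
  have hxm : x ∈ w.toValuationSubring := by
    have := add_mem hx1 (w.algebraMap_mem' c')
    simpa using this
  have hym : y ∈ w.toValuationSubring := by
    have := add_mem hy1 (w.algebraMap_mem' c)
    simpa using this
  have hxres : IsLocalRing.residue w.toValuationSubring ⟨x, hxm⟩ =
      IsLocalRing.residue w.toValuationSubring (algebraMap K w.toValuationSubring c') := by
    rw [← sub_eq_zero, ← map_sub, IsLocalRing.residue_eq_zero_iff,
      Fermat.Agent.H23.mem_maximalIdeal_iff_ord]
    right
    exact hx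
  have hyres : IsLocalRing.residue w.toValuationSubring ⟨y, hym⟩ =
      IsLocalRing.residue w.toValuationSubring (algebraMap K w.toValuationSubring c) := by
    rw [← sub_eq_zero, ← map_sub, IsLocalRing.residue_eq_zero_iff,
      Fermat.Agent.H23.mem_maximalIdeal_iff_ord]
    right
    exact hy
  have h0 : e7ev (⟨x, hxm⟩ : w.toValuationSubring) ⟨y, hym⟩ Φ = 0 := by
    apply Subtype.ext
    have := e7ev_map (w.toValuationSubring.subtype) ⟨x, hxm⟩ ⟨y, hym⟩ Φ
    rw [show ((e7ev (⟨x, hxm⟩ : w.toValuationSubring) ⟨y, hym⟩ Φ : w.toValuationSubring) : F') =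
      w.toValuationSubring.subtype (e7ev (⟨x, hxm⟩ : w.toValuationSubring) ⟨y, hym⟩ Φ) from rfl,
      this]
    exact hxy
  have h1 := congrArg (IsLocalRing.residue w.toValuationSubring) h0
  rw [e7ev_map, hxres, hyres, map_zero] at h1
  have h2 : ((IsLocalRing.residue w.toValuationSubring).comp
      (algebraMap K w.toValuationSubring)) (e7ev c' c Φ) = 0 := by
    rw [e7ev_map, RingHom.comp_apply, RingHom.comp_apply]
    exact h1
  exact (map_eq_zero _).mp h2

end Places

end Fermat.Agent.H16

end
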