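import Fermat.Agent.H42.Kronecker
import Fermat.Agent.H16.S37E7Abs

/-!
# P-ES / ES-E, row E7: the modular equation, both ways (helper16)

There is `Φ ∈ ℤ[X][Y]`, monic in `Y`, congruent to `(Y - X^p)(Y^p - X)` modulo `p`, with
`Φ(j(q), j(q^p)) = 0` and `Φ(j(q^p), j(q)) = 0` over every coefficient ring receiving `ℚ`.
-/

set_option autoImplicit false

noncomputable section

namespace Fermat.Agent.H16

open ModularCurve Polynomial Fermat.Agent.H27 Fermat.Agent.H42

theorem e7_twist_one {S : Type*} [CommRing S] (x : LaurentSeries S) :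
    twist (1 : Sˣ) x = x := by
  ext n
  simp

theorem e7_modEq_complex_swap (p : ℕ) [hp : Fact p.Prime] (ζ : ℂˣ) (D : HeckeDataOver p ℂ ζ) :
    e7ev (qExpand ℂ p (jqModC ℂ)) (jqModC ℂ) D.Φ = 0 := by
  have h := congrArg (Polynomial.eval (jqModC ℂ)) D.Φ_factor
  rw [Polynomial.eval_mul, Polynomial.eval_prod] at h
  rw [Finset.prod_eq_zero (Finset.mem_range.mpr hp.out.pos) (by
    rw [pow_zero, rootFin, e7_twist_one, Polynomial.eval_sub, Polynomial.eval_X,
      Polynomial.eval_C, sub_self]), mul_zero] at h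
  rw [Polynomial.eval_map] at h
  exact h

theorem e7_modEq_complex (p : ℕ) [hp : Fact p.Prime] (ζ : ℂˣ) (D : HeckeDataOver p ℂ ζ) :
    e7ev (jqModC ℂ) (qExpand ℂ p (jqModC ℂ)) D.Φ = 0 :=
  eval₂_evalAt_eq_zero p ζ D

/-- transfer of the modular equations along a ring homomorphism of the coefficients -/
theorem e7_modEq_map {R S : Type*} [CommRing R] [CommRing S] (f : R →+* S) (p : ℕ) [NeZero p]
    (Φ : Polynomial (Polynomial ℤ)) :
    (coeffMap f (e7ev (jqModC R) (qExpand R p (jqModC R)) Φ) =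
      e7ev (jqModC S) (qExpand S p (jqModC S)) Φ) ∧
    (coeffMap f (e7ev (qExpand R p (jqModC R)) (jqModC R) Φ) =
      e7ev (qExpand S p (jqModC S)) (jqModC S) Φ) := by
  constructor
  · rw [e7ev_map, ModularCurve.coeffMap_qExpand, ModularCurve.coeffMap_jqModC]
  · rw [e7ev_map, ModularCurve.coeffMap_qExpand, ModularCurve.coeffMap_jqModC]

/-- **The modular polynomial** of prime level `p`: monic, Kronecker's congruence, and the two
modular equations over `ℚ`. -/
theorem e7_exists_modularPolynomial (p : ℕ) [hp : Fact p.Prime] :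
    ∃ Φ : Polynomial (Polynomial ℤ), Φ.Monic ∧
      Φ.map (Polynomial.mapRingHom (Int.castRingHom (ZMod p))) =
        (X - C (X ^ p)) * (X ^ p - C X) ∧
      e7ev (jqModC ℚ) (qExpand ℚ p (jqModC ℚ)) Φ = 0 ∧
      e7ev (qExpand ℚ p (jqModC ℚ)) (jqModC ℚ) Φ = 0 := by
  obtain ⟨D⟩ := exists_heckeDataOver_complex p
  refine ⟨D.Φ, D.Φ_monic, kronecker_complex p _ (kroZeta_isPrimitiveRoot p) D, ?_, ?_⟩
  · apply Fermat.Agent.H67.coeffMap_injective_of_injective (algebraMap ℚ ℂ)
      (algebraMap ℚ ℂ).injective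
    rw [map_zero, (e7_modEq_map (algebraMap ℚ ℂ) p D.Φ).1]
    exact e7_modEq_complex p _ D
  · apply Fermat.Agent.H67.coeffMap_injective_of_injective (algebraMap ℚ ℂ)
      (algebraMap ℚ ℂ).injective
    rw [map_zero, (e7_modEq_map (algebraMap ℚ ℂ) p D.Φ).2]
    exact e7_modEq_complex_swap p _ D

/-- The modular equations over an arbitrary `ℚ`-algebra. -/
theorem e7_exists_modularPolynomial_over (p : ℕ) [hp : Fact p.Prime] :
    ∃ Φ : Polynomial (Polynomial ℤ), Φ.Monic ∧
      Φ.map (Polynomial.mapRingHom (Int.castRingHom (ZMod p))) =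
        (X - C (X ^ p)) * (X ^ p - C X) ∧
      ∀ (L : Type) [CommRing L] [Algebra ℚ L],
        e7ev (jqModC L) (qExpand L p (jqModC L)) Φ = 0 ∧
        e7ev (qExpand L p (jqModC L)) (jqModC L) Φ = 0 := by
  obtain ⟨Φ, h1, h2, h3, h4⟩ := e7_exists_modularPolynomial p
  refine ⟨Φ, h1, h2, fun L _ _ => ⟨?_, ?_⟩⟩
  · rw [← (e7_modEq_map (algebraMap ℚ L) p Φ).1, h3, map_zero]
  · rw [← (e7_modEq_map (algebraMap ℚ L) p Φ).2, h4, map_zero]

end Fermat.Agent.H16

end
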