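import Fermat.Agent.H36.ESE.Rows
import Fermat.Agent.H16.S37E7Core
import Fermat.Agent.H16.S37E7ModEq

/-!
# P-ES / ES-E, row E7: `CongruenceOfIsolationStatement` (helper16)

Isolation + centre property for `j` + Kronecker's congruence for norms ⟹ the Eichler–Shimura
congruence relation on places.
-/

set_option autoImplicit false

noncomputable section

namespace Fermat.Agent.H16

open ModularCurve AlgebraicCurve HahnSeries IntermediateField Polynomial Fermat.Agent.H36

section General

theorem e7_jq_ne_const (R : Type*) [Field R] (c : R) :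
    jqModC R ≠ algebraMap R (LaurentSeries R) c := by
  intro h
  have h1 := congrArg (fun x : LaurentSeries R => x.coeff (-1 : ℤ)) h
  simp only [coeff_jqModC_neg_one, algebraMap_laurentSeries_eq_single] at h1
  rw [HahnSeries.coeff_single_of_ne (by norm_num)] at h1
  exact one_ne_zero h1

theorem e7_charP_residueField {L : Type*} [Field L] (A : ValuationSubring L) {ℓ : ℕ}
    (hℓ : ℓ.Prime) (hA : A.LiesOverPrime ℓ) : CharP (IsLocalRing.ResidueField A) ℓ := by
  rw [CharP.charP_iff_prime_eq_zero hℓ]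
  have h1 : ((ℓ : A) : L) ∈ A.nonunits := by
    rw [show ((ℓ : A) : L) = (ℓ : L) from by push_cast; rfl]
    exact hA
  have h2 : (ℓ : A) ∈ IsLocalRing.maximalIdeal A := by
    rw [IsLocalRing.mem_maximalIdeal, mem_nonunits_iff]
    intro hu
    rw [ValuationSubring.mem_nonunits_iff_exists_mem_maximalIdeal] at h1
    obtain ⟨ha, hm⟩ := h1
    exact (IsLocalRing.mem_maximalIdeal _).mp hm hu
  have h3 := (IsLocalRing.residue_eq_zero_iff (ℓ : A)).mpr h2
  rwa [map_natCast] at h3

end General

section ModEq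

variable {L : Type} [Field L] [Algebra ℚ L] (N ℓ : ℕ) [NeZero N] [NeZero ℓ]

theorem e7_coe_e7ev (M : ℕ) (x y : laurentBaseChange L (modularFunctionFieldFull M))
    (Φ : Polynomial (Polynomial ℤ)) :
    ((e7ev x y Φ : laurentBaseChange L (modularFunctionFieldFull M)) : LaurentSeries L) =
      e7ev (x : LaurentSeries L) (y : LaurentSeries L) Φ :=
  e7ev_map (algebraMap (laurentBaseChange L (modularFunctionFieldFull M)) (LaurentSeries L))
    x y Φ

theorem e7_modEq_field (Φ : Polynomial (Polynomial ℤ))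
    (h : e7ev (jqModC L) (qExpand L ℓ (jqModC L)) Φ = 0 ∧
      e7ev (qExpand L ℓ (jqModC L)) (jqModC L) Φ = 0)
    (jF : laurentBaseChange L (modularFunctionFieldFull N))
    (hjF : (jF : LaurentSeries L) = jqModC L) :
    e7ev (heckeAlphaBar L N ℓ jF) (heckeBetaBar L N ℓ jF) Φ = 0 ∧
      e7ev (heckeBetaBar L N ℓ jF) (heckeAlphaBar L N ℓ jF) Φ = 0 := by
  constructor
  · apply Subtype.ext
    rw [e7_coe_e7ev, coe_heckeAlphaBar, coe_heckeBetaBar, hjF]
    exact h.1
  · apply Subtype.ext
    rw [e7_coe_e7ev, coe_heckeAlphaBar, coe_heckeBetaBar, hjF]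
    exact h.2

end ModEq

section Vanish

set_option synthInstance.maxHeartbeats 400000

theorem e7_coeffMap_ne_zero {k : Type*} [Field k] (φ : k →+* k) {x : LaurentSeries k}
    (hx : x ≠ 0) : coeffMap φ x ≠ 0 := by
  intro h
  apply hx
  apply Fermat.Agent.H67.coeffMap_injective_of_injective φ φ.injective
  rw [h, map_zero]

theorem e7_coe_inv_smul {k : Type*} [Field k] (N : ℕ) (φ : k ≃+* k)
    (x : modularFunctionFieldFullC k N) :
    (((coeffAutC N φ)⁻¹ • x : modularFunctionFieldFullC k N) : LaurentSeries k) =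
      coeffMap (φ.symm : k →+* k) (x : LaurentSeries k) := by
  rw [← map_inv, coe_coeffAutC_smul]
  rfl

set_option maxHeartbeats 1600000 in
/-- The congruence relation holds on the divisors of admissible functions. -/
theorem e7_vanish (N : ℕ) [NeZero N] (ℓ : ℕ) (hℓ : ℓ.Prime) (hℓN : ¬ ℓ ∣ N)
    (A : ValuationSubring (AlgebraicClosure ℚ)) (hA : A.LiesOverPrime ℓ)
    (r : Place (AlgebraicClosure ℚ) (modularFunctionFieldBar N) →
      Place (IsLocalRing.ResidueField A)
        (modularFunctionFieldFullC (IsLocalRing.ResidueField A) N))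
    (hr : IsPlaceReductionModL A N r) (hK : KroneckerNormStatement N)
    (φ : IsLocalRing.ResidueField A ≃+* IsLocalRing.ResidueField A) (hφ : ∀ x, φ x = x ^ ℓ)
    [NeZero ℓ]
    (hα : HeckeAlphaBarIntegral (AlgebraicClosure ℚ) N ℓ)
    (hβ : HeckeBetaBarIntegral (AlgebraicClosure ℚ) N ℓ)
    [HasPrincipalDivisors (AlgebraicClosure ℚ) (modularFunctionFieldBar (N * ℓ))]
    (D : Divisor (AlgebraicClosure ℚ) (modularFunctionFieldBar N))
    (hD : D ∈ integralPrincipalDivisors A (IsLocalRing.residue A) N) :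
    Finsupp.mapDomain r (heckeDivBar hα hβ D) =
      coeffAutC N φ • Finsupp.mapDomain r D +
        (ℓ : ℤ) • ((coeffAutC N φ)⁻¹ • Finsupp.mapDomain r D) := by
  obtain ⟨y, hy, hyk, hne, hDy⟩ := hD
  have hadm : IsAdmissibleSeries A (IsLocalRing.residue A) N y := ⟨hy, hyk, hne⟩
  obtain ⟨y', hL', hy'red, hTD⟩ := hK ℓ hℓ hℓN A hA φ hφ hα hβ y hadm D hDy
  have hφy := coeffMap_mem_modularFunctionFieldFullC N
    (φ : IsLocalRing.ResidueField A →+* IsLocalRing.ResidueField A) hyk
  have hφsy := coeffMap_mem_modularFunctionFieldFullC N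
    (φ.symm : IsLocalRing.ResidueField A →+* IsLocalRing.ResidueField A) hyk
  have hyk' : coeffMap (IsLocalRing.residue A) y' ∈
      modularFunctionFieldFullC (IsLocalRing.ResidueField A) N := by
    rw [hy'red]
    exact mul_mem hφy (pow_mem hφsy ℓ)
  have hne' : coeffMap (IsLocalRing.residue A) y' ≠ 0 := by
    rw [hy'red]
    exact mul_ne_zero (e7_coeffMap_ne_zero _ hne) (pow_ne_zero _ (e7_coeffMap_ne_zero _ hne))
  set yk : modularFunctionFieldFullC (IsLocalRing.ResidueField A) N :=
    ⟨coeffMap (IsLocalRing.residue A) y, hyk⟩ with hyk_def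
  have hyk0 : yk ≠ 0 := fun h => hne (congrArg Subtype.val h)
  have e : (⟨coeffMap (IsLocalRing.residue A) y', hyk'⟩ :
      modularFunctionFieldFullC (IsLocalRing.ResidueField A) N) =
      (coeffAutC N φ • yk) * ((coeffAutC N φ)⁻¹ • yk) ^ ℓ := by
    apply Subtype.ext
    rw [MulMemClass.coe_mul, SubmonoidClass.coe_pow, coe_coeffAutC_smul, e7_coe_inv_smul]
    exact hy'red
  exact e7_div_frob_ver (coeffAutC N φ) ℓ yk _ hyk0 e _ _ (hr.2 y hy hyk hne D hDy)
    (hr.2 y' hL' hyk' hne' (heckeDivBar hα hβ D) hTD)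

end Vanish

section Main

set_option synthInstance.maxHeartbeats 400000

theorem e7_jF_ne_const {L : Type*} [Field L] [Algebra ℚ L] (A : ValuationSubring L) (N : ℕ)
    (hL : coeffMap A.subtype (jqModC A) ∈ laurentBaseChange L (modularFunctionFieldFull N))
    (c : L) :
    (⟨coeffMap A.subtype (jqModC A), hL⟩ : laurentBaseChange L (modularFunctionFieldFull N)) ≠
      algebraMap L (laurentBaseChange L (modularFunctionFieldFull N)) c := by
  intro h
  have h1 := congrArg Subtype.val h
  have h2 : coeffMap A.subtype (jqModC A) = algebraMap L (LaurentSeries L) c := h1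
  rw [coeffMap_jqModC] at h2
  exact e7_jq_ne_const L c h2

theorem e7_jk_ne_const {L : Type*} [Field L] (A : ValuationSubring L) {k : Type*} [Field k]
    (π : A →+* k) (N : ℕ)
    (hk : coeffMap π (jqModC A) ∈ modularFunctionFieldFullC k N) (c : k) :
    (⟨coeffMap π (jqModC A), hk⟩ : modularFunctionFieldFullC k N) ≠
      algebraMap k (modularFunctionFieldFullC k N) c := by
  intro h
  have h1 := congrArg Subtype.val h
  have h2 : coeffMap π (jqModC A) = algebraMap k (LaurentSeries k) c := h1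
  rw [coeffMap_jqModC] at h2
  exact e7_jq_ne_const k c h2

theorem e7_smul_jk {L : Type*} [Field L] (A : ValuationSubring L) {k : Type*} [Field k]
    (π : A →+* k) (N : ℕ) (φ : k ≃+* k)
    (hk : coeffMap π (jqModC A) ∈ modularFunctionFieldFullC k N) :
    coeffAutC N φ • (⟨coeffMap π (jqModC A), hk⟩ : modularFunctionFieldFullC k N) =
      ⟨coeffMap π (jqModC A), hk⟩ := by
  apply Subtype.ext
  rw [coe_coeffAutC_smul]
  show coeffMap (φ : k →+* k) (coeffMap π (jqModC A)) = coeffMap π (jqModC A)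
  rw [coeffMap_jqModC, coeffMap_jqModC]

set_option maxHeartbeats 1600000 in
/-- **Row E7.** Isolation + centre property for `j` + Kronecker's congruence for norms ⟹ the
Eichler–Shimura congruence relation on places. -/
theorem congruenceOfIsolationStatement : CongruenceOfIsolationStatement := by
  intro N _ ℓ hℓ hℓN A hA r hr hPL hPk hdeg hiso hcen hK φ hφ hα hβ _ P
  have : Fact ℓ.Prime := ⟨hℓ⟩
  have : CharP (IsLocalRing.ResidueField A) ℓ := e7_charP_residueField A hℓ hA
  obtain ⟨hL, hk, hcentre⟩ := hcen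
  obtain ⟨Φ, hΦ, hkron, hmod⟩ := e7_exists_modularPolynomial_over ℓ
  have hjF : ((⟨coeffMap A.subtype (jqModC A), hL⟩ : modularFunctionFieldBar N) :
      LaurentSeries (AlgebraicClosure ℚ)) = jqModC (AlgebraicClosure ℚ) :=
    coeffMap_jqModC A.subtype
  have hmodF := e7_modEq_field N ℓ Φ (hmod (AlgebraicClosure ℚ)) ⟨_, hL⟩ hjF
  exact e7_core (heckeAlphaBar _ N ℓ) (heckeBetaBar _ N ℓ) hα hβ A (IsLocalRing.residue A) r
    (coeffAutC N φ) ℓ ⟨_, hL⟩ ⟨_, hk⟩ hdeg (e7_jF_ne_const A N hL)
    (e7_jk_ne_const A (IsLocalRing.residue A) N hk) hcentre Φ hΦ hkron hmodF.1 hmodF.2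
    (e7_smul_jk A (IsLocalRing.residue A) N φ hk) hφ
    (integralPrincipalDivisors A (IsLocalRing.residue A) N)
    (fun D hD => e7_vanish N ℓ hℓ hℓN A hA r hr hK φ hφ hα hβ D hD) hiso P

end Main

end Fermat.Agent.H16

end
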