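import Fermat.Agent.H11.SS2.ModelDefs
import Fermat.Agent.H33.KLM.ModelRoot
import Fermat.Agent.H60.KLModelCusp
import Fermat.Agent.H2.KLBRAdapter
import Fermat.Agent.H31.SS.Separate

/-!
# P-SS2 row 1081 (SS2-C9d CUSP-ROOT), helper16

`modelCuspRoot N q : Fermat.Agent.H11.SS2.ModelCuspRootStatement N q` : the cusp `∞` of the
chart `j⁻¹` at level `N`.

* `crReg K` : the subring `K[[t]] ⊆ K((t))`; `crEv K` : the constant coefficient `K[[t]] → K`.
* `B(j⁻¹) ⊆ K₁[[t]]` (the `q`-order is a place, `Fermat.Agent.H60.modelCuspPlace`), the constant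
  coefficient maps `B(j⁻¹)` to `A₀` (integrality), `𝔪 = {s | s(0) ∈ 𝔪_{A₀}}`.
* a unit `ε` of `B_𝔪` with `ε ≡ 1` on a valuation through `𝔪` has `ε(0) ≡ 1 mod q`, and
  `ε(0)^(n-1) ε` is an `n`-th power in `K₁((t))` (`Fermat.Agent.H33.KLM.modelRoot`).
-/

set_option autoImplicit false
set_option linter.unusedSectionVars false
set_option linter.style.haveILetI false
set_option linter.unusedVariables false

noncomputable section

namespace Fermat.Agent.H16.SS2

open ModularCurve AlgebraicCurve Polynomial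
open Fermat.Agent.H22.KL
open Fermat.Agent.H11.SS2

/-! ### Regular Laurent series -/

section Reg

variable (K : Type*) [Field K]

/-- the subring `K[[t]] ⊆ K((t))` -/
def crReg : Subring (LaurentSeries K) := (HahnSeries.ofPowerSeries ℤ K).range

/-- the power series of the non-negative coefficients -/
def crPS (f : LaurentSeries K) : PowerSeries K := PowerSeries.mk fun n => f.coeff (n : ℤ)

theorem crPS_ofPowerSeries (F : PowerSeries K) : crPS K (HahnSeries.ofPowerSeries ℤ K F) = F := by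
  ext n
  rw [crPS, PowerSeries.coeff_mk, HahnSeries.ofPowerSeries_apply_coeff]

variable {K}

theorem cr_coeff_neg_of_mem {f : LaurentSeries K} (hf : f ∈ crReg K) {n : ℤ} (hn : n < 0) :
    f.coeff n = 0 := by
  obtain ⟨F, rfl⟩ := hf
  have := PowerSeries.coeff_coe (R := K) (f := F) n
  rw [if_pos hn] at this
  exact this

theorem cr_mem_of_coeff_neg {f : LaurentSeries K} (hf : ∀ n : ℤ, n < 0 → f.coeff n = 0) :
    f ∈ crReg K := by
  refine ⟨crPS K f, ?_⟩
  ext n
  have := PowerSeries.coeff_coe (R := K) (f := crPS K f) n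
  by_cases hn : n < 0
  · rw [if_pos hn] at this
    rw [hf n hn]
    exact this
  · rw [if_neg hn, crPS, PowerSeries.coeff_mk] at this
    have h0 : ((n.natAbs : ℕ) : ℤ) = n := by
      rw [Int.natCast_natAbs, abs_of_nonneg (not_lt.mp hn)]
    rw [h0] at this
    exact this

theorem cr_mem_iff (f : LaurentSeries K) : f ∈ crReg K ↔ ∀ n : ℤ, n < 0 → f.coeff n = 0 :=
  ⟨fun h _ hn => cr_coeff_neg_of_mem h hn, cr_mem_of_coeff_neg⟩

variable (K)

/-- `K[[t]] ≃ crReg K` -/
def crEquiv : PowerSeries K ≃+* crReg K :=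
  RingEquiv.ofLeftInverse (g := crPS K) (f := HahnSeries.ofPowerSeries ℤ K)
    (crPS_ofPowerSeries K)

/-- the constant coefficient of a regular Laurent series -/
def crEv : crReg K →+* K :=
  (PowerSeries.constantCoeff (R := K)).comp ((crEquiv K).symm : crReg K →+* PowerSeries K)

variable {K}

theorem crEv_apply (f : crReg K) : crEv K f = (f : LaurentSeries K).coeff 0 := by
  show PowerSeries.constantCoeff ((crEquiv K).symm f) = _
  have h1 : (crEquiv K).symm f = crPS K (f : LaurentSeries K) := rfl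
  rw [h1, ← PowerSeries.coeff_zero_eq_constantCoeff_apply, crPS, PowerSeries.coeff_mk]
  rfl

/-- a regular series with nonzero constant coefficient has a regular inverse -/
theorem cr_inv_mem {f : LaurentSeries K} (hf : f ∈ crReg K) (h0 : f.coeff 0 ≠ 0) :
    f⁻¹ ∈ crReg K := by
  obtain ⟨F, rfl⟩ := hf
  have hF : PowerSeries.constantCoeff F ≠ 0 := by
    rw [← PowerSeries.coeff_zero_eq_constantCoeff_apply]
    have := HahnSeries.ofPowerSeries_apply_coeff (Γ := ℤ) (R := K) F 0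
    rw [Nat.cast_zero] at this
    rw [← this]
    exact h0
  have hu : IsUnit F := PowerSeries.isUnit_iff_constantCoeff.2 (isUnit_iff_ne_zero.2 hF)
  obtain ⟨u, rfl⟩ := hu
  refine ⟨((u⁻¹ : (PowerSeries K)ˣ) : PowerSeries K), ?_⟩
  symm
  apply inv_eq_of_mul_eq_one_right
  rw [← map_mul, Units.mul_inv, map_one]

/-- a regular series with nonzero constant coefficient has order `0` -/
theorem cr_order_eq_zero {f : LaurentSeries K} (hf : f ∈ crReg K) (h0 : f.coeff 0 ≠ 0) :
    f.order = 0 := by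
  apply le_antisymm (HahnSeries.order_le_of_coeff_ne_zero h0)
  by_contra hlt
  rw [not_le] at hlt
  have hne : f ≠ 0 := by
    rintro rfl
    exact h0 HahnSeries.coeff_zero
  exact hne (HahnSeries.coeff_order_eq_zero.1 (cr_coeff_neg_of_mem hf hlt))

/-- constants are regular -/
theorem cr_algebraMap_eq_single (a : K) :
    algebraMap K (LaurentSeries K) a = HahnSeries.single 0 a := by
  have h1 : algebraMap K (PowerSeries K) a = PowerSeries.C a := by simp
  rw [HahnSeries.algebraMap_apply', h1, HahnSeries.ofPowerSeries_C]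
  rfl

theorem cr_algebraMap_mem (a : K) : algebraMap K (LaurentSeries K) a ∈ crReg K := by
  apply cr_mem_of_coeff_neg
  intro n hn
  rw [cr_algebraMap_eq_single, HahnSeries.coeff_single_of_ne (ne_of_lt hn)]

theorem cr_algebraMap_coeff_zero (a : K) : (algebraMap K (LaurentSeries K) a).coeff 0 = a := by
  rw [cr_algebraMap_eq_single, HahnSeries.coeff_single_same]

/-- a series of non-negative order is regular -/
theorem cr_mem_of_order_nonneg {f : LaurentSeries K} (hf : 0 ≤ f.order) : f ∈ crReg K := by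
  apply cr_mem_of_coeff_neg
  intro n hn
  exact HahnSeries.coeff_eq_zero_of_lt_order (lt_of_lt_of_le hn hf)

/-- a series of positive order has constant coefficient `0` -/
theorem cr_coeff_zero_of_order_pos {f : LaurentSeries K} (hf : 0 < f.order) : f.coeff 0 = 0 :=
  HahnSeries.coeff_eq_zero_of_lt_order hf

end Reg

/-! ### The cusp of the model -/

section Model

variable (K₁ : Type) [Field K₁] [Algebra ℚ K₁] (N : ℕ) [NeZero N]

/-- the expansion map `E → K₁((t))` -/
def crι : ModelField K₁ N →+* LaurentSeries K₁ :=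
  ((laurentBaseChange K₁ (modularFunctionFieldFull N)).val : _ →+* LaurentSeries K₁)

theorem crι_apply (f : ModelField K₁ N) : crι K₁ N f = (f : LaurentSeries K₁) := rfl

theorem crι_algebraMap (a : K₁) :
    crι K₁ N (algebraMap K₁ (ModelField K₁ N) a) = algebraMap K₁ (LaurentSeries K₁) a := rfl

/-- the functions regular at the cusp `∞` -/
def crV : Subring (ModelField K₁ N) := (crReg K₁).comap (crι K₁ N)

theorem mem_crV_iff (f : ModelField K₁ N) : f ∈ crV K₁ N ↔ (f : LaurentSeries K₁) ∈ crReg K₁ :=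
  Iff.rfl

/-- the value at the cusp `∞` -/
def crEvE : crV K₁ N →+* K₁ :=
  (crEv K₁).comp ((crι K₁ N).restrict (crV K₁ N) (crReg K₁) (fun _ hx => hx))

theorem crEvE_apply (f : crV K₁ N) :
    crEvE K₁ N f = ((f : ModelField K₁ N) : LaurentSeries K₁).coeff 0 := by
  show crEv K₁ _ = _
  rw [crEv_apply]
  rfl

variable {K₁ N}

section Chart

variable {A₀ : Type} [CommRing A₀] [IsDomain A₀] [IsDiscreteValuationRing A₀]
  [Algebra A₀ K₁] [IsFractionRing A₀ K₁]
  [Algebra A₀ (ModelField K₁ N)] [IsScalarTower A₀ K₁ (ModelField K₁ N)]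

theorem cr_coe_algebraMap (a : A₀) :
    ((algebraMap A₀ (ModelField K₁ N) a : ModelField K₁ N) : LaurentSeries K₁) =
      algebraMap K₁ (LaurentSeries K₁) (algebraMap A₀ K₁ a) := by
  rw [IsScalarTower.algebraMap_apply A₀ K₁ (ModelField K₁ N)]
  rfl

theorem cr_algebraMap_mem_crV (a : A₀) : algebraMap A₀ (ModelField K₁ N) a ∈ crV K₁ N := by
  rw [mem_crV_iff, cr_coe_algebraMap]
  exact cr_algebraMap_mem _

theorem cr_order_inv {x : ModelField K₁ N} (hx : (x : LaurentSeries K₁) = coeffEmb K₁ jq) :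
    ((x⁻¹ : ModelField K₁ N) : LaurentSeries K₁).order = 1 := by
  have h1 : ((x⁻¹ : ModelField K₁ N) : LaurentSeries K₁) = (x : LaurentSeries K₁)⁻¹ := rfl
  have hne : (x : LaurentSeries K₁) ≠ 0 := by
    rw [hx]
    intro h0
    have := Fermat.Agent.H60.klm_order_coeffEmb_jq K₁
    rw [h0, HahnSeries.order_zero] at this
    omega
  have h2 : (x : LaurentSeries K₁) * (x : LaurentSeries K₁)⁻¹ = 1 := mul_inv_cancel₀ hne
  have h3 := HahnSeries.order_mul hne (inv_ne_zero hne)
  rw [h2, HahnSeries.order_one, hx, Fermat.Agent.H60.klm_order_coeffEmb_jq K₁] at h3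
  rw [h1, hx]
  omega

theorem cr_inv_mem_crV {x : ModelField K₁ N} (hx : (x : LaurentSeries K₁) = coeffEmb K₁ jq) :
    x⁻¹ ∈ crV K₁ N := by
  rw [mem_crV_iff]
  apply cr_mem_of_order_nonneg
  rw [cr_order_inv hx]
  exact zero_le_one

/-- `B(j⁻¹) ⊆ K₁[[t]]` -/
theorem cr_mem_crV_of_mem_chartClosure {x : ModelField K₁ N}
    (hx : (x : LaurentSeries K₁) = coeffEmb K₁ jq) {s : ModelField K₁ N}
    (hs : s ∈ chartClosure A₀ (ModelField K₁ N) x⁻¹) : s ∈ crV K₁ N := by
  obtain ⟨P, hP⟩ := Fermat.Agent.H60.modelCuspPlace N K₁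
  have hx0 : x ≠ 0 := by
    rintro rfl
    have := cr_order_inv (K₁ := K₁) (N := N) (x := 0) hx
    rw [inv_zero] at this
    have h0 : ((0 : ModelField K₁ N) : LaurentSeries K₁) = 0 := rfl
    rw [h0, HahnSeries.order_zero] at this
    omega
  have hfin : IsFinitePlace A₀ (ModelField K₁ N) x⁻¹ P.toValuationSubring := by
    refine ⟨Fermat.Agent.H2.isPlace_of_place P, ?_⟩
    apply Fermat.Agent.H23.mem_of_ord_nonneg
    rw [hP _ (inv_ne_zero hx0), cr_order_inv hx]
    exact zero_le_one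
  have hsV : s ∈ P.toValuationSubring := Fermat.Agent.H31.SS.mem_of_mem_chartClosure hfin hs
  rw [mem_crV_iff]
  by_cases hs0 : s = 0
  · rw [hs0]
    exact (crReg K₁).zero_mem
  · apply cr_mem_of_order_nonneg
    rw [← hP s hs0]
    exact Fermat.Agent.H23.ord_nonneg_of_mem P hsV

/-- `A₀[j⁻¹] ⊆ K₁[[t]]` -/
theorem cr_aeval_mem_crV {x : ModelField K₁ N}
    (hx : (x : LaurentSeries K₁) = coeffEmb K₁ jq) (H : A₀[X]) :
    aeval (x⁻¹ : ModelField K₁ N) H ∈ crV K₁ N := by
  rw [aeval_eq_sum_range]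
  refine (crV K₁ N).sum_mem fun i _ => ?_
  rw [Algebra.smul_def]
  exact (crV K₁ N).mul_mem (cr_algebraMap_mem_crV _) ((crV K₁ N).pow_mem (cr_inv_mem_crV hx) i)

/-- the inclusion `B(j⁻¹) → K₁[[t]] ∩ E` -/
def crInc {x : ModelField K₁ N} (hx : (x : LaurentSeries K₁) = coeffEmb K₁ jq) :
    chartClosure A₀ (ModelField K₁ N) x⁻¹ →+* crV K₁ N :=
  ((chartClosure A₀ (ModelField K₁ N) x⁻¹).val : _ →+* ModelField K₁ N).codRestrict (crV K₁ N)
    (fun s => cr_mem_crV_of_mem_chartClosure hx s.2)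

/-- the value at the cusp on `B(j⁻¹)` -/
def crEvB {x : ModelField K₁ N} (hx : (x : LaurentSeries K₁) = coeffEmb K₁ jq) :
    chartClosure A₀ (ModelField K₁ N) x⁻¹ →+* K₁ :=
  (crEvE K₁ N).comp (crInc hx)

theorem crEvB_apply {x : ModelField K₁ N} (hx : (x : LaurentSeries K₁) = coeffEmb K₁ jq)
    (s : chartClosure A₀ (ModelField K₁ N) x⁻¹) :
    crEvB hx s = ((s : ModelField K₁ N) : LaurentSeries K₁).coeff 0 := by
  show crEvE K₁ N (crInc hx s) = _
  rw [crEvE_apply]
  rfl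

theorem crEvB_algebraMap {x : ModelField K₁ N} (hx : (x : LaurentSeries K₁) = coeffEmb K₁ jq)
    (a : A₀) :
    crEvB hx (algebraMap A₀ (chartClosure A₀ (ModelField K₁ N) x⁻¹) a) = algebraMap A₀ K₁ a := by
  rw [crEvB_apply]
  have h1 : ((algebraMap A₀ (chartClosure A₀ (ModelField K₁ N) x⁻¹) a :
      chartClosure A₀ (ModelField K₁ N) x⁻¹) : ModelField K₁ N) =
      algebraMap A₀ (ModelField K₁ N) a := rfl
  rw [h1, cr_coe_algebraMap, cr_algebraMap_coeff_zero]

theorem crEvB_chart {x : ModelField K₁ N} (hx : (x : LaurentSeries K₁) = coeffEmb K₁ jq)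
    (s : chartClosure A₀ (ModelField K₁ N) x⁻¹) (hs : (s : ModelField K₁ N) = x⁻¹) :
    crEvB hx s = 0 := by
  rw [crEvB_apply, hs]
  apply cr_coeff_zero_of_order_pos
  rw [cr_order_inv hx]
  exact zero_lt_one

/-- the value at the cusp of a function of `B(j⁻¹)` lies in `A₀` -/
theorem crEvB_mem_range {x : ModelField K₁ N} (hx : (x : LaurentSeries K₁) = coeffEmb K₁ jq)
    (s : chartClosure A₀ (ModelField K₁ N) x⁻¹) :
    crEvB hx s ∈ (algebraMap A₀ K₁).range := by
  have hs := (Fermat.Agent.H87.KL.mem_chartClosure_iff (A := A₀) x⁻¹ (s : ModelField K₁ N)).1 s.2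
  obtain ⟨p, hp, hps⟩ := hs
  let g : A₀[X] →+* crV K₁ N :=
    (Fermat.Agent.H87.KL.evX (A := A₀) (x⁻¹ : ModelField K₁ N)).codRestrict (crV K₁ N)
      (fun H => cr_aeval_mem_crV hx H)
  have hg : (crV K₁ N).subtype.comp g =
      Fermat.Agent.H87.KL.evX (A := A₀) (x⁻¹ : ModelField K₁ N) := by
    ext <;> rfl
  have h1 : eval₂ g (crInc hx s) p = 0 := by
    apply (crV K₁ N).subtype_injective
    rw [map_zero, Polynomial.hom_eval₂, hg]
    exact hps
  have h2 : eval₂ ((crEvE K₁ N).comp g) (crEvB hx s) p = 0 := by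
    have := congrArg (crEvE K₁ N) h1
    rw [map_zero, Polynomial.hom_eval₂] at this
    exact this
  have hψ : (crEvE K₁ N).comp g = (algebraMap A₀ K₁).comp (Polynomial.evalRingHom (0 : A₀)) := by
    apply Polynomial.ringHom_ext
    · intro a
      show crEvE K₁ N (g (C a)) = algebraMap A₀ K₁ (eval 0 (C a))
      rw [crEvE_apply, eval_C]
      have h3 : ((g (C a) : crV K₁ N) : ModelField K₁ N) = algebraMap A₀ (ModelField K₁ N) a := by
        show aeval (x⁻¹ : ModelField K₁ N) (C a) = _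
        rw [aeval_C]
      rw [h3, cr_coe_algebraMap, cr_algebraMap_coeff_zero]
    · show crEvE K₁ N (g X) = algebraMap A₀ K₁ (eval 0 X)
      rw [crEvE_apply, eval_X, map_zero]
      have h3 : ((g X : crV K₁ N) : ModelField K₁ N) = x⁻¹ := by
        show aeval (x⁻¹ : ModelField K₁ N) (X : A₀[X]) = _
        rw [aeval_X]
      rw [h3]
      apply cr_coeff_zero_of_order_pos
      rw [cr_order_inv hx]
      exact zero_lt_one
  rw [hψ, ← Polynomial.eval₂_map] at h2
  have hint : IsIntegral A₀ (crEvB hx s) :=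
    ⟨p.map (Polynomial.evalRingHom (0 : A₀)), hp.map _, h2⟩
  obtain ⟨a, ha⟩ := (IsIntegrallyClosed.isIntegral_iff (R := A₀) (K := K₁)).1 hint
  exact ⟨a, ha⟩

/-- `A₀ ≃ algebraMap A₀ K₁ (A₀)` -/
def crRangeEquiv (A₀ K₁ : Type) [CommRing A₀] [Field K₁] [Algebra A₀ K₁] [IsFractionRing A₀ K₁] :
    A₀ ≃+* (algebraMap A₀ K₁).range :=
  RingEquiv.ofBijective (algebraMap A₀ K₁).rangeRestrict
    ⟨fun a b h => IsFractionRing.injective A₀ K₁ (congrArg Subtype.val h),
      (algebraMap A₀ K₁).rangeRestrict_surjective⟩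

/-- the value at the cusp, `B(j⁻¹) → A₀` -/
def crRho {x : ModelField K₁ N} (hx : (x : LaurentSeries K₁) = coeffEmb K₁ jq) :
    chartClosure A₀ (ModelField K₁ N) x⁻¹ →+* A₀ :=
  ((crRangeEquiv A₀ K₁).symm : (algebraMap A₀ K₁).range →+* A₀).comp
    ((crEvB hx).codRestrict (algebraMap A₀ K₁).range (crEvB_mem_range hx))

theorem algebraMap_crRho {x : ModelField K₁ N} (hx : (x : LaurentSeries K₁) = coeffEmb K₁ jq)
    (s : chartClosure A₀ (ModelField K₁ N) x⁻¹) :
    algebraMap A₀ K₁ (crRho hx s) = crEvB hx s := by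
  have h1 := (crRangeEquiv A₀ K₁).apply_symm_apply
    ((crEvB hx).codRestrict (algebraMap A₀ K₁).range (crEvB_mem_range hx) s)
  exact congrArg Subtype.val h1

theorem crRho_algebraMap {x : ModelField K₁ N} (hx : (x : LaurentSeries K₁) = coeffEmb K₁ jq)
    (a : A₀) : crRho hx (algebraMap A₀ (chartClosure A₀ (ModelField K₁ N) x⁻¹) a) = a := by
  apply IsFractionRing.injective A₀ K₁
  rw [algebraMap_crRho, crEvB_algebraMap]

theorem crRho_surjective {x : ModelField K₁ N} (hx : (x : LaurentSeries K₁) = coeffEmb K₁ jq) :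
    Function.Surjective (crRho (A₀ := A₀) hx) :=
  fun a => ⟨_, crRho_algebraMap hx a⟩

theorem crRho_chart {x : ModelField K₁ N} (hx : (x : LaurentSeries K₁) = coeffEmb K₁ jq)
    (s : chartClosure A₀ (ModelField K₁ N) x⁻¹) (hs : (s : ModelField K₁ N) = x⁻¹) :
    crRho hx s = 0 := by
  apply IsFractionRing.injective A₀ K₁
  rw [algebraMap_crRho, crEvB_chart hx s hs, map_zero]

/-- the maximal ideal of the cusp `∞` in characteristic `q` -/
def crMax {x : ModelField K₁ N} (hx : (x : LaurentSeries K₁) = coeffEmb K₁ jq) :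
    Ideal (chartClosure A₀ (ModelField K₁ N) x⁻¹) :=
  Ideal.comap (crRho (A₀ := A₀) hx) (IsLocalRing.maximalIdeal A₀)

theorem mem_crMax_iff {x : ModelField K₁ N} (hx : (x : LaurentSeries K₁) = coeffEmb K₁ jq)
    (s : chartClosure A₀ (ModelField K₁ N) x⁻¹) :
    s ∈ crMax hx ↔ crRho hx s ∈ IsLocalRing.maximalIdeal A₀ := Iff.rfl

theorem crMax_isMaximal {x : ModelField K₁ N} (hx : (x : LaurentSeries K₁) = coeffEmb K₁ jq) :
    (crMax (A₀ := A₀) hx).IsMaximal :=
  Ideal.comap_isMaximal_of_surjective _ (crRho_surjective hx)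

/-- the main step -/
theorem cr_main {x : ModelField K₁ N} (hx : (x : LaurentSeries K₁) = coeffEmb K₁ jq)
    {ϖ : A₀} (hϖ : Irreducible ϖ) (V : ValuationSubring (ModelField K₁ N))
    (hBV : ∀ z ∈ chartClosure A₀ (ModelField K₁ N) x⁻¹, z ∈ V)
    (hthru : Through A₀ (ModelField K₁ N) x⁻¹ (crMax hx) V) (n : ℕ) (hn : 0 < n)
    (ε : ModelField K₁ N) (hε : IsLocUnit A₀ (ModelField K₁ N) x⁻¹ (crMax hx) ε)
    (hε1 : ε - 1 ∈ V.nonunits) :
    ∃ c d : A₀, c = 1 + ϖ * d ∧ ∃ ω : LaurentSeries K₁,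
      ω ^ n = algebraMap K₁ (LaurentSeries K₁) (algebraMap A₀ K₁ c) * (ε : LaurentSeries K₁) := by
  obtain ⟨hε0, ⟨b, hb, hbε⟩, -⟩ := hε
  set e : chartClosure A₀ (ModelField K₁ N) x⁻¹ := ⟨(b : ModelField K₁ N) * ε, hbε⟩ with he
  have hbu : IsUnit (crRho hx b) := by
    by_contra h
    exact hb ((mem_crMax_iff hx b).2 ((IsLocalRing.mem_maximalIdeal _).2 h))
  have hdiff : ((e - b : chartClosure A₀ (ModelField K₁ N) x⁻¹) : ModelField K₁ N) ∈
      V.nonunits := by
    have h1 : ((e - b : chartClosure A₀ (ModelField K₁ N) x⁻¹) : ModelField K₁ N) =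
        (b : ModelField K₁ N) * (ε - 1) := by
      show (b : ModelField K₁ N) * ε - (b : ModelField K₁ N) = _
      ring
    rw [h1]
    exact Fermat.Agent.H31.SS.mul_mem_nonunits (hBV _ b.2) hε1
  have hmem : e - b ∈ crMax hx := hthru _ hdiff
  rw [mem_crMax_iff, map_sub, hϖ.maximalIdeal_eq, Ideal.mem_span_singleton] at hmem
  obtain ⟨d', hd'⟩ := hmem
  obtain ⟨ub, hub⟩ := hbu
  set d₀ : A₀ := d' * ((ub⁻¹ : A₀ˣ) : A₀) with hd₀
  set c₀ : A₀ := 1 + ϖ * d₀ with hc₀
  have hρe : crRho hx e = crRho hx b * c₀ := by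
    have h1 : (ub : A₀) * ((ub⁻¹ : A₀ˣ) : A₀) = 1 := Units.mul_inv ub
    rw [← hub] at hd' ⊢
    rw [hc₀, hd₀]
    linear_combination hd' - ϖ * d' * h1
  have hc₀0 : c₀ ≠ 0 := by
    intro h0
    have h1 : (1 : A₀) ∈ IsLocalRing.maximalIdeal A₀ := by
      rw [hϖ.maximalIdeal_eq, Ideal.mem_span_singleton]
      exact ⟨-d₀, by rw [hc₀] at h0; linear_combination h0⟩
    exact (Ideal.ne_top_iff_one _).1 (IsLocalRing.maximalIdeal.isMaximal A₀).ne_top h1
  set γ : K₁ := algebraMap A₀ K₁ c₀ with hγ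
  have hγ0 : γ ≠ 0 := by
    intro h0
    apply hc₀0
    apply IsFractionRing.injective A₀ K₁
    rw [map_zero]
    exact h0
  -- the expansions
  have hbS : ((b : ModelField K₁ N) : LaurentSeries K₁) ∈ crReg K₁ :=
    cr_mem_crV_of_mem_chartClosure hx b.2
  have heS : ((e : ModelField K₁ N) : LaurentSeries K₁) ∈ crReg K₁ :=
    cr_mem_crV_of_mem_chartClosure hx e.2
  have hb0 : ((b : ModelField K₁ N) : LaurentSeries K₁).coeff 0 =
      algebraMap A₀ K₁ (crRho hx b) := by
    rw [algebraMap_crRho, crEvB_apply]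
  have he0 : ((e : ModelField K₁ N) : LaurentSeries K₁).coeff 0 =
      algebraMap A₀ K₁ (crRho hx b) * γ := by
    rw [hγ, ← map_mul, ← hρe, algebraMap_crRho, crEvB_apply]
  have hbne : algebraMap A₀ K₁ (crRho hx b) ≠ 0 := by
    intro h0
    have h1 : crRho hx b = 0 := by
      apply IsFractionRing.injective A₀ K₁
      rw [map_zero]
      exact h0
    rw [← hub] at h1
    exact ub.ne_zero h1
  have hbne' : ((b : ModelField K₁ N) : LaurentSeries K₁) ≠ 0 := by
    intro h0
    rw [h0, HahnSeries.coeff_zero] at hb0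
    exact hbne hb0.symm
  have hmul : ((b : ModelField K₁ N) : LaurentSeries K₁) * (ε : LaurentSeries K₁) =
      ((e : ModelField K₁ N) : LaurentSeries K₁) := rfl
  have hεS : (ε : LaurentSeries K₁) ∈ crReg K₁ := by
    have h1 : (ε : LaurentSeries K₁) = ((b : ModelField K₁ N) : LaurentSeries K₁)⁻¹ *
        ((e : ModelField K₁ N) : LaurentSeries K₁) := by
      rw [← hmul, inv_mul_cancel_left₀ hbne']
    rw [h1]
    exact (crReg K₁).mul_mem (cr_inv_mem hbS (by rw [hb0]; exact hbne)) heS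
  have hε0' : (ε : LaurentSeries K₁).coeff 0 = γ := by
    have h := congrArg (crEv K₁)
      (show (⟨_, hbS⟩ : crReg K₁) * ⟨_, hεS⟩ = ⟨_, heS⟩ from Subtype.ext hmul)
    rw [map_mul, crEv_apply, crEv_apply, crEv_apply] at h
    simp only at h
    rw [hb0, he0] at h
    exact mul_left_cancel₀ hbne h
  -- the constant
  obtain ⟨d, hd⟩ : ∃ d : A₀, c₀ ^ (n - 1) = 1 + ϖ * d := by
    have h1 : c₀ - 1 ∣ c₀ ^ (n - 1) - 1 ^ (n - 1) := sub_dvd_pow_sub_pow c₀ 1 (n - 1)
    rw [one_pow] at h1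
    obtain ⟨k, hk⟩ := h1
    refine ⟨d₀ * k, ?_⟩
    have h2 : c₀ - 1 = ϖ * d₀ := by rw [hc₀]; ring
    rw [h2] at hk
    linear_combination hk
  refine ⟨c₀ ^ (n - 1), d, hd, ?_⟩
  set u : LaurentSeries K₁ :=
    algebraMap K₁ (LaurentSeries K₁) (algebraMap A₀ K₁ (c₀ ^ (n - 1))) * (ε : LaurentSeries K₁)
    with hu
  have hcS : algebraMap K₁ (LaurentSeries K₁) (algebraMap A₀ K₁ (c₀ ^ (n - 1))) ∈ crReg K₁ :=
    cr_algebraMap_mem _
  have huS : u ∈ crReg K₁ := (crReg K₁).mul_mem hcS hεS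
  have hu0 : u.coeff 0 = γ ^ n := by
    have h := congrArg (crEv K₁)
      (show (⟨_, hcS⟩ : crReg K₁) * ⟨_, hεS⟩ = ⟨u, huS⟩ from Subtype.ext rfl)
    rw [map_mul, crEv_apply, crEv_apply, crEv_apply] at h
    simp only at h
    rw [← h, cr_algebraMap_coeff_zero, hε0', map_pow, ← hγ, ← pow_succ]
    congr 1
    omega
  have hune : u.coeff 0 ≠ 0 := by
    rw [hu0]
    exact pow_ne_zero n hγ0
  have hord : u.order = 0 := cr_order_eq_zero huS hune
  have hune' : u ≠ 0 := by
    intro h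
    rw [h, HahnSeries.coeff_zero] at hune
    exact hune rfl
  haveI : CharZero K₁ := algebraRat.charZero K₁
  refine Fermat.Agent.H33.KLM.modelRoot K₁ n hn u hune' ?_ ⟨γ, ?_⟩
  · rw [hord]
    exact dvd_zero _
  · rw [HahnSeries.leadingCoeff_eq, hord, hu0]

end Chart

end Model

/-- **CUSP-ROOT** (row SS2-C9d). -/
theorem modelCuspRoot (N q : ℕ) [NeZero N] : ModelCuspRootStatement N q := by
  intro K₁ _ _ _ A₀ _ _ _ _ _ _ _ hq x hx
  refine ⟨crMax hx, crMax_isMaximal hx, ?_, ?_, ?_⟩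
  · rw [mem_crMax_iff, crRho_algebraMap, IsLocalRing.mem_maximalIdeal]
    exact hq.not_isUnit
  · intro s hs
    rw [mem_crMax_iff, crRho_chart hx s hs]
    exact Ideal.zero_mem _
  · intro V hBV hthru n hn ε hε hε1
    exact cr_main hx hq V hBV hthru n hn ε hε hε1

end Fermat.Agent.H16.SS2
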