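import Fermat.Agent.H16.SS2ThetaUnitDefs
import Fermat.Agent.H26.SS.DerivRegular
import Fermat.Agent.H48.SS.HauptBasics
import Fermat.Agent.H31.SS.DiffAlg
import Fermat.Agent.H31.SS.KappaSeries
import Fermat.Agent.H31.SS.Separate
import Fermat.Agent.H4.SS.Hartogs
import Fermat.Agent.H70.SS.AsmJ
import Fermat.Agent.H45.SS.LocalGen

/-!
# P-SS2 row 1047 (SS2-C5d THETA-UNIT): proof (helper16)

`Θ = (ϑ H)(t^q) / ϑ H` in the model field of level `M q` (`4 ∣ M`, `q` odd, `q ∤ M`).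

* `tu_isUnit_kappaZ` : the series `κ = (ϑ h)(t^q) / ϑ h ∈ ℤ((t))` is a unit of `ℤ((t))`.
* `thetaExists` : `Θ` lies in the model field (algebraic derivative `d H_q / d H`).
* `thetaPlaces` : `Θ ≠ 0`, `W(Θ) q² Θ = 1`, and `Θ`, `Θ⁻¹` are regular at every finite place of
  the chart `j`.
* `thetaGauss` : `Θ` is a unit of `V₁₀ = vInf` and `Θ⁻¹ ∈ V₀₁ = vZero W`.
* `thetaUnit` : **THETA-UNIT**, `Θ` is a unit of `B(j)_𝔪` at every maximal ideal `𝔪 ∋ ϖ`
  through which `V₀₁` does not pass.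
-/

set_option autoImplicit false
set_option linter.unusedSectionVars false
set_option linter.style.haveILetI false
set_option linter.unusedVariables false

noncomputable section

namespace Fermat.Agent.H16.SS2

open ModularCurve Polynomial
open Fermat.Agent.H22.KL
open Fermat.Agent.H82.SS
open Fermat.Agent.H8.SS
open Fermat.Agent.H7.SS
open Fermat.Agent.H7.SS2
open Fermat.Agent.H11.SS2
open Fermat.Agent.H31.SS

/-! ### Series -/

section Series

theorem tu_isHaupt_h4Z : IsHauptSeries h4Z where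
  coeff_lt := fun n hn => by
    rw [← h4S_int]
    exact h4S_coeff_of_lt ℤ hn
  coeff_neg_one := by
    rw [← h4S_int]
    exact h4S_coeff_neg_one ℤ

theorem tu_isUnit_kappaZ (q : ℕ) [hq : Fact q.Prime] {h : LaurentSeries ℤ}
    (hh : IsHauptSeries h) : IsUnit (kappaZ q h) := by
  have h1 := kappaZ_mul q hh
  have h2 : IsUnit (qExpand ℤ q (theta h)) := hh.isUnit_theta.map (qExpand ℤ q)
  rw [← h1] at h2
  exact isUnit_of_mul_isUnit_left h2

theorem tu_coeffMap_qExpand {R S : Type*} [CommRing R] [CommRing S] (f : R →+* S) (n : ℕ)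
    [NeZero n] (x : LaurentSeries R) :
    coeffMap f (qExpand R n x) = qExpand S n (coeffMap f x) := by
  ext k
  rw [coeffMap_coeff]
  by_cases hk : (n : ℤ) ∣ k
  · obtain ⟨m, rfl⟩ := hk
    rw [qExpand_coeff_mul, qExpand_coeff_mul, coeffMap_coeff]
  · rw [qExpand_coeff_of_not_dvd n _ hk, qExpand_coeff_of_not_dvd n _ hk, map_zero]

/-- `κ ϑ(H) = (ϑ H)(t^q)` over any ring. -/
theorem tu_kappa_mul (q : ℕ) [hq : Fact q.Prime] (k : Type*) [CommRing k] :
    coeffMap (Int.castRingHom k) (kappaZ q h4Z) * theta (h4S k) = qExpand k q (theta (h4S k)) := by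
  have h1 := congrArg (coeffMap (Int.castRingHom k)) (kappaZ_mul q tu_isHaupt_h4Z)
  rw [map_mul, tu_coeffMap_qExpand, coeffMap_theta] at h1
  exact h1

end Series

/-! ### The twisted differential embedding -/

section Twist

variable (K₁ : Type) [Field K₁] (E : IntermediateField K₁ (LaurentSeries K₁))

/-- The differential embedding `E → K₁((t))`, `ϑ = t d/dt`, twisted by an automorphism. -/
def tuDiffEmb (σ : E ≃ₐ[K₁] E) : DiffEmb K₁ E (LaurentSeries K₁) where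
  ι := (algebraMap E (LaurentSeries K₁)).comp (σ : E →+* E)
  d := fun y => theta y
  d_add := fun a b => map_add theta a b
  d_mul := fun a b => by rw [theta_mul]; ring
  d_const := fun c => by
    show theta (algebraMap E (LaurentSeries K₁) (σ (algebraMap K₁ E c))) = 0
    rw [σ.commutes, ← IsScalarTower.algebraMap_apply]
    exact Fermat.Agent.H26.SS.derb_theta_algebraMap c

variable {K₁ E}

/-- Naturality of the algebraic derivative with respect to an automorphism. -/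
theorem tu_twist [CharZero K₁] (σ : E ≃ₐ[K₁] E) (H f u : E)
    (hH : theta (H : LaurentSeries K₁) ≠ 0)
    (halg : ∀ g : E, IsAlgebraic (IntermediateField.adjoin K₁ {H}) g)
    (h : theta (f : LaurentSeries K₁) = (u : LaurentSeries K₁) * theta (H : LaurentSeries K₁)) :
    theta ((σ f : E) : LaurentSeries K₁) =
      ((σ u : E) : LaurentSeries K₁) * theta ((σ H : E) : LaurentSeries K₁) :=
  DiffEmb.deriv_natural (D₁ := tuDiffEmb K₁ E AlgEquiv.refl) (D₂ := tuDiffEmb K₁ E σ) H hH halg h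

/-- Existence of the algebraic derivative. -/
theorem tu_exists_deriv [CharZero K₁] (H f : E)
    (halg : ∀ g : E, IsAlgebraic (IntermediateField.adjoin K₁ {H}) g) :
    ∃ u : E, theta (f : LaurentSeries K₁) =
      (u : LaurentSeries K₁) * theta (H : LaurentSeries K₁) :=
  DiffEmb.exists_deriv (D := tuDiffEmb K₁ E AlgEquiv.refl) H halg f

end Twist

/-! ### The model field -/

section Model

variable (M q : ℕ) [NeZero M] [NeZero q]

/-- the model field of level `N` is algebraic over `K₁(H)` -/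
theorem tu_halg (N : ℕ) [NeZero N] (K₁ : Type) [Field K₁] [Algebra ℚ K₁]
    (H : ModelField K₁ N) (hH : (H : LaurentSeries K₁) = h4S K₁) :
    ∀ g : ModelField K₁ N, IsAlgebraic (IntermediateField.adjoin K₁ {H}) g := by
  have hfin : FiniteDimensional (IntermediateField.adjoin K₁ {Fermat.Agent.H54.jElt K₁ N})
      (ModelField K₁ N) := Fermat.Agent.H54.finiteDimensional_adjoin_jElt K₁ N
  have h1 := Fermat.Agent.H69.isAlgebraic_adjoin_simple_of_transcendental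
    (Fermat.Agent.H54.jElt K₁ N) hfin H (Fermat.Agent.H26.SS.derb_transcendental_H N K₁ H hH)
  exact fun g => h1.isAlgebraic g

theorem tu_qExpand_theta_ne_zero (K₁ : Type) [Field K₁] :
    qExpand K₁ q (theta (h4S K₁)) ≠ 0 := by
  rw [Ne, map_eq_zero]
  exact Fermat.Agent.H26.SS.derb_theta_h4S_ne_zero K₁

/-- **THETA-EXISTS**. -/
theorem thetaExists (h4 : 4 ∣ M) : ThetaExistsStatement M q := by
  intro K₁ _ _ _
  haveI : CharZero K₁ := algebraRat.charZero K₁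
  set HM : ModelField K₁ M := ⟨h4S K₁, h4S_mem_laurentBaseChange K₁ M h4⟩ with hHM
  set H : ModelField K₁ (M * q) := heckeAlphaBar K₁ M q HM with hH
  set Hq : ModelField K₁ (M * q) := heckeBetaBar K₁ M q HM with hHq
  have hHs : (H : LaurentSeries K₁) = h4S K₁ := by rw [hH, coe_heckeAlphaBar]
  have hHqs : (Hq : LaurentSeries K₁) = qExpand K₁ q (h4S K₁) := by rw [hHq, coe_heckeBetaBar]
  obtain ⟨u, hu⟩ := tu_exists_deriv H Hq (tu_halg (M * q) K₁ H hHs)
  rw [hHs, hHqs, theta_qExpand, nsmul_eq_mul] at hu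
  haveI : CharZero (LaurentSeries K₁) :=
    charZero_of_injective_algebraMap (algebraMap K₁ (LaurentSeries K₁)).injective
  have hq0 : ((q : ℕ) : LaurentSeries K₁) ≠ 0 := by
    rw [Nat.cast_ne_zero]
    exact NeZero.ne q
  refine ⟨u / (q : ModelField K₁ (M * q)), ?_⟩
  have e1 : ((u / (q : ModelField K₁ (M * q)) : ModelField K₁ (M * q)) : LaurentSeries K₁) =
      (u : LaurentSeries K₁) / ((q : ℕ) : LaurentSeries K₁) := by
    show algebraMap (ModelField K₁ (M * q)) (LaurentSeries K₁) (u / (q : ModelField K₁ (M * q)))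
      = _
    rw [map_div₀, map_natCast]
    rfl
  rw [e1, div_mul_eq_mul_div, ← hu, mul_div_cancel_left₀ _ hq0]

/-- `Θ ≠ 0`. -/
theorem tu_theta_ne_zero (K₁ : Type) [Field K₁] [Algebra ℚ K₁] (N : ℕ)
    (Θ : ModelField K₁ N)
    (hΘ : (Θ : LaurentSeries K₁) * theta (h4S K₁) = qExpand K₁ q (theta (h4S K₁))) : Θ ≠ 0 := by
  rintro rfl
  apply tu_qExpand_theta_ne_zero q K₁
  rw [← hΘ]
  show (algebraMap (ModelField K₁ N) (LaurentSeries K₁) 0) * _ = 0
  rw [map_zero, zero_mul]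

/-- `W(Θ) q² Θ = 1`. -/
theorem tu_W_theta (h4 : 4 ∣ M) (hq : q.Prime) (hq2 : q ≠ 2) (hqM : ¬ q ∣ M)
    (K₁ : Type) [Field K₁] [Algebra ℚ K₁] [FiniteDimensional ℚ K₁]
    (H Hq : ModelField K₁ (M * q)) (hH : (H : LaurentSeries K₁) = h4S K₁)
    (hHq : (Hq : LaurentSeries K₁) = qExpand K₁ q (h4S K₁))
    (W : ModelField K₁ (M * q) ≃ₐ[K₁] ModelField K₁ (M * q))
    (hWH : W H = Hq) (hWHq : W Hq = H)
    (Θ : ModelField K₁ (M * q))
    (hΘ : (Θ : LaurentSeries K₁) * theta (h4S K₁) = qExpand K₁ q (theta (h4S K₁))) :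
    W Θ * ((q : ModelField K₁ (M * q)) ^ 2 * Θ) = 1 := by
  haveI : CharZero K₁ := algebraRat.charZero K₁
  have hθH : theta (h4S K₁) ≠ 0 := Fermat.Agent.H26.SS.derb_theta_h4S_ne_zero K₁
  have hcoe : (((q : ModelField K₁ (M * q)) * Θ : ModelField K₁ (M * q)) : LaurentSeries K₁) =
      ((q : ℕ) : LaurentSeries K₁) * (Θ : LaurentSeries K₁) := by
    show algebraMap (ModelField K₁ (M * q)) (LaurentSeries K₁) ((q : ModelField K₁ (M * q)) * Θ)
      = _
    rw [map_mul, map_natCast]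
    rfl
  have hser : theta (Hq : LaurentSeries K₁) =
      (((q : ModelField K₁ (M * q)) * Θ : ModelField K₁ (M * q)) : LaurentSeries K₁) *
        theta (H : LaurentSeries K₁) := by
    rw [hH, hHq, theta_qExpand, nsmul_eq_mul, hcoe, mul_assoc, hΘ]
  have h1 := tu_twist W H Hq ((q : ModelField K₁ (M * q)) * Θ) (by rw [hH]; exact hθH)
    (tu_halg (M * q) K₁ H hH) hser
  rw [hWH, hWHq, hser] at h1
  have h2 : ((W ((q : ModelField K₁ (M * q)) * Θ) * ((q : ModelField K₁ (M * q)) * Θ) :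
      ModelField K₁ (M * q)) : LaurentSeries K₁) = 1 := by
    have h3 : ((W ((q : ModelField K₁ (M * q)) * Θ) * ((q : ModelField K₁ (M * q)) * Θ) :
        ModelField K₁ (M * q)) : LaurentSeries K₁) =
        ((W ((q : ModelField K₁ (M * q)) * Θ) : ModelField K₁ (M * q)) : LaurentSeries K₁) *
          (((q : ModelField K₁ (M * q)) * Θ : ModelField K₁ (M * q)) : LaurentSeries K₁) := rfl
    rw [h3]
    have hθH' : theta (H : LaurentSeries K₁) ≠ 0 := by rw [hH]; exact hθH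
    apply mul_right_cancel₀ hθH'
    rw [one_mul, mul_assoc]
    exact h1.symm
  have h4' : W ((q : ModelField K₁ (M * q)) * Θ) * ((q : ModelField K₁ (M * q)) * Θ) = 1 :=
    Subtype.ext h2
  rw [map_mul, map_natCast] at h4'
  rw [← h4']
  ring

/-- **THETA-PLACES**. -/
theorem thetaPlaces (h4 : 4 ∣ M) (hq : q.Prime) (hq2 : q ≠ 2) (hqM : ¬ q ∣ M) :
    ThetaPlacesStatement M q := by
  intro K₁ _ _ _ A₀ _ _ _ _ _ _ _ hqA x hx W hW Θ hΘ
  haveI : CharZero K₁ := algebraRat.charZero K₁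
  obtain ⟨hWB, H, Hq, u, uq, hH, hHq, hHB, hHqB, -, -, -, -, hWH, hWHq⟩ :=
    Fermat.Agent.H48.SSHaupt.modelHauptBasics M q h4 hq hq2 hqM K₁ A₀ hqA x hx W hW
  have hΘ0 : Θ ≠ 0 := tu_theta_ne_zero q K₁ (M * q) Θ hΘ
  have hWΘ := tu_W_theta M q h4 hq hq2 hqM K₁ H Hq hH hHq W hWH hWHq Θ hΘ
  have hinj : Function.Injective (algebraMap A₀ (ModelField K₁ (M * q))) := by
    rw [IsScalarTower.algebraMap_eq A₀ K₁ (ModelField K₁ (M * q))]
    exact (algebraMap K₁ (ModelField K₁ (M * q))).injective.comp (IsFractionRing.injective A₀ K₁)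
  have hqA0 : ((q : ℕ) : A₀) ≠ 0 := by
    intro h0
    have h1 := congrArg (algebraMap A₀ K₁) h0
    rw [map_natCast, map_zero, Nat.cast_eq_zero] at h1
    exact NeZero.ne q h1
  have hcoe : (((q : ModelField K₁ (M * q)) * Θ : ModelField K₁ (M * q)) : LaurentSeries K₁) =
      ((q : ℕ) : LaurentSeries K₁) * (Θ : LaurentSeries K₁) := by
    show algebraMap (ModelField K₁ (M * q)) (LaurentSeries K₁) ((q : ModelField K₁ (M * q)) * Θ)
      = _
    rw [map_mul, map_natCast]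
    rfl
  have hser : (((q : ModelField K₁ (M * q)) * Θ : ModelField K₁ (M * q)) : LaurentSeries K₁) *
        theta (H : LaurentSeries K₁) = theta (Hq : LaurentSeries K₁) := by
    rw [hH, hHq, theta_qExpand, nsmul_eq_mul, hcoe, mul_assoc, hΘ]
  have h4' : 4 ∣ M * q := Dvd.dvd.mul_right h4 q
  -- (a1)
  have ha1 : ∀ V : ValuationSubring (ModelField K₁ (M * q)),
      IsFinitePlace A₀ (ModelField K₁ (M * q)) x V → Θ ∈ V := by
    intro V hV
    have h1 : (q : ModelField K₁ (M * q)) * Θ ∈ V :=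
      Fermat.Agent.H26.SS.modelDerivRegular (M * q) h4' K₁ A₀ x H Hq
        ((q : ModelField K₁ (M * q)) * Θ) hx hH hser V hV (mem_of_mem_chartClosure hV hHqB)
    have h2 : ((q : ModelField K₁ (M * q)))⁻¹ ∈ V := by
      have := (hV.1.2.2 ((q : ℕ) : A₀) hqA0).2
      rwa [map_natCast] at this
    have hq0 : (q : ModelField K₁ (M * q)) ≠ 0 := by
      rw [Nat.cast_ne_zero]
      exact NeZero.ne q
    have h3 : Θ = ((q : ModelField K₁ (M * q)))⁻¹ * ((q : ModelField K₁ (M * q)) * Θ) := by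
      rw [← mul_assoc, inv_mul_cancel₀ hq0, one_mul]
    rw [h3]
    exact V.mul_mem _ _ h2 h1
  refine ⟨hΘ0, hWΘ, fun V hV => ⟨ha1 V hV, ?_⟩⟩
  -- (a2)
  have hσA : ∀ a : A₀, ∃ b : A₀, (W.toRingEquiv) (algebraMap A₀ (ModelField K₁ (M * q)) a) =
      algebraMap A₀ (ModelField K₁ (M * q)) b := by
    intro a
    refine ⟨a, ?_⟩
    show W (algebraMap A₀ (ModelField K₁ (M * q)) a) = _
    rw [IsScalarTower.algebraMap_apply A₀ K₁ (ModelField K₁ (M * q)), W.commutes]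
  have hV' : IsFinitePlace A₀ (ModelField K₁ (M * q)) x
      (V.comap ((W.toRingEquiv : ModelField K₁ (M * q) ≃+* ModelField K₁ (M * q)) :
        ModelField K₁ (M * q) →+* ModelField K₁ (M * q))) := by
    refine ⟨Fermat.Agent.H45.ss_isPlace_comap hinj W.toRingEquiv hσA hV.1, ?_⟩
    rw [ValuationSubring.mem_comap]
    show W x ∈ V
    exact mem_of_mem_chartClosure hV (hWB x
      (Fermat.Agent.H89.klg_chartRing_le_chartClosure x (Algebra.self_mem_adjoin_singleton A₀ x)))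
  have h5 : W Θ ∈ V := ha1 _ hV'
  have h6 : Θ⁻¹ = W Θ * (q : ModelField K₁ (M * q)) ^ 2 :=
    (eq_inv_of_mul_eq_one_left (by rw [← hWΘ]; ring)).symm
  rw [h6]
  exact V.mul_mem _ _ h5 (pow_mem (natCast_mem V q) 2)

/-- The `q`-expansion of `Θ` is the image of the integral series `κ`. -/
theorem tu_theta_eq_kappa (hq : q.Prime) (K₁ : Type) [Field K₁] [Algebra ℚ K₁] (N : ℕ)
    (Θ : ModelField K₁ N)
    (hΘ : (Θ : LaurentSeries K₁) * theta (h4S K₁) = qExpand K₁ q (theta (h4S K₁))) :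
    haveI : Fact q.Prime := ⟨hq⟩
    (Θ : LaurentSeries K₁) = coeffMap (Int.castRingHom K₁) (kappaZ q h4Z) := by
  haveI : Fact q.Prime := ⟨hq⟩
  have h1 := tu_kappa_mul q K₁
  exact mul_right_cancel₀ (Fermat.Agent.H26.SS.derb_theta_h4S_ne_zero K₁) (hΘ.trans h1.symm)

/-- **THETA-GAUSS**. -/
theorem thetaGauss (h4 : 4 ∣ M) (hq : q.Prime) (hq2 : q ≠ 2) (hqM : ¬ q ∣ M) :
    ThetaGaussStatement M q := by
  intro K₁ _ _ _ A₀ _ _ _ _ _ _ _ hqA x hx W hW Θ hΘ
  haveI : Fact q.Prime := ⟨hq⟩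
  obtain ⟨hWB, H, Hq, u, uq, hH, hHq, hHB, hHqB, -, -, -, -, hWH, hWHq⟩ :=
    Fermat.Agent.H48.SSHaupt.modelHauptBasics M q h4 hq hq2 hqM K₁ A₀ hqA x hx W hW
  have hΘ0 : Θ ≠ 0 := tu_theta_ne_zero q K₁ (M * q) Θ hΘ
  have hWΘ := tu_W_theta M q h4 hq hq2 hqM K₁ H Hq hH hHq W hWH hWHq Θ hΘ
  set a₀ : LaurentSeries A₀ := coeffMap (Int.castRingHom A₀) (kappaZ q h4Z) with ha₀
  have hu : IsUnit a₀ := (tu_isUnit_kappaZ q tu_isHaupt_h4Z).map _
  have hρ : gRho A₀ a₀ ≠ 0 := (hu.map (gRho A₀)).ne_zero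
  have hι : gIota K₁ A₀ a₀ = (Θ : LaurentSeries K₁) := by
    rw [tu_theta_eq_kappa q hq K₁ (M * q) Θ hΘ, ha₀, coeffMap_coeffMap]
    exact coeffMap_congr (RingHom.ext_int _ _) _
  have hΘE : (Θ : LaurentSeries K₁) ∈ laurentBaseChange K₁ (modularFunctionFieldFull (M * q)) :=
    Θ.2
  have h1 : Θ ∈ vInf K₁ A₀ (M * q) := by
    rw [mem_vInf_iff]
    refine ⟨a₀, 1, ?_, ?_, ?_, ?_⟩
    · rw [hι]; exact hΘE
    · rw [map_one]; exact one_mem _
    · rw [map_one]; exact one_ne_zero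
    · rw [map_one, mul_one, hι]
  have h2 : Θ⁻¹ ∈ vInf K₁ A₀ (M * q) := by
    rw [mem_vInf_iff]
    refine ⟨1, a₀, ?_, ?_, hρ, ?_⟩
    · rw [map_one]; exact one_mem _
    · rw [hι]; exact hΘE
    · rw [map_one, hι]
      have hΘs : (Θ : LaurentSeries K₁) ≠ 0 := fun h => hΘ0 (Subtype.ext h)
      have : ((Θ⁻¹ : ModelField K₁ (M * q)) : LaurentSeries K₁) = (Θ : LaurentSeries K₁)⁻¹ := by
        show algebraMap (ModelField K₁ (M * q)) (LaurentSeries K₁) Θ⁻¹ = _
        rw [map_inv₀]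
        rfl
      rw [this, inv_mul_cancel₀ hΘs]
  refine ⟨h1, h2, ?_⟩
  rw [mem_vZero_iff, map_inv₀]
  have h3 : (W Θ)⁻¹ = (q : ModelField K₁ (M * q)) ^ 2 * Θ :=
    (eq_inv_of_mul_eq_one_right hWΘ).symm
  rw [h3]
  exact (vInf K₁ A₀ (M * q)).mul_mem _ _ (pow_mem (natCast_mem _ q) 2) h1

/-- **THETA-UNIT** (row SS2-C5d). -/
theorem thetaUnit (h4 : 4 ∣ M) (hq : q.Prime) (hq2 : q ≠ 2) (hqM : ¬ q ∣ M) :
    ThetaUnitStatement M q := by
  intro K₁ _ _ _ A₀ _ _ _ _ _ _ _ hqA ϖ hϖ x hx W hW Θ hΘ 𝔪 h𝔪 hϖ𝔪 haway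
  haveI : CharZero K₁ := algebraRat.charZero K₁
  haveI : CharZero (ModelField K₁ (M * q)) :=
    charZero_of_injective_algebraMap (algebraMap K₁ (ModelField K₁ (M * q))).injective
  obtain ⟨hΘ0, hWΘ, hpl⟩ := thetaPlaces M q h4 hq hq2 hqM K₁ A₀ hqA x hx W hW Θ hΘ
  obtain ⟨hG1, hG2, hG3⟩ := thetaGauss M q h4 hq hq2 hqM K₁ A₀ hqA x hx W hW Θ hΘ
  have hinj : Function.Injective (algebraMap A₀ (ModelField K₁ (M * q))) := by
    rw [IsScalarTower.algebraMap_eq A₀ K₁ (ModelField K₁ (M * q))]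
    exact (algebraMap K₁ (ModelField K₁ (M * q))).injective.comp (IsFractionRing.injective A₀ K₁)
  have hxtr : Transcendental A₀ x := Fermat.Agent.H58.modelTranscendental_jq (M * q) K₁ A₀ x hx
  have hfd := Fermat.Agent.H70.SS.modelFinite_jq (M * q) K₁ A₀ x hx
  have hGC := mem_gaussClosure_iff_vInf_vZero M q K₁ A₀ hqA ϖ hϖ x hx W hW hq hqM
  have hBInf : ∀ s ∈ chartClosure A₀ (ModelField K₁ (M * q)) x, s ∈ vInf K₁ A₀ (M * q) :=
    fun s hs => ((hGC s).1 (Fermat.Agent.H89.klg_chartClosure_le_gaussClosure hϖ hxtr hs)).1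
  have hH := Fermat.Agent.H4.SS.localHartogs A₀ (ModelField K₁ (M * q)) hinj ϖ hϖ x hxtr hfd 𝔪 h𝔪
    hϖ𝔪
  refine ⟨hΘ0, ?_, ?_⟩
  · -- `InLoc Θ`
    obtain ⟨g, hgZ, hg𝔪⟩ := haway
    have hqA0 : ((q : ℕ) : A₀) ≠ 0 := by
      intro h0
      have h1 := congrArg (algebraMap A₀ K₁) h0
      rw [map_natCast, map_zero, Nat.cast_eq_zero] at h1
      exact NeZero.ne q h1
    obtain ⟨e, u, hqu⟩ := IsDiscreteValuationRing.eq_unit_mul_pow_irreducible hqA0 hϖ
    set p : ModelField K₁ (M * q) := algebraMap A₀ (ModelField K₁ (M * q)) ϖ with hp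
    have hp0 : p ≠ 0 := fun h => hϖ.ne_zero (hinj (by rw [← hp, h, map_zero]))
    have hqE : (q : ModelField K₁ (M * q)) =
        algebraMap A₀ (ModelField K₁ (M * q)) (u : A₀) * p ^ e := by
      rw [hp, ← map_pow, ← map_mul, ← hqu, map_natCast]
    have hu0 : algebraMap A₀ (ModelField K₁ (M * q)) (u : A₀) ≠ 0 := fun h =>
      u.ne_zero (hinj (by rw [h, map_zero]))
    have huinv : (algebraMap A₀ (ModelField K₁ (M * q)) (u : A₀))⁻¹ ∈ vInf K₁ A₀ (M * q) := by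
      have : (algebraMap A₀ (ModelField K₁ (M * q)) (u : A₀))⁻¹ =
          algebraMap A₀ (ModelField K₁ (M * q)) ((u⁻¹ : A₀ˣ) : A₀) := by
        apply inv_eq_of_mul_eq_one_right
        rw [← map_mul, Units.mul_inv, map_one]
      rw [this]
      exact hBInf _ (Subalgebra.algebraMap_mem _ _)
    have hWg : W (g : ModelField K₁ (M * q)) ∈ (vInf K₁ A₀ (M * q)).nonunits :=
      (mem_nonunits_vZero_iff W _).1 hgZ
    have hWgp : W (g : ModelField K₁ (M * q)) / p ∈ vInf K₁ A₀ (M * q) :=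
      (isUniformiser_vInf (K₁ := K₁) (N := M * q) hϖ).2.2 _ hWg
    set z : ModelField K₁ (M * q) := (g : ModelField K₁ (M * q)) ^ (2 * e) * Θ with hz
    have hzInf : z ∈ vInf K₁ A₀ (M * q) :=
      (vInf K₁ A₀ (M * q)).mul_mem _ _ (pow_mem (hBInf _ g.2) _) hG1
    have hWΘ' : W Θ = ((q : ModelField K₁ (M * q)) ^ 2 * Θ)⁻¹ := eq_inv_of_mul_eq_one_left hWΘ
    have hzZero : z ∈ vZero K₁ A₀ (M * q) W := by
      rw [mem_vZero_iff, hz, map_mul, map_pow, hWΘ', hqE]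
      have e1 : W (g : ModelField K₁ (M * q)) ^ (2 * e) *
          ((algebraMap A₀ (ModelField K₁ (M * q)) (u : A₀) * p ^ e) ^ 2 * Θ)⁻¹ =
          (W (g : ModelField K₁ (M * q)) / p) ^ (2 * e) *
            ((algebraMap A₀ (ModelField K₁ (M * q)) (u : A₀))⁻¹ ^ 2 * Θ⁻¹) := by
        rw [div_pow, mul_pow, mul_inv, mul_inv, inv_pow, ← pow_mul, mul_comm e 2]
        field_simp
      rw [e1]
      exact (vInf K₁ A₀ (M * q)).mul_mem _ _ (pow_mem hWgp _)
        ((vInf K₁ A₀ (M * q)).mul_mem _ _ (pow_mem huinv 2) hG2)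
    have hzC : z ∈ gaussClosure A₀ (ModelField K₁ (M * q)) ϖ x := (hGC z).2 ⟨hzInf, hzZero⟩
    have hzV : ∀ V : ValuationSubring (ModelField K₁ (M * q)),
        Fermat.Agent.H45.CentredAt A₀ (ModelField K₁ (M * q)) x 𝔪 V → z ∈ V := fun V hV =>
      V.mul_mem _ _ (pow_mem (mem_of_mem_chartClosure hV.1 g.2) _) (hpl V hV.1).1
    obtain ⟨b, hb, hbz⟩ := hH z hzC hzV
    refine ⟨b * g ^ (2 * e), ?_, ?_⟩
    · intro hmem
      rcases h𝔪.isPrime.mem_or_mem hmem with h | h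
      · exact hb h
      · exact hg𝔪 (h𝔪.isPrime.mem_of_pow_mem _ h)
    · have : ((b * g ^ (2 * e) : chartClosure A₀ (ModelField K₁ (M * q)) x) :
          ModelField K₁ (M * q)) * Θ = (b : ModelField K₁ (M * q)) * z := by
        rw [hz]
        push_cast
        ring
      rw [this]
      exact hbz
  · -- `InLoc Θ⁻¹`
    exact hH Θ⁻¹ ((hGC _).2 ⟨hG2, hG3⟩) (fun V hV => (hpl V hV.1).2)

end Model

end Fermat.Agent.H16.SS2
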