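import Fermat.Agent.H7.SS2.Vertical
import Fermat.Agent.H8.SS.CrossInterfaces

/-!
# P-SS2 row 1047 (SS2-C5d THETA-UNIT): the exact statement (helper16)

Level `L = M q`, `4 ∣ M`, `q` an odd prime, `q ∤ M`; `E' = ModelField K₁ (M q)`, chart `x = j`,
`W` the Atkin-Lehner automorphism, `V₁₀ = vInf`, `V₀₁ = vZero W`.

`Θ = (ϑ H)(t^q) / (ϑ H)(t)` (`ϑ = t d/dt`, `H` the Hauptmodul of level `4`), an element of `E'`
given by its `q`-expansion identity `Θ · ϑ(H) = (ϑ H)(t^q)`.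

* `ThetaUnitStatement M q` : `Θ` is a unit of `B(j)_𝔪` at every maximal ideal `𝔪 ∋ ϖ` of `B(j)`
  through which `V₀₁` does NOT pass (i.e. `𝔪` lies on `V₁₀` only).
-/

set_option autoImplicit false

noncomputable section

namespace Fermat.Agent.H16.SS2

open ModularCurve
open Fermat.Agent.H22.KL
open Fermat.Agent.H82.SS
open Fermat.Agent.H8.SS
open Fermat.Agent.H7.SS2
open Fermat.Agent.H11.SS2

/-- **THETA-UNIT** (row SS2-C5d).  `Θ = (ϑ H)(t^q) / ϑ H` is a unit of `B(j)_𝔪` at every maximal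
ideal `𝔪 ∋ ϖ` of `B(j)` (level `M q`) which does not lie on the component `V₀₁ = vZero W`. -/
def ThetaUnitStatement (M q : ℕ) [NeZero M] [NeZero q] : Prop :=
  ∀ (K₁ : Type) [Field K₁] [Algebra ℚ K₁] [FiniteDimensional ℚ K₁]
    (A₀ : Type) [CommRing A₀] [IsDomain A₀] [IsDiscreteValuationRing A₀]
    [Algebra A₀ K₁] [IsFractionRing A₀ K₁]
    [Algebra A₀ (ModelField K₁ (M * q))] [IsScalarTower A₀ K₁ (ModelField K₁ (M * q))],
    ¬ IsUnit ((q : ℕ) : A₀) →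
    ∀ (ϖ : A₀), Irreducible ϖ →
    ∀ (x : ModelField K₁ (M * q)), (x : LaurentSeries K₁) = coeffEmb K₁ jq →
    ∀ (W : ModelField K₁ (M * q) ≃ₐ[K₁] ModelField K₁ (M * q)), IsAtkinLehnerModel K₁ M q W →
    ∀ (Θ : ModelField K₁ (M * q)),
      (Θ : LaurentSeries K₁) * theta (h4S K₁) = qExpand K₁ q (theta (h4S K₁)) →
    ∀ (𝔪 : Ideal (chartClosure A₀ (ModelField K₁ (M * q)) x)), 𝔪.IsMaximal →
      algebraMap A₀ (chartClosure A₀ (ModelField K₁ (M * q)) x) ϖ ∈ 𝔪 →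
      (∃ s : chartClosure A₀ (ModelField K₁ (M * q)) x,
        (s : ModelField K₁ (M * q)) ∈ (vZero K₁ A₀ (M * q) W).nonunits ∧ s ∉ 𝔪) →
      IsLocUnit A₀ (ModelField K₁ (M * q)) x 𝔪 Θ

/-- **THETA-PLACES**: `Θ` and `Θ⁻¹` are regular at every finite place of the chart `j`
(characteristic zero: the divisor of `Θ` is cuspidal). -/
def ThetaPlacesStatement (M q : ℕ) [NeZero M] [NeZero q] : Prop :=
  ∀ (K₁ : Type) [Field K₁] [Algebra ℚ K₁] [FiniteDimensional ℚ K₁]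
    (A₀ : Type) [CommRing A₀] [IsDomain A₀] [IsDiscreteValuationRing A₀]
    [Algebra A₀ K₁] [IsFractionRing A₀ K₁]
    [Algebra A₀ (ModelField K₁ (M * q))] [IsScalarTower A₀ K₁ (ModelField K₁ (M * q))],
    ¬ IsUnit ((q : ℕ) : A₀) →
    ∀ (x : ModelField K₁ (M * q)), (x : LaurentSeries K₁) = coeffEmb K₁ jq →
    ∀ (W : ModelField K₁ (M * q) ≃ₐ[K₁] ModelField K₁ (M * q)), IsAtkinLehnerModel K₁ M q W →
    ∀ (Θ : ModelField K₁ (M * q)),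
      (Θ : LaurentSeries K₁) * theta (h4S K₁) = qExpand K₁ q (theta (h4S K₁)) →
      Θ ≠ 0 ∧ W Θ * ((q : ModelField K₁ (M * q)) ^ 2 * Θ) = 1 ∧
      ∀ V : ValuationSubring (ModelField K₁ (M * q)),
        IsFinitePlace A₀ (ModelField K₁ (M * q)) x V → Θ ∈ V ∧ Θ⁻¹ ∈ V

/-- **THETA-GAUSS**: `Θ` is a unit of `V₁₀ = vInf`, and `Θ⁻¹ ∈ V₀₁ = vZero W`. -/
def ThetaGaussStatement (M q : ℕ) [NeZero M] [NeZero q] : Prop :=
  ∀ (K₁ : Type) [Field K₁] [Algebra ℚ K₁] [FiniteDimensional ℚ K₁]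
    (A₀ : Type) [CommRing A₀] [IsDomain A₀] [IsDiscreteValuationRing A₀]
    [Algebra A₀ K₁] [IsFractionRing A₀ K₁]
    [Algebra A₀ (ModelField K₁ (M * q))] [IsScalarTower A₀ K₁ (ModelField K₁ (M * q))],
    ¬ IsUnit ((q : ℕ) : A₀) →
    ∀ (x : ModelField K₁ (M * q)), (x : LaurentSeries K₁) = coeffEmb K₁ jq →
    ∀ (W : ModelField K₁ (M * q) ≃ₐ[K₁] ModelField K₁ (M * q)), IsAtkinLehnerModel K₁ M q W →
    ∀ (Θ : ModelField K₁ (M * q)),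
      (Θ : LaurentSeries K₁) * theta (h4S K₁) = qExpand K₁ q (theta (h4S K₁)) →
      Θ ∈ vInf K₁ A₀ (M * q) ∧ Θ⁻¹ ∈ vInf K₁ A₀ (M * q) ∧ Θ⁻¹ ∈ vZero K₁ A₀ (M * q) W

/-- **THETA-EXISTS**: `Θ` lies in the model field. -/
def ThetaExistsStatement (M q : ℕ) [NeZero M] [NeZero q] : Prop :=
  ∀ (K₁ : Type) [Field K₁] [Algebra ℚ K₁] [FiniteDimensional ℚ K₁],
    ∃ Θ : ModelField K₁ (M * q),
      (Θ : LaurentSeries K₁) * theta (h4S K₁) = qExpand K₁ q (theta (h4S K₁))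

end Fermat.Agent.H16.SS2
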