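import Fermat.Agent.H12.SS2.Reg11Rows3
import Fermat.Agent.H48.SS.HauptBasics
import Fermat.Agent.H35.SS2.ChartBeta

/-!
# P-SS2 row 1110 (SS2-C5k Z-INT), helper16

`zInt M' q : Fermat.Agent.H12.SS2.ZIntStatement M' q` : at level `M' q²`, chart `j`, the second
degeneracy map `β` (`t ↦ t^q`) maps `B'(j)` (level `M' q`) into `B(j)`, and `Z = H₂ - H` lies in
`B(j)`.

* `β(B'(j)) ⊆ B(β j) = B(j)` (`Fermat.Agent.H35.SS2.ss2_chartClosure_beta_eq`, the modular
  equation), `α(B'(j)) ⊆ B(α j) = B(j)`.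
* `H, H_q ∈ B'(j)` (`Fermat.Agent.H48.SSHaupt.modelHauptBasics`), `Z = β H_q - α H`.
-/

set_option autoImplicit false
set_option linter.unusedSectionVars false
set_option linter.style.haveILetI false
set_option linter.unusedVariables false

noncomputable section

namespace Fermat.Agent.H16.SS2

open ModularCurve AlgebraicCurve
open Fermat.Agent.H22.KL Fermat.Agent.H82.SS Fermat.Agent.H86.SS2

/-- the chart lies in its integral closure -/
theorem zi_self_mem {A : Type} [CommRing A] {E : Type} [Field E] [Algebra A E] (y : E) :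
    y ∈ chartClosure A E y :=
  Fermat.Agent.H62.SS.chartRing_le_chartClosure y (Fermat.Agent.H62.SS.self_mem_chartRing y)

/-- `β` maps `B'(j)` into `B(j)`, `α` maps `B'(j)` into `B(j)` (any level `N`, `q` prime). -/
theorem zi_maps (N q : ℕ) [NeZero N] [NeZero q] (hq : q.Prime)
    (K₁ : Type) [Field K₁] [Algebra ℚ K₁] (A₀ : Type) [CommRing A₀] [Algebra A₀ K₁]
    [Algebra A₀ (ModelField K₁ N)] [IsScalarTower A₀ K₁ (ModelField K₁ N)]
    [Algebra A₀ (ModelField K₁ (N * q))] [IsScalarTower A₀ K₁ (ModelField K₁ (N * q))]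
    (x : ModelField K₁ N) (hx : (x : LaurentSeries K₁) = coeffEmb K₁ jq) :
    (∀ s ∈ chartClosure A₀ (ModelField K₁ N) x,
      heckeBetaBar K₁ N q s ∈ chartClosure A₀ (ModelField K₁ (N * q)) (heckeAlphaBar K₁ N q x)) ∧
    (∀ s ∈ chartClosure A₀ (ModelField K₁ N) x,
      heckeAlphaBar K₁ N q s ∈
        chartClosure A₀ (ModelField K₁ (N * q)) (heckeAlphaBar K₁ N q x)) := by
  have hβ_eq : chartClosure A₀ (ModelField K₁ (N * q)) (heckeBetaBar K₁ N q x) =
      chartClosure A₀ (ModelField K₁ (N * q)) (heckeAlphaBar K₁ N q x) :=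
    Fermat.Agent.H35.SS2.ss2_chartClosure_beta_eq N q hq K₁ A₀ (heckeAlphaBar K₁ N q x) x
      (by rw [coe_heckeAlphaBar, hx, Fermat.Agent.H35.SS2.ss2_coeffEmb_jq])
      (by rw [hx, Fermat.Agent.H35.SS2.ss2_coeffEmb_jq])
  constructor
  · intro s hs
    have h := Fermat.Agent.H62.SS.chartClosure_map_le
      ((heckeBetaBar K₁ N q).restrictScalars A₀) x (heckeBetaBar K₁ N q x)
      (zi_self_mem _) s hs
    rw [hβ_eq] at h
    exact h
  · intro s hs
    exact Fermat.Agent.H62.SS.chartClosure_map_le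
      ((heckeAlphaBar K₁ N q).restrictScalars A₀) x (heckeAlphaBar K₁ N q x)
      (zi_self_mem _) s hs

/-- **Z-INT** (row SS2-C5k). -/
theorem zInt (M' q : ℕ) [NeZero M'] [NeZero q] (h4 : 4 ∣ M') (hq : q.Prime) (hq2 : q ≠ 2)
    (hqM : ¬ q ∣ M') : Fermat.Agent.H12.SS2.ZIntStatement M' q := by
  intro K₁ _ _ _ A₀ _ _ _ _ _ _ _ _ _ hqA x hx W hW
  obtain ⟨hβ, hα⟩ := zi_maps (M' * q) q hq K₁ A₀ x hx
  refine ⟨hβ, ?_⟩
  intro Z hZ
  obtain ⟨-, H, Hq, u, uq, hH, hHq, hHB, hHqB, -⟩ :=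
    Fermat.Agent.H48.SSHaupt.modelHauptBasics M' q h4 hq hq2 hqM K₁ A₀ hqA x hx W hW
  have hZeq : Z = heckeBetaBar K₁ (M' * q) q Hq - heckeAlphaBar K₁ (M' * q) q H := by
    apply Subtype.ext
    show (Z : LaurentSeries K₁) =
      ((heckeBetaBar K₁ (M' * q) q Hq : ModelField K₁ (M' * q * q)) : LaurentSeries K₁) -
        ((heckeAlphaBar K₁ (M' * q) q H : ModelField K₁ (M' * q * q)) : LaurentSeries K₁)
    rw [coe_heckeBetaBar, coe_heckeAlphaBar, hZ, hHq, hH]
    rfl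
  rw [hZeq]
  exact Subalgebra.sub_mem _ (hβ Hq hHqB) (hα H hHB)

end Fermat.Agent.H16.SS2
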